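/-
L3 brick H12: localising a module which is finite over a complete Noetherian local ring `𝒪` at a
maximal ideal of a (possibly huge) commutative `𝒪`-algebra `P` acting on it keeps it finite over
`𝒪`; in fact the localisation map `N → N_m` is onto.
-/
import Mathlib
import Fermat.Prelude.Thm_Algebra_finite_maximalSpectrum_and_bijective_localization_of_module_finite

namespace Fermat.Agent.S43.Hecke.FinLoc

universe w

section Direct

variable {𝒪 : Type} [CommRing 𝒪] {P : Type} [CommRing P] [Algebra 𝒪 P]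
  {N : Type w} [AddCommGroup N] [Module 𝒪 N] [Module P N] [IsScalarTower 𝒪 P N]

variable (𝒪 P N) in
/-- The action of `P` on `N` by `𝒪`-linear endomorphisms. -/
noncomputable def act : P →ₐ[𝒪] Module.End 𝒪 N := Algebra.lsmul 𝒪 𝒪 N

@[simp] theorem act_apply (p : P) (x : N) : act 𝒪 P N p x = p • x := rfl

variable (𝒪 P N) in
/-- The ideal of `P` acting by zero on `N`. -/
noncomputable def annI : Ideal P := RingHom.ker (act 𝒪 P N)

theorem mem_annI {p : P} : p ∈ annI 𝒪 P N ↔ ∀ x : N, p • x = 0 := by
  unfold annI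
  rw [RingHom.mem_ker]
  constructor
  · intro h x
    have := LinearMap.congr_fun h x
    simpa using this
  · intro h
    ext x
    simpa using h x

variable (𝒪 P N) in
/-- The image of `P` in `End_𝒪 N`, as a quotient of `P`. -/
abbrev Img : Type := P ⧸ annI 𝒪 P N

theorem smul_eq_of_mk_eq {p p' : P}
    (h : Ideal.Quotient.mk (annI 𝒪 P N) p = Ideal.Quotient.mk (annI 𝒪 P N) p') (x : N) :
    p • x = p' • x := by
  rw [Ideal.Quotient.eq, mem_annI] at h
  have := h x
  rwa [sub_smul, sub_eq_zero] at this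

theorem finite_Img [IsNoetherianRing 𝒪] [Module.Finite 𝒪 N] : Module.Finite 𝒪 (Img 𝒪 P N) := by
  obtain ⟨n, f, hf⟩ := Module.Finite.exists_fin' 𝒪 N
  have hN : IsNoetherian 𝒪 ((Fin n → 𝒪) →ₗ[𝒪] N) := isNoetherian_of_isNoetherianRing_of_finite 𝒪 _
  let g : Img 𝒪 P N →ₗ[𝒪] ((Fin n → 𝒪) →ₗ[𝒪] N) :=
    (LinearMap.lcomp 𝒪 N f) ∘ₗ (Ideal.kerLiftAlg (act 𝒪 P N)).toLinearMap
  refine Module.Finite.of_injective g ?_
  intro a b hab
  apply Ideal.kerLiftAlg_injective (act 𝒪 P N)
  have : (Ideal.kerLiftAlg (act 𝒪 P N) a).comp f = (Ideal.kerLiftAlg (act 𝒪 P N) b).comp f := hab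
  exact (LinearMap.cancel_right hf).1 this

/-- The localisation map at a maximal ideal of `P` is ONTO for a module finite over a complete
Noetherian local ring `𝒪`. -/
theorem mkLinearMap_surjective [IsLocalRing 𝒪] [IsNoetherianRing 𝒪]
    [IsAdicComplete (IsLocalRing.maximalIdeal 𝒪) 𝒪] [Module.Finite 𝒪 N]
    (m : Ideal P) [hm : m.IsMaximal] :
    Function.Surjective (LocalizedModule.mkLinearMap m.primeCompl N) := by
  classical
  by_cases hIm : annI 𝒪 P N ≤ m
  · -- the interesting case
    have := finite_Img (𝒪 := 𝒪) (P := P) (N := N)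
    obtain ⟨-, hbij, -, -⟩ :=
      Algebra.finite_maximalSpectrum_and_bijective_localization_of_module_finite (𝒪 := 𝒪)
        (Img 𝒪 P N)
    set π : P →+* Img 𝒪 P N := Ideal.Quotient.mk (annI 𝒪 P N) with hπ
    have hπs : Function.Surjective π := Ideal.Quotient.mk_surjective
    have hcomap : Ideal.comap π (Ideal.map π m) = m := by
      rw [Ideal.comap_map_of_surjective' π hπs, Ideal.mk_ker]
      exact sup_eq_left.2 hIm
    have hmax : (Ideal.map π m).IsMaximal := by
      rcases Ideal.map_eq_top_or_isMaximal_of_surjective π hπs hm with h | h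
      · exfalso
        rw [h, Ideal.comap_top] at hcomap
        exact hm.ne_top hcomap.symm
      · exact h
    let I₀ : MaximalSpectrum (Img 𝒪 P N) := ⟨Ideal.map π m, hmax⟩
    have hmem : ∀ p : P, π p ∈ Ideal.map π m ↔ p ∈ m := by
      intro p
      rw [← Ideal.mem_comap, hcomap]
    set Φ := RingHom.pi fun I : MaximalSpectrum (Img 𝒪 P N) =>
        algebraMap (Img 𝒪 P N) (Localization.AtPrime I.asIdeal) with hΦ
    -- the idempotent of the component at `I₀`
    obtain ⟨e, he⟩ := hbij.2 (Pi.single I₀ 1)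
    obtain ⟨u, hu⟩ := hπs e
    have hee : e * e = e := by
      apply hbij.1
      rw [map_mul, he, ← Pi.single_mul, one_mul]
    have hum : u ∉ m := by
      intro hmem'
      have h1 : e ∈ Ideal.map π m := by rw [← hu]; exact (hmem u).2 hmem'
      have h2 := (IsLocalization.AtPrime.to_map_mem_maximal_iff
        (Localization.AtPrime I₀.asIdeal) I₀.asIdeal e).2 h1
      have h3 : algebraMap (Img 𝒪 P N) (Localization.AtPrime I₀.asIdeal) e = 1 := by
        have := congr_fun he I₀
        simpa [hΦ] using this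
      rw [h3] at h2
      exact (Ideal.ne_top_iff_one _).1 (IsLocalRing.maximalIdeal.isMaximal _).ne_top h2
    rintro z
    induction z using LocalizedModule.induction_on with
    | h x s =>
      have hs : π s ∈ I₀.asIdeal.primeCompl := fun h => s.2 ((hmem s).1 h)
      have hunit : IsUnit (algebraMap (Img 𝒪 P N) (Localization.AtPrime I₀.asIdeal) (π s)) :=
        IsLocalization.map_units (Localization.AtPrime I₀.asIdeal) ⟨π s, hs⟩
      obtain ⟨v, hv⟩ := hunit
      obtain ⟨t, ht⟩ := hbij.2 (Pi.single I₀ (↑v⁻¹ : Localization.AtPrime I₀.asIdeal))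
      obtain ⟨t', ht'⟩ := hπs t
      have hts : t * π s = e := by
        apply hbij.1
        rw [map_mul, ht, he]
        ext I
        by_cases hI : I = I₀
        · subst hI
          simp [hΦ, ← hv]
        · simp [Pi.single_eq_of_ne hI]
      refine ⟨t' • x, ?_⟩
      rw [LocalizedModule.mkLinearMap_apply, LocalizedModule.mk_eq]
      refine ⟨⟨u, hum⟩, ?_⟩
      have e1 : ∀ y : N, (t' * s) • y = u • y :=
        smul_eq_of_mk_eq (𝒪 := 𝒪) (by rw [map_mul, ← hπ, ht', hu, hts])
      have e2 : ∀ y : N, (u * u) • y = u • y :=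
        smul_eq_of_mk_eq (𝒪 := 𝒪) (by rw [map_mul, ← hπ, hu, hee])
      show u • (s : P) • t' • x = u • (1 : P) • x
      rw [one_smul, ← mul_smul (s : P) t' x, mul_comm, e1, ← mul_smul, e2]
  · -- `N_m = 0`
    obtain ⟨u, huI, hum⟩ := SetLike.not_le_iff_exists.1 hIm
    rintro z
    induction z using LocalizedModule.induction_on with
    | h x s =>
      refine ⟨0, ?_⟩
      rw [LocalizedModule.mkLinearMap_apply, LocalizedModule.mk_eq]
      refine ⟨⟨u, hum⟩, ?_⟩
      show u • (s : P) • (0 : N) = u • (1 : P) • x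
      rw [smul_zero, smul_zero, one_smul, mem_annI.1 huI x]

/-- **H12.** Localising at a maximal ideal of the acting algebra keeps finiteness over `𝒪`. -/
theorem finite_localizedModule [IsLocalRing 𝒪] [IsNoetherianRing 𝒪]
    [IsAdicComplete (IsLocalRing.maximalIdeal 𝒪) 𝒪] [Module.Finite 𝒪 N]
    (m : Ideal P) [m.IsMaximal] : Module.Finite 𝒪 (LocalizedModule m.primeCompl N) :=
  Module.Finite.of_surjective
    ((LocalizedModule.mkLinearMap m.primeCompl N).restrictScalars 𝒪)
    (mkLinearMap_surjective (𝒪 := 𝒪) m)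

end Direct

/-! ### the same over a finite `𝒪`-algebra `R` (e.g. `R = 𝒪[Δ]`) -/

section Tower

/-- The localisation map at a maximal ideal of `P` is onto, for a module finite over a finite
algebra `R` over a complete Noetherian local ring. -/
theorem mkLinearMap_surjective_of_finite (𝒪 : Type) [CommRing 𝒪] [IsLocalRing 𝒪]
    [IsNoetherianRing 𝒪] [IsAdicComplete (IsLocalRing.maximalIdeal 𝒪) 𝒪]
    (R : Type) [CommRing R] [Algebra 𝒪 R] [Module.Finite 𝒪 R]
    {P : Type} [CommRing P] [Algebra R P]
    {N : Type w} [AddCommGroup N] [Module R N] [Module P N] [IsScalarTower R P N]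
    [Module.Finite R N] (m : Ideal P) [m.IsMaximal] :
    Function.Surjective (LocalizedModule.mkLinearMap m.primeCompl N) := by
  let _ : Algebra 𝒪 P := ((algebraMap R P).comp (algebraMap 𝒪 R)).toAlgebra
  let _ : Module 𝒪 N := Module.compHom N (algebraMap 𝒪 R)
  have hsm : ∀ (a : 𝒪) (x : N), a • x = algebraMap 𝒪 R a • x := fun _ _ => rfl
  have : IsScalarTower 𝒪 R N := ⟨fun a r x => by
    rw [hsm a (r • x), Algebra.smul_def, mul_smul]⟩
  have : IsScalarTower 𝒪 R P := IsScalarTower.of_algebraMap_eq fun _ => rfl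
  have : IsScalarTower 𝒪 P N := ⟨fun a p x => by
    rw [hsm a (p • x), Algebra.smul_def, IsScalarTower.algebraMap_apply 𝒪 R P, mul_smul,
      algebraMap_smul]⟩
  have : Module.Finite 𝒪 N := Module.Finite.trans R N
  exact mkLinearMap_surjective (𝒪 := 𝒪) m

/-- **H12, relative form.** -/
theorem finite_localizedModule_of_finite (𝒪 : Type) [CommRing 𝒪] [IsLocalRing 𝒪]
    [IsNoetherianRing 𝒪] [IsAdicComplete (IsLocalRing.maximalIdeal 𝒪) 𝒪]
    (R : Type) [CommRing R] [Algebra 𝒪 R] [Module.Finite 𝒪 R]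
    {P : Type} [CommRing P] [Algebra R P]
    {N : Type w} [AddCommGroup N] [Module R N] [Module P N] [IsScalarTower R P N]
    [Module.Finite R N] (m : Ideal P) [m.IsMaximal] :
    Module.Finite R (LocalizedModule m.primeCompl N) :=
  Module.Finite.of_surjective
    ((LocalizedModule.mkLinearMap m.primeCompl N).restrictScalars R)
    (mkLinearMap_surjective_of_finite 𝒪 R m)

end Tower

end Fermat.Agent.S43.Hecke.FinLoc
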