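import Mathlib

/-!
# PROJECT R (S43), block L3: a commuting family of endomorphisms as a module over a polynomial ring

`N` an `R`-module, `t : J → End_R N` a commuting family.  `WithOps t hcomm` is a copy of `N`
carrying the structure of a module over `MvPolynomial J R`, `X j` acting as `t j`.

* `polyAct t hcomm : MvPolynomial J R →ₐ[R] Module.End R N`, `polyAct_X`;
* `WithOps t hcomm`, `WithOps.equiv : WithOps t hcomm ≃ₗ[R] N`, `WithOps.X_smul`,
  `WithOps.C_smul`, `IsScalarTower R (MvPolynomial J R) (WithOps t hcomm)`;
* `WithOps.map` : an `R`-linear map intertwining two commuting families is linear over the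
  polynomial ring;
* `commute_of_surjective` : a quotient of a commuting family commutes.
-/

set_option autoImplicit false

open scoped IsMulCommutative

namespace Fermat.Agent.S43.Hecke.PolyModule

variable {R : Type*} [CommRing R] {N : Type*} [AddCommGroup N] [Module R N] {J : Type*}

theorem commSub_comm (t : J → Module.End R N) (hcomm : ∀ i j, Commute (t i) (t j)) :
    IsMulCommutative (Algebra.adjoin R (Set.range t)) :=
  Algebra.isMulCommutative_adjoin R (s := Set.range t) (by
    rintro _ ⟨i, rfl⟩ _ ⟨j, rfl⟩
    exact (hcomm i j).eq)

/-- the action of the polynomial ring through a commuting family -/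
noncomputable def polyAct (t : J → Module.End R N) (hcomm : ∀ i j, Commute (t i) (t j)) :
    MvPolynomial J R →ₐ[R] Module.End R N :=
  haveI := commSub_comm t hcomm
  (Algebra.adjoin R (Set.range t)).val.comp
    (MvPolynomial.aeval
      (fun j => (⟨t j, Algebra.subset_adjoin ⟨j, rfl⟩⟩ : Algebra.adjoin R (Set.range t))))

theorem polyAct_X (t : J → Module.End R N) (hcomm : ∀ i j, Commute (t i) (t j)) (j : J) :
    polyAct t hcomm (MvPolynomial.X j) = t j := by
  have := commSub_comm t hcomm
  unfold polyAct
  simp

theorem polyAct_C (t : J → Module.End R N) (hcomm : ∀ i j, Commute (t i) (t j)) (r : R) :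
    polyAct t hcomm (MvPolynomial.C r) = algebraMap R (Module.End R N) r := by
  rw [← MvPolynomial.algebraMap_eq, AlgHom.commutes]

/-- a copy of `N` with the module structure over `MvPolynomial J R` given by `t` -/
@[nolint unusedArguments]
def WithOps (t : J → Module.End R N) (_hcomm : ∀ i j, Commute (t i) (t j)) : Type _ := N

namespace WithOps

variable (t : J → Module.End R N) (hcomm : ∀ i j, Commute (t i) (t j))

instance : AddCommGroup (WithOps t hcomm) := inferInstanceAs (AddCommGroup N)

instance : Module R (WithOps t hcomm) := inferInstanceAs (Module R N)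

/-- the identification with `N` -/
def equiv : WithOps t hcomm ≃ₗ[R] N := LinearEquiv.refl R N

noncomputable instance instModulePoly : Module (MvPolynomial J R) (WithOps t hcomm) :=
  Module.compHom N (polyAct t hcomm).toRingHom

theorem smul_def (P : MvPolynomial J R) (x : WithOps t hcomm) :
    equiv t hcomm (P • x) = polyAct t hcomm P (equiv t hcomm x) := rfl

theorem X_smul (j : J) (x : WithOps t hcomm) :
    equiv t hcomm ((MvPolynomial.X j : MvPolynomial J R) • x) = t j (equiv t hcomm x) := by
  rw [smul_def, polyAct_X]

theorem C_smul (r : R) (x : WithOps t hcomm) :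
    (MvPolynomial.C r : MvPolynomial J R) • x = r • x := by
  apply (equiv t hcomm).injective
  rw [smul_def, polyAct_C, map_smul]
  rfl

instance : IsScalarTower R (MvPolynomial J R) (WithOps t hcomm) where
  smul_assoc r P x := by
    rw [MvPolynomial.smul_eq_C_mul, mul_smul, C_smul]

end WithOps

section Map

variable {N' : Type*} [AddCommGroup N'] [Module R N']
  {t : J → Module.End R N} {hcomm : ∀ i j, Commute (t i) (t j)}
  {t' : J → Module.End R N'} {hcomm' : ∀ i j, Commute (t' i) (t' j)}

/-- an intertwining map commutes with the whole polynomial action -/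
theorem map_polyAct (f : N →ₗ[R] N') (hf : ∀ j x, f (t j x) = t' j (f x))
    (P : MvPolynomial J R) (x : N) : f (polyAct t hcomm P x) = polyAct t' hcomm' P (f x) := by
  induction P using MvPolynomial.induction_on generalizing x with
  | C r =>
    rw [polyAct_C, polyAct_C]
    exact map_smul f r x
  | add p q hp hq =>
    rw [map_add, map_add, LinearMap.add_apply, LinearMap.add_apply, map_add, hp, hq]
  | mul_X p j hp =>
    rw [map_mul, map_mul, polyAct_X, polyAct_X, Module.End.mul_apply, Module.End.mul_apply, hp, hf]

/-- **an `R`-linear map intertwining the operators is linear over the polynomial ring** -/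
def WithOps.map (f : N →ₗ[R] N') (hf : ∀ j x, f (t j x) = t' j (f x)) :
    WithOps t hcomm →ₗ[MvPolynomial J R] WithOps t' hcomm' where
  toFun x := (WithOps.equiv t' hcomm').symm (f (WithOps.equiv t hcomm x))
  map_add' x y := by
    rw [map_add, map_add, map_add]
  map_smul' P x := by
    apply (WithOps.equiv t' hcomm').injective
    rw [LinearEquiv.apply_symm_apply, RingHom.id_apply, WithOps.smul_def, WithOps.smul_def,
      LinearEquiv.apply_symm_apply]
    exact map_polyAct f hf P _

theorem WithOps.map_apply (f : N →ₗ[R] N') (hf : ∀ j x, f (t j x) = t' j (f x))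
    (x : WithOps t hcomm) :
    WithOps.equiv t' hcomm' (WithOps.map (hcomm := hcomm) (hcomm' := hcomm') f hf x) =
      f (WithOps.equiv t hcomm x) := rfl

omit [Module R N] in
/-- a quotient of a commuting family commutes -/
theorem commute_of_surjective {N₀ : Type*} [AddCommGroup N₀] [Module R N₀]
    (t₀ : J → Module.End R N₀) (hcomm₀ : ∀ i j, Commute (t₀ i) (t₀ j))
    (f : N₀ →ₗ[R] N') (hsurj : Function.Surjective f)
    (hf : ∀ j x, f (t₀ j x) = t' j (f x)) (i j : J) : Commute (t' i) (t' j) := by
  refine LinearMap.ext fun y => ?_
  obtain ⟨x, rfl⟩ := hsurj y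
  rw [Module.End.mul_apply, Module.End.mul_apply, ← hf, ← hf, ← hf, ← hf,
    ← Module.End.mul_apply, ← Module.End.mul_apply, (hcomm₀ i j).eq]

end Map

end Fermat.Agent.S43.Hecke.PolyModule
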