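import Mathlib
import Fermat.Agent.S30.Hecke.DoubleCoset

/-!
# PROJECT R (S43), block L3 (Hecke modules): twisted first cohomology, definitions

`Γ` a group, `R` a commutative ring, `χ : Γ →* Rˣ` a character.  Every `R`-module `A` becomes a
`Γ`-module through `χ`.

* `Z1 χ A` : the `R`-module of twisted cocycles `c (g * h) = c g + χ g • c h`;
* `dZero χ A : A →ₗ[R] Z1 χ A` : `a ↦ (g ↦ χ g • a - a)`;
* `H1 χ A := Z1 χ A ⧸ range (dZero χ A)`;
* `Z1.map`, `H1.map` : functoriality in `A`;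
* `Neb D χ` : a nebentypus on a coset datum `D` (of `S30/Hecke/DoubleCoset`): units `ψ x` with
  `ψ x * χ g = χ (coc g x) * ψ (perm g x)`;
* `heckeZ`, `heckeH` : the double-coset operator `(T c) g = ∑ x, (ψ x)⁻¹ • c (coc g x)` on `Z1`
  and on `H1`; `Neb.deg = ∑ x, (ψ x)⁻¹`, the scalar by which `T` acts on coboundaries
  (`heckeZ_dZero`).

In the application `Γ = Γ₀(N' Q)`, `R = 𝒪[Δ]`, `χ` the diamond character `Γ → Δ ⊆ 𝒪[Δ]ˣ`, so that
`H1 χ (𝒪[Δ]) = H¹(Γ_H, 𝒪)` (Shapiro), `H1 χ 𝒪 = H¹(Γ, 𝒪)`.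
-/

set_option autoImplicit false

open scoped BigOperators

namespace Fermat.Agent.S43.Hecke.Defs

open Fermat.Agent.S30.Hecke.DoubleCoset

universe u v w w'

variable {Γ : Type v} [Group Γ] {R : Type u} [CommRing R] (χ : Γ →* Rˣ)

section Basic

variable (A : Type w) [AddCommGroup A] [Module R A]

/-- the twisted `1`-cocycles of `Γ` with values in the `R`-module `A`, `Γ` acting through `χ` -/
def Z1 : Submodule R (Γ → A) where
  carrier := {c | ∀ g h : Γ, c (g * h) = c g + ((χ g : Rˣ) : R) • c h}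
  add_mem' := by
    intro c c' hc hc' g h
    show c (g * h) + c' (g * h) = c g + c' g + ((χ g : Rˣ) : R) • (c h + c' h)
    rw [hc g h, hc' g h, smul_add]
    abel
  zero_mem' := by
    intro g h
    show (0 : A) = 0 + ((χ g : Rˣ) : R) • (0 : A)
    rw [smul_zero, add_zero]
  smul_mem' := by
    intro r c hc g h
    show r • c (g * h) = r • c g + ((χ g : Rˣ) : R) • (r • c h)
    rw [hc g h, smul_add, smul_comm r]

variable {χ A}

theorem mem_Z1 {c : Γ → A} :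
    c ∈ Z1 χ A ↔ ∀ g h : Γ, c (g * h) = c g + ((χ g : Rˣ) : R) • c h := Iff.rfl

theorem Z1.mul (c : Z1 χ A) (g h : Γ) :
    (c : Γ → A) (g * h) = (c : Γ → A) g + ((χ g : Rˣ) : R) • (c : Γ → A) h := c.2 g h

theorem Z1.one (c : Z1 χ A) : (c : Γ → A) 1 = 0 := by
  have h := c.2 1 1
  rw [mul_one, map_one, Units.val_one, one_smul] at h
  exact left_eq_add.mp h

variable (χ A)

/-- the coboundary `a ↦ (g ↦ χ g • a - a)` -/
def dZero : A →ₗ[R] Z1 χ A where
  toFun a := ⟨fun g => ((χ g : Rˣ) : R) • a - a, by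
    intro g h
    show ((χ (g * h) : Rˣ) : R) • a - a =
      (((χ g : Rˣ) : R) • a - a) + ((χ g : Rˣ) : R) • (((χ h : Rˣ) : R) • a - a)
    rw [map_mul, Units.val_mul, mul_smul, smul_sub]
    abel⟩
  map_add' a b := by
    apply Subtype.ext
    funext g
    show ((χ g : Rˣ) : R) • (a + b) - (a + b) =
      (((χ g : Rˣ) : R) • a - a) + (((χ g : Rˣ) : R) • b - b)
    rw [smul_add]
    abel
  map_smul' r a := by
    apply Subtype.ext
    funext g
    show ((χ g : Rˣ) : R) • (r • a) - r • a = r • (((χ g : Rˣ) : R) • a - a)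
    rw [smul_sub, smul_comm r]

variable {χ A}

@[simp] theorem dZero_apply (a : A) (g : Γ) :
    (dZero χ A a : Γ → A) g = ((χ g : Rˣ) : R) • a - a := rfl

variable (χ A)

/-- the twisted coboundaries -/
def B1 : Submodule R (Z1 χ A) := LinearMap.range (dZero χ A)

/-- the twisted first cohomology `H¹(Γ, A_χ)` -/
abbrev H1 : Type (max v w) := Z1 χ A ⧸ B1 χ A

/-- the class of a cocycle -/
def H1.mk : Z1 χ A →ₗ[R] H1 χ A := (B1 χ A).mkQ

variable {χ A}

theorem H1.mk_surjective : Function.Surjective (H1.mk χ A) := Submodule.mkQ_surjective _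

theorem H1.mk_eq_zero_iff (c : Z1 χ A) : H1.mk χ A c = 0 ↔ ∃ a : A, dZero χ A a = c := by
  show (B1 χ A).mkQ c = 0 ↔ _
  rw [Submodule.mkQ_apply, Submodule.Quotient.mk_eq_zero]
  exact LinearMap.mem_range

end Basic

/-! ### functoriality in the coefficients -/

section Map

variable {A : Type w} [AddCommGroup A] [Module R A] {B : Type w'} [AddCommGroup B] [Module R B]

/-- push-forward of cocycles along an `R`-linear map -/
def Z1.map (f : A →ₗ[R] B) : Z1 χ A →ₗ[R] Z1 χ B where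
  toFun c := ⟨fun g => f ((c : Γ → A) g), by
    intro g h
    show f ((c : Γ → A) (g * h)) = f ((c : Γ → A) g) + ((χ g : Rˣ) : R) • f ((c : Γ → A) h)
    rw [c.2 g h, map_add, map_smul]⟩
  map_add' c c' := by
    apply Subtype.ext
    funext g
    show f ((c : Γ → A) g + (c' : Γ → A) g) = f ((c : Γ → A) g) + f ((c' : Γ → A) g)
    rw [map_add]
  map_smul' r c := by
    apply Subtype.ext
    funext g
    show f (r • (c : Γ → A) g) = r • f ((c : Γ → A) g)
    rw [map_smul]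

variable {χ}

@[simp] theorem Z1.map_apply (f : A →ₗ[R] B) (c : Z1 χ A) (g : Γ) :
    (Z1.map χ f c : Γ → B) g = f ((c : Γ → A) g) := rfl

theorem Z1.map_dZero (f : A →ₗ[R] B) (a : A) : Z1.map χ f (dZero χ A a) = dZero χ B (f a) := by
  apply Subtype.ext
  funext g
  show f (((χ g : Rˣ) : R) • a - a) = ((χ g : Rˣ) : R) • f a - f a
  rw [map_sub, map_smul]

theorem B1_le_comap (f : A →ₗ[R] B) : B1 χ A ≤ (B1 χ B).comap (Z1.map χ f) := by
  rintro _ ⟨a, rfl⟩
  exact ⟨f a, (Z1.map_dZero f a).symm⟩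

variable (χ)

/-- push-forward on `H¹` -/
def H1.map (f : A →ₗ[R] B) : H1 χ A →ₗ[R] H1 χ B :=
  (B1 χ A).mapQ (B1 χ B) (Z1.map χ f) (B1_le_comap f)

variable {χ}

@[simp] theorem H1.map_mk (f : A →ₗ[R] B) (c : Z1 χ A) :
    H1.map χ f (H1.mk χ A c) = H1.mk χ B (Z1.map χ f c) := rfl

end Map

/-! ### double-coset operators -/

section Hecke

variable {G : Type*} [Group G] {ι : Γ →* G} {X : Type*}

/-- a nebentypus on a coset datum: the values `ψ x` of the character on the representatives -/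
structure Neb (D : CosetData ι X) (χ : Γ →* Rˣ) where
  /-- the value of the character at the representative `rep x` -/
  ψ : X → Rˣ
  rel : ∀ (g : Γ) (x : X), ψ x * χ g = χ (D.coc g x) * ψ (D.perm g x)

variable [Fintype X] {D : CosetData ι X} {χ}

/-- the scalar by which the double-coset operator acts on `H⁰` and on coboundaries -/
def Neb.deg (ν : Neb D χ) : R := ∑ x, (((ν.ψ x)⁻¹ : Rˣ) : R)

variable (A : Type w) [AddCommGroup A] [Module R A]

/-- **the double-coset operator on twisted cocycles**,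
`(T c) g = ∑ x, (ψ x)⁻¹ • c (coc g x)` -/
def heckeZ (ν : Neb D χ) : Z1 χ A →ₗ[R] Z1 χ A where
  toFun c := ⟨fun g => ∑ x, (((ν.ψ x)⁻¹ : Rˣ) : R) • (c : Γ → A) (D.coc g x), by
    intro g h
    show ∑ x, (((ν.ψ x)⁻¹ : Rˣ) : R) • (c : Γ → A) (D.coc (g * h) x) =
      ∑ x, (((ν.ψ x)⁻¹ : Rˣ) : R) • (c : Γ → A) (D.coc g x) +
        ((χ g : Rˣ) : R) • ∑ x, (((ν.ψ x)⁻¹ : Rˣ) : R) • (c : Γ → A) (D.coc h x)
    have h1 : ∀ x, (((ν.ψ x)⁻¹ : Rˣ) : R) • (c : Γ → A) (D.coc (g * h) x) =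
        (((ν.ψ x)⁻¹ : Rˣ) : R) • (c : Γ → A) (D.coc g x) +
          ((χ g : Rˣ) : R) • ((((ν.ψ (D.perm g x))⁻¹ : Rˣ) : R) •
            (c : Γ → A) (D.coc h (D.perm g x))) := by
      intro x
      rw [D.coc_mul, c.2, smul_add, ← mul_smul, ← mul_smul, ← Units.val_mul, ← Units.val_mul]
      have h2 : (ν.ψ x)⁻¹ * χ (D.coc g x) = χ g * (ν.ψ (D.perm g x))⁻¹ := by
        rw [inv_mul_eq_iff_eq_mul, ← mul_assoc, eq_mul_inv_iff_mul_eq]
        exact (ν.rel g x).symm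
      rw [h2]
    rw [Finset.sum_congr rfl fun x _ => h1 x, Finset.sum_add_distrib, Finset.smul_sum]
    congr 1
    exact Equiv.sum_comp (D.perm g)
      (fun y => ((χ g : Rˣ) : R) • ((((ν.ψ y)⁻¹ : Rˣ) : R) • (c : Γ → A) (D.coc h y)))⟩
  map_add' c c' := by
    apply Subtype.ext
    funext g
    show ∑ x, (((ν.ψ x)⁻¹ : Rˣ) : R) • ((c : Γ → A) (D.coc g x) + (c' : Γ → A) (D.coc g x)) =
      ∑ x, (((ν.ψ x)⁻¹ : Rˣ) : R) • (c : Γ → A) (D.coc g x) +
        ∑ x, (((ν.ψ x)⁻¹ : Rˣ) : R) • (c' : Γ → A) (D.coc g x)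
    rw [← Finset.sum_add_distrib]
    exact Finset.sum_congr rfl fun x _ => smul_add _ _ _
  map_smul' r c := by
    apply Subtype.ext
    funext g
    show ∑ x, (((ν.ψ x)⁻¹ : Rˣ) : R) • (r • (c : Γ → A) (D.coc g x)) =
      r • ∑ x, (((ν.ψ x)⁻¹ : Rˣ) : R) • (c : Γ → A) (D.coc g x)
    rw [Finset.smul_sum]
    exact Finset.sum_congr rfl fun x _ => smul_comm _ _ _

variable {A}

@[simp] theorem heckeZ_apply (ν : Neb D χ) (c : Z1 χ A) (g : Γ) :
    (heckeZ A ν c : Γ → A) g = ∑ x, (((ν.ψ x)⁻¹ : Rˣ) : R) • (c : Γ → A) (D.coc g x) := rfl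

/-- on coboundaries the double-coset operator is the multiplication by `deg` -/
theorem heckeZ_dZero (ν : Neb D χ) (a : A) :
    heckeZ A ν (dZero χ A a) = dZero χ A (ν.deg • a) := by
  apply Subtype.ext
  funext g
  show ∑ x, (((ν.ψ x)⁻¹ : Rˣ) : R) • (((χ (D.coc g x) : Rˣ) : R) • a - a) =
    ((χ g : Rˣ) : R) • (ν.deg • a) - ν.deg • a
  have h1 : ∀ x, (((ν.ψ x)⁻¹ : Rˣ) : R) • (((χ (D.coc g x) : Rˣ) : R) • a - a) =
      ((χ g : Rˣ) : R) • ((((ν.ψ (D.perm g x))⁻¹ : Rˣ) : R) • a) -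
        (((ν.ψ x)⁻¹ : Rˣ) : R) • a := by
    intro x
    rw [smul_sub, ← mul_smul, ← mul_smul, ← Units.val_mul, ← Units.val_mul]
    have h2 : (ν.ψ x)⁻¹ * χ (D.coc g x) = χ g * (ν.ψ (D.perm g x))⁻¹ := by
      rw [inv_mul_eq_iff_eq_mul, ← mul_assoc, eq_mul_inv_iff_mul_eq]
      exact (ν.rel g x).symm
    rw [h2]
  rw [Finset.sum_congr rfl fun x _ => h1 x, Finset.sum_sub_distrib, ← Finset.smul_sum,
    Equiv.sum_comp (D.perm g) (fun y => (((ν.ψ y)⁻¹ : Rˣ) : R) • a), ← Finset.sum_smul]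
  rfl

theorem B1_le_comap_heckeZ (ν : Neb D χ) : B1 χ A ≤ (B1 χ A).comap (heckeZ A ν) := by
  rintro _ ⟨a, rfl⟩
  exact ⟨ν.deg • a, (heckeZ_dZero ν a).symm⟩

variable (A)

/-- **the double-coset operator on `H¹(Γ, A_χ)`** -/
def heckeH (ν : Neb D χ) : H1 χ A →ₗ[R] H1 χ A :=
  (B1 χ A).mapQ (B1 χ A) (heckeZ A ν) (B1_le_comap_heckeZ ν)

variable {A}

@[simp] theorem heckeH_mk (ν : Neb D χ) (c : Z1 χ A) :
    heckeH A ν (H1.mk χ A c) = H1.mk χ A (heckeZ A ν c) := rfl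

/-- naturality of the double-coset operator in the coefficients, on cocycles -/
theorem Z1.map_heckeZ {B : Type w'} [AddCommGroup B] [Module R B] (ν : Neb D χ)
    (f : A →ₗ[R] B) (c : Z1 χ A) :
    Z1.map χ f (heckeZ A ν c) = heckeZ B ν (Z1.map χ f c) := by
  apply Subtype.ext
  funext g
  show f (∑ x, (((ν.ψ x)⁻¹ : Rˣ) : R) • (c : Γ → A) (D.coc g x)) =
    ∑ x, (((ν.ψ x)⁻¹ : Rˣ) : R) • f ((c : Γ → A) (D.coc g x))
  rw [map_sum]
  exact Finset.sum_congr rfl fun x _ => map_smul f _ _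

/-- naturality of the double-coset operator in the coefficients, on `H¹` -/
theorem H1.map_heckeH {B : Type w'} [AddCommGroup B] [Module R B] (ν : Neb D χ)
    (f : A →ₗ[R] B) (ξ : H1 χ A) :
    H1.map χ f (heckeH A ν ξ) = heckeH B ν (H1.map χ f ξ) := by
  obtain ⟨c, rfl⟩ := H1.mk_surjective ξ
  rw [heckeH_mk, H1.map_mk, H1.map_mk, heckeH_mk, Z1.map_heckeZ]

end Hecke

end Fermat.Agent.S43.Hecke.Defs
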