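import Mathlib
import Fermat.Agent.S43.Hecke.Defs

/-!
# PROJECT R (S43), block L3 (Hecke modules): the seam

Definitions only.  What the block `S43/Hecke/**` ASSUMES and what it EXPORTS.

## inside the block (abstract layer, `Γ` any group, `χ : Γ →* Rˣ`)

* `CD1 χ` (ASSUMED by the abstract layer, PRODUCED by `Hecke/CD1` for finite-index subgroups of
  `SL(2,ℤ)` containing `-1`, `χ (-1) = 1`, `6` invertible in `R`): twisted cocycles lift along
  surjections of `R`-modules.
* `theta χ A : H1 χ R ⊗[R] A →ₗ[R] H1 χ A` the base-change map; `BaseChange χ` (EXPORT): it is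
  bijective for every finite `A`.
* `FlatPre ν` (EXPORT): every `R`-linear relation between classes of `H1 χ R` becomes trivial
  (in the sense of the equational criterion of flatness) after `T - deg`, `T` the double-coset
  operator of `ν`.  Hence: every localisation of `H1 χ R` in which `T - deg` is invertible is flat
  over `R` (`Hecke/Flat`), and free when it is finite and `R` is local.

## towards the other blocks

* `HeckeSide` (EXPORT to PATCH / L1 / L2, for every Taylor-Wiles datum): the three modules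
  `M1`, `Mχ`, `Mb` over `𝒪[Δ]` with their Hecke operators, freeness of rank `d`, the two
  reductions modulo `ϖ` onto the same `Mb`, and the descent `M1 / 𝔞 M1 = M0`.
-/

set_option autoImplicit false

open scoped BigOperators TensorProduct

namespace Fermat.Agent.S43.Hecke.Seam

open Fermat.Agent.S30.Hecke.DoubleCoset Fermat.Agent.S43.Hecke.Defs

universe u v w

section Abstract

variable {Γ : Type v} [Group Γ] {R : Type u} [CommRing R] (χ : Γ →* Rˣ)

/-- **(CD1)** twisted cocycles lift along surjections (cohomological dimension one on the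
`R`-modules inflated through `χ`) -/
def CD1 : Prop :=
  ∀ (A B : Type u) [AddCommGroup A] [Module R A] [AddCommGroup B] [Module R B]
    (f : A →ₗ[R] B), Function.Surjective f → Function.Surjective (Z1.map χ f)

/-- the push-forward of a class of `H1 χ R` along `r ↦ r • a` -/
def thetaAux (A : Type w) [AddCommGroup A] [Module R A] (a : A) : H1 χ R →ₗ[R] H1 χ A :=
  H1.map χ (LinearMap.toSpanSingleton R A a)

theorem thetaAux_mk (A : Type w) [AddCommGroup A] [Module R A] (a : A) (c : Z1 χ R) :
    thetaAux χ A a (H1.mk χ R c) =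
      H1.mk χ A (Z1.map χ (LinearMap.toSpanSingleton R A a) c) := rfl

/-- **the base-change map** `H¹(Γ, R_χ) ⊗ A → H¹(Γ, A_χ)`, `ξ ⊗ a ↦ (r ↦ r • a)_* ξ` -/
def theta (A : Type w) [AddCommGroup A] [Module R A] : H1 χ R ⊗[R] A →ₗ[R] H1 χ A :=
  TensorProduct.lift
    (LinearMap.flip
      { toFun := fun a => thetaAux χ A a
        map_add' := by
          intro a b
          refine LinearMap.ext fun ξ => ?_
          obtain ⟨c, rfl⟩ := H1.mk_surjective ξ
          rw [LinearMap.add_apply, thetaAux_mk, thetaAux_mk, thetaAux_mk, ← map_add]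
          congr 1
          apply Subtype.ext
          funext g
          show (c : Γ → R) g • (a + b) = (c : Γ → R) g • a + (c : Γ → R) g • b
          rw [smul_add]
        map_smul' := by
          intro r a
          refine LinearMap.ext fun ξ => ?_
          obtain ⟨c, rfl⟩ := H1.mk_surjective ξ
          rw [LinearMap.smul_apply, RingHom.id_apply, thetaAux_mk, thetaAux_mk, ← map_smul]
          congr 1
          apply Subtype.ext
          funext g
          show (c : Γ → R) g • (r • a) = r • ((c : Γ → R) g • a)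
          rw [smul_comm] })

/-- **(BC)** base change holds for every finite `R`-module -/
def BaseChange : Prop :=
  ∀ (A : Type u) [AddCommGroup A] [Module R A] [Module.Finite R A],
    Function.Bijective (theta χ A)

variable {χ}
variable {G : Type*} [Group G] {ι : Γ →* G} {X : Type*} [Fintype X] {D : CosetData ι X}

/-- **(FlatPre)** every relation `∑ f j • [c j] = 0` in `H1 χ R` becomes trivial after
`T - deg`: `(T - deg) c j = ∑ l, a j l • y l` with `∑ j, f j * a j l = 0`, on cocycles -/
def FlatPre (ν : Neb D χ) : Prop :=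
  ∀ (n : ℕ) (f : Fin n → R) (c : Fin n → Z1 χ R), (∑ j, f j • c j) ∈ B1 χ R →
    ∃ (k : ℕ) (a : Fin n → Fin k → R) (y : Fin k → Z1 χ R),
      (∀ j, heckeZ R ν (c j) - ν.deg • c j = ∑ l, a j l • y l) ∧
        ∀ l, ∑ j, f j * a j l = 0

end Abstract

/-! ### the export to PATCH / L1 / L2 -/

section Export

/-- **what the Hecke side owes at one Taylor-Wiles datum.**  `𝒪` the coefficient ring with
uniformiser `ϖ`, `Δ` the finite abelian `p`-group, `I` the index set of the Hecke operators,
`M0` the module of the base level with its operators `t0`, `d` the common rank. -/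
structure HeckeSide (𝒪 : Type u) [CommRing 𝒪] (ϖ : 𝒪) (Δ : Type u) [CommGroup Δ] (I : Type u)
    (M0 : Type u) [AddCommGroup M0] [Module 𝒪 M0] (t0 : I → Module.End 𝒪 M0) (d : ℕ) where
  /-- the module with trivial type at the primes of `L` -/
  M1 : Type u
  /-- the module with type `χ` at the primes of `L` -/
  Mχ : Type u
  /-- their common reduction modulo `ϖ` -/
  Mb : Type u
  [acg1 : AddCommGroup M1]
  [acgχ : AddCommGroup Mχ]
  [acgb : AddCommGroup Mb]
  [mod1 : Module (MonoidAlgebra 𝒪 Δ) M1]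
  [modχ : Module (MonoidAlgebra 𝒪 Δ) Mχ]
  [modb : Module (MonoidAlgebra 𝒪 Δ) Mb]
  /-- the Hecke operators -/
  t1 : I → Module.End (MonoidAlgebra 𝒪 Δ) M1
  tχ : I → Module.End (MonoidAlgebra 𝒪 Δ) Mχ
  tb : I → Module.End (MonoidAlgebra 𝒪 Δ) Mb
  comm1 : ∀ i j, Commute (t1 i) (t1 j)
  commχ : ∀ i j, Commute (tχ i) (tχ j)
  /-- freeness of rank `d` over `𝒪[Δ]` -/
  basis1 : Nonempty (Module.Basis (Fin d) (MonoidAlgebra 𝒪 Δ) M1)
  basisχ : Nonempty (Module.Basis (Fin d) (MonoidAlgebra 𝒪 Δ) Mχ)
  /-- the two reductions modulo `ϖ` -/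
  q1 : M1 →ₗ[MonoidAlgebra 𝒪 Δ] Mb
  qχ : Mχ →ₗ[MonoidAlgebra 𝒪 Δ] Mb
  q1_surj : Function.Surjective q1
  qχ_surj : Function.Surjective qχ
  q1_ker : ∀ x, q1 x = 0 → ∃ y, x = (MonoidAlgebra.single (1 : Δ) ϖ : MonoidAlgebra 𝒪 Δ) • y
  qχ_ker : ∀ x, qχ x = 0 → ∃ y, x = (MonoidAlgebra.single (1 : Δ) ϖ : MonoidAlgebra 𝒪 Δ) • y
  q1_t : ∀ i x, q1 (t1 i x) = tb i (q1 x)
  qχ_t : ∀ i x, qχ (tχ i x) = tb i (qχ x)
  /-- the descent to the base level: `M1 / 𝔞 M1 = M0`, `𝔞` the augmentation ideal -/
  p0 : M1 →+ M0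
  p0_surj : Function.Surjective p0
  p0_smul : ∀ (δ : Δ) (a : 𝒪) (x : M1),
    p0 ((MonoidAlgebra.single δ a : MonoidAlgebra 𝒪 Δ) • x) = a • p0 x
  p0_ker : ∀ x, p0 x = 0 → x ∈ (Submodule.span (MonoidAlgebra 𝒪 Δ)
    {y : M1 | ∃ (δ : Δ) (z : M1), y = (MonoidAlgebra.single δ (1 : 𝒪) : MonoidAlgebra 𝒪 Δ) • z - z})
  p0_t : ∀ i x, p0 (t1 i x) = t0 i (p0 x)

end Export

end Fermat.Agent.S43.Hecke.Seam
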