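import Mathlib
import Fermat.Agent.S41.PD.Cocycle
import Fermat.Agent.S43.Hecke.Seam

/-!
# PROJECT R (S43), block L3, brick H4: `CD1` for the subgroups of `SL(2,ℤ)` containing `-1`

`Γ ≤ SL(2,ℤ)` a subgroup containing `-1`, `R` a commutative ring in which `2` and `3` are units,
`χ : Γ →* Rˣ` with `χ (-1) = 1`.  Then twisted cocycles lift along surjections of `R`-modules:

* `exists_lift_SL2` : for `SL(2,ℤ)`-modules `M → M'` (`R`-linear, equivariant, onto, `-1` acting
  trivially) every cocycle of `M'` lifts to a cocycle of `M` (the values at `S` and `U = S * T`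
  are lifted through the projectors `(1 - S)/2` and `(2 - U - U²)/3`, then
  `S41/PD/Cocycle.exists_cocycle`);
* `Ind χ A` : the induced module `{F : SL(2,ℤ) → A | F (γ g) = χ γ • F g}` with the right
  translation action; `Ind.map` is onto when `f` is;
* `cd1` : the seam `CD1 χ` (Shapiro: a cocycle `c` of `Γ` is, up to a coboundary, the restriction
  to the base point of the cocycle `g ↦ (x ↦ ĉ (x g) - ĉ x)` of `SL(2,ℤ)` in `Ind χ B`).

No finiteness of the index is used.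
-/

set_option autoImplicit false

open scoped MatrixGroups
open ModularGroup

namespace Fermat.Agent.S43.Hecke.CD1

open Fermat.Agent.S41.PD.Pres (S_sq ST_cube)
open Fermat.Agent.S41.PD.Cocycle (exists_cocycle mem_of_S_of_ST)
open Fermat.Agent.S43.Hecke.Defs Fermat.Agent.S43.Hecke.Seam

universe u

/-! ### lifting cocycles of `SL(2,ℤ)` -/

section Lift

variable {R : Type*} [CommRing R]
  {M : Type*} [AddCommGroup M] [Module R M] [DistribMulAction SL(2, ℤ) M]
  [SMulCommClass SL(2, ℤ) R M]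
  {M' : Type*} [AddCommGroup M'] [Module R M'] [DistribMulAction SL(2, ℤ) M']
  [SMulCommClass SL(2, ℤ) R M']

omit [Module R M] [SMulCommClass SL(2, ℤ) R M] in
theorem coc_one (c : SL(2, ℤ) → M) (hc : ∀ g h, c (g * h) = c g + g • c h) : c 1 = 0 := by
  have h := hc 1 1
  rw [one_mul, one_smul] at h
  exact left_eq_add.mp h

omit [SMulCommClass SL(2, ℤ) R M] in
theorem coc_neg_one (h2 : IsUnit (2 : R)) (hneg : ∀ m : M, (-1 : SL(2, ℤ)) • m = m)
    (c : SL(2, ℤ) → M) (hc : ∀ g h, c (g * h) = c g + g • c h) : c (-1) = 0 := by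
  have h := hc (-1) (-1)
  rw [neg_mul_neg, one_mul, coc_one c hc, hneg, ← two_smul R] at h
  obtain ⟨v, hv⟩ := h2
  have h3 : ((v⁻¹ : Rˣ) : R) • ((2 : R) • c (-1)) = c (-1) := by
    rw [← mul_smul, ← hv, Units.inv_mul, one_smul]
  rw [← h3, ← h, smul_zero]

omit [Module R M] [SMulCommClass SL(2, ℤ) R M] in
/-- a cocycle is determined by its values at `S` and `S * T` -/
theorem coc_ext (c c' : SL(2, ℤ) → M) (hc : ∀ g h, c (g * h) = c g + g • c h)
    (hc' : ∀ g h, c' (g * h) = c' g + g • c' h) (hS : c S = c' S)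
    (hU : c (S * T) = c' (S * T)) (g : SL(2, ℤ)) : c g = c' g := by
  let K : Subgroup SL(2, ℤ) :=
    { carrier := {g | c g = c' g}
      one_mem' := by
        show c 1 = c' 1
        rw [coc_one c hc, coc_one c' hc']
      mul_mem' := by
        intro g h hg hh
        show c (g * h) = c' (g * h)
        rw [hc, hc', show c g = c' g from hg, show c h = c' h from hh]
      inv_mem' := by
        intro g hg
        show c g⁻¹ = c' g⁻¹
        have h1 := hc g⁻¹ g
        have h2 := hc' g⁻¹ g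
        rw [inv_mul_cancel, coc_one c hc] at h1
        rw [inv_mul_cancel, coc_one c' hc'] at h2
        rw [eq_neg_of_add_eq_zero_left h1.symm, eq_neg_of_add_eq_zero_left h2.symm,
          show c g = c' g from hg] }
  exact mem_of_S_of_ST K hS hU g

omit [SMulCommClass SL(2, ℤ) R M'] in
/-- lifting the values of a cocycle at an element of order `4` and an element of order `6`
whose square, resp. cube, is `-1`, together with the relations -/
theorem exists_lift_values (h2 : IsUnit (2 : R)) (h3 : IsUnit (3 : R))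
    (hneg : ∀ m : M, (-1 : SL(2, ℤ)) • m = m) (hneg' : ∀ m : M', (-1 : SL(2, ℤ)) • m = m)
    (φ : M →ₗ[R] M') (hφ : ∀ (g : SL(2, ℤ)) (m : M), φ (g • m) = g • φ m)
    (hsurj : Function.Surjective φ)
    (c' : SL(2, ℤ) → M') (hc' : ∀ g h, c' (g * h) = c' g + g • c' h)
    {s u : SL(2, ℤ)} (hs : s ^ 2 = -1) (hu : u ^ 3 = -1) :
    ∃ wS wU : M, wS + s • wS = 0 ∧ wU + u • wU + u • u • wU = 0 ∧
      φ wS = c' s ∧ φ wU = c' u := by
  have hn' : c' (-1) = 0 := coc_neg_one (R := R) h2 hneg' c' hc'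
  obtain ⟨v2, hv2⟩ := h2
  obtain ⟨v3, hv3⟩ := h3
  set i2 : R := ((v2⁻¹ : Rˣ) : R) with hi2
  set i3 : R := ((v3⁻¹ : Rˣ) : R) with hi3
  have hi2' : i2 * 2 = 1 := by rw [hi2, ← hv2, Units.inv_mul]
  have hi3' : i3 * 3 = 1 := by rw [hi3, ← hv3, Units.inv_mul]
  have hss : s * s = -1 := by rw [← pow_two]; exact hs
  have huuu : u * u * u = -1 := by rw [← pow_two, ← pow_succ]; exact hu
  -- the relations satisfied by `c'`
  have hrS' : c' s + s • c' s = 0 := by
    rw [← hc', hss, hn']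
  have hrU' : c' u + u • c' u + u • u • c' u = 0 := by
    have h1 : c' (u * u * u) = c' u + u • c' u + u • u • c' u := by
      rw [hc', hc', mul_smul]
    rw [← h1, huuu, hn']
  -- the squares and cubes act trivially
  have hSS : ∀ m : M, s • s • m = m := by
    intro m
    rw [← mul_smul, hss, hneg]
  have hUUU : ∀ m : M, u • u • u • m = m := by
    intro m
    rw [← mul_smul, ← mul_smul, huuu, hneg]
  -- lifts of the values
  obtain ⟨aS, haS⟩ := hsurj (c' s)
  obtain ⟨aU, haU⟩ := hsurj (c' u)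
  refine ⟨i2 • (aS - s • aS), i3 • ((2 : R) • aU - u • aU - u • u • aU), ?_, ?_, ?_, ?_⟩
  · rw [smul_comm s i2, ← smul_add, smul_sub, hSS]
    have : aS - s • aS + (s • aS - aS) = 0 := by abel
    rw [this, smul_zero]
  · rw [smul_comm u i3, smul_comm u i3, ← smul_add, ← smul_add]
    simp only [smul_sub, smul_comm u (2 : R), hUUU]
    have : (2 : R) • aU - u • aU - u • u • aU +
        ((2 : R) • u • aU - u • u • aU - aU) +
        ((2 : R) • u • u • aU - aU - u • aU) = 0 := by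
      rw [two_smul, two_smul, two_smul]
      abel
    rw [this, smul_zero]
  · rw [map_smul, map_sub, hφ, haS]
    have h1 : s • c' s = -c' s := (eq_neg_of_add_eq_zero_right hrS')
    rw [h1, sub_neg_eq_add, ← two_smul R, ← mul_smul, hi2', one_smul]
  · rw [map_smul, map_sub, map_sub, map_smul, hφ, hφ, hφ, haU]
    have h1 : u • u • c' u = -(c' u + u • c' u) := eq_neg_of_add_eq_zero_right hrU'
    have h4 : (2 : R) • c' u - u • c' u - u • u • c' u = (3 : R) • c' u := by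
      rw [h1, two_smul, show (3 : R) = 2 + 1 by norm_num, add_smul, two_smul, one_smul]
      abel
    rw [h4, ← mul_smul, hi3', one_smul]

omit [SMulCommClass SL(2, ℤ) R M'] in
/-- **lifting cocycles of `SL(2,ℤ)` along an equivariant surjection**, `6` invertible -/
theorem exists_lift_SL2 (h2 : IsUnit (2 : R)) (h3 : IsUnit (3 : R))
    (hneg : ∀ m : M, (-1 : SL(2, ℤ)) • m = m) (hneg' : ∀ m : M', (-1 : SL(2, ℤ)) • m = m)
    (φ : M →ₗ[R] M') (hφ : ∀ (g : SL(2, ℤ)) (m : M), φ (g • m) = g • φ m)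
    (hsurj : Function.Surjective φ)
    (c' : SL(2, ℤ) → M') (hc' : ∀ g h, c' (g * h) = c' g + g • c' h) :
    ∃ c : SL(2, ℤ) → M, (∀ g h, c (g * h) = c g + g • c h) ∧ ∀ g, φ (c g) = c' g := by
  obtain ⟨wS, wU, hrS, hrU, hφS, hφU⟩ :=
    exists_lift_values h2 h3 hneg hneg' φ hφ hsurj c' hc' S_sq ST_cube
  obtain ⟨c, hc, hcS, hcU⟩ := exists_cocycle hneg wS wU hrS hrU
  refine ⟨c, hc, ?_⟩
  have hcφ : ∀ g h, (fun g => φ (c g)) (g * h) =
      (fun g => φ (c g)) g + g • (fun g => φ (c g)) h := by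
    intro g h
    show φ (c (g * h)) = φ (c g) + g • φ (c h)
    rw [hc, map_add, hφ]
  exact coc_ext (fun g => φ (c g)) c' hcφ hc' (by show φ (c S) = c' S; rw [hcS, hφS])
    (by show φ (c (S * T)) = c' (S * T); rw [hcU, hφU])

end Lift

/-! ### the induced module -/

section Induced

variable (Γ : Subgroup SL(2, ℤ)) {R : Type u} [CommRing R] (χ : Γ →* Rˣ)
  (A : Type u) [AddCommGroup A] [Module R A]

/-- the induced module `{F : SL(2,ℤ) → A | F (γ g) = χ γ • F g}` -/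
def Ind : Submodule R (SL(2, ℤ) → A) where
  carrier := {F | ∀ (γ : Γ) (g : SL(2, ℤ)), F ((γ : SL(2, ℤ)) * g) = ((χ γ : Rˣ) : R) • F g}
  add_mem' := by
    intro F F' hF hF' γ g
    show F (γ * g) + F' (γ * g) = ((χ γ : Rˣ) : R) • (F g + F' g)
    rw [hF γ g, hF' γ g, smul_add]
  zero_mem' := by
    intro γ g
    show (0 : A) = ((χ γ : Rˣ) : R) • (0 : A)
    rw [smul_zero]
  smul_mem' := by
    intro r F hF γ g
    show r • F (γ * g) = ((χ γ : Rˣ) : R) • (r • F g)
    rw [hF γ g, smul_comm]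

variable {Γ χ A}

/-- right translation on the induced module -/
instance Ind.instSMul : SMul SL(2, ℤ) (Ind Γ χ A) where
  smul g F := ⟨fun x => (F : SL(2, ℤ) → A) (x * g), by
    intro γ x
    show (F : SL(2, ℤ) → A) ((γ : SL(2, ℤ)) * x * g) = _
    rw [mul_assoc]
    exact F.2 γ (x * g)⟩

theorem Ind.smul_apply (g : SL(2, ℤ)) (F : Ind Γ χ A) (x : SL(2, ℤ)) :
    ((g • F : Ind Γ χ A) : SL(2, ℤ) → A) x = (F : SL(2, ℤ) → A) (x * g) := rfl

instance Ind.instDistribMulAction : DistribMulAction SL(2, ℤ) (Ind Γ χ A) where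
  one_smul F := by
    apply Subtype.ext
    funext x
    rw [Ind.smul_apply, mul_one]
  mul_smul g h F := by
    apply Subtype.ext
    funext x
    rw [Ind.smul_apply, Ind.smul_apply, Ind.smul_apply, mul_assoc]
  smul_zero g := by
    apply Subtype.ext
    funext x
    rfl
  smul_add g F F' := by
    apply Subtype.ext
    funext x
    rfl

instance Ind.instSMulCommClass : SMulCommClass SL(2, ℤ) R (Ind Γ χ A) where
  smul_comm g r F := by
    apply Subtype.ext
    funext x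
    rfl

theorem Ind.neg_one_smul (hneg : (-1 : SL(2, ℤ)) ∈ Γ) (hχ : χ ⟨-1, hneg⟩ = 1) (F : Ind Γ χ A) :
    (-1 : SL(2, ℤ)) • F = F := by
  apply Subtype.ext
  funext x
  rw [Ind.smul_apply]
  have h1 : x * (-1 : SL(2, ℤ)) = ((⟨-1, hneg⟩ : Γ) : SL(2, ℤ)) * x := by
    show x * -1 = -1 * x
    rw [mul_neg, mul_one, neg_mul, one_mul]
  rw [h1, F.2 ⟨-1, hneg⟩ x, hχ, Units.val_one, one_smul]

variable {B : Type u} [AddCommGroup B] [Module R B]

/-- functoriality of the induced module -/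
def Ind.map (f : A →ₗ[R] B) : Ind Γ χ A →ₗ[R] Ind Γ χ B where
  toFun F := ⟨fun x => f ((F : SL(2, ℤ) → A) x), by
    intro γ g
    show f ((F : SL(2, ℤ) → A) (γ * g)) = ((χ γ : Rˣ) : R) • f ((F : SL(2, ℤ) → A) g)
    rw [F.2 γ g, map_smul]⟩
  map_add' F F' := by
    apply Subtype.ext
    funext x
    show f ((F : SL(2, ℤ) → A) x + (F' : SL(2, ℤ) → A) x) = _
    rw [map_add]
    rfl
  map_smul' r F := by
    apply Subtype.ext
    funext x
    show f (r • (F : SL(2, ℤ) → A) x) = _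
    rw [map_smul]
    rfl

theorem Ind.map_apply (f : A →ₗ[R] B) (F : Ind Γ χ A) (x : SL(2, ℤ)) :
    (Ind.map f F : SL(2, ℤ) → B) x = f ((F : SL(2, ℤ) → A) x) := rfl

theorem Ind.map_smul_SL2 (f : A →ₗ[R] B) (g : SL(2, ℤ)) (F : Ind Γ χ A) :
    Ind.map f (g • F) = g • Ind.map f F := by
  apply Subtype.ext
  funext x
  rfl

/-! ### a section of `SL(2,ℤ) → Γ \ SL(2,ℤ)` -/

variable (Γ)

/-- the representative of the coset `Γ g` -/
noncomputable def sec (g : SL(2, ℤ)) : SL(2, ℤ) :=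
  (Quotient.mk (QuotientGroup.rightRel Γ) g).out

theorem mul_sec_inv_mem (g : SL(2, ℤ)) : g * (sec Γ g)⁻¹ ∈ Γ := by
  have h := Quotient.mk_out (s := QuotientGroup.rightRel Γ) g
  exact QuotientGroup.rightRel_apply.mp h

/-- the `Γ`-component of `g` -/
noncomputable def gam (g : SL(2, ℤ)) : Γ := ⟨g * (sec Γ g)⁻¹, mul_sec_inv_mem Γ g⟩

theorem gam_mul_sec (g : SL(2, ℤ)) : ((gam Γ g : Γ) : SL(2, ℤ)) * sec Γ g = g := by
  show g * (sec Γ g)⁻¹ * sec Γ g = g
  rw [inv_mul_cancel_right]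

theorem sec_mul (γ : Γ) (g : SL(2, ℤ)) : sec Γ ((γ : SL(2, ℤ)) * g) = sec Γ g := by
  unfold sec
  congr 1
  apply Quotient.sound
  show QuotientGroup.rightRel Γ ((γ : SL(2, ℤ)) * g) g
  rw [QuotientGroup.rightRel_apply, mul_inv_rev, mul_inv_cancel_left]
  exact Γ.inv_mem γ.2

theorem gam_mul (γ : Γ) (g : SL(2, ℤ)) : gam Γ ((γ : SL(2, ℤ)) * g) = γ * gam Γ g := by
  apply Subtype.ext
  show (γ : SL(2, ℤ)) * g * (sec Γ ((γ : SL(2, ℤ)) * g))⁻¹ = (γ : SL(2, ℤ)) * (g * (sec Γ g)⁻¹)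
  rw [sec_mul, mul_assoc]

variable {Γ}

/-- `Ind.map f` is onto when `f` is -/
theorem Ind.map_surjective (f : A →ₗ[R] B) (hf : Function.Surjective f) :
    Function.Surjective (Ind.map (Γ := Γ) (χ := χ) f) := by
  intro F
  refine ⟨⟨fun g => ((χ (gam Γ g) : Rˣ) : R) •
    Function.surjInv hf ((F : SL(2, ℤ) → B) (sec Γ g)), ?_⟩, ?_⟩
  · intro γ g
    show ((χ (gam Γ ((γ : SL(2, ℤ)) * g)) : Rˣ) : R) •
        Function.surjInv hf ((F : SL(2, ℤ) → B) (sec Γ ((γ : SL(2, ℤ)) * g))) =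
      ((χ γ : Rˣ) : R) • (((χ (gam Γ g) : Rˣ) : R) •
        Function.surjInv hf ((F : SL(2, ℤ) → B) (sec Γ g)))
    rw [gam_mul, sec_mul, map_mul, Units.val_mul, mul_smul]
  · apply Subtype.ext
    funext g
    show f (((χ (gam Γ g) : Rˣ) : R) •
      Function.surjInv hf ((F : SL(2, ℤ) → B) (sec Γ g))) = (F : SL(2, ℤ) → B) g
    rw [map_smul, Function.surjInv_eq hf, ← F.2 (gam Γ g) (sec Γ g), gam_mul_sec]

end Induced

/-! ### Shapiro and the theorem -/

section Main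

variable {Γ : Subgroup SL(2, ℤ)} {R : Type u} [CommRing R] {χ : Γ →* Rˣ}

/-- **brick H4**: `CD1` for a subgroup of `SL(2,ℤ)` containing `-1`, for a character trivial
at `-1`, over a ring in which `2` and `3` are units. -/
theorem cd1 (hneg : (-1 : SL(2, ℤ)) ∈ Γ) (hχ : χ ⟨-1, hneg⟩ = 1)
    (h2 : IsUnit (2 : R)) (h3 : IsUnit (3 : R)) : CD1 χ := by
  intro A B _ _ _ _ f hf c
  -- the extension of `c` to `SL(2,ℤ)`
  set chat : SL(2, ℤ) → B := fun g => (c : Γ → B) (gam Γ g) with hchat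
  have hchat_mul : ∀ (γ : Γ) (y : SL(2, ℤ)),
      chat ((γ : SL(2, ℤ)) * y) = (c : Γ → B) γ + ((χ γ : Rˣ) : R) • chat y := by
    intro γ y
    show (c : Γ → B) (gam Γ ((γ : SL(2, ℤ)) * y)) = _
    rw [gam_mul, c.2]
  -- the cocycle of `SL(2,ℤ)` with values in the induced module
  let CB : SL(2, ℤ) → Ind Γ χ B := fun g => ⟨fun x => chat (x * g) - chat x, by
    intro γ x
    show chat ((γ : SL(2, ℤ)) * x * g) - chat ((γ : SL(2, ℤ)) * x) =
      ((χ γ : Rˣ) : R) • (chat (x * g) - chat x)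
    rw [mul_assoc, hchat_mul, hchat_mul, smul_sub]
    abel⟩
  have hCB : ∀ g h, CB (g * h) = CB g + g • CB h := by
    intro g h
    apply Subtype.ext
    funext x
    show chat (x * (g * h)) - chat x = (chat (x * g) - chat x) + (chat (x * g * h) - chat (x * g))
    rw [mul_assoc]
    abel
  obtain ⟨CA, hCA, hCAB⟩ := exists_lift_SL2 h2 h3
    (Ind.neg_one_smul (A := A) hneg hχ) (Ind.neg_one_smul (A := B) hneg hχ)
    (Ind.map (Γ := Γ) (χ := χ) f) (Ind.map_smul_SL2 f) (Ind.map_surjective f hf) CB hCB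
  -- restriction to the base point
  obtain ⟨a0, ha0⟩ := hf (chat 1)
  let cA : Z1 χ A := ⟨fun γ => (CA (γ : SL(2, ℤ)) : SL(2, ℤ) → A) 1, by
    intro γ γ'
    show (CA ((γ : SL(2, ℤ)) * (γ' : SL(2, ℤ))) : SL(2, ℤ) → A) 1 =
      (CA (γ : SL(2, ℤ)) : SL(2, ℤ) → A) 1 +
        ((χ γ : Rˣ) : R) • (CA (γ' : SL(2, ℤ)) : SL(2, ℤ) → A) 1
    rw [hCA]
    show (CA (γ : SL(2, ℤ)) : SL(2, ℤ) → A) 1 +
        ((γ : SL(2, ℤ)) • CA (γ' : SL(2, ℤ)) : Ind Γ χ A).1 1 = _
    rw [Ind.smul_apply, one_mul]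
    have := (CA (γ' : SL(2, ℤ))).2 γ 1
    rw [mul_one] at this
    rw [this]⟩
  refine ⟨cA - dZero χ A a0, ?_⟩
  apply Subtype.ext
  funext γ
  show f ((CA (γ : SL(2, ℤ)) : SL(2, ℤ) → A) 1 - (((χ γ : Rˣ) : R) • a0 - a0)) = (c : Γ → B) γ
  rw [map_sub, map_sub, map_smul, ha0, ← Ind.map_apply, hCAB]
  show chat (1 * (γ : SL(2, ℤ))) - chat 1 - (((χ γ : Rˣ) : R) • chat 1 - chat 1) = _
  have h1 : chat (1 * (γ : SL(2, ℤ))) = (c : Γ → B) γ + ((χ γ : Rˣ) : R) • chat 1 := by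
    rw [one_mul, ← mul_one (γ : SL(2, ℤ)), hchat_mul]
  rw [h1]
  abel

end Main

end Fermat.Agent.S43.Hecke.CD1
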