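/-
PROJECT R (S43, row 37), block L3 (Hecke modules, leader helper24), brick H5 (helper20):
SHAPIRO'S LEMMA IN DEGREE ONE for the twisted cohomology of `Hecke/Defs.lean`.

`κ : Γ →* Δ` onto a finite group, `R = MonoidAlgebra 𝒪 Δ`, `χ = chiOf 𝒪 κ : Γ →* Rˣ`,
`g ↦ single (κ g) 1`.  Then `R` with `Γ` acting through `χ` is the module induced from the trivial
module `𝒪` of `ker κ`, and

* `shapiro 𝒪 κ hκ : H1 (chiOf 𝒪 κ) R ≃ₗ[𝒪] (Additive κ.ker →+ 𝒪)`, the class of a cocycle `c` going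
  to `h ↦ (c h) 1` (the coefficient at `1 ∈ Δ`), `shapiro_mk`;
* `shapiro_single_smul`: the action of `single (κ g) 1 ∈ R` on `H1` becomes the conjugation
  `h ↦ g * h * g⁻¹` on `ker κ`;
* `shapiro_heckeH`: the double-coset operator `heckeH R ν` of a nebentypus `ν` becomes the
  double-coset operator `heckeHom` (of `S30/Hecke/DoubleCoset`) of any coset datum `D'` on `ker κ`
  whose cocycle is `t x * D.coc h x * (t (D.perm h x))⁻¹`, `χ (t x) * ψ x = 1` (the twisted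
  representatives `ι (t x) * rep x`: `kerData` of `S48/B/Hecke/CosetRestrict`).
-/
import Mathlib
import Fermat.Agent.S30.Hecke.DoubleCoset
import Fermat.Agent.S48.B.Hecke.CosetRestrict
import Fermat.Agent.S43.Hecke.Defs

set_option autoImplicit false

open scoped BigOperators

noncomputable section

namespace Fermat.Agent.S43.Hecke.Shapiro

open Fermat.Agent.S30.Hecke.DoubleCoset Fermat.Agent.S43.Hecke.Defs

variable {Γ : Type*} [Group Γ] {Δ : Type*} [CommGroup Δ] (𝒪 : Type*) [CommRing 𝒪] (κ : Γ →* Δ)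

/-- the character `g ↦ single (κ g) 1` with values in the units of the group algebra. -/
def chiOf : Γ →* (MonoidAlgebra 𝒪 Δ)ˣ :=
  (Units.map (MonoidAlgebra.of 𝒪 Δ)).comp ((toUnits (G := Δ)).toMonoidHom.comp κ)

variable {𝒪 κ}

@[simp] theorem chiOf_val (g : Γ) :
    ((chiOf 𝒪 κ g : (MonoidAlgebra 𝒪 Δ)ˣ) : MonoidAlgebra 𝒪 Δ) = MonoidAlgebra.single (κ g) 1 :=
  rfl

theorem chiOf_eq_one {g : Γ} (hg : κ g = 1) : chiOf 𝒪 κ g = 1 := by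
  apply Units.ext
  rw [chiOf_val, hg]
  rfl

/-- the coefficients of `χ g • a`. -/
theorem chiOf_smul_apply (g : Γ) (a : MonoidAlgebra 𝒪 Δ) (δ : Δ) :
    (((chiOf 𝒪 κ g : (MonoidAlgebra 𝒪 Δ)ˣ) : MonoidAlgebra 𝒪 Δ) • a).coeff δ =
      a.coeff ((κ g)⁻¹ * δ) := by
  rw [chiOf_val, smul_eq_mul, MonoidAlgebra.coeff_single_mul_apply, one_mul]

/-- the cocycle relation, coefficientwise. -/
theorem Z1_mul_apply (c : Z1 (chiOf 𝒪 κ) (MonoidAlgebra 𝒪 Δ)) (g h : Γ) (δ : Δ) :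
    ((c : Γ → MonoidAlgebra 𝒪 Δ) (g * h)).coeff δ =
      ((c : Γ → MonoidAlgebra 𝒪 Δ) g).coeff δ +
        ((c : Γ → MonoidAlgebra 𝒪 Δ) h).coeff ((κ g)⁻¹ * δ) := by
  rw [Z1.mul, MonoidAlgebra.coeff_add, Finsupp.add_apply, chiOf_smul_apply]

/-- on `ker κ` a cocycle is additive. -/
theorem Z1_mul_of_mem_ker (c : Z1 (chiOf 𝒪 κ) (MonoidAlgebra 𝒪 Δ)) {h : Γ} (hh : κ h = 1)
    (h' : Γ) :
    (c : Γ → MonoidAlgebra 𝒪 Δ) (h * h') =
      (c : Γ → MonoidAlgebra 𝒪 Δ) h + (c : Γ → MonoidAlgebra 𝒪 Δ) h' := by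
  rw [Z1.mul, chiOf_eq_one hh, Units.val_one, one_smul]

variable (𝒪 κ)

/-- **restriction to `ker κ` followed by the coefficient at `1`**, on cocycles. -/
def resOne : Z1 (chiOf 𝒪 κ) (MonoidAlgebra 𝒪 Δ) →ₗ[𝒪] (Additive κ.ker →+ 𝒪) where
  toFun c := AddMonoidHom.mk'
    (fun h => ((c : Γ → MonoidAlgebra 𝒪 Δ) ((Additive.toMul h : κ.ker) : Γ)).coeff 1) (by
      intro h h'
      show ((c : Γ → MonoidAlgebra 𝒪 Δ)
        (((Additive.toMul h : κ.ker) : Γ) * ((Additive.toMul h' : κ.ker) : Γ))).coeff 1 = _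
      rw [Z1_mul_of_mem_ker c (MonoidHom.mem_ker.mp (Additive.toMul h).2),
        MonoidAlgebra.coeff_add, Finsupp.add_apply])
  map_add' c c' := by
    refine AddMonoidHom.ext fun h => ?_
    show (((c + c' : Z1 (chiOf 𝒪 κ) (MonoidAlgebra 𝒪 Δ)) : Γ → MonoidAlgebra 𝒪 Δ) _).coeff 1 = _
    rw [Submodule.coe_add, Pi.add_apply, MonoidAlgebra.coeff_add, Finsupp.add_apply]
    rfl
  map_smul' r c := by
    refine AddMonoidHom.ext fun h => ?_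
    show (((r • c : Z1 (chiOf 𝒪 κ) (MonoidAlgebra 𝒪 Δ)) : Γ → MonoidAlgebra 𝒪 Δ) _).coeff 1 = _
    rw [Submodule.coe_smul_of_tower, Pi.smul_apply, MonoidAlgebra.coeff_smul, Finsupp.smul_apply]
    rfl

variable {𝒪 κ}

@[simp] theorem resOne_apply (c : Z1 (chiOf 𝒪 κ) (MonoidAlgebra 𝒪 Δ)) (h : κ.ker) :
    resOne 𝒪 κ c (Additive.ofMul h) = ((c : Γ → MonoidAlgebra 𝒪 Δ) (h : Γ)).coeff 1 := rfl

/-- coboundaries die on `ker κ`. -/
theorem resOne_dZero (a : MonoidAlgebra 𝒪 Δ) :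
    resOne 𝒪 κ (dZero (chiOf 𝒪 κ) (MonoidAlgebra 𝒪 Δ) a) = 0 := by
  refine AddMonoidHom.ext fun h' => ?_
  obtain ⟨h, rfl⟩ := Additive.ofMul.surjective h'
  rw [resOne_apply, dZero_apply, chiOf_eq_one (MonoidHom.mem_ker.mp h.2), Units.val_one, one_smul,
    sub_self]
  rfl

variable (𝒪 κ)

/-- the map `H¹(Γ, 𝒪[Δ]_χ) → Hom(ker κ, 𝒪)`. -/
def shapiroHom : H1 (chiOf 𝒪 κ) (MonoidAlgebra 𝒪 Δ) →ₗ[𝒪] (Additive κ.ker →+ 𝒪) :=
  (((B1 (chiOf 𝒪 κ) (MonoidAlgebra 𝒪 Δ)).restrictScalars 𝒪).liftQ (resOne 𝒪 κ) (by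
      rintro _ ⟨a, rfl⟩
      exact resOne_dZero a)).comp
    (Submodule.Quotient.restrictScalarsEquiv 𝒪
      (B1 (chiOf 𝒪 κ) (MonoidAlgebra 𝒪 Δ))).symm.toLinearMap

variable {𝒪 κ}

@[simp] theorem shapiroHom_mk (c : Z1 (chiOf 𝒪 κ) (MonoidAlgebra 𝒪 Δ)) :
    shapiroHom 𝒪 κ (H1.mk (chiOf 𝒪 κ) (MonoidAlgebra 𝒪 Δ) c) = resOne 𝒪 κ c := rfl

/-! ### injectivity -/

/-- if `c` dies on `ker κ`, the coefficient of `c g` at `κ g` depends on `κ g` only. -/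
theorem coeff_eq_of_resOne_eq_zero {c : Z1 (chiOf 𝒪 κ) (MonoidAlgebra 𝒪 Δ)}
    (hc : resOne 𝒪 κ c = 0) {g₁ g₂ : Γ} {δ : Δ} (h₁ : κ g₁ = δ) (h₂ : κ g₂ = δ) :
    ((c : Γ → MonoidAlgebra 𝒪 Δ) g₁).coeff δ = ((c : Γ → MonoidAlgebra 𝒪 Δ) g₂).coeff δ := by
  have hk : κ (g₁⁻¹ * g₂) = 1 := by rw [map_mul, map_inv, h₁, h₂, inv_mul_cancel]
  have h0 : ((c : Γ → MonoidAlgebra 𝒪 Δ) (g₁⁻¹ * g₂)).coeff 1 = 0 := by
    have := congrArg (fun φ : Additive κ.ker →+ 𝒪 =>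
      φ (Additive.ofMul (⟨g₁⁻¹ * g₂, MonoidHom.mem_ker.mpr hk⟩ : κ.ker))) hc
    simpa using this
  have h := Z1_mul_apply c g₁ (g₁⁻¹ * g₂) δ
  rw [mul_inv_cancel_left, h₁, inv_mul_cancel, h0, add_zero] at h
  exact h.symm

theorem exists_dZero_eq_of_resOne_eq_zero [Finite Δ] (hκ : Function.Surjective κ)
    (c : Z1 (chiOf 𝒪 κ) (MonoidAlgebra 𝒪 Δ)) (hc : resOne 𝒪 κ c = 0) :
    ∃ a : MonoidAlgebra 𝒪 Δ, dZero (chiOf 𝒪 κ) (MonoidAlgebra 𝒪 Δ) a = c := by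
  set s : Δ → Γ := Function.surjInv hκ with hs_def
  have hs : ∀ δ, κ (s δ) = δ := Function.surjInv_eq hκ
  set a : MonoidAlgebra 𝒪 Δ := MonoidAlgebra.ofCoeff
    (Finsupp.equivFunOnFinite.symm fun δ => -((c : Γ → MonoidAlgebra 𝒪 Δ) (s δ)).coeff δ) with ha
  have hacoeff : ∀ (g : Γ) (δ : Δ), κ g = δ →
      a.coeff δ = -((c : Γ → MonoidAlgebra 𝒪 Δ) g).coeff δ := by
    intro g δ hg
    show -((c : Γ → MonoidAlgebra 𝒪 Δ) (s δ)).coeff δ = _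
    rw [coeff_eq_of_resOne_eq_zero hc (hs δ) hg]
  refine ⟨a, ?_⟩
  apply Subtype.ext
  funext g
  apply MonoidAlgebra.ext
  apply Finsupp.ext
  intro δ
  rw [dZero_apply, MonoidAlgebra.coeff_sub, Finsupp.sub_apply, chiOf_smul_apply]
  set g₁ := s ((κ g)⁻¹ * δ) with hg₁
  have hk₁ : κ g₁ = (κ g)⁻¹ * δ := hs _
  have hk₂ : κ (g * g₁) = δ := by rw [map_mul, hk₁, mul_inv_cancel_left]
  rw [hacoeff g₁ _ hk₁, hacoeff (g * g₁) δ hk₂, Z1_mul_apply]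
  ring

/-! ### surjectivity -/

section Surj

variable (s : Δ → Γ) (hs : ∀ δ, κ (s δ) = δ)

include hs in
theorem indElt_mem (g : Γ) (δ : Δ) : (s δ)⁻¹ * g * s ((κ g)⁻¹ * δ) ∈ κ.ker := by
  rw [MonoidHom.mem_ker, map_mul, map_mul, map_inv, hs, hs, mul_assoc, mul_inv_cancel_left,
    inv_mul_cancel]

/-- the element `s δ⁻¹ · g · s (κ g⁻¹ δ)` of `ker κ`. -/
def indElt (g : Γ) (δ : Δ) : κ.ker := ⟨(s δ)⁻¹ * g * s ((κ g)⁻¹ * δ), indElt_mem s hs g δ⟩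

theorem indElt_mul (g h : Γ) (δ : Δ) :
    indElt s hs (g * h) δ = indElt s hs g δ * indElt s hs h ((κ g)⁻¹ * δ) := by
  apply Subtype.ext
  show (s δ)⁻¹ * (g * h) * s ((κ (g * h))⁻¹ * δ) =
    (s δ)⁻¹ * g * s ((κ g)⁻¹ * δ) * ((s ((κ g)⁻¹ * δ))⁻¹ * h * s ((κ h)⁻¹ * ((κ g)⁻¹ * δ)))
  have e : (κ (g * h))⁻¹ * δ = (κ h)⁻¹ * ((κ g)⁻¹ * δ) := by
    rw [map_mul, mul_inv_rev, mul_assoc]
  rw [e]
  group

variable [Finite Δ]

/-- the induced cocycle `c_φ (g)_δ = φ (s δ⁻¹ · g · s (κ g⁻¹ δ))`. -/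
def indCocycle (φ : Additive κ.ker →+ 𝒪) : Z1 (chiOf 𝒪 κ) (MonoidAlgebra 𝒪 Δ) :=
  ⟨fun g => MonoidAlgebra.ofCoeff
      (Finsupp.equivFunOnFinite.symm fun δ => φ (Additive.ofMul (indElt s hs g δ))), by
    intro g h
    apply MonoidAlgebra.ext
    apply Finsupp.ext
    intro δ
    rw [MonoidAlgebra.coeff_add, Finsupp.add_apply, chiOf_smul_apply]
    show φ (Additive.ofMul (indElt s hs (g * h) δ)) =
      φ (Additive.ofMul (indElt s hs g δ)) +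
        φ (Additive.ofMul (indElt s hs h ((κ g)⁻¹ * δ)))
    rw [indElt_mul, ofMul_mul, map_add]⟩

theorem indCocycle_coeff (φ : Additive κ.ker →+ 𝒪) (g : Γ) (δ : Δ) :
    ((indCocycle s hs φ : Γ → MonoidAlgebra 𝒪 Δ) g).coeff δ =
      φ (Additive.ofMul (indElt s hs g δ)) := rfl

theorem resOne_indCocycle (φ : Additive κ.ker →+ 𝒪) : resOne 𝒪 κ (indCocycle s hs φ) = φ := by
  refine AddMonoidHom.ext fun h' => ?_
  obtain ⟨h, rfl⟩ := Additive.ofMul.surjective h'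
  rw [resOne_apply, indCocycle_coeff]
  have hh : κ (h : Γ) = 1 := MonoidHom.mem_ker.mp h.2
  have h1 : (s 1 : Γ) ∈ κ.ker := MonoidHom.mem_ker.mpr (hs 1)
  have e : indElt s hs (h : Γ) 1 = (⟨s 1, h1⟩ : κ.ker)⁻¹ * h * ⟨s 1, h1⟩ := by
    apply Subtype.ext
    show (s 1)⁻¹ * (h : Γ) * s ((κ (h : Γ))⁻¹ * 1) = (s 1)⁻¹ * (h : Γ) * s 1
    rw [hh, inv_one, one_mul]
  rw [e, ofMul_mul, ofMul_mul, ofMul_inv, map_add, map_add, map_neg]
  abel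

end Surj

theorem shapiroHom_bijective [Finite Δ] (hκ : Function.Surjective κ) :
    Function.Bijective (shapiroHom 𝒪 κ) := by
  constructor
  · rw [← LinearMap.ker_eq_bot, LinearMap.ker_eq_bot']
    intro ξ hξ
    obtain ⟨c, rfl⟩ := H1.mk_surjective ξ
    rw [shapiroHom_mk] at hξ
    exact (H1.mk_eq_zero_iff c).mpr (exists_dZero_eq_of_resOne_eq_zero hκ c hξ)
  · intro φ
    exact ⟨H1.mk (chiOf 𝒪 κ) (MonoidAlgebra 𝒪 Δ)
        (indCocycle (Function.surjInv hκ) (Function.surjInv_eq hκ) φ),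
      by rw [shapiroHom_mk, resOne_indCocycle]⟩

variable (𝒪 κ)

/-- **Shapiro's lemma in degree one**: `H¹(Γ, 𝒪[Δ]_χ) ≃ Hom(ker κ, 𝒪)`. -/
def shapiro [Finite Δ] (hκ : Function.Surjective κ) :
    H1 (chiOf 𝒪 κ) (MonoidAlgebra 𝒪 Δ) ≃ₗ[𝒪] (Additive κ.ker →+ 𝒪) :=
  LinearEquiv.ofBijective (shapiroHom 𝒪 κ) (shapiroHom_bijective hκ)

variable {𝒪 κ}

@[simp] theorem shapiro_mk [Finite Δ] (hκ : Function.Surjective κ)
    (c : Z1 (chiOf 𝒪 κ) (MonoidAlgebra 𝒪 Δ)) (h : κ.ker) :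
    shapiro 𝒪 κ hκ (H1.mk (chiOf 𝒪 κ) (MonoidAlgebra 𝒪 Δ) c) (Additive.ofMul h) =
      ((c : Γ → MonoidAlgebra 𝒪 Δ) (h : Γ)).coeff 1 := rfl

/-! ### the action of `Δ` is the conjugation on `ker κ` -/

/-- on `ker κ`: `c (g * h * g⁻¹) = χ g • c h`. -/
theorem Z1_conj (c : Z1 (chiOf 𝒪 κ) (MonoidAlgebra 𝒪 Δ)) (g : Γ) {h : Γ} (hh : κ h = 1) :
    (c : Γ → MonoidAlgebra 𝒪 Δ) (g * h * g⁻¹) =
      ((chiOf 𝒪 κ g : (MonoidAlgebra 𝒪 Δ)ˣ) : MonoidAlgebra 𝒪 Δ) •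
        (c : Γ → MonoidAlgebra 𝒪 Δ) h := by
  have hk : κ (g * h * g⁻¹) = 1 := by
    rw [map_mul, map_mul, map_inv, hh, mul_one, mul_inv_cancel]
  have e1 := Z1.mul c g h
  have e2 := Z1_mul_of_mem_ker c hk g
  rw [inv_mul_cancel_right, e1] at e2
  exact (add_left_cancel (a := (c : Γ → MonoidAlgebra 𝒪 Δ) g)
    (by rw [e2, add_comm])).symm

/-- the conjugate of an element of `ker κ`. -/
def conjKer (g : Γ) (h : κ.ker) : κ.ker :=
  ⟨g * (h : Γ) * g⁻¹, (MonoidHom.normal_ker κ).conj_mem (h : Γ) h.2 g⟩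

@[simp] theorem coe_conjKer (g : Γ) (h : κ.ker) : ((conjKer g h : κ.ker) : Γ) = g * h * g⁻¹ := rfl

/-- **the action of `single (κ g) 1` on `H¹` is the conjugation by `g` on `ker κ`.** -/
theorem shapiro_single_smul [Finite Δ] (hκ : Function.Surjective κ) (g : Γ)
    (ξ : H1 (chiOf 𝒪 κ) (MonoidAlgebra 𝒪 Δ)) (h : κ.ker) :
    shapiro 𝒪 κ hκ ((MonoidAlgebra.single (κ g) (1 : 𝒪) : MonoidAlgebra 𝒪 Δ) • ξ)
        (Additive.ofMul (conjKer g⁻¹ h)) =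
      shapiro 𝒪 κ hκ ξ (Additive.ofMul h) := by
  obtain ⟨c, rfl⟩ := H1.mk_surjective ξ
  rw [← map_smul, shapiro_mk, shapiro_mk, coe_conjKer, Submodule.coe_smul, Pi.smul_apply,
    Z1_conj c g⁻¹ (MonoidHom.mem_ker.mp h.2), smul_eq_mul, smul_eq_mul, chiOf_val, map_inv,
    MonoidAlgebra.coeff_single_mul_apply, MonoidAlgebra.coeff_single_mul_apply, one_mul, one_mul,
    inv_inv, mul_inv_cancel_left]

/-- the same, with the conjugation on the other side. -/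
theorem shapiro_single_smul' [Finite Δ] (hκ : Function.Surjective κ) (g : Γ)
    (ξ : H1 (chiOf 𝒪 κ) (MonoidAlgebra 𝒪 Δ)) (h : κ.ker) :
    shapiro 𝒪 κ hκ ((MonoidAlgebra.single (κ g) (1 : 𝒪) : MonoidAlgebra 𝒪 Δ) • ξ)
        (Additive.ofMul h) =
      shapiro 𝒪 κ hκ ξ (Additive.ofMul (conjKer g h)) := by
  have := shapiro_single_smul hκ g ξ (conjKer g h)
  rw [← this]
  congr 2
  apply Subtype.ext
  show (h : Γ) = g⁻¹ * (g * (h : Γ) * g⁻¹) * g⁻¹⁻¹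
  group

/-! ### the double-coset operators -/

section HeckeCompat

variable {G : Type*} [Group G] {ι : Γ →* G} {X : Type*} {D : CosetData ι X}
  (ν : Neb D (chiOf 𝒪 κ)) (t : X → Γ) (ht : ∀ x, chiOf 𝒪 κ (t x) * ν.ψ x = 1)
  {G' : Type*} [Group G'] {ι' : κ.ker →* G'} (D' : CosetData ι' X)
  (hcoc : ∀ (h : κ.ker) (x : X),
    ((D'.coc h x : κ.ker) : Γ) = t x * D.coc (h : Γ) x * (t (D.perm (h : Γ) x))⁻¹)

include ht hcoc in
/-- the cocycle at the twisted coset cocycle. -/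
theorem Z1_twisted_coc (c : Z1 (chiOf 𝒪 κ) (MonoidAlgebra 𝒪 Δ)) (h : κ.ker) (x : X) :
    (c : Γ → MonoidAlgebra 𝒪 Δ) ((D'.coc h x : κ.ker) : Γ) =
      (c : Γ → MonoidAlgebra 𝒪 Δ) (t x) - (c : Γ → MonoidAlgebra 𝒪 Δ) (t (D.perm (h : Γ) x)) +
        (((ν.ψ x)⁻¹ : (MonoidAlgebra 𝒪 Δ)ˣ) : MonoidAlgebra 𝒪 Δ) •
          (c : Γ → MonoidAlgebra 𝒪 Δ) (D.coc (h : Γ) x) := by
  have hk : κ ((D'.coc h x : κ.ker) : Γ) = 1 := MonoidHom.mem_ker.mp (D'.coc h x).2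
  have e1 := Z1_mul_of_mem_ker c hk (t (D.perm (h : Γ) x))
  have e2 : ((D'.coc h x : κ.ker) : Γ) * t (D.perm (h : Γ) x) = t x * D.coc (h : Γ) x := by
    rw [hcoc, inv_mul_cancel_right]
  rw [e2, Z1.mul] at e1
  have e3 : chiOf 𝒪 κ (t x) = (ν.ψ x)⁻¹ := eq_inv_of_mul_eq_one_left (ht x)
  rw [e3] at e1
  rw [eq_sub_of_add_eq e1.symm]
  abel

include ht hcoc in
/-- **the double-coset operator of the nebentypus `ν` on `H¹(Γ, 𝒪[Δ]_χ)` is the double-coset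
operator of the twisted coset datum on `Hom(ker κ, 𝒪)`.** -/
theorem shapiro_heckeH [Fintype X] [Finite Δ] (hκ : Function.Surjective κ)
    (ξ : H1 (chiOf 𝒪 κ) (MonoidAlgebra 𝒪 Δ)) :
    shapiro 𝒪 κ hκ (heckeH (MonoidAlgebra 𝒪 Δ) ν ξ) = D'.heckeHom (shapiro 𝒪 κ hκ ξ) := by
  obtain ⟨c, rfl⟩ := H1.mk_surjective ξ
  refine AddMonoidHom.ext fun h' => ?_
  obtain ⟨h, rfl⟩ := Additive.ofMul.surjective h'
  rw [heckeH_mk, shapiro_mk, CosetData.heckeHom_apply, heckeZ_apply]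
  have h1 : ∀ x, shapiro 𝒪 κ hκ (H1.mk (chiOf 𝒪 κ) (MonoidAlgebra 𝒪 Δ) c)
      (Additive.ofMul (D'.coc h x)) =
      ((c : Γ → MonoidAlgebra 𝒪 Δ) ((D'.coc h x : κ.ker) : Γ)).coeff 1 := fun x => shapiro_mk hκ c _
  rw [Finset.sum_congr rfl fun x _ => h1 x]
  have h2 : ∑ x, (c : Γ → MonoidAlgebra 𝒪 Δ) ((D'.coc h x : κ.ker) : Γ) =
      ∑ x, (((ν.ψ x)⁻¹ : (MonoidAlgebra 𝒪 Δ)ˣ) : MonoidAlgebra 𝒪 Δ) •
        (c : Γ → MonoidAlgebra 𝒪 Δ) (D.coc (h : Γ) x) := by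
    rw [Finset.sum_congr rfl fun x _ => Z1_twisted_coc ν t ht D' hcoc c h x,
      Finset.sum_add_distrib, Finset.sum_sub_distrib,
      Equiv.sum_comp (D.perm (h : Γ)) (fun y => (c : Γ → MonoidAlgebra 𝒪 Δ) (t y)), sub_self,
      zero_add]
  rw [← h2, MonoidAlgebra.coeff_sum, Finsupp.finsetSum_apply]

end HeckeCompat

/-! ### the instance: `kerData` of `S48/B/Hecke/CosetRestrict` -/

section KerData

open Fermat.Agent.S48.B.Hecke.CosetRestrict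

variable {G : Type*} [Group G] {ι : Γ →* G} {X : Type*} (D : CosetData ι X)
  (δ : X → Δ) (K : ∀ g x, κ (D.coc g x) * δ (D.perm g x) = δ x * κ g)

/-- the unit `single d 1` of the group algebra. -/
def unitOf (d : Δ) : (MonoidAlgebra 𝒪 Δ)ˣ := Units.map (MonoidAlgebra.of 𝒪 Δ) (toUnits d)

variable (𝒪) in
/-- the nebentypus with the values `ψ x = single (δ x) 1`. -/
def nebOfDelta : Neb D (chiOf 𝒪 κ) where
  ψ x := unitOf (δ x)
  rel g x := by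
    show unitOf (𝒪 := 𝒪) (δ x) * unitOf (κ g) = unitOf (κ (D.coc g x)) * unitOf (δ (D.perm g x))
    unfold unitOf
    rw [← map_mul, ← map_mul, ← map_mul, ← map_mul, K g x]

variable (t : X → Γ) (ht : ∀ x, κ (t x) * δ x = 1)

include ht in
theorem chiOf_mul_nebOfDelta (x : X) : chiOf 𝒪 κ (t x) * (nebOfDelta 𝒪 D δ K).ψ x = 1 := by
  show unitOf (𝒪 := 𝒪) (κ (t x)) * unitOf (δ x) = 1
  unfold unitOf
  rw [← map_mul, ← map_mul, ht x, map_one, map_one]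

variable (ι₁ : κ.ker →* G) (hι : ∀ g, ι₁ g = ι (κ.ker.subtype g)) [Fintype X]

/-- **Shapiro for the coset datum `kerData`** of main (twisted representatives
`ι (t x) * D.rep x` on `ker κ`). -/
theorem shapiro_heckeH_kerData [Finite Δ] (hκ : Function.Surjective κ)
    (ξ : H1 (chiOf 𝒪 κ) (MonoidAlgebra 𝒪 Δ)) :
    shapiro 𝒪 κ hκ (heckeH (MonoidAlgebra 𝒪 Δ) (nebOfDelta 𝒪 D δ K) ξ) =
      (kerData D κ δ K t 1 ht ι₁ κ.ker.subtype κ.ker.subtype_injective hι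
        (fun γ => by rw [Subgroup.range_subtype, MonoidHom.mem_ker])).heckeHom
        (shapiro 𝒪 κ hκ ξ) :=
  shapiro_heckeH (nebOfDelta 𝒪 D δ K) t (chiOf_mul_nebOfDelta D δ K t ht) _
    (fun h x => map_kerData_coc D κ δ K t 1 ht ι₁ κ.ker.subtype κ.ker.subtype_injective hι _ h x)
    hκ ξ

end KerData

/-! ### the augmentation is the transfer (corestriction) -/

section Transfer

variable [Fintype Δ]

/-- the augmentation `𝒪[Δ] → 𝒪`, as the sum of the coefficients. -/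
def augL (𝒪 : Type*) [CommRing 𝒪] (Δ : Type*) [CommGroup Δ] [Fintype Δ] :
    MonoidAlgebra 𝒪 Δ →ₗ[𝒪] 𝒪 where
  toFun a := ∑ δ, a.coeff δ
  map_add' a b := by
    simp only [MonoidAlgebra.coeff_add, Finsupp.add_apply, Finset.sum_add_distrib]
  map_smul' r a := by
    simp only [MonoidAlgebra.coeff_smul, Finsupp.smul_apply, smul_eq_mul, RingHom.id_apply,
      Finset.mul_sum]

theorem augL_apply (a : MonoidAlgebra 𝒪 Δ) : augL 𝒪 Δ a = ∑ δ, a.coeff δ := rfl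

/-- the augmentation does not see the action of `Γ`. -/
theorem augL_chiOf_smul (g : Γ) (a : MonoidAlgebra 𝒪 Δ) :
    augL 𝒪 Δ (((chiOf 𝒪 κ g : (MonoidAlgebra 𝒪 Δ)ˣ) : MonoidAlgebra 𝒪 Δ) • a) = augL 𝒪 Δ a := by
  rw [augL_apply, augL_apply]
  simp only [chiOf_smul_apply]
  exact Equiv.sum_comp (Equiv.mulLeft (κ g)⁻¹) (fun δ => a.coeff δ)

theorem augL_dZero (a : MonoidAlgebra 𝒪 Δ) (g : Γ) :
    augL 𝒪 Δ ((dZero (chiOf 𝒪 κ) (MonoidAlgebra 𝒪 Δ) a : Γ → MonoidAlgebra 𝒪 Δ) g) = 0 := by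
  rw [dZero_apply, map_sub, augL_chiOf_smul, sub_self]

/-- the augmentation of a cocycle is a homomorphism `Γ → 𝒪`. -/
def augHom (c : Z1 (chiOf 𝒪 κ) (MonoidAlgebra 𝒪 Δ)) : Additive Γ →+ 𝒪 :=
  AddMonoidHom.mk' (fun g => augL 𝒪 Δ ((c : Γ → MonoidAlgebra 𝒪 Δ) (Additive.toMul g))) (by
    intro g h
    show augL 𝒪 Δ ((c : Γ → MonoidAlgebra 𝒪 Δ) (Additive.toMul g * Additive.toMul h)) = _
    rw [Z1.mul, map_add, augL_chiOf_smul])

@[simp] theorem augHom_apply (c : Z1 (chiOf 𝒪 κ) (MonoidAlgebra 𝒪 Δ)) (g : Γ) :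
    augHom c (Additive.ofMul g) = augL 𝒪 Δ ((c : Γ → MonoidAlgebra 𝒪 Δ) g) := rfl

variable (s : Δ → Γ) (hs : ∀ δ, κ (s δ) = δ)

/-- **the transfer** (corestriction) `Hom(ker κ, 𝒪) → Hom(Γ, 𝒪)` for the section `s`:
`(Cor φ) g = ∑ δ, φ (s δ⁻¹ · g · s (κ g⁻¹ δ))`. -/
def transfer (φ : Additive κ.ker →+ 𝒪) : Additive Γ →+ 𝒪 := augHom (indCocycle s hs φ)

theorem transfer_apply (φ : Additive κ.ker →+ 𝒪) (g : Γ) :
    transfer s hs φ (Additive.ofMul g) = ∑ δ, φ (Additive.ofMul (indElt s hs g δ)) := rfl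

/-- **the augmentation of a cocycle is the transfer of its Shapiro image.** -/
theorem augHom_eq_transfer (hκ : Function.Surjective κ)
    (c : Z1 (chiOf 𝒪 κ) (MonoidAlgebra 𝒪 Δ)) :
    augHom c = transfer s hs (resOne 𝒪 κ c) := by
  obtain ⟨a, ha⟩ := exists_dZero_eq_of_resOne_eq_zero hκ (c - indCocycle s hs (resOne 𝒪 κ c))
    (by rw [map_sub, resOne_indCocycle, sub_self])
  have hc : c = indCocycle s hs (resOne 𝒪 κ c) + dZero (chiOf 𝒪 κ) (MonoidAlgebra 𝒪 Δ) a := by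
    rw [ha]; abel
  refine AddMonoidHom.ext fun g' => ?_
  obtain ⟨g, rfl⟩ := Additive.ofMul.surjective g'
  show augL 𝒪 Δ ((c : Γ → MonoidAlgebra 𝒪 Δ) g) =
    augL 𝒪 Δ ((indCocycle s hs (resOne 𝒪 κ c) : Γ → MonoidAlgebra 𝒪 Δ) g)
  conv_lhs => rw [hc]
  rw [Submodule.coe_add, Pi.add_apply, map_add, augL_dZero, add_zero]

/-- the same through `shapiro`. -/
theorem augHom_eq_transfer_shapiro (hκ : Function.Surjective κ)
    (c : Z1 (chiOf 𝒪 κ) (MonoidAlgebra 𝒪 Δ)) :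
    augHom c = transfer s hs (shapiro 𝒪 κ hκ (H1.mk (chiOf 𝒪 κ) (MonoidAlgebra 𝒪 Δ) c)) :=
  augHom_eq_transfer s hs hκ c

/-- the transfer does not depend on the section. -/
theorem transfer_eq_transfer (hκ : Function.Surjective κ) (s' : Δ → Γ)
    (hs' : ∀ δ, κ (s' δ) = δ) (φ : Additive κ.ker →+ 𝒪) :
    transfer s hs φ = transfer s' hs' φ := by
  have h := augHom_eq_transfer s' hs' hκ (indCocycle s hs φ)
  rw [resOne_indCocycle] at h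
  exact h

/-- `augL` is the canonical augmentation `MonoidAlgebra.lift` of the trivial character. -/
theorem augL_eq_lift (a : MonoidAlgebra 𝒪 Δ) :
    augL 𝒪 Δ a = MonoidAlgebra.lift 𝒪 𝒪 Δ (1 : Δ →* 𝒪) a := by
  rw [augL_apply, MonoidAlgebra.lift_apply]
  rw [Finsupp.sum_fintype _ _ (by intro i; simp)]
  simp

end Transfer

/-! ### coefficients with trivial action of `Δ`: `H¹ = Hom`, and the push-forward along
`𝒪[Δ] → A` is the transfer -/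

section Triv

variable {A : Type*} [AddCommGroup A] [Module (MonoidAlgebra 𝒪 Δ) A]
  (hA : ∀ (δ : Δ) (x : A), (MonoidAlgebra.single δ (1 : 𝒪) : MonoidAlgebra 𝒪 Δ) • x = x)

include hA in
theorem chiOf_smul_triv (g : Γ) (x : A) :
    ((chiOf 𝒪 κ g : (MonoidAlgebra 𝒪 Δ)ˣ) : MonoidAlgebra 𝒪 Δ) • x = x := by
  rw [chiOf_val]
  exact hA _ x

include hA in
/-- on a module with trivial action of `Δ`, `a ∈ 𝒪[Δ]` acts through its augmentation. -/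
theorem smul_eq_augL_smul [Fintype Δ] (a : MonoidAlgebra 𝒪 Δ) (x : A) :
    a • x = (MonoidAlgebra.single (1 : Δ) (augL 𝒪 Δ a) : MonoidAlgebra 𝒪 Δ) • x := by
  induction a using MonoidAlgebra.induction_linear with
  | zero => rw [map_zero, MonoidAlgebra.single_zero]
  | add a b ha hb => rw [map_add, MonoidAlgebra.single_add, add_smul, add_smul, ha, hb]
  | single δ r =>
    have e : (MonoidAlgebra.single δ r : MonoidAlgebra 𝒪 Δ) =
        MonoidAlgebra.single (1 : Δ) r * MonoidAlgebra.single δ (1 : 𝒪) := by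
      rw [MonoidAlgebra.single_mul_single, one_mul, mul_one]
    have e2 : augL 𝒪 Δ (MonoidAlgebra.single δ r : MonoidAlgebra 𝒪 Δ) = r := by
      classical
      rw [augL_apply]
      simp only [MonoidAlgebra.coeff_single, Finsupp.single_apply]
      rw [Finset.sum_ite_eq Finset.univ δ (fun _ => r), if_pos (Finset.mem_univ δ)]
    rw [e2, e, mul_smul, hA]

/-- cocycles with values in a module with trivial action are homomorphisms. -/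
def homOfZ1 : Z1 (chiOf 𝒪 κ) A →ₗ[MonoidAlgebra 𝒪 Δ] (Additive Γ →+ A) where
  toFun c := AddMonoidHom.mk' (fun g => (c : Γ → A) (Additive.toMul g)) (by
    intro g h
    show (c : Γ → A) (Additive.toMul g * Additive.toMul h) = _
    rw [Z1.mul, chiOf_smul_triv hA])
  map_add' c c' := rfl
  map_smul' r c := rfl

@[simp] theorem homOfZ1_apply (c : Z1 (chiOf 𝒪 κ) A) (g : Γ) :
    homOfZ1 hA c (Additive.ofMul g) = (c : Γ → A) g := rfl

include hA in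
theorem dZero_triv (a : A) : dZero (chiOf 𝒪 κ) A a = 0 := by
  apply Subtype.ext
  funext g
  rw [dZero_apply, chiOf_smul_triv hA, sub_self]
  rfl

/-- **`H¹(Γ, A) = Hom(Γ, A)` for a trivial action.** -/
def homOfH1 : H1 (chiOf 𝒪 κ) A →ₗ[MonoidAlgebra 𝒪 Δ] (Additive Γ →+ A) :=
  (B1 (chiOf 𝒪 κ) A).liftQ (homOfZ1 hA) (by
    rintro _ ⟨a, rfl⟩
    rw [dZero_triv hA, LinearMap.mem_ker, map_zero])

@[simp] theorem homOfH1_mk (c : Z1 (chiOf 𝒪 κ) A) :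
    homOfH1 hA (H1.mk (chiOf 𝒪 κ) A c) = homOfZ1 hA c := rfl

theorem homOfH1_bijective : Function.Bijective (homOfH1 (κ := κ) hA) := by
  constructor
  · rw [← LinearMap.ker_eq_bot, LinearMap.ker_eq_bot']
    intro ξ hξ
    obtain ⟨c, rfl⟩ := H1.mk_surjective ξ
    rw [homOfH1_mk] at hξ
    have hc : c = 0 := by
      apply Subtype.ext
      funext g
      exact congrArg (fun φ : Additive Γ →+ A => φ (Additive.ofMul g)) hξ
    rw [hc, map_zero]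
  · intro φ
    refine ⟨H1.mk (chiOf 𝒪 κ) A ⟨fun g => φ (Additive.ofMul g), ?_⟩, ?_⟩
    · intro g h
      show φ (Additive.ofMul (g * h)) = φ (Additive.ofMul g) +
        ((chiOf 𝒪 κ g : (MonoidAlgebra 𝒪 Δ)ˣ) : MonoidAlgebra 𝒪 Δ) • φ (Additive.ofMul h)
      rw [chiOf_smul_triv hA, ofMul_mul, map_add]
    · rw [homOfH1_mk]
      rfl

/-- **the push-forward `H¹(Γ, 𝒪[Δ]_χ) → H¹(Γ, A) = Hom(Γ, A)` along an `𝒪[Δ]`-linear map
`f : 𝒪[Δ] → A`, `Δ` acting trivially on `A`, is the transfer (corestriction) of the Shapiro image,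
times `f 1`.** -/
theorem homOfH1_map [Fintype Δ] (s : Δ → Γ) (hs : ∀ δ, κ (s δ) = δ)
    (hκ : Function.Surjective κ) (f : MonoidAlgebra 𝒪 Δ →ₗ[MonoidAlgebra 𝒪 Δ] A)
    (ξ : H1 (chiOf 𝒪 κ) (MonoidAlgebra 𝒪 Δ)) (g : Γ) :
    homOfH1 hA (H1.map (chiOf 𝒪 κ) f ξ) (Additive.ofMul g) =
      (MonoidAlgebra.single (1 : Δ) (transfer s hs (shapiro 𝒪 κ hκ ξ) (Additive.ofMul g)) :
        MonoidAlgebra 𝒪 Δ) • f 1 := by
  obtain ⟨c, rfl⟩ := H1.mk_surjective ξ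
  rw [H1.map_mk, homOfH1_mk, homOfZ1_apply, Z1.map_apply, ← augHom_eq_transfer_shapiro s hs hκ c,
    augHom_apply, ← smul_eq_augL_smul hA, ← map_smul, smul_eq_mul, mul_one]

/-- the double-coset operator of a nebentypus whose values act trivially on `A` is the
double-coset operator `heckeHom` on `Hom(Γ, A)`. -/
theorem homOfH1_heckeH {G : Type*} [Group G] {ι : Γ →* G} {X : Type*} [Fintype X]
    {D : CosetData ι X} (ν : Neb D (chiOf 𝒪 κ))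
    (hν : ∀ (x : X) (a : A), (((ν.ψ x)⁻¹ : (MonoidAlgebra 𝒪 Δ)ˣ) : MonoidAlgebra 𝒪 Δ) • a = a)
    (ξ : H1 (chiOf 𝒪 κ) A) :
    homOfH1 hA (heckeH A ν ξ) = D.heckeHom (homOfH1 hA ξ) := by
  obtain ⟨c, rfl⟩ := H1.mk_surjective ξ
  refine AddMonoidHom.ext fun g' => ?_
  obtain ⟨g, rfl⟩ := Additive.ofMul.surjective g'
  rw [heckeH_mk, homOfH1_mk, homOfH1_mk, homOfZ1_apply, heckeZ_apply, CosetData.heckeHom_apply]
  exact Finset.sum_congr rfl fun x _ => by rw [hν, homOfZ1_apply]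

include hA in
/-- the values of `nebOfDelta` act trivially. -/
theorem nebOfDelta_inv_smul_triv {G : Type*} [Group G] {ι : Γ →* G} {X : Type*}
    (D : CosetData ι X) (δ : X → Δ) (K : ∀ g x, κ (D.coc g x) * δ (D.perm g x) = δ x * κ g)
    (x : X) (a : A) :
    ((((nebOfDelta 𝒪 D δ K).ψ x)⁻¹ : (MonoidAlgebra 𝒪 Δ)ˣ) : MonoidAlgebra 𝒪 Δ) • a = a := by
  have h : ((((nebOfDelta 𝒪 D δ K).ψ x)⁻¹ : (MonoidAlgebra 𝒪 Δ)ˣ) : MonoidAlgebra 𝒪 Δ) =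
      MonoidAlgebra.single (δ x)⁻¹ (1 : 𝒪) := by
    show ((unitOf (𝒪 := 𝒪) (δ x))⁻¹ : (MonoidAlgebra 𝒪 Δ)ˣ).val = _
    unfold unitOf
    rw [← map_inv, ← map_inv]
    rfl
  rw [h]
  exact hA _ a

end Triv

end Fermat.Agent.S43.Hecke.Shapiro
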