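/-
PROJECT R (S43, row 37), block L3 (Hecke modules, leader helper24), brick H6 (helper20):
THE INSTANCE `Γ = Γ₀(M)` of the twisted cohomology of `Hecke/Defs.lean`.

`Ξ : (ZMod M)ˣ →* Rˣ` any character, `chiXi Ξ = Ξ ∘ (lower right entry mod M) : Γ₀(M) →* Rˣ`.

* `nebT Ξ hr hrM`, `nebU Ξ hr hrM`: the nebentypus data of `T_r` (`r ∤ M`) and `U_r` (`r ∣ M`) on the
  coset data `cosetT`, `cosetU` of `S30/Hecke/Gamma0Cosets`, with the weights `delta` of
  `S48/B/Hecke/Gamma1Cosets`; `deg_nebT`, `deg_nebU`;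
* `cd1_chiXi`: `CD1 (chiXi Ξ)` when `Ξ (-1) = 1` and `2`, `3` are units (from `Hecke/CD1.cd1`);
* `finite_Z1`, `finite_H1`: over a noetherian ring, for a finitely generated group and a finite
  module `A`, `Z1 χ A` and `H1 χ A` are finite; `fg_Gamma0`; `finite_H1_chiXi`;
* section `Congr`: characters (and nebentypus data) that are congruent modulo an ideal `𝔫` have the
  SAME cocycles with values in a module killed by `𝔫`, the same coboundaries and the same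
  double-coset operators: `Z1_eq_of_congr`, `H1congr`, `H1congr_heckeH`; instance `chiXi_congr`,
  `nebT_congr`.
-/
import Mathlib
import Fermat.Agent.S30.Hecke.Gamma0Cosets
import Fermat.Agent.S48.B.Hecke.Gamma1Cosets
import Fermat.Agent.S43.Hecke.CD1
import Fermat.Agent.S43.Hecke.Shapiro

set_option autoImplicit false

open CongruenceSubgroup Matrix.SpecialLinearGroup
open scoped MatrixGroups BigOperators

noncomputable section

namespace Fermat.Agent.S43.Hecke.Inst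

open Fermat.Agent.S30.Hecke.DoubleCoset Fermat.Agent.S30.Hecke.Gamma0Cosets
open Fermat.Agent.S48.B.Hecke.Gamma1Cosets
open Fermat.Agent.S43.Hecke.Defs Fermat.Agent.S43.Hecke.Seam

universe u v w

/-! ### the character and the nebentypus data of `T_r`, `U_r` -/

section Char

variable {M : ℕ} {R : Type u} [CommRing R] (Ξ : (ZMod M)ˣ →* Rˣ)

/-- the character `Ξ ∘ (lower right entry modulo M)` of `Γ₀(M)`. -/
def chiXi : ↥(Gamma0 M) →* Rˣ := Ξ.comp (chi M)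

@[simp] theorem chiXi_apply (g : Gamma0 M) : chiXi Ξ g = Ξ (chi M g) := rfl

variable {r : ℕ}

/-- **the nebentypus of `T_r`, `r ∤ M`**: `ψ (some j) = Ξ r`, `ψ none = 1`. -/
def nebT (hr : r.Prime) (hrM : ¬ r ∣ M) : Neb (cosetT hr hrM) (chiXi Ξ) where
  ψ x := Ξ (delta hr hrM x)
  rel g x := by
    rw [chiXi_apply, chiXi_apply, ← map_mul, ← map_mul, chi_cosetT]

@[simp] theorem nebT_psi (hr : r.Prime) (hrM : ¬ r ∣ M) (x : Option (Fin r)) :
    (nebT Ξ hr hrM).ψ x = Ξ (delta hr hrM x) := rfl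

omit [CommRing R] in
/-- `chi_cosetU` without the constant weights. -/
theorem chi_cosetU_coc (hr : r.Prime) (hrM : r ∣ M) (g : Gamma0 M) (j : Fin r) :
    chi M ((cosetU hr hrM).coc g j) = chi M g :=
  (mul_one _).symm.trans ((chi_cosetU hr hrM g j).trans (one_mul _))

/-- **the nebentypus of `U_r`, `r ∣ M`**: `ψ = 1` (no condition on `Ξ`: the cocycle of `cosetU`
preserves the lower right entry modulo `M`, `chi_cosetU`). -/
def nebU (hr : r.Prime) (hrM : r ∣ M) : Neb (cosetU hr hrM) (chiXi Ξ) where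
  ψ _ := 1
  rel g j := by
    rw [one_mul, mul_one, chiXi_apply, chiXi_apply, chi_cosetU_coc hr hrM g j]

@[simp] theorem nebU_psi (hr : r.Prime) (hrM : r ∣ M) (j : Fin r) : (nebU Ξ hr hrM).ψ j = 1 := rfl

/-- `deg T_r = 1 + r ⟨r⟩⁻¹`. -/
theorem deg_nebT (hr : r.Prime) (hrM : ¬ r ∣ M) :
    (nebT Ξ hr hrM).deg = 1 + (r : R) * (((Ξ (pUnit hr hrM))⁻¹ : Rˣ) : R) := by
  unfold Neb.deg
  rw [Fintype.sum_option]
  simp only [nebT_psi, delta, map_one, inv_one, Units.val_one, Finset.sum_const, Finset.card_univ,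
    Fintype.card_fin, nsmul_eq_mul]

/-- `deg U_r = r`. -/
theorem deg_nebU (hr : r.Prime) (hrM : r ∣ M) : (nebU Ξ hr hrM).deg = (r : R) := by
  unfold Neb.deg
  simp only [nebU_psi, inv_one, Units.val_one, Finset.sum_const, Finset.card_univ,
    Fintype.card_fin, nsmul_eq_mul, mul_one]

theorem neg_one_mem_Gamma0 (M : ℕ) : (-1 : SL(2, ℤ)) ∈ Gamma0 M := by
  rw [Gamma0_mem]
  simp

theorem chi_neg_one (M : ℕ) : chi M ⟨-1, neg_one_mem_Gamma0 M⟩ = -1 := by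
  apply Units.ext
  rw [coe_chi, Units.val_neg, Units.val_one]
  simp

/-- **`CD1` for `Γ₀(M)` and the character `chiXi Ξ`**, `Ξ (-1) = 1`, `6` invertible. -/
theorem cd1_chiXi (hΞ : Ξ (-1) = 1) (h2 : IsUnit (2 : R)) (h3 : IsUnit (3 : R)) :
    CD1 (chiXi Ξ) :=
  Fermat.Agent.S43.Hecke.CD1.cd1 (neg_one_mem_Gamma0 M)
    (by rw [chiXi_apply, chi_neg_one, hΞ]) h2 h3

end Char

/-! ### finiteness -/

section Finite

variable {Γ : Type v} [Group Γ] {R : Type u} [CommRing R] (χ : Γ →* Rˣ)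
  (A : Type w) [AddCommGroup A] [Module R A]

variable {χ A} in
/-- the elements where a cocycle vanishes form a subgroup. -/
def vanish (c : Z1 χ A) : Subgroup Γ where
  carrier := {g | (c : Γ → A) g = 0}
  one_mem' := Z1.one c
  mul_mem' := by
    intro g h hg hh
    show (c : Γ → A) (g * h) = 0
    rw [Z1.mul, show (c : Γ → A) g = 0 from hg, show (c : Γ → A) h = 0 from hh, smul_zero,
      add_zero]
  inv_mem' := by
    intro g hg
    show (c : Γ → A) g⁻¹ = 0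
    have h := Z1.mul c g⁻¹ g
    rw [inv_mul_cancel, Z1.one, show (c : Γ → A) g = 0 from hg, smul_zero, add_zero] at h
    exact h.symm

variable {χ A} in
/-- a cocycle vanishing on a generating set vanishes. -/
theorem eq_zero_of_vanish_on {S : Set Γ} (hS : Subgroup.closure S = ⊤) (c : Z1 χ A)
    (hc : ∀ s ∈ S, (c : Γ → A) s = 0) : c = 0 := by
  have h : Subgroup.closure S ≤ vanish c := (Subgroup.closure_le _).mpr hc
  rw [hS] at h
  apply Subtype.ext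
  funext g
  exact h (Subgroup.mem_top g)

/-- the values of the cocycles on a finite set. -/
def evalOn (S : Finset Γ) : Z1 χ A →ₗ[R] (S → A) where
  toFun c s := (c : Γ → A) s
  map_add' _ _ := rfl
  map_smul' _ _ := rfl

/-- **cocycles of a finitely generated group with values in a finite module over a noetherian
ring form a finite module.** -/
theorem finite_Z1 [Group.FG Γ] [IsNoetherianRing R] [Module.Finite R A] :
    Module.Finite R (Z1 χ A) := by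
  obtain ⟨S, hS⟩ := Group.fg_def.mp (inferInstance : Group.FG Γ)
  refine Module.Finite.of_injective (evalOn χ A S) ?_
  rw [← LinearMap.ker_eq_bot, LinearMap.ker_eq_bot']
  intro c hc
  refine eq_zero_of_vanish_on hS c fun s hs => ?_
  exact congrFun hc ⟨s, hs⟩

/-- the same for `H¹`. -/
theorem finite_H1 [Group.FG Γ] [IsNoetherianRing R] [Module.Finite R A] :
    Module.Finite R (H1 χ A) := by
  have := finite_Z1 χ A
  exact Module.Finite.quotient R _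

/-- `Γ₀(M)` is finitely generated (Schreier, `SL(2,ℤ) = ⟨S, T⟩`). -/
theorem fg_Gamma0 (M : ℕ) [NeZero M] : Group.FG ↥(Gamma0 M) := by
  have : Group.FG SL(2, ℤ) := by
    rw [Group.fg_iff]
    exact ⟨{ModularGroup.S, ModularGroup.T}, SpecialLinearGroup.SL2Z_generators,
      Set.toFinite _⟩
  infer_instance

/-- **`H¹(Γ₀(M), A_χ)` is finite over `R`.** -/
theorem finite_H1_chiXi {M : ℕ} [NeZero M] (Ξ : (ZMod M)ˣ →* Rˣ) [IsNoetherianRing R]
    [Module.Finite R A] : Module.Finite R (H1 (chiXi Ξ) A) := by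
  have := fg_Gamma0 M
  exact finite_H1 (chiXi Ξ) A

end Finite

/-! ### congruent characters have the same cohomology with coefficients killed by the ideal -/

section Congr

variable {Γ : Type v} [Group Γ] {R : Type u} [CommRing R] {χ χ' : Γ →* Rˣ} (𝔫 : Ideal R)
  {A : Type w} [AddCommGroup A] [Module R A]

variable {𝔫} in
/-- congruent scalars act in the same way on a module killed by `𝔫`. -/
theorem smul_eq_of_congr {a b : R} (h : a - b ∈ 𝔫) (hA : ∀ r ∈ 𝔫, ∀ x : A, r • x = 0) (x : A) :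
    a • x = b • x := by
  have h0 := hA _ h x
  rw [sub_smul, sub_eq_zero] at h0
  exact h0

variable {𝔫} in
/-- the inverses of congruent units are congruent. -/
theorem inv_sub_inv_mem {a b : Rˣ} (h : (a : R) - (b : R) ∈ 𝔫) :
    ((a⁻¹ : Rˣ) : R) - ((b⁻¹ : Rˣ) : R) ∈ 𝔫 := by
  have e : ((a⁻¹ : Rˣ) : R) - ((b⁻¹ : Rˣ) : R) =
      -(((a⁻¹ : Rˣ) : R) * ((b⁻¹ : Rˣ) : R)) * ((a : R) - (b : R)) := by
    have ha : ((a⁻¹ : Rˣ) : R) * (a : R) = 1 := Units.inv_mul a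
    have hb : ((b⁻¹ : Rˣ) : R) * (b : R) = 1 := Units.inv_mul b
    linear_combination ((b⁻¹ : Rˣ) : R) * ha - ((a⁻¹ : Rˣ) : R) * hb
  rw [e]
  exact 𝔫.mul_mem_left _ h

variable (hχ : ∀ g, ((χ' g : Rˣ) : R) - ((χ g : Rˣ) : R) ∈ 𝔫) (hA : ∀ r ∈ 𝔫, ∀ x : A, r • x = 0)

include hχ hA in
/-- **characters congruent modulo `𝔫` have the same cocycles with values in a module killed by
`𝔫`.** -/
theorem Z1_eq_of_congr : Z1 χ' A = Z1 χ A := by
  ext c
  rw [mem_Z1, mem_Z1]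
  constructor
  · intro h g g'
    rw [h g g', smul_eq_of_congr (hχ g) hA]
  · intro h g g'
    rw [h g g', smul_eq_of_congr (hχ g) hA]

/-- the identity `Z1 χ' A = Z1 χ A` as a linear equivalence. -/
def Z1congr : Z1 χ' A ≃ₗ[R] Z1 χ A := LinearEquiv.ofEq _ _ (Z1_eq_of_congr 𝔫 hχ hA)

@[simp] theorem Z1congr_apply (c : Z1 χ' A) (g : Γ) :
    (Z1congr 𝔫 hχ hA c : Γ → A) g = (c : Γ → A) g := rfl

@[simp] theorem Z1congr_symm_apply (c : Z1 χ A) (g : Γ) :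
    ((Z1congr 𝔫 hχ hA).symm c : Γ → A) g = (c : Γ → A) g := rfl

theorem Z1congr_dZero (a : A) : Z1congr 𝔫 hχ hA (dZero χ' A a) = dZero χ A a := by
  apply Subtype.ext
  funext g
  rw [Z1congr_apply, dZero_apply, dZero_apply, smul_eq_of_congr (hχ g) hA]

theorem map_B1_Z1congr :
    (B1 χ' A).map (Z1congr 𝔫 hχ hA : Z1 χ' A →ₗ[R] Z1 χ A) = B1 χ A := by
  apply le_antisymm
  · rintro _ ⟨_, ⟨a, rfl⟩, rfl⟩
    exact ⟨a, (Z1congr_dZero 𝔫 hχ hA a).symm⟩
  · rintro _ ⟨a, rfl⟩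
    exact ⟨dZero χ' A a, ⟨a, rfl⟩, Z1congr_dZero 𝔫 hχ hA a⟩

/-- **the identification `H1 χ' A = H1 χ A`** for congruent characters. -/
def H1congr : H1 χ' A ≃ₗ[R] H1 χ A :=
  Submodule.Quotient.equiv (B1 χ' A) (B1 χ A) (Z1congr 𝔫 hχ hA) (map_B1_Z1congr 𝔫 hχ hA)

@[simp] theorem H1congr_mk (c : Z1 χ' A) :
    H1congr 𝔫 hχ hA (H1.mk χ' A c) = H1.mk χ A (Z1congr 𝔫 hχ hA c) := rfl

/-- naturality in the coefficients. -/
theorem H1congr_map {B : Type w} [AddCommGroup B] [Module R B] (hB : ∀ r ∈ 𝔫, ∀ x : B, r • x = 0)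
    (f : A →ₗ[R] B) (ξ : H1 χ' A) :
    H1congr 𝔫 hχ hB (H1.map χ' f ξ) = H1.map χ f (H1congr 𝔫 hχ hA ξ) := by
  obtain ⟨c, rfl⟩ := H1.mk_surjective ξ
  rfl

variable {G : Type*} [Group G] {ι : Γ →* G} {X : Type*} [Fintype X] {D : CosetData ι X}
  (ν : Neb D χ) (ν' : Neb D χ') (hν : ∀ x, ((ν'.ψ x : Rˣ) : R) - ((ν.ψ x : Rˣ) : R) ∈ 𝔫)

include hν in
/-- congruent nebentypus data give the same double-coset operator on cocycles. -/
theorem Z1congr_heckeZ (c : Z1 χ' A) :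
    Z1congr 𝔫 hχ hA (heckeZ A ν' c) = heckeZ A ν (Z1congr 𝔫 hχ hA c) := by
  apply Subtype.ext
  funext g
  rw [Z1congr_apply, heckeZ_apply, heckeZ_apply]
  refine Finset.sum_congr rfl fun x _ => ?_
  rw [Z1congr_apply, smul_eq_of_congr (inv_sub_inv_mem (hν x)) hA]

include hν in
/-- **congruent nebentypus data give the same double-coset operator on `H¹`.** -/
theorem H1congr_heckeH (ξ : H1 χ' A) :
    H1congr 𝔫 hχ hA (heckeH A ν' ξ) = heckeH A ν (H1congr 𝔫 hχ hA ξ) := by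
  obtain ⟨c, rfl⟩ := H1.mk_surjective ξ
  rw [heckeH_mk, H1congr_mk, H1congr_mk, heckeH_mk, Z1congr_heckeZ 𝔫 hχ hA ν ν' hν]

end Congr

/-! ### the instance: characters of `(ZMod M)ˣ` congruent modulo `𝔫` -/

section CongrInst

variable {M : ℕ} {R : Type u} [CommRing R] {Ξ Ξ' : (ZMod M)ˣ →* Rˣ} {𝔫 : Ideal R}

theorem chiXi_congr (hΞ : ∀ d, ((Ξ' d : Rˣ) : R) - ((Ξ d : Rˣ) : R) ∈ 𝔫) (g : Gamma0 M) :
    ((chiXi Ξ' g : Rˣ) : R) - ((chiXi Ξ g : Rˣ) : R) ∈ 𝔫 := hΞ _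

theorem nebT_congr (hΞ : ∀ d, ((Ξ' d : Rˣ) : R) - ((Ξ d : Rˣ) : R) ∈ 𝔫) {r : ℕ} (hr : r.Prime)
    (hrM : ¬ r ∣ M) (x : Option (Fin r)) :
    (((nebT Ξ' hr hrM).ψ x : Rˣ) : R) - (((nebT Ξ hr hrM).ψ x : Rˣ) : R) ∈ 𝔫 := hΞ _

theorem nebU_congr {r : ℕ} (hr : r.Prime) (hrM : r ∣ M) (j : Fin r) :
    (((nebU Ξ' hr hrM).ψ j : Rˣ) : R) - (((nebU Ξ hr hrM).ψ j : Rˣ) : R) ∈ 𝔫 := by
  rw [nebU_psi, nebU_psi, sub_self]
  exact 𝔫.zero_mem

/-- a twist by a character congruent to `1` is congruent. -/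
theorem mul_congr {η : (ZMod M)ˣ →* Rˣ} (hη : ∀ d, ((η d : Rˣ) : R) - 1 ∈ 𝔫) (d : (ZMod M)ˣ) :
    (((η * Ξ) d : Rˣ) : R) - ((Ξ d : Rˣ) : R) ∈ 𝔫 := by
  rw [MonoidHom.mul_apply, Units.val_mul]
  have e : ((η d : Rˣ) : R) * ((Ξ d : Rˣ) : R) - ((Ξ d : Rˣ) : R) =
      ((Ξ d : Rˣ) : R) * (((η d : Rˣ) : R) - 1) := by ring
  rw [e]
  exact 𝔫.mul_mem_left _ (hη d)

end CongrInst

/-! ### Shapiro with twisted representatives of constant weight -/

section ShapiroUnit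

open Fermat.Agent.S43.Hecke.Shapiro Fermat.Agent.S48.B.Hecke.CosetRestrict

variable {Γ : Type*} [Group Γ] {G : Type*} [Group G] {ι : Γ →* G} {X : Type*} {D : CosetData ι X}

/-- the nebentypus with all the values multiplied by a constant unit. -/
def nebMulUnit {R : Type u} [CommRing R] {χ : Γ →* Rˣ} (ν : Neb D χ) (e : Rˣ) : Neb D χ where
  ψ x := ν.ψ x * e
  rel g x := by rw [mul_right_comm, ν.rel, mul_assoc]

theorem heckeH_nebMulUnit [Fintype X] {R : Type u} [CommRing R] {χ : Γ →* Rˣ} (ν : Neb D χ)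
    (e : Rˣ) {A : Type w} [AddCommGroup A] [Module R A] (ξ : H1 χ A) :
    heckeH A (nebMulUnit ν e) ξ = ((e⁻¹ : Rˣ) : R) • heckeH A ν ξ := by
  obtain ⟨c, rfl⟩ := H1.mk_surjective ξ
  rw [heckeH_mk, heckeH_mk, ← map_smul]
  congr 1
  apply Subtype.ext
  funext g
  rw [heckeZ_apply, Submodule.coe_smul, Pi.smul_apply, heckeZ_apply, Finset.smul_sum]
  refine Finset.sum_congr rfl fun x _ => ?_
  show ((((ν.ψ x * e)⁻¹ : Rˣ) : R)) • _ = _
  rw [mul_inv, mul_comm, Units.val_mul, mul_smul]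

variable {Δ : Type*} [CommGroup Δ] {𝒪 : Type*} [CommRing 𝒪] {κ : Γ →* Δ}

/-- **Shapiro for twisted representatives of constant weight `d`**: if `χ (t x) * ψ x` is the
constant unit `single d 1`, the double-coset operator of the twisted coset datum on `Hom(ker κ, 𝒪)`
is `single d 1 • T_ν`. -/
theorem shapiro_heckeH_const [Fintype X] [Finite Δ] (ν : Neb D (chiOf 𝒪 κ)) (t : X → Γ) (d : Δ)
    (ht : ∀ x, chiOf 𝒪 κ (t x) * ν.ψ x = unitOf d)
    {G' : Type*} [Group G'] {ι' : κ.ker →* G'} (D' : CosetData ι' X)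
    (hcoc : ∀ (h : κ.ker) (x : X),
      ((D'.coc h x : κ.ker) : Γ) = t x * D.coc (h : Γ) x * (t (D.perm (h : Γ) x))⁻¹)
    (hκ : Function.Surjective κ) (ξ : H1 (chiOf 𝒪 κ) (MonoidAlgebra 𝒪 Δ)) :
    D'.heckeHom (shapiro 𝒪 κ hκ ξ) =
      shapiro 𝒪 κ hκ ((MonoidAlgebra.single d (1 : 𝒪) : MonoidAlgebra 𝒪 Δ) •
        heckeH (MonoidAlgebra 𝒪 Δ) ν ξ) := by
  have ht' : ∀ x, chiOf 𝒪 κ (t x) * (nebMulUnit ν (unitOf (𝒪 := 𝒪) d)⁻¹).ψ x = 1 := by
    intro x
    show chiOf 𝒪 κ (t x) * (ν.ψ x * (unitOf d)⁻¹) = 1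
    rw [← mul_assoc, ht, mul_inv_cancel]
  rw [← shapiro_heckeH (nebMulUnit ν (unitOf (𝒪 := 𝒪) d)⁻¹) t ht' D' hcoc hκ ξ,
    heckeH_nebMulUnit, inv_inv]
  rfl

end ShapiroUnit

/-! ### the instance `Γ₀(M)`, `κ = π ∘ (lower right entry)`, `R = 𝒪[Δ]` -/

section Gamma0Shapiro

open Fermat.Agent.S43.Hecke.Shapiro Fermat.Agent.S48.B.Hecke.CosetRestrict

variable {M : ℕ} {Δ : Type v} [CommGroup Δ] (𝒪 : Type u) [CommRing 𝒪] (π : (ZMod M)ˣ →* Δ)

/-- the character `d ↦ single (π d) 1` of `(ZMod M)ˣ` with values in `𝒪[Δ]ˣ`. -/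
def xiOf : (ZMod M)ˣ →* (MonoidAlgebra 𝒪 Δ)ˣ :=
  (Units.map (MonoidAlgebra.of 𝒪 Δ)).comp ((toUnits (G := Δ)).toMonoidHom.comp π)

/-- the diamond character `Γ₀(M) → Δ`. -/
def kap : ↥(Gamma0 M) →* Δ := π.comp (chi M)

@[simp] theorem kap_apply (g : Gamma0 M) : kap π g = π (chi M g) := rfl

theorem xiOf_apply (d : (ZMod M)ˣ) : xiOf 𝒪 π d = unitOf (π d) := rfl

/-- `chiXi` of `xiOf` is `chiOf` of the diamond character. -/
theorem chiXi_xiOf : chiXi (xiOf 𝒪 π) = chiOf 𝒪 (kap π) := rfl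

theorem kap_surjective [NeZero M] (hπ : Function.Surjective π) : Function.Surjective (kap π) :=
  hπ.comp (chi_surjective M)

variable {r : ℕ}

/-- (K) for `T_r` and the diamond character. -/
theorem kap_cosetT (hr : r.Prime) (hrM : ¬ r ∣ M) (g : Gamma0 M) (x : Option (Fin r)) :
    kap π ((cosetT hr hrM).coc g x) * π (delta hr hrM ((cosetT hr hrM).perm g x)) =
      π (delta hr hrM x) * kap π g := by
  rw [kap_apply, kap_apply, ← map_mul, ← map_mul, chi_cosetT]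

/-- (K) for `U_r` and the diamond character. -/
theorem kap_cosetU (hr : r.Prime) (hrM : r ∣ M) (g : Gamma0 M) (j : Fin r) :
    kap π ((cosetU hr hrM).coc g j) * (fun _ : Fin r => (1 : Δ)) ((cosetU hr hrM).perm g j) =
      (fun _ : Fin r => (1 : Δ)) j * kap π g := by
  show kap π ((cosetU hr hrM).coc g j) * 1 = 1 * kap π g
  rw [mul_one, one_mul, kap_apply, kap_apply, chi_cosetU_coc hr hrM g j]

theorem kap_tcorr (hr : r.Prime) (hrM : ¬ r ∣ M) (x : Option (Fin r)) :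
    kap π (tcorr hr hrM x) * π (delta hr hrM x) = π (pUnit hr hrM) := by
  rw [kap_apply, ← map_mul, chi_tcorr]

theorem mem_range_subtype_iff (γ : Gamma0 M) : γ ∈ (kap π).ker.subtype.range ↔ kap π γ = 1 := by
  rw [Subgroup.range_subtype, MonoidHom.mem_ker]

variable (ι₁ : (kap π).ker →* GL (Fin 2) ℝ) (hι : ∀ g, ι₁ g = iota M ((kap π).ker.subtype g))

/-- **the standard coset datum of `T_r` on `ker κ`** (representatives `[1, j; 0, r]` and
`σ_r [r, 0; 0, 1]`). -/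
def cosetTker (hr : r.Prime) (hrM : ¬ r ∣ M) : CosetData ι₁ (Option (Fin r)) :=
  kerData (cosetT hr hrM) (kap π) (fun x => π (delta hr hrM x)) (kap_cosetT π hr hrM)
    (tcorr hr hrM) (π (pUnit hr hrM)) (kap_tcorr π hr hrM) ι₁ (kap π).ker.subtype
    (kap π).ker.subtype_injective hι (mem_range_subtype_iff π)

/-- **the coset datum of `U_r` on `ker κ`** (representatives `[1, j; 0, r]`). -/
def cosetUker (hr : r.Prime) (hrM : r ∣ M) : CosetData ι₁ (Fin r) :=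
  kerData (cosetU hr hrM) (kap π) (fun _ => 1) (kap_cosetU π hr hrM) (fun _ => 1) 1
    (fun _ => by rw [map_one, one_mul]) ι₁ (kap π).ker.subtype
    (kap π).ker.subtype_injective hι (mem_range_subtype_iff π)

theorem cosetTker_rep_some (hr : r.Prime) (hrM : ¬ r ∣ M) (j : Fin r) :
    (cosetTker π ι₁ hι hr hrM).rep (some j) = ModularForm.heckeMatrix r j := by
  unfold cosetTker
  rw [kerData_rep]
  show iota M 1 * (cosetT hr hrM).rep (some j) = ModularForm.heckeMatrix r j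
  rw [map_one, one_mul, cosetT_rep_some]

theorem cosetTker_rep_none (hr : r.Prime) (hrM : ¬ r ∣ M) :
    (cosetTker π ι₁ hι hr hrM).rep none =
      iota M (sigma hr hrM) * ModularForm.heckeDiagMatrix r := by
  unfold cosetTker
  rw [kerData_rep]
  show iota M (sigma hr hrM) * (cosetT hr hrM).rep none = _
  rw [cosetT_rep_none]

theorem cosetUker_rep (hr : r.Prime) (hrM : r ∣ M) (j : Fin r) :
    (cosetUker π ι₁ hι hr hrM).rep j = ModularForm.heckeMatrix r j := by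
  unfold cosetUker
  rw [kerData_rep]
  show iota M 1 * (cosetU hr hrM).rep j = ModularForm.heckeMatrix r j
  rw [map_one, one_mul]
  rfl

/-- the nebentypus of `T_r` on `chiOf 𝒪 (kap π)`. -/
def nebTk (hr : r.Prime) (hrM : ¬ r ∣ M) : Neb (cosetT hr hrM) (chiOf 𝒪 (kap π)) :=
  nebOfDelta 𝒪 (cosetT hr hrM) (fun x => π (delta hr hrM x)) (kap_cosetT π hr hrM)

/-- the nebentypus of `U_r` on `chiOf 𝒪 (kap π)`. -/
def nebUk (hr : r.Prime) (hrM : r ∣ M) : Neb (cosetU hr hrM) (chiOf 𝒪 (kap π)) :=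
  nebOfDelta 𝒪 (cosetU hr hrM) (fun _ => 1) (kap_cosetU π hr hrM)

/-- the nebentypus of `T_r` for `xiOf` is `nebTk`. -/
theorem nebT_xiOf (hr : r.Prime) (hrM : ¬ r ∣ M) :
    nebT (xiOf 𝒪 π) hr hrM = nebTk 𝒪 π hr hrM := rfl

theorem nebU_xiOf_psi (hr : r.Prime) (hrM : r ∣ M) (j : Fin r) :
    (nebU (xiOf 𝒪 π) hr hrM).ψ j = (nebUk 𝒪 π hr hrM).ψ j := by
  show (1 : (MonoidAlgebra 𝒪 Δ)ˣ) = unitOf (1 : Δ)
  unfold unitOf
  rw [map_one, map_one]

variable [Finite Δ] (hκ : Function.Surjective (kap π))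

/-- **`T_r` through Shapiro**: the standard `T_r` on `Hom(ker κ, 𝒪)` is `⟨r⟩ • T_ν`, `ν` the
nebentypus `nebTk` (`= nebT (xiOf 𝒪 π)`) on `H¹(Γ₀(M), 𝒪[Δ]_χ)`. -/
theorem shapiro_nebT (hr : r.Prime) (hrM : ¬ r ∣ M)
    (ξ : H1 (chiOf 𝒪 (kap π)) (MonoidAlgebra 𝒪 Δ)) :
    (cosetTker π ι₁ hι hr hrM).heckeHom (shapiro 𝒪 (kap π) hκ ξ) =
      shapiro 𝒪 (kap π) hκ
        ((MonoidAlgebra.single (π (pUnit hr hrM)) (1 : 𝒪) : MonoidAlgebra 𝒪 Δ) •
          heckeH (MonoidAlgebra 𝒪 Δ) (nebTk 𝒪 π hr hrM) ξ) := by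
  refine shapiro_heckeH_const (κ := kap π) (nebTk 𝒪 π hr hrM) (tcorr hr hrM) (π (pUnit hr hrM)) ?_
    (cosetTker π ι₁ hι hr hrM) ?_ hκ ξ
  · intro x
    show unitOf (𝒪 := 𝒪) (kap π (tcorr hr hrM x)) * unitOf (π (delta hr hrM x)) = unitOf _
    unfold unitOf
    rw [← map_mul, ← map_mul, kap_tcorr]
  · intro h x
    exact map_kerData_coc (cosetT hr hrM) (kap π) (fun x => π (delta hr hrM x))
      (kap_cosetT π hr hrM) (tcorr hr hrM) (π (pUnit hr hrM)) (kap_tcorr π hr hrM) ι₁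
      (kap π).ker.subtype (kap π).ker.subtype_injective hι (mem_range_subtype_iff π) h x

/-- **`U_r` through Shapiro.** -/
theorem shapiro_nebU (hr : r.Prime) (hrM : r ∣ M)
    (ξ : H1 (chiOf 𝒪 (kap π)) (MonoidAlgebra 𝒪 Δ)) :
    (cosetUker π ι₁ hι hr hrM).heckeHom (shapiro 𝒪 (kap π) hκ ξ) =
      shapiro 𝒪 (kap π) hκ (heckeH (MonoidAlgebra 𝒪 Δ) (nebUk 𝒪 π hr hrM) ξ) :=
  (shapiro_heckeH_kerData (κ := kap π) (cosetU hr hrM) (fun _ => 1) (kap_cosetU π hr hrM)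
    (fun _ => 1) (fun _ => by rw [map_one, one_mul]) ι₁ hι hκ ξ).symm

end Gamma0Shapiro

end Fermat.Agent.S43.Hecke.Inst
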