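import Mathlib
import Fermat.Agent.S43.Hecke.Seam

/-!
# PROJECT R (S43), block L3, brick H1: relations in `H¹(Γ, R_χ)` are trivial after `T - deg`

`Γ` a group, `R` a noetherian commutative ring, `χ : Γ →* Rˣ`, `ν` a nebentypus on a coset datum
with double-coset operator `T` and scalar `deg`.  Under `CD1 χ` (cocycles lift along surjections)

* `flatPre` : the seam `FlatPre ν`: if `∑ j, f j • c j` is a coboundary (`c j` cocycles with values
  in `R`), then `(T - deg) (c j) = ∑ l, a j l • y l` with cocycles `y l` and `∑ j, f j * a j l = 0`.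

Proof.  The cocycle `C = (c j)_j` with values in `R^n` is pushed by `π = ∑ f j • proj j` to a
coboundary `∂r`, and `T (∂r) = deg • ∂r`, so `(T - deg) C` has values in `K = ker π`.  `K` is
finitely generated, `R^k ↠ K`, and `CD1` lifts `(T - deg) C` to a cocycle with values in `R^k`.
-/

set_option autoImplicit false

open scoped BigOperators

namespace Fermat.Agent.S43.Hecke.FlatPre

open Fermat.Agent.S30.Hecke.DoubleCoset Fermat.Agent.S43.Hecke.Defs Fermat.Agent.S43.Hecke.Seam

universe u v

variable {Γ : Type v} [Group Γ] {R : Type u} [CommRing R] {χ : Γ →* Rˣ}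

/-! ### corestriction of a cocycle to a submodule -/

section CoRestrict

variable {A : Type u} [AddCommGroup A] [Module R A]

/-- a cocycle with values in a submodule `K`, as a cocycle of `K` -/
def coRestrict (K : Submodule R A) (c : Z1 χ A) (h : ∀ g, (c : Γ → A) g ∈ K) : Z1 χ K :=
  ⟨fun g => ⟨(c : Γ → A) g, h g⟩, by
    intro g g'
    apply Subtype.ext
    show (c : Γ → A) (g * g') = (c : Γ → A) g + ((χ g : Rˣ) : R) • (c : Γ → A) g'
    exact c.2 g g'⟩

@[simp] theorem coRestrict_apply (K : Submodule R A) (c : Z1 χ A) (h : ∀ g, (c : Γ → A) g ∈ K)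
    (g : Γ) : ((coRestrict K c h : Γ → K) g : A) = (c : Γ → A) g := rfl

end CoRestrict

/-! ### the cocycle with values in `R^n` attached to a family of cocycles -/

section Tuple

variable {n : ℕ}

/-- the cocycle `g ↦ (c j g)_j` with values in `Fin n → R` -/
def tuple (c : Fin n → Z1 χ R) : Z1 χ (Fin n → R) :=
  ⟨fun g j => (c j : Γ → R) g, by
    intro g h
    funext j
    show (c j : Γ → R) (g * h) = (c j : Γ → R) g + ((χ g : Rˣ) : R) • (c j : Γ → R) h
    exact (c j).2 g h⟩

@[simp] theorem tuple_apply (c : Fin n → Z1 χ R) (g : Γ) (j : Fin n) :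
    (tuple c : Γ → Fin n → R) g j = (c j : Γ → R) g := rfl

theorem map_proj_tuple (c : Fin n → Z1 χ R) (j : Fin n) :
    Z1.map χ (LinearMap.proj j : (Fin n → R) →ₗ[R] R) (tuple c) = c j := by
  apply Subtype.ext
  funext g
  rfl

/-- the linear form `v ↦ ∑ j, f j * v j` -/
def form (f : Fin n → R) : (Fin n → R) →ₗ[R] R :=
  ∑ j, f j • (LinearMap.proj j : (Fin n → R) →ₗ[R] R)

theorem form_apply (f : Fin n → R) (v : Fin n → R) : form f v = ∑ j, f j * v j := by
  simp [form, LinearMap.sum_apply]

theorem map_form_tuple (f : Fin n → R) (c : Fin n → Z1 χ R) :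
    Z1.map χ (form f) (tuple c) = ∑ j, f j • c j := by
  apply Subtype.ext
  funext g
  rw [Z1.map_apply, form_apply]
  have h1 : ((∑ j, f j • c j : Z1 χ R) : Γ → R) g = ∑ j, f j * (c j : Γ → R) g := by
    rw [Submodule.coe_sum, Finset.sum_apply]
    rfl
  rw [h1]
  rfl

end Tuple

/-! ### the theorem -/

variable {G : Type*} [Group G] {ι : Γ →* G} {X : Type*} [Fintype X] {D : CosetData ι X}

/-- **brick H1**: under `CD1`, over a noetherian ring, relations in `H¹(Γ, R_χ)` are trivial
after `T - deg`. -/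
theorem flatPre (hcd : CD1 χ) [IsNoetherianRing R] (ν : Neb D χ) : FlatPre ν := by
  intro n f c hrel
  obtain ⟨r, hr⟩ := hrel
  -- the kernel of the form and its generators
  set K : Submodule R (Fin n → R) := LinearMap.ker (form f) with hK
  have hfg : K.FG := IsNoetherian.noetherian K
  obtain ⟨k, ρ, hρ⟩ := Submodule.fg_iff_exists_fin_generating_family.mp hfg
  have hρK : ∀ l, ρ l ∈ K := fun l => hρ ▸ Submodule.subset_span ⟨l, rfl⟩
  -- the surjection `R^k → K`
  let P : (Fin k → R) →ₗ[R] K :=
    ∑ l, (LinearMap.proj l : (Fin k → R) →ₗ[R] R).smulRight (⟨ρ l, hρK l⟩ : K)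
  have hP : ∀ w : Fin k → R, ((P w : K) : Fin n → R) = ∑ l, w l • ρ l := by
    intro w
    simp only [P, LinearMap.sum_apply, LinearMap.smulRight_apply, LinearMap.proj_apply,
      Submodule.coe_sum, Submodule.coe_smul]
  have hPsurj : Function.Surjective P := by
    rintro ⟨v, hv⟩
    have hv' : v ∈ Submodule.span R (Set.range ρ) := hρ ▸ hv
    obtain ⟨w, hw⟩ := (Submodule.mem_span_range_iff_exists_fun R).mp hv'
    exact ⟨w, Subtype.ext ((hP w).trans hw)⟩
  -- the cocycle `(T - deg) C`
  set C : Z1 χ (Fin n → R) := tuple c with hC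
  set C' : Z1 χ (Fin n → R) := heckeZ (Fin n → R) ν C - ν.deg • C with hC'
  have hC'K : ∀ g, (C' : Γ → Fin n → R) g ∈ K := by
    intro g
    have h1 : Z1.map χ (form f) C' = 0 := by
      rw [hC', map_sub, map_smul, Z1.map_heckeZ, hC, map_form_tuple, ← hr, heckeZ_dZero,
        map_smul, sub_self]
    have h2 := congrArg (fun z : Z1 χ R => (z : Γ → R) g) h1
    exact h2
  -- lift it to `R^k`
  obtain ⟨Y, hY⟩ := hcd (Fin k → R) K P hPsurj (coRestrict K C' hC'K)
  refine ⟨k, fun j l => ρ l j, fun l => Z1.map χ (LinearMap.proj l : (Fin k → R) →ₗ[R] R) Y,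
    ?_, ?_⟩
  · intro j
    apply Subtype.ext
    funext g
    have h1 : ((heckeZ R ν (c j) - ν.deg • c j : Z1 χ R) : Γ → R) g =
        (C' : Γ → Fin n → R) g j := by
      have h2 : heckeZ R ν (c j) - ν.deg • c j =
          Z1.map χ (LinearMap.proj j : (Fin n → R) →ₗ[R] R) C' := by
        rw [hC', map_sub, map_smul, Z1.map_heckeZ, hC, map_proj_tuple]
      rw [h2]
      rfl
    have h3 : (C' : Γ → Fin n → R) g = ∑ l, (Y : Γ → Fin k → R) g l • ρ l := by
      have h4 := congrArg (fun z : Z1 χ K => ((z : Γ → K) g : Fin n → R)) hY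
      simp only [Z1.map_apply, coRestrict_apply] at h4
      rw [← h4, hP]
    rw [h1, h3, Finset.sum_apply, Submodule.coe_sum, Finset.sum_apply]
    refine Finset.sum_congr rfl fun l _ => ?_
    show (Y : Γ → Fin k → R) g l * ρ l j = ρ l j * (Y : Γ → Fin k → R) g l
    exact mul_comm _ _
  · intro l
    have h1 := hρK l
    rw [hK, LinearMap.mem_ker, form_apply] at h1
    exact h1

end Fermat.Agent.S43.Hecke.FlatPre
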