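import Mathlib
import Fermat.Agent.S43.Hecke.FlatPre

/-!
# PROJECT R (S43), block L3, brick H2: base change for `H¹(Γ, -_χ)`

`Γ` a group, `R` a noetherian commutative ring, `χ : Γ →* Rˣ`.  Under `CD1 χ`:

* `exists_decomp` : a cocycle `C` with values in `R^n` such that `∑ j, C g j • s j = 0` in an
  `R`-module `A` for all `g` is a combination `C g j = ∑ l, ρ l j * y l g` of cocycles `y l` with
  values in `R`, the `ρ l` being relations `∑ j, ρ l j • s j = 0`;
* `theta_surjective`, `theta_injective`, `baseChange` : the seam `BaseChange χ`, i.e.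
  `H¹(Γ, R_χ) ⊗ A → H¹(Γ, A_χ)` is bijective for every finite `R`-module `A`.
-/

set_option autoImplicit false

open scoped BigOperators TensorProduct

namespace Fermat.Agent.S43.Hecke.BaseChange

open Fermat.Agent.S43.Hecke.Defs Fermat.Agent.S43.Hecke.Seam Fermat.Agent.S43.Hecke.FlatPre

universe u v

variable {Γ : Type v} [Group Γ] {R : Type u} [CommRing R] {χ : Γ →* Rˣ}

section Decomp

variable {A : Type u} [AddCommGroup A] [Module R A] {n : ℕ}

variable (R) in
/-- the linear map `v ↦ ∑ j, v j • s j` -/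
def comb (s : Fin n → A) : (Fin n → R) →ₗ[R] A :=
  ∑ j, (LinearMap.proj j : (Fin n → R) →ₗ[R] R).smulRight (s j)

theorem comb_apply (s : Fin n → A) (v : Fin n → R) : comb R s v = ∑ j, v j • s j := by
  simp only [comb, LinearMap.sum_apply, LinearMap.smulRight_apply, LinearMap.proj_apply]

theorem comb_surjective (s : Fin n → A) (hs : Submodule.span R (Set.range s) = ⊤) :
    Function.Surjective (comb R s) := by
  intro a
  have ha : a ∈ Submodule.span R (Set.range s) := by
    rw [hs]
    exact Submodule.mem_top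
  obtain ⟨w, hw⟩ := (Submodule.mem_span_range_iff_exists_fun R).mp ha
  exact ⟨w, (comb_apply s w).trans hw⟩

/-- **decomposition of a cocycle of relations** -/
theorem exists_decomp (hcd : CD1 χ) [IsNoetherianRing R] (s : Fin n → A)
    (C : Z1 χ (Fin n → R)) (hC : ∀ g, ∑ j, (C : Γ → Fin n → R) g j • s j = 0) :
    ∃ (k : ℕ) (ρ : Fin k → Fin n → R) (y : Fin k → Z1 χ R),
      (∀ l, ∑ j, ρ l j • s j = 0) ∧
        ∀ g j, (C : Γ → Fin n → R) g j = ∑ l, ρ l j * (y l : Γ → R) g := by
  set K : Submodule R (Fin n → R) := LinearMap.ker (comb R s) with hK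
  have hfg : K.FG := IsNoetherian.noetherian K
  obtain ⟨k, ρ, hρ⟩ := Submodule.fg_iff_exists_fin_generating_family.mp hfg
  have hρK : ∀ l, ρ l ∈ K := fun l => hρ ▸ Submodule.subset_span ⟨l, rfl⟩
  let P : (Fin k → R) →ₗ[R] K :=
    ∑ l, (LinearMap.proj l : (Fin k → R) →ₗ[R] R).smulRight (⟨ρ l, hρK l⟩ : K)
  have hP : ∀ w : Fin k → R, ((P w : K) : Fin n → R) = ∑ l, w l • ρ l := by
    intro w
    simp only [P, LinearMap.sum_apply, LinearMap.smulRight_apply, LinearMap.proj_apply,
      Submodule.coe_sum, Submodule.coe_smul]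
  have hPsurj : Function.Surjective P := by
    rintro ⟨v, hv⟩
    have hv' : v ∈ Submodule.span R (Set.range ρ) := hρ ▸ hv
    obtain ⟨w, hw⟩ := (Submodule.mem_span_range_iff_exists_fun R).mp hv'
    exact ⟨w, Subtype.ext ((hP w).trans hw)⟩
  have hCK : ∀ g, (C : Γ → Fin n → R) g ∈ K := by
    intro g
    rw [hK, LinearMap.mem_ker, comb_apply]
    exact hC g
  obtain ⟨Y, hY⟩ := hcd (Fin k → R) K P hPsurj (coRestrict K C hCK)
  refine ⟨k, ρ, fun l => Z1.map χ (LinearMap.proj l : (Fin k → R) →ₗ[R] R) Y, ?_, ?_⟩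
  · intro l
    have h1 := hρK l
    rw [hK, LinearMap.mem_ker, comb_apply] at h1
    exact h1
  · intro g j
    have h3 : (C : Γ → Fin n → R) g = ∑ l, (Y : Γ → Fin k → R) g l • ρ l := by
      have h4 := congrArg (fun z : Z1 χ K => ((z : Γ → K) g : Fin n → R)) hY
      simp only [Z1.map_apply, coRestrict_apply] at h4
      rw [← h4, hP]
    rw [h3, Finset.sum_apply]
    refine Finset.sum_congr rfl fun l _ => ?_
    show (Y : Γ → Fin k → R) g l * ρ l j = ρ l j * (Y : Γ → Fin k → R) g l
    exact mul_comm _ _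

end Decomp

section Theta

variable (A : Type u) [AddCommGroup A] [Module R A]

theorem theta_tmul_mk (c : Z1 χ R) (a : A) :
    theta χ A (H1.mk χ R c ⊗ₜ[R] a) =
      H1.mk χ A (Z1.map χ (LinearMap.toSpanSingleton R A a) c) := by
  show TensorProduct.lift _ _ = _
  rw [TensorProduct.lift.tmul]
  rfl

variable {A}

/-- every element of `H1 χ R ⊗ A` is a combination of classes against a generating family -/
theorem exists_repr {n : ℕ} (s : Fin n → A) (hs : Submodule.span R (Set.range s) = ⊤)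
    (z : H1 χ R ⊗[R] A) :
    ∃ c : Fin n → Z1 χ R, z = ∑ j, H1.mk χ R (c j) ⊗ₜ[R] s j := by
  induction z using TensorProduct.induction_on with
  | zero =>
    refine ⟨fun _ => 0, ?_⟩
    simp
  | tmul ξ a =>
    obtain ⟨c, rfl⟩ := H1.mk_surjective ξ
    obtain ⟨w, hw⟩ := comb_surjective s hs a
    rw [comb_apply] at hw
    refine ⟨fun j => w j • c, ?_⟩
    rw [← hw, TensorProduct.tmul_sum]
    refine Finset.sum_congr rfl fun j _ => ?_
    rw [TensorProduct.tmul_smul, map_smul, TensorProduct.smul_tmul']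
  | add z z' hz hz' =>
    obtain ⟨c, rfl⟩ := hz
    obtain ⟨c', rfl⟩ := hz'
    refine ⟨fun j => c j + c' j, ?_⟩
    rw [← Finset.sum_add_distrib]
    refine Finset.sum_congr rfl fun j _ => ?_
    rw [map_add, TensorProduct.add_tmul]

theorem theta_sum {n : ℕ} (s : Fin n → A) (c : Fin n → Z1 χ R) :
    theta χ A (∑ j, H1.mk χ R (c j) ⊗ₜ[R] s j) =
      H1.mk χ A (∑ j, Z1.map χ (LinearMap.toSpanSingleton R A (s j)) (c j)) := by
  rw [map_sum, map_sum]
  exact Finset.sum_congr rfl fun j _ => theta_tmul_mk A (c j) (s j)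

theorem sum_map_apply {n : ℕ} (s : Fin n → A) (c : Fin n → Z1 χ R) (g : Γ) :
    ((∑ j, Z1.map χ (LinearMap.toSpanSingleton R A (s j)) (c j) : Z1 χ A) : Γ → A) g =
      ∑ j, (c j : Γ → R) g • s j := by
  rw [Submodule.coe_sum, Finset.sum_apply]
  rfl

/-- **surjectivity of the base-change map** -/
theorem theta_surjective (hcd : CD1 χ) [Module.Finite R A] :
    Function.Surjective (theta χ A) := by
  intro η
  obtain ⟨c, rfl⟩ := H1.mk_surjective η
  obtain ⟨n, s, hs⟩ := Module.Finite.exists_fin (R := R) (M := A)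
  obtain ⟨C, hC⟩ := hcd (Fin n → R) A (comb R s) (comb_surjective s hs) c
  refine ⟨∑ j, H1.mk χ R (Z1.map χ (LinearMap.proj j : (Fin n → R) →ₗ[R] R) C) ⊗ₜ[R] s j, ?_⟩
  rw [theta_sum]
  congr 1
  apply Subtype.ext
  funext g
  rw [sum_map_apply, ← hC, Z1.map_apply, comb_apply]
  rfl

/-- **injectivity of the base-change map** -/
theorem theta_injective (hcd : CD1 χ) [IsNoetherianRing R] [Module.Finite R A] :
    Function.Injective (theta χ A) := by
  rw [injective_iff_map_eq_zero]
  intro z hz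
  obtain ⟨n, s, hs⟩ := Module.Finite.exists_fin (R := R) (M := A)
  obtain ⟨c, rfl⟩ := exists_repr s hs z
  rw [theta_sum, H1.mk_eq_zero_iff] at hz
  obtain ⟨a, ha⟩ := hz
  obtain ⟨r, hr⟩ := comb_surjective s hs a
  rw [comb_apply] at hr
  -- modify the cocycles by coboundaries
  set c' : Fin n → Z1 χ R := fun j => c j - dZero χ R (r j) with hc'
  have hcls : ∀ j, H1.mk χ R (c j) = H1.mk χ R (c' j) := by
    intro j
    rw [hc', map_sub]
    have : H1.mk χ R (dZero χ R (r j)) = 0 := (H1.mk_eq_zero_iff _).mpr ⟨r j, rfl⟩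
    rw [this, sub_zero]
  have hzero : ∀ g, ∑ j, (tuple c' : Γ → Fin n → R) g j • s j = 0 := by
    intro g
    have h1 := congrArg (fun z : Z1 χ A => (z : Γ → A) g) ha
    simp only [sum_map_apply, dZero_apply] at h1
    have h2 : ∀ j, (tuple c' : Γ → Fin n → R) g j • s j =
        (c j : Γ → R) g • s j - (((χ g : Rˣ) : R) • (r j • s j) - r j • s j) := by
      intro j
      show ((c j : Γ → R) g - (((χ g : Rˣ) : R) • r j - r j)) • s j = _
      rw [sub_smul, sub_smul, smul_assoc]
    rw [Finset.sum_congr rfl fun j _ => h2 j, Finset.sum_sub_distrib, Finset.sum_sub_distrib,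
      ← Finset.smul_sum, hr, ← h1, sub_self]
  obtain ⟨k, ρ, y, hρ, hy⟩ := exists_decomp hcd s (tuple c') hzero
  have h3 : ∀ j, c' j = ∑ l, ρ l j • y l := by
    intro j
    apply Subtype.ext
    funext g
    rw [Submodule.coe_sum, Finset.sum_apply]
    exact hy g j
  calc ∑ j, H1.mk χ R (c j) ⊗ₜ[R] s j
      = ∑ j, H1.mk χ R (c' j) ⊗ₜ[R] s j := by
        exact Finset.sum_congr rfl fun j _ => by rw [hcls j]
    _ = ∑ j, ∑ l, H1.mk χ R (y l) ⊗ₜ[R] (ρ l j • s j) := by
        refine Finset.sum_congr rfl fun j _ => ?_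
        rw [h3 j, map_sum, TensorProduct.sum_tmul]
        refine Finset.sum_congr rfl fun l _ => ?_
        rw [map_smul, TensorProduct.smul_tmul]
    _ = ∑ l, H1.mk χ R (y l) ⊗ₜ[R] (∑ j, ρ l j • s j) := by
        rw [Finset.sum_comm]
        exact Finset.sum_congr rfl fun l _ => (TensorProduct.tmul_sum _ _ _).symm
    _ = 0 := by
        refine Finset.sum_eq_zero fun l _ => ?_
        rw [hρ l, TensorProduct.tmul_zero]

end Theta

/-- **brick H2**: the seam `BaseChange χ` -/
theorem baseChange (hcd : CD1 χ) [IsNoetherianRing R] : BaseChange χ := by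
  intro A _ _ _
  exact ⟨theta_injective hcd, theta_surjective hcd⟩

end Fermat.Agent.S43.Hecke.BaseChange
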