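import Mathlib
import Fermat.Agent.S43.Hecke.BaseChange

/-!
# PROJECT R (S43), block L3, brick H3: flatness of the non-Eisenstein localisations

`N` an `R`-module with a commutative `R`-algebra `𝕋` acting on it, `S ⊆ 𝕋` a submonoid,
`φ : N → M'` a localisation of `N` at `S`.

* `flat_of_trivial_after` : if some `e ∈ S` makes every relation of `N` trivial (for all
  `∑ f i • ξ i = 0` there are `a`, `y` with `e • ξ i = ∑ l, a i l • y l`, `∑ i, f i * a i l = 0`)
  then `M'` is flat over `R`;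
* `flat_localized` : for `N = H1 χ R`, `e = T - deg` a non-Eisenstein element in `S`, under `CD1 χ`
  and `R` noetherian: every localisation `M'` of `H1 χ R` at `S` is flat over `R`;
* `free_localized` : if moreover `R` is local and `M'` is finite over `R`, then `M'` is free.
-/

set_option autoImplicit false

open scoped BigOperators

namespace Fermat.Agent.S43.Hecke.Flat

open Fermat.Agent.S30.Hecke.DoubleCoset Fermat.Agent.S43.Hecke.Defs Fermat.Agent.S43.Hecke.Seam

universe u v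

section Abstract

variable {R : Type*} [CommRing R] {𝕋 : Type*} [CommRing 𝕋] [Algebra R 𝕋]
  {N : Type*} [AddCommGroup N] [Module R N] [Module 𝕋 N] [IsScalarTower R 𝕋 N]
  {M' : Type*} [AddCommGroup M'] [Module R M'] [Module 𝕋 M'] [IsScalarTower R 𝕋 M']

theorem smul_comm' (a : R) (t : 𝕋) (m : N) : a • t • m = t • a • m := by
  rw [← algebraMap_smul 𝕋 a (t • m), ← algebraMap_smul 𝕋 a m, ← mul_smul, ← mul_smul, mul_comm]

theorem map_smul' (φ : N →ₗ[𝕋] M') (a : R) (m : N) : φ (a • m) = a • φ m := by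
  rw [← algebraMap_smul 𝕋 a m, map_smul, algebraMap_smul]

/-- a common denominator for a finite family of elements of a localised module -/
theorem exists_common_den (S : Submonoid 𝕋) (φ : N →ₗ[𝕋] M') [IsLocalizedModule S φ]
    {l : ℕ} (x : Fin l → M') : ∃ (s : S) (ξ : Fin l → N), ∀ i, (s : 𝕋) • x i = φ (ξ i) := by
  classical
  have h := fun i => IsLocalizedModule.surj S φ (x i)
  choose ms hms using h
  refine ⟨∏ i, (ms i).2, fun i => ((∏ j ∈ Finset.univ.erase i, (ms j).2 : S) : 𝕋) • (ms i).1,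
    fun i => ?_⟩
  have h1 : (∏ j, (ms j).2 : S) = (∏ j ∈ Finset.univ.erase i, (ms j).2) * (ms i).2 :=
    (Finset.prod_erase_mul _ _ (Finset.mem_univ i)).symm
  rw [h1, Submonoid.coe_mul, mul_smul, map_smul]
  congr 1
  exact hms i

/-- **flatness of a localisation from relations that become trivial after `e ∈ S`** -/
theorem flat_of_trivial_after (S : Submonoid 𝕋) (φ : N →ₗ[𝕋] M') [IsLocalizedModule S φ]
    (e : 𝕋) (he : e ∈ S)
    (htriv : ∀ (l : ℕ) (f : Fin l → R) (ξ : Fin l → N), ∑ i, f i • ξ i = 0 →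
      ∃ (k : ℕ) (a : Fin l → Fin k → R) (y : Fin k → N),
        (∀ i, e • ξ i = ∑ j, a i j • y j) ∧ ∀ j, ∑ i, f i * a i j = 0) :
    Module.Flat R M' := by
  refine Module.Flat.of_forall_isTrivialRelation ?_
  intro l f x hx
  obtain ⟨s, ξ, hξ⟩ := exists_common_den S φ x
  -- the relation holds in `N` after a further denominator
  have h1 : φ (∑ i, f i • ξ i) = 0 := by
    rw [map_sum]
    have h2 : ∀ i, φ (f i • ξ i) = (s : 𝕋) • (f i • x i) := by
      intro i
      rw [map_smul' φ, ← hξ i, smul_comm' (f i) (s : 𝕋) (x i)]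
    rw [Finset.sum_congr rfl fun i _ => h2 i, ← Finset.smul_sum, hx, smul_zero]
  obtain ⟨s', hs'⟩ := (IsLocalizedModule.eq_zero_iff S φ).mp h1
  have h3 : ∑ i, f i • ((s' : 𝕋) • ξ i) = 0 := by
    have h4 : ∀ i, f i • ((s' : 𝕋) • ξ i) = (s' : 𝕋) • (f i • ξ i) := fun i =>
      smul_comm' (f i) (s' : 𝕋) (ξ i)
    rw [Finset.sum_congr rfl fun i _ => h4 i, ← Finset.smul_sum]
    exact hs'
  obtain ⟨k, a, y, hy, ha⟩ := htriv l f (fun i => (s' : 𝕋) • ξ i) h3
  -- the total denominator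
  set t : S := ⟨e, he⟩ * s' * s with ht
  have htinj : Function.Injective fun m : M' => (t : 𝕋) • m := by
    intro m m' hmm
    exact ((Module.End.isUnit_iff _).mp (IsLocalizedModule.map_units φ t)).injective hmm
  refine ⟨k, a, fun j => IsLocalizedModule.mk' φ (y j) t, fun i => ?_, ha⟩
  apply htinj
  show (t : 𝕋) • x i = (t : 𝕋) • ∑ j, a i j • IsLocalizedModule.mk' φ (y j) t
  have h5 : (t : 𝕋) • x i = φ (e • (s' : 𝕋) • ξ i) := by
    rw [ht, Submonoid.coe_mul, Submonoid.coe_mul, mul_smul, mul_smul, hξ i, map_smul, map_smul]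
  have h6 : ∀ j, (t : 𝕋) • (a i j • IsLocalizedModule.mk' φ (y j) t) = a i j • φ (y j) := by
    intro j
    rw [← smul_comm' (a i j) (t : 𝕋)]
    congr 1
    exact IsLocalizedModule.mk'_cancel' φ (y j) t
  rw [h5, hy i, map_sum, Finset.smul_sum]
  refine Finset.sum_congr rfl fun j _ => ?_
  rw [h6 j, map_smul' φ]

end Abstract

section Cohomology

variable {Γ : Type v} [Group Γ] {R : Type u} [CommRing R] {χ : Γ →* Rˣ}
  {G : Type*} [Group G] {ι : Γ →* G} {X : Type*} [Fintype X] {D : CosetData ι X}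
  {𝕋 : Type*} [CommRing 𝕋] [Algebra R 𝕋] [Module 𝕋 (H1 χ R)] [IsScalarTower R 𝕋 (H1 χ R)]
  {M' : Type*} [AddCommGroup M'] [Module R M'] [Module 𝕋 M'] [IsScalarTower R 𝕋 M']

omit [Algebra R 𝕋] [IsScalarTower R 𝕋 (H1 χ R)] in
/-- relations of `H1 χ R` are trivial after `T - deg`, from the seam `FlatPre` -/
theorem trivial_after_of_flatPre {ν : Neb D χ} (hpre : FlatPre ν) (e : 𝕋)
    (hact : ∀ ξ : H1 χ R, e • ξ = heckeH R ν ξ - ν.deg • ξ)
    (l : ℕ) (f : Fin l → R) (ξ : Fin l → H1 χ R) (hrel : ∑ i, f i • ξ i = 0) :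
    ∃ (k : ℕ) (a : Fin l → Fin k → R) (y : Fin k → H1 χ R),
      (∀ i, e • ξ i = ∑ j, a i j • y j) ∧ ∀ j, ∑ i, f i * a i j = 0 := by
  have h := fun i => H1.mk_surjective (ξ i)
  choose c hc using h
  have hB : (∑ i, f i • c i) ∈ B1 χ R := by
    have h1 : H1.mk χ R (∑ i, f i • c i) = 0 := by
      rw [map_sum, ← hrel]
      exact Finset.sum_congr rfl fun i _ => by rw [map_smul, hc i]
    obtain ⟨r, hr⟩ := (H1.mk_eq_zero_iff _).mp h1
    exact ⟨r, hr⟩
  obtain ⟨k, a, y, hy, ha⟩ := hpre l f c hB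
  refine ⟨k, a, fun j => H1.mk χ R (y j), fun i => ?_, ha⟩
  rw [hact, ← hc i, heckeH_mk, ← map_smul, ← map_sub, hy i, map_sum]
  exact Finset.sum_congr rfl fun j _ => map_smul _ _ _

/-- **brick H3**: every localisation of `H¹(Γ, R_χ)` at a submonoid of a commutative Hecke
algebra containing a non-Eisenstein element `T - deg` is flat over `R`. -/
theorem flat_localized (hcd : CD1 χ) [IsNoetherianRing R] (ν : Neb D χ)
    (S : Submonoid 𝕋) (φ : H1 χ R →ₗ[𝕋] M') [IsLocalizedModule S φ] (e : 𝕋) (he : e ∈ S)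
    (hact : ∀ ξ : H1 χ R, e • ξ = heckeH R ν ξ - ν.deg • ξ) : Module.Flat R M' :=
  flat_of_trivial_after S φ e he
    (trivial_after_of_flatPre (Fermat.Agent.S43.Hecke.FlatPre.flatPre hcd ν) e hact)

/-- **freeness**: over a local ring, a finite such localisation is free. -/
theorem free_localized (hcd : CD1 χ) [IsNoetherianRing R] [IsLocalRing R] (ν : Neb D χ)
    (S : Submonoid 𝕋) (φ : H1 χ R →ₗ[𝕋] M') [IsLocalizedModule S φ] (e : 𝕋) (he : e ∈ S)
    (hact : ∀ ξ : H1 χ R, e • ξ = heckeH R ν ξ - ν.deg • ξ) [Module.Finite R M'] :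
    Module.Free R M' := by
  have : Module.Flat R M' := flat_localized hcd ν S φ e he hact
  exact Module.free_of_flat_of_isLocalRing

end Cohomology

end Fermat.Agent.S43.Hecke.Flat
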