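import Mathlib
import Fermat.Agent.S43.Hecke.Flat
import Fermat.Agent.S43.Hecke.PolyModule

/-!
# PROJECT R (S43), block L3: the localisation of `H¹(Γ, A_χ)` at a maximal ideal of the
polynomial Hecke algebra

`R` a local ring with residue field `k`, `J` the index set of the Hecke operators, `ν j` a
nebentypus datum for each `j`, commuting on `H1 χ R`.

* `ops ν A` : the operators `heckeH A (ν j)` on `H1 χ A`; `ops_comm_of_surjective` : they commute
  on `H1 χ A` for every quotient `A` of `R` (under `CD1`);
* `HN ν A hcomm` : `H1 χ A` as a module over `MvPolynomial J R`;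
* `evalHom θ`, `maxId θ`, `Sθ θ` : the maximal ideal of a system of eigenvalues `θ : J → k` and
  its complement;
* `flat_loc` : **the localisation of `H1 χ R` at a non-Eisenstein `θ` is flat over `R`**;
* `locMap`, `locMap_surjective`, `locMap_eq_zero_iff` : localisation of a surjection with kernel `ϖ • -`.
-/

set_option autoImplicit false

open scoped BigOperators

namespace Fermat.Agent.S43.Hecke.Loc

open Fermat.Agent.S30.Hecke.DoubleCoset Fermat.Agent.S43.Hecke.Defs Fermat.Agent.S43.Hecke.Seam
open Fermat.Agent.S43.Hecke.PolyModule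

universe u v

variable {Γ : Type v} [Group Γ] {R : Type u} [CommRing R] {χ : Γ →* Rˣ}
  {G : Type*} [Group G] {ι : Γ →* G} {J : Type*} {X : J → Type*} [∀ j, Fintype (X j)]
  {D : ∀ j, CosetData ι (X j)}

/-! ### the operators -/

/-- the Hecke operators of a family of nebentypus data on `H1 χ A` -/
def ops (ν : ∀ j, Neb (D j) χ) (A : Type*) [AddCommGroup A] [Module R A] :
    J → Module.End R (H1 χ A) := fun j => heckeH A (ν j)

theorem H1.map_surjective (hcd : CD1 χ) {A B : Type u} [AddCommGroup A] [Module R A]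
    [AddCommGroup B] [Module R B] (f : A →ₗ[R] B) (hf : Function.Surjective f) :
    Function.Surjective (H1.map χ f) := by
  intro η
  obtain ⟨c, rfl⟩ := H1.mk_surjective η
  obtain ⟨c₁, rfl⟩ := hcd A B f hf c
  exact ⟨H1.mk χ A c₁, rfl⟩

/-- commutativity passes to the quotients of the coefficient module -/
theorem ops_comm_of_surjective (hcd : CD1 χ) (ν : ∀ j, Neb (D j) χ)
    {A B : Type u} [AddCommGroup A] [Module R A] [AddCommGroup B] [Module R B]
    (hcomm : ∀ i j, Commute (ops ν A i) (ops ν A j))
    (f : A →ₗ[R] B) (hf : Function.Surjective f) (i j : J) :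
    Commute (ops ν B i) (ops ν B j) :=
  commute_of_surjective (ops ν A) hcomm (H1.map χ f) (H1.map_surjective hcd f hf)
    (fun j ξ => H1.map_heckeH (ν j) f ξ) i j

/-- `H1 χ A` as a module over the polynomial Hecke algebra -/
abbrev HN (ν : ∀ j, Neb (D j) χ) (A : Type*) [AddCommGroup A] [Module R A]
    (hcomm : ∀ i j, Commute (ops ν A i) (ops ν A j)) : Type _ :=
  WithOps (ops ν A) hcomm

/-! ### the maximal ideal of a system of eigenvalues -/

section MaxId

variable [IsLocalRing R]

/-- the evaluation `X j ↦ θ j` to the residue field -/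
noncomputable def evalHom (θ : J → IsLocalRing.ResidueField R) :
    MvPolynomial J R →+* IsLocalRing.ResidueField R :=
  MvPolynomial.eval₂Hom (IsLocalRing.residue R) θ

theorem evalHom_X (θ : J → IsLocalRing.ResidueField R) (j : J) :
    evalHom θ (MvPolynomial.X j) = θ j := by
  simp [evalHom]

theorem evalHom_C (θ : J → IsLocalRing.ResidueField R) (r : R) :
    evalHom θ (MvPolynomial.C r) = IsLocalRing.residue R r := by
  simp [evalHom]

theorem evalHom_surjective (θ : J → IsLocalRing.ResidueField R) :
    Function.Surjective (evalHom θ) := by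
  intro y
  obtain ⟨r, rfl⟩ := IsLocalRing.residue_surjective y
  exact ⟨MvPolynomial.C r, evalHom_C θ r⟩

/-- the maximal ideal of the system of eigenvalues `θ` -/
noncomputable def maxId (θ : J → IsLocalRing.ResidueField R) : Ideal (MvPolynomial J R) :=
  RingHom.ker (evalHom θ)

instance maxId_isMaximal (θ : J → IsLocalRing.ResidueField R) : (maxId θ).IsMaximal :=
  RingHom.ker_isMaximal_of_surjective _ (evalHom_surjective θ)

/-- the complement of the maximal ideal -/
noncomputable abbrev Sθ (θ : J → IsLocalRing.ResidueField R) : Submonoid (MvPolynomial J R) :=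
  (maxId θ).primeCompl

theorem mem_Sθ_iff (θ : J → IsLocalRing.ResidueField R) (P : MvPolynomial J R) :
    P ∈ Sθ θ ↔ evalHom θ P ≠ 0 := by
  show P ∉ maxId θ ↔ _
  rw [maxId, RingHom.mem_ker]

theorem X_sub_C_mem_Sθ (θ : J → IsLocalRing.ResidueField R) (j : J) (r : R)
    (h : θ j ≠ IsLocalRing.residue R r) :
    (MvPolynomial.X j - MvPolynomial.C r : MvPolynomial J R) ∈ Sθ θ := by
  rw [mem_Sθ_iff, map_sub, evalHom_X, evalHom_C]
  exact sub_ne_zero.mpr h

end MaxId

/-! ### flatness -/

section Flat

variable [IsLocalRing R]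

omit [IsLocalRing R] in
theorem X_sub_C_smul (ν : ∀ j, Neb (D j) χ) (hcomm : ∀ i j, Commute (ops ν R i) (ops ν R j))
    (j : J) (r : R) (ξ : HN ν R hcomm) :
    WithOps.equiv _ _ ((MvPolynomial.X j - MvPolynomial.C r : MvPolynomial J R) • ξ) =
      heckeH R (ν j) (WithOps.equiv _ _ ξ) - r • WithOps.equiv _ _ ξ := by
  rw [sub_smul, map_sub, WithOps.X_smul, WithOps.C_smul, map_smul]
  rfl

/-- **the localisation of `H¹(Γ, R_χ)` at a non-Eisenstein system of eigenvalues is flat** -/
theorem flat_loc (hcd : CD1 χ) [IsNoetherianRing R] (ν : ∀ j, Neb (D j) χ)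
    (hcomm : ∀ i j, Commute (ops ν R i) (ops ν R j)) (θ : J → IsLocalRing.ResidueField R)
    (j₀ : J) (hne : θ j₀ ≠ IsLocalRing.residue R (ν j₀).deg) :
    Module.Flat R (LocalizedModule (Sθ θ) (HN ν R hcomm)) := by
  refine Fermat.Agent.S43.Hecke.Flat.flat_of_trivial_after (Sθ θ)
    (LocalizedModule.mkLinearMap (Sθ θ) (HN ν R hcomm))
    (MvPolynomial.X j₀ - MvPolynomial.C (ν j₀).deg)
    (X_sub_C_mem_Sθ θ j₀ _ hne) ?_
  intro l f ξ hrel
  -- transport the relation to `H1 χ R`
  have h := fun i => H1.mk_surjective (WithOps.equiv _ _ (ξ i))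
  choose c hc using h
  have hB : (∑ i, f i • c i) ∈ B1 χ R := by
    have h1 : H1.mk χ R (∑ i, f i • c i) = 0 := by
      rw [map_sum]
      have h2 : ∀ i, H1.mk χ R (f i • c i) = WithOps.equiv _ _ (f i • ξ i) := by
        intro i
        rw [map_smul, map_smul, hc i]
      rw [Finset.sum_congr rfl fun i _ => h2 i, ← map_sum, hrel, map_zero]
    obtain ⟨r, hr⟩ := (H1.mk_eq_zero_iff _).mp h1
    exact ⟨r, hr⟩
  obtain ⟨k, a, y, hy, ha⟩ := Fermat.Agent.S43.Hecke.FlatPre.flatPre hcd (ν j₀) l f c hB
  refine ⟨k, a, fun j => (WithOps.equiv _ _).symm (H1.mk χ R (y j)), fun i => ?_, ha⟩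
  apply (WithOps.equiv (ops ν R) hcomm).injective
  rw [X_sub_C_smul, ← hc i, heckeH_mk, ← map_smul, ← map_sub, hy i, map_sum, map_sum]
  refine Finset.sum_congr rfl fun j _ => ?_
  rw [map_smul, map_smul, LinearEquiv.apply_symm_apply]

end Flat

/-! ### localisation of a surjection with kernel `ϖ • -` -/

section LocMap

variable {P : Type*} [CommRing P] [Algebra R P] (S : Submonoid P)
  {N : Type*} [AddCommGroup N] [Module R N] [Module P N] [IsScalarTower R P N]
  {N' : Type*} [AddCommGroup N'] [Module R N'] [Module P N'] [IsScalarTower R P N']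

/-- the localisation of a linear map -/
noncomputable def locMap (π : N →ₗ[P] N') : LocalizedModule S N →ₗ[P] LocalizedModule S N' :=
  IsLocalizedModule.map S (LocalizedModule.mkLinearMap S N) (LocalizedModule.mkLinearMap S N') π

omit [Module R N] [IsScalarTower R P N] [Module R N'] [IsScalarTower R P N'] [Algebra R P] in
theorem locMap_mk (π : N →ₗ[P] N') (x : N) (s : S) :
    locMap S π (LocalizedModule.mk x s) = LocalizedModule.mk (π x) s :=
  IsLocalizedModule.map_LocalizedModules S π x s

omit [Module R N] [IsScalarTower R P N] [Module R N'] [IsScalarTower R P N'] [Algebra R P] in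
theorem locMap_surjective (π : N →ₗ[P] N') (hπ : Function.Surjective π) :
    Function.Surjective (locMap S π) := by
  intro y
  induction y using LocalizedModule.induction_on with
  | h x s =>
    obtain ⟨x', rfl⟩ := hπ x
    exact ⟨LocalizedModule.mk x' s, locMap_mk S π x' s⟩

theorem loc_smul_mk (r : R) (x : N) (s : S) :
    r • LocalizedModule.mk x s = LocalizedModule.mk (r • x) s := by
  rw [← algebraMap_smul P r (LocalizedModule.mk x s), LocalizedModule.smul'_mk, algebraMap_smul]

theorem locMap_smul (π : N →ₗ[P] N') (r : R) (y : LocalizedModule S N) :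
    locMap S π (r • y) = r • locMap S π y := by
  rw [← algebraMap_smul P r y, map_smul, algebraMap_smul]

omit [Module R N'] [IsScalarTower R P N'] in
/-- the kernel of the localisation of a surjection with kernel `ϖ • N` is `ϖ • S⁻¹N` -/
theorem locMap_eq_zero_iff (π : N →ₗ[P] N') (ϖ : R)
    (hker : ∀ x : N, π x = 0 ↔ ∃ x' : N, x = ϖ • x') (y : LocalizedModule S N) :
    locMap S π y = 0 ↔ ∃ y' : LocalizedModule S N, y = ϖ • y' := by
  constructor
  · intro hy
    induction y using LocalizedModule.induction_on with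
    | h x s =>
      rw [locMap_mk, ← LocalizedModule.zero_mk 1, LocalizedModule.mk_eq, one_smul, smul_zero] at hy
      obtain ⟨s', hs'⟩ := hy
      have h1 : π ((s' : P) • x) = 0 := by
        rw [map_smul]
        rw [smul_zero] at hs'
        exact hs'
      obtain ⟨x', hx'⟩ := (hker _).mp h1
      refine ⟨LocalizedModule.mk x' (s' * s), ?_⟩
      rw [loc_smul_mk, ← hx', LocalizedModule.mk_eq]
      refine ⟨1, ?_⟩
      simp only [one_smul, Submonoid.smul_def, mul_smul]
      rw [smul_comm]
  · rintro ⟨y', rfl⟩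
    induction y' using LocalizedModule.induction_on with
    | h x s =>
      rw [loc_smul_mk, locMap_mk]
      have : π (ϖ • x) = 0 := (hker _).mpr ⟨x, rfl⟩
      rw [this, LocalizedModule.zero_mk]

end LocMap

end Fermat.Agent.S43.Hecke.Loc
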