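/-
PROJECT R (S43), block L3, brick ENTRY (helper8, chief R): **THE LEVEL-ZERO MODULE IS NOT ZERO.**

`M0 = Hom(Γ₀(N), O)` localised at the system of eigenvalues `θ_r = a_r mod 𝔪_O` is non-zero as soon
as `a` is the system of eigenvalues, modulo a prime over `p`, of a normalised eigenform of level
`N` (the `0 < d` of `Patch/MainJ`, `Local/ToPatchJ`).

* `Core` (pure algebra): `R` local, `t : J → End_R N` a commuting family, `y ∉ 𝔪 N` with
  `t j y ≡ a j • y` modulo `𝔪 N`: every polynomial `s` in the `t j` acts on `y` as `s(a)` modulo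
  `𝔪 N` (`polyAct_sub_eval_mem`), hence `s • y ≠ 0` for `s ∉ 𝔪_θ`, `θ = a mod 𝔪`, and the
  localisation of `WithOps t hcomm` at `θ` is non-trivial (`nontrivial_of_eigen`).
* `Padic`: from a Tate vector `w ∈ T_p J₀(N)` with `w.1 1 ≠ 0`, `T_ℓ (w.1 1) = a ℓ • w.1 1`
  (main's `S44/Ent/Eigen.exists_eigen_tate`) to a parabolic homomorphism `ξ : Γ₀(N) → ℤ_p` with a
  unit value and `τ_ℓ ξ ≡ a ℓ ξ` modulo `p` (main's `S30/Final/TateCompare.h3_of_phiDict`,
  `S30/Padic/TateChar.tateLattice`, `S30/Lattice/BaseChange.baseChangeEquiv`).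
* `entry_of_tate`, `entry` : the conclusion for `O` any local `ℤ_p`-algebra with local structure
  map, `J` any family of primes outside the exceptional set.
-/
import Mathlib
import Fermat.Agent.S44.Ent.Eigen
import Fermat.Agent.S44.Ent.Phi
import Fermat.Agent.S43.Hecke.Loc

set_option autoImplicit false
set_option linter.unusedSectionVars false
set_option linter.style.haveILetI false

noncomputable section

namespace Fermat.Agent.S43.Hecke.Entry

open IsLocalRing TensorProduct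
open Fermat.Agent.S43.Hecke.PolyModule Fermat.Agent.S43.Hecke.Loc

/-! ### the algebraic core -/

section Core

variable {R : Type*} [CommRing R] [IsLocalRing R] {N : Type*} [AddCommGroup N] [Module R N]
  {J : Type*} (t : J → Module.End R N) (hcomm : ∀ i j, Commute (t i) (t j))

omit [IsLocalRing R] in
/-- an endomorphism preserves `I N` -/
theorem end_mem_smul_top (I : Ideal R) (f : Module.End R N) {m : N}
    (hm : m ∈ (I • ⊤ : Submodule R N)) : f m ∈ (I • ⊤ : Submodule R N) := by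
  have h1 : (I • ⊤ : Submodule R N).map f ≤ I • ⊤ := by
    rw [Submodule.map_smul'']
    exact Submodule.smul_mono le_rfl le_top
  exact h1 (Submodule.mem_map_of_mem hm)

/-- every polynomial in the operators acts on an eigenvector modulo `𝔪` as its value at the
eigenvalues, modulo `𝔪 N`. -/
theorem polyAct_sub_eval_mem (a : J → R) (y : N)
    (heig : ∀ j, t j y - a j • y ∈ (maximalIdeal R • ⊤ : Submodule R N))
    (s : MvPolynomial J R) :
    polyAct t hcomm s y - MvPolynomial.eval a s • y ∈ (maximalIdeal R • ⊤ : Submodule R N) := by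
  induction s using MvPolynomial.induction_on with
  | C r =>
    rw [polyAct_C, MvPolynomial.eval_C, Module.algebraMap_end_apply, sub_self]
    exact Submodule.zero_mem _
  | add s s' hs hs' =>
    rw [map_add, map_add, LinearMap.add_apply, add_smul]
    have : polyAct t hcomm s y + polyAct t hcomm s' y
        - (MvPolynomial.eval a s • y + MvPolynomial.eval a s' • y)
        = (polyAct t hcomm s y - MvPolynomial.eval a s • y)
          + (polyAct t hcomm s' y - MvPolynomial.eval a s' • y) := by abel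
    rw [this]
    exact Submodule.add_mem _ hs hs'
  | mul_X s j hs =>
    rw [map_mul, map_mul, polyAct_X, MvPolynomial.eval_X, Module.End.mul_apply]
    have : polyAct t hcomm s (t j y) - (MvPolynomial.eval a s * a j) • y
        = polyAct t hcomm s (t j y - a j • y)
          + a j • (polyAct t hcomm s y - MvPolynomial.eval a s • y) := by
      rw [map_sub, map_smul, smul_sub, smul_smul, mul_comm (a j)]
      abel
    rw [this]
    exact Submodule.add_mem _ (end_mem_smul_top _ _ (heig j)) (Submodule.smul_mem _ _ hs)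

theorem evalHom_eq_residue_eval (θ : J → ResidueField R) (a : J → R)
    (ha : ∀ j, residue R (a j) = θ j) (s : MvPolynomial J R) :
    evalHom θ s = residue R (MvPolynomial.eval a s) := by
  have h1 : θ = (residue R) ∘ a := funext fun j => (ha j).symm
  rw [h1]
  exact (MvPolynomial.eval₂_comp (residue R) a s).symm

/-- **the localisation at `θ` does not kill an eigenvector modulo `𝔪` with eigenvalues `θ`.** -/
theorem nontrivial_of_eigen (θ : J → ResidueField R) (a : J → R)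
    (ha : ∀ j, residue R (a j) = θ j) (y : N)
    (hy : y ∉ (maximalIdeal R • ⊤ : Submodule R N))
    (heig : ∀ j, t j y - a j • y ∈ (maximalIdeal R • ⊤ : Submodule R N)) :
    Nontrivial (LocalizedModule (Sθ θ) (WithOps t hcomm)) := by
  let y' : WithOps t hcomm := (WithOps.equiv t hcomm).symm y
  refine ⟨⟨LocalizedModule.mk y' 1, 0, fun h => ?_⟩⟩
  rw [← LocalizedModule.zero_mk (1 : Sθ θ), LocalizedModule.mk_eq] at h
  obtain ⟨u, hu⟩ := h
  rw [one_smul, one_smul, smul_zero] at hu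
  -- `u • y' = 0` with `u ∉ 𝔪_θ`
  have hu1 : polyAct t hcomm (u : MvPolynomial J R) y = 0 := by
    have := congrArg (WithOps.equiv t hcomm) hu
    rwa [map_zero] at this
  have hu2 := polyAct_sub_eval_mem t hcomm a y heig (u : MvPolynomial J R)
  rw [hu1, zero_sub, neg_mem_iff] at hu2
  have hunit : IsUnit (MvPolynomial.eval a (u : MvPolynomial J R)) := by
    have h1 : evalHom θ (u : MvPolynomial J R) ≠ 0 := (mem_Sθ_iff θ _).mp u.2
    rw [evalHom_eq_residue_eval θ a ha] at h1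
    by_contra hn
    exact h1 ((residue_eq_zero_iff _).mpr hn)
  apply hy
  have h3 : y = (↑(hunit.unit⁻¹) : R) • (MvPolynomial.eval a (u : MvPolynomial J R) • y) := by
    rw [smul_smul, IsUnit.val_inv_mul, one_smul]
  rw [h3]
  exact Submodule.smul_mem _ _ hu2

end Core

/-! ### from the Tate module to the parabolic homomorphisms with values in `ℤ_p` -/

section Padic

open CongruenceSubgroup ModularCurve ModularCurve.Period
open Fermat.Agent.S30.Padic.TateModule Fermat.Agent.S30.Arith.TateInputs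
open Fermat.Agent.S30.Hecke.Parabolic Fermat.Agent.S30.Lattice.BaseChange

variable {p : ℕ} [Fact p.Prime] {N : ℕ} [NeZero N]

/-- a Tate vector with non-zero first coordinate is not divisible by `p`. -/
theorem ne_smul_of_apply_one_ne_zero (w : Tp p (JZero N)) (hw : w.1 1 ≠ 0)
    (v : Tp p (JZero N)) : w ≠ (p : ℤ_[p]) • v := by
  intro h
  apply hw
  rw [h, Tp.coe_natCast_smul_apply]
  have h1 := Tp.smul_apply_succ v 0
  rw [zero_add] at h1
  rw [h1, Tp.apply_zero]

/-- **the comparison**: `T_p J₀(N) ≃ Hom_par(Γ₀(N), ℤ_p)`, equivariant for the Hecke operators at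
all primes (main's `S30/Final/TateCompare` + `S30/Lattice/BaseChange`). -/
theorem exists_tate_equiv (p : ℕ) [Fact p.Prime] (N : ℕ) [NeZero N] :
    ∃ E : Tp p (JZero N) ≃ₗ[ℤ_[p]] ↥(parabolicHoms ℤ_[p] (Gamma0 N) ℤ_[p]),
      ∀ (r : Nat.Primes) (x : Tp p (JZero N)),
        E (Tp.mapEnd (heckeEnd N r) x) = tauPar ℤ_[p] ℤ_[p] N r r.2 (E x) := by
  obtain ⟨ι⟩ := Fermat.Agent.S30.Descent.PhiDictThm.nonempty_ringHom
  have h : Fermat.Agent.S30.Spec.PhiDict N ι := Fermat.Agent.S30.Descent.PhiDictThm.phiDict N ι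
  obtain ⟨ep, H3⟩ := Fermat.Agent.S30.Final.TateCompare.h3_of_phiDict (h := h) p
    (Fermat.Agent.S30.frickeChar N)
    (fun r => Fermat.Agent.S30.Padic.TateChar.tauChar N r r.2)
    (Fermat.Agent.S30.frickeChar_hecke N h)
    (fun r => Fermat.Agent.S30.Hecke.Parabolic.tauPar ℤ ℤ N r r.2)
    (Fermat.Agent.S30.Padic.TateChar.tateLattice N p)
    (fun r x => Fermat.Agent.S30.Padic.TateChar.tateLattice_tauChar p N r r.2 x)
  refine ⟨ep.trans (baseChangeEquiv (Gamma0 N) ℤ_[p]), fun r x => ?_⟩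
  have h3 : ep (Tp.mapEnd (heckeEnd N r) x) =
      (tauPar ℤ ℤ N r r.2).baseChange ℤ_[p] (ep x) := H3 r x
  rw [LinearEquiv.trans_apply, LinearEquiv.trans_apply, h3, baseChangeEquiv_tauPar]

/-- **a parabolic eigen-homomorphism modulo `p`** from a Tate eigenvector modulo `p`. -/
theorem exists_parabolic_eigen (S : Finset ℕ) (a : ℕ → ℤ) (w : Tp p (JZero N))
    (hw : w.1 1 ≠ 0)
    (heig : ∀ (ℓ : ℕ) (hℓ : ℓ.Prime), ℓ ∉ S →
      heckeOperatorBar N ⟨ℓ, hℓ⟩ (w.1 1) = a ℓ • w.1 1) :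
    ∃ ξ : ↥(parabolicHoms ℤ_[p] (Gamma0 N) ℤ_[p]),
      (∀ ξ' : ↥(parabolicHoms ℤ_[p] (Gamma0 N) ℤ_[p]), ξ ≠ (p : ℤ_[p]) • ξ') ∧
      ∀ (ℓ : ℕ) (hℓ : ℓ.Prime), ℓ ∉ S →
        ∃ ξ' : ↥(parabolicHoms ℤ_[p] (Gamma0 N) ℤ_[p]),
          tauPar ℤ_[p] ℤ_[p] N ℓ hℓ ξ - ((a ℓ : ℤ) : ℤ_[p]) • ξ = (p : ℤ_[p]) • ξ' := by
  obtain ⟨E, hE⟩ := exists_tate_equiv p N
  refine ⟨E w, fun ξ' h => ?_, fun ℓ hℓ hℓS => ?_⟩
  · apply ne_smul_of_apply_one_ne_zero w hw (E.symm ξ')
    apply E.injective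
    rw [map_smul, LinearEquiv.apply_symm_apply]
    exact h
  · set u : Tp p (JZero N) :=
      Tp.mapEnd (heckeEnd N (⟨ℓ, hℓ⟩ : Nat.Primes)) w - ((a ℓ : ℤ) : ℤ_[p]) • w with hu
    have hu1 : u.1 1 = 0 := by
      rw [hu, Tp.coe_sub_apply, Tp.coe_mapEnd_apply, heckeEnd_apply, Tp.coe_intCast_smul_apply,
        heig ℓ hℓ hℓS, sub_self]
    obtain ⟨v, hv⟩ := Tp.exists_eq_pow_smul u 1 hu1
    refine ⟨E v, ?_⟩
    have h1 : E u = (p : ℤ_[p]) • E v := by
      rw [hv, pow_one, map_smul]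
    rw [← h1, hu, map_sub, map_smul, hE ⟨ℓ, hℓ⟩ w]

/-- a parabolic homomorphism with values in `ℤ_p` which is not divisible by `p` takes a unit
value. -/
theorem exists_isUnit_apply (ξ : ↥(parabolicHoms ℤ_[p] (Gamma0 N) ℤ_[p]))
    (hξ : ∀ ξ' : ↥(parabolicHoms ℤ_[p] (Gamma0 N) ℤ_[p]), ξ ≠ (p : ℤ_[p]) • ξ') :
    ∃ γ : Additive (Gamma0 N), IsUnit ((ξ : Additive (Gamma0 N) →+ ℤ_[p]) γ) := by
  by_contra hcon
  push Not at hcon
  have hp0 : (p : ℤ_[p]) ≠ 0 := by
    exact_mod_cast (Fact.out : p.Prime).ne_zero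
  have hdiv : ∀ γ : Additive (Gamma0 N), ∃ c : ℤ_[p],
      (ξ : Additive (Gamma0 N) →+ ℤ_[p]) γ = (p : ℤ_[p]) * c := by
    intro γ
    have h1 : (ξ : Additive (Gamma0 N) →+ ℤ_[p]) γ ∈ maximalIdeal ℤ_[p] := hcon γ
    rw [PadicInt.maximalIdeal_eq_span_p, Ideal.mem_span_singleton] at h1
    exact h1
  choose c hc using hdiv
  have hadd : ∀ γ δ : Additive (Gamma0 N), c (γ + δ) = c γ + c δ := by
    intro γ δ
    apply mul_left_cancel₀ hp0
    rw [mul_add, ← hc, ← hc, ← hc, map_add]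
  let ψ : Additive (Gamma0 N) →+ ℤ_[p] := AddMonoidHom.mk' c hadd
  have hψ : ψ ∈ parabolicHoms ℤ_[p] (Gamma0 N) ℤ_[p] := by
    intro γ hγ
    apply mul_left_cancel₀ hp0
    show (p : ℤ_[p]) * c (Additive.ofMul γ) = (p : ℤ_[p]) * 0
    rw [← hc, mul_zero]
    exact ξ.2 γ hγ
  apply hξ ⟨ψ, hψ⟩
  apply Subtype.ext
  apply AddMonoidHom.ext
  intro γ
  show (ξ : Additive (Gamma0 N) →+ ℤ_[p]) γ = (p : ℤ_[p]) • c γ
  rw [smul_eq_mul]
  exact hc γ

end Padic

/-! ### the level-zero module -/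

section Inst

open CongruenceSubgroup ModularCurve ModularCurve.Period
open Fermat.Agent.S30.Padic.TateModule Fermat.Agent.S30.Arith.TateInputs
open Fermat.Agent.S30.Hecke.Parabolic Fermat.Agent.S30.Hecke.Gamma0Cosets

variable {p : ℕ} [Fact p.Prime] {N : ℕ} [NeZero N]
  {O : Type*} [CommRing O] [IsLocalRing O] [Algebra ℤ_[p] O] [IsLocalHom (algebraMap ℤ_[p] O)]

/-- the change of coefficients `ℤ_p → O` -/
def castO (ξ : Additive (Gamma0 N) →+ ℤ_[p]) : Additive (Gamma0 N) →+ O :=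
  (algebraMap ℤ_[p] O).toAddMonoidHom.comp ξ

omit [IsLocalRing O] [IsLocalHom (algebraMap ℤ_[p] O)] in
theorem castO_apply (ξ : Additive (Gamma0 N) →+ ℤ_[p]) (γ : Additive (Gamma0 N)) :
    (castO ξ : Additive (Gamma0 N) →+ O) γ = algebraMap ℤ_[p] O (ξ γ) := rfl

omit [IsLocalRing O] [IsLocalHom (algebraMap ℤ_[p] O)] in
theorem tauAllLin_castO (ℓ : ℕ) (hℓ : ℓ.Prime) (ξ : Additive (Gamma0 N) →+ ℤ_[p]) :
    tauAllLin O O N ℓ hℓ (castO ξ) = castO (tauAll N ℓ hℓ ξ) := by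
  rw [tauAllLin_apply]
  exact (comp_tauAll _ ℓ hℓ ξ).symm

omit [Fact p.Prime] [NeZero N] [Algebra ℤ_[p] O] [IsLocalHom (algebraMap ℤ_[p] O)] in
/-- the values of a member of `𝔪 Hom(Γ, O)` lie in `𝔪` -/
theorem apply_mem_of_mem_smul_top {y : Additive (Gamma0 N) →+ O}
    (hy : y ∈ (maximalIdeal O • ⊤ : Submodule O (Additive (Gamma0 N) →+ O)))
    (γ : Additive (Gamma0 N)) : y γ ∈ maximalIdeal O := by
  induction hy using Submodule.smul_induction_on' with
  | smul m hm ψ _ =>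
    show m • ψ γ ∈ maximalIdeal O
    rw [smul_eq_mul]
    exact Ideal.mul_mem_right _ _ hm
  | add y _ z _ hy hz =>
    rw [AddMonoidHom.add_apply]
    exact Ideal.add_mem _ hy hz

/-- **ENTRY from a Tate eigenvector modulo `p`**: the localisation of `Hom(Γ₀(N), O)` at the
eigenvalues `a (q j)` modulo `𝔪_O` is not zero. -/
theorem entry_of_tate (S : Finset ℕ) (a : ℕ → ℤ) (w : Tp p (JZero N)) (hw : w.1 1 ≠ 0)
    (heig : ∀ (ℓ : ℕ) (hℓ : ℓ.Prime), ℓ ∉ S →
      heckeOperatorBar N ⟨ℓ, hℓ⟩ (w.1 1) = a ℓ • w.1 1)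
    {J : Type*} (q : J → ℕ) (hq : ∀ j, (q j).Prime) (hqS : ∀ j, q j ∉ S)
    (hcomm : ∀ i j, Commute (tauAllLin O O N (q i) (hq i)) (tauAllLin O O N (q j) (hq j))) :
    Nontrivial (LocalizedModule (Sθ (fun j => residue O (((a (q j) : ℤ) : O))))
      (WithOps (fun j => tauAllLin O O N (q j) (hq j)) hcomm)) := by
  obtain ⟨ξ, hξ, hξeig⟩ := exists_parabolic_eigen S a w hw heig
  obtain ⟨γ, hγ⟩ := exists_isUnit_apply ξ hξ
  have hpO : (p : O) ∈ maximalIdeal O := by
    have h1 : (p : ℤ_[p]) ∈ maximalIdeal ℤ_[p] := by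
      rw [PadicInt.maximalIdeal_eq_span_p]
      exact Ideal.mem_span_singleton_self _
    have h2 := map_nonunit (algebraMap ℤ_[p] O) (p : ℤ_[p]) h1
    rwa [map_natCast] at h2
  refine nontrivial_of_eigen _ hcomm _ (fun j => (((a (q j) : ℤ) : O))) (fun j => rfl)
    (castO (ξ : Additive (Gamma0 N) →+ ℤ_[p])) ?_ ?_
  · intro hmem
    have h1 := apply_mem_of_mem_smul_top hmem γ
    rw [castO_apply] at h1
    exact h1 (hγ.map (algebraMap ℤ_[p] O))
  · intro j
    obtain ⟨ξ', hξ'⟩ := hξeig (q j) (hq j) (hqS j)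
    have h1 := congrArg (fun z : ↥(parabolicHoms ℤ_[p] (Gamma0 N) ℤ_[p]) =>
      (z : Additive (Gamma0 N) →+ ℤ_[p])) hξ'
    simp only [Submodule.coe_sub, Submodule.coe_smul, coe_tauPar] at h1
    have h2 : tauAllLin O O N (q j) (hq j) (castO (ξ : Additive (Gamma0 N) →+ ℤ_[p]))
        - (((a (q j) : ℤ) : O)) • castO (ξ : Additive (Gamma0 N) →+ ℤ_[p])
        = (p : O) • castO (ξ' : Additive (Gamma0 N) →+ ℤ_[p]) := by
      rw [tauAllLin_castO]
      apply AddMonoidHom.ext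
      intro δ
      have h3 := congrArg (fun z : Additive (Gamma0 N) →+ ℤ_[p] => algebraMap ℤ_[p] O (z δ)) h1
      simp only [AddMonoidHom.sub_apply, AddMonoidHom.smul_apply, smul_eq_mul, map_sub, map_mul,
        map_intCast, map_natCast] at h3
      simp only [AddMonoidHom.sub_apply, AddMonoidHom.smul_apply, smul_eq_mul, castO_apply]
      exact h3
    rw [h2]
    exact Submodule.smul_mem_smul hpO Submodule.mem_top

/-- **ENTRY**: for the eigenvalues `a_ℓ(W)` of a normalised eigenform congruent to `W` modulo a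
prime over `p` (the data of `P.ModularRepOfLevel N`), the localisation of `Hom(Γ₀(N), O)` at
`θ_j = a_{q j}(W)` modulo `𝔪_O` is not zero, for every family `q` of primes outside the exceptional
set of `(W, p, N)`. -/
theorem entry {W : WeierstrassCurve ℤ} (hΔ : W.Δ ≠ 0)
    {f : CuspForm (Gamma0 N) 2} (hf : f.IsNormalizedEigenform)
    {𝔪 : Ideal (integralClosure ℤ ℂ)} (h𝔪 : 𝔪 ≠ ⊤) (hp𝔪 : (p : integralClosure ℤ ℂ) ∈ 𝔪)
    (hcong : ∀ ℓ : ℕ, ℓ.Prime → W.IsGoodPrimeFor ℓ → ¬ ℓ ∣ N → ℓ ≠ p →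
      ∃ a : integralClosure ℤ ℂ, (a : ℂ) = ModularFormClass.qCoeff f ℓ ∧
        a - ((W.apOfModel ℓ : ℤ) : integralClosure ℤ ℂ) ∈ 𝔪)
    {J : Type*} (q : J → ℕ) (hq : ∀ j, (q j).Prime)
    (hqS : ∀ j, q j ∉ Fermat.Agent.S44.Ent.Phi.excSet W p N)
    (hcomm : ∀ i j, Commute (tauAllLin O O N (q i) (hq i)) (tauAllLin O O N (q j) (hq j))) :
    Nontrivial (LocalizedModule (Sθ (fun j => residue O (((W.apOfModel (q j) : ℤ) : O))))
      (WithOps (fun j => tauAllLin O O N (q j) (hq j)) hcomm)) := by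
  have hN : N ≠ 0 := NeZero.ne N
  obtain ⟨w, hw, hweig⟩ := Fermat.Agent.S44.Ent.Eigen.exists_eigen_tate (p := p) hf h𝔪 hp𝔪
    (Fermat.Agent.S44.Ent.Phi.excSet W p N)
    (fun r hr hrN => Finset.mem_insert_of_mem (Finset.mem_union_left _
      (Nat.mem_primeFactors.mpr ⟨hr, hrN, hN⟩)))
    (fun ℓ => W.apOfModel ℓ)
    (fun ℓ hℓ hℓS => by
      obtain ⟨hg, hℓN, hℓp⟩ := Fermat.Agent.S44.Ent.Phi.of_not_mem_excSet hΔ hN hℓ hℓS
      exact hcong ℓ hℓ hg hℓN hℓp)
  exact entry_of_tate (Fermat.Agent.S44.Ent.Phi.excSet W p N) (fun ℓ => W.apOfModel ℓ) w hw hweig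
    q hq hqS hcomm

omit [Fact p.Prime] [NeZero N] [IsLocalRing O] [Algebra ℤ_[p] O]
  [IsLocalHom (algebraMap ℤ_[p] O)] in
/-- the rank of a non-zero finite free module is positive (the `0 < d` of the patching). -/
theorem finrank_pos_of_nontrivial [Nontrivial O] (M0 : Type*) [AddCommGroup M0] [Module O M0]
    [Module.Free O M0] [Module.Finite O M0] [Nontrivial M0] : 0 < Module.finrank O M0 :=
  (Module.finrank_pos_iff_of_free O M0).mpr inferInstance

end Inst

end Fermat.Agent.S43.Hecke.Entry
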