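import Mathlib
import Fermat.Agent.S43.Rho.Lam

/-!
# PROJECT R (S43), the bridge L1 ↔ L3 (abstract half): the Hecke algebra of a Hecke submodule is a
quotient of the Hecke algebra of the ambient module

`O`, `P`, `m` as in `Rho/Lam`.  `N` the big `P`-module (the Tate side), `M` a second `P`-module
(the Betti side) with a `P`-linear INJECTION `j : M → N`.  Then

* `jLoc : Loc m M → Loc m N` is injective and linear over `P_m`;
* `bridge : T O m N →ₐ[O] T O m M` is onto, `bridge (ofP Q) = ofP Q`, `bridge (toT a) = toT a`:
  every relation between Hecke operators that holds on `Loc m N` holds on `Loc m M`;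
* `bridge_smul` : `jLoc (bridge x • v) = x • jLoc v`;
* `bridgeL` … : the same from a `P`-linear injection `Loc m M → Loc m N` given only after
  localisation (the boundary is Eisenstein: `Hom` and `Hom_par` agree only after localisation);
* `mapRepHom b ρ` : a representation `ρ : G →* GL₂(T₁)` pushed along `b : T₁ →+* T₂`, entrywise,
  with `trace_mapRepHom`, `det_mapRepHom`.
-/

set_option autoImplicit false

namespace Fermat.Agent.S43.Hecke.Bridge

open Fermat.Agent.S43.Rho.Lam

variable (O : Type) [CommRing O] {P : Type} [CommRing P] [Algebra O P] (m : Ideal P) [m.IsMaximal]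
  {N : Type} [AddCommGroup N] [Module O N] [Module P N] [IsScalarTower O P N]
  {M : Type} [AddCommGroup M] [Module O M] [Module P M] [IsScalarTower O P M]
  (j : M →ₗ[P] N)

/-- the localisation of `j`, over `P` -/
noncomputable def jLocP : Loc m M →ₗ[P] Loc m N :=
  IsLocalizedModule.map m.primeCompl (LocalizedModule.mkLinearMap m.primeCompl M)
    (LocalizedModule.mkLinearMap m.primeCompl N) j

/-- the localisation of `j`, over the local ring `P_m` -/
noncomputable def jLoc : Loc m M →ₗ[Localization.AtPrime m] Loc m N :=
  LinearMap.extendScalarsOfIsLocalization m.primeCompl (Localization.AtPrime m) (jLocP m j)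

theorem jLoc_mk (x : M) (s : m.primeCompl) :
    jLoc m j (LocalizedModule.mk x s) = LocalizedModule.mk (j x) s :=
  IsLocalizedModule.map_LocalizedModules m.primeCompl j x s

theorem jLoc_injective (hj : Function.Injective j) : Function.Injective (jLoc m j) :=
  IsLocalizedModule.map_injective m.primeCompl (LocalizedModule.mkLinearMap m.primeCompl M)
    (LocalizedModule.mkLinearMap m.primeCompl N) j hj

/-! ### the bridge from an injection of the localisations -/

section Loc

variable {m}
variable (jL : Loc m M →ₗ[P] Loc m N)

/-- a `P`-linear map between the localisations is linear over `P_m` -/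
noncomputable def extL : Loc m M →ₗ[Localization.AtPrime m] Loc m N :=
  LinearMap.extendScalarsOfIsLocalization m.primeCompl (Localization.AtPrime m) jL

theorem extL_apply (v : Loc m M) : extL jL v = jL v := rfl

/-- what kills the big module kills the submodule -/
theorem ker_toT_le (hjL : Function.Injective jL) :
    RingHom.ker (toT O m N).toRingHom ≤ RingHom.ker (toT O m M).toRingHom := by
  intro a ha
  rw [RingHom.mem_ker] at ha ⊢
  apply T_faithful
  intro v
  apply hjL
  have h0 : toT O m N a = 0 := ha
  show jL (toT O m M a • v) = jL 0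
  rw [toT_smul, ← extL_apply, map_smul, extL_apply, map_zero, ← toT_smul O m N a, h0, zero_smul]

/-- **the bridge** `T(N) → T(M)` from an injection `Loc m M → Loc m N` -/
noncomputable def bridgeL (hjL : Function.Injective jL) : T O m N →ₐ[O] T O m M :=
  AlgHom.liftOfSurjective (toT O m N) (toT_surjective O m N) (toT O m M) (ker_toT_le O jL hjL)

theorem bridgeL_toT (hjL : Function.Injective jL) (a : Localization.AtPrime m) :
    bridgeL O jL hjL (toT O m N a) = toT O m M a :=
  AlgHom.liftOfSurjective_apply _ _ _ _ a

theorem bridgeL_ofP (hjL : Function.Injective jL) (Q : P) :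
    bridgeL O jL hjL (ofP O m N Q) = ofP O m M Q :=
  bridgeL_toT O jL hjL _

theorem bridgeL_surjective (hjL : Function.Injective jL) :
    Function.Surjective (bridgeL O jL hjL) := by
  intro y
  obtain ⟨a, rfl⟩ := toT_surjective O m M y
  exact ⟨toT O m N a, bridgeL_toT O jL hjL a⟩

/-- the injection is equivariant for the bridge -/
theorem bridgeL_smul (hjL : Function.Injective jL) (x : T O m N) (v : Loc m M) :
    jL (bridgeL O jL hjL x • v) = x • jL v := by
  obtain ⟨a, rfl⟩ := toT_surjective O m N x
  rw [bridgeL_toT, toT_smul, toT_smul, ← extL_apply, map_smul, extL_apply]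

end Loc

/-! ### the bridge from an injection before localisation -/

/-- **the bridge**: `T(N) → T(M)` -/
noncomputable def bridge (hj : Function.Injective j) : T O m N →ₐ[O] T O m M :=
  bridgeL O (jLocP m j) (jLoc_injective m j hj)

theorem bridge_toT (hj : Function.Injective j) (a : Localization.AtPrime m) :
    bridge O m j hj (toT O m N a) = toT O m M a :=
  bridgeL_toT O _ _ a

theorem bridge_ofP (hj : Function.Injective j) (Q : P) :
    bridge O m j hj (ofP O m N Q) = ofP O m M Q :=
  bridge_toT O m j hj _

theorem bridge_surjective (hj : Function.Injective j) :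
    Function.Surjective (bridge O m j hj) :=
  bridgeL_surjective O _ _

/-- the inclusion is equivariant for the bridge -/
theorem bridge_smul (hj : Function.Injective j) (x : T O m N) (v : Loc m M) :
    jLoc m j (bridge O m j hj x • v) = x • jLoc m j v :=
  bridgeL_smul O (jLocP m j) (jLoc_injective m j hj) x v

/-! ### representations -/

section Rep

variable {m}
variable {T₁ T₂ : Type*} [CommRing T₁] [CommRing T₂] (b : T₁ →+* T₂)

/-- pushing a two-dimensional representation along a ring homomorphism -/
noncomputable def mapRepHom {G : Type*} [Group G] (ρ : G →* GL (Fin 2) T₁) : G →* GL (Fin 2) T₂ :=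
  (Matrix.GeneralLinearGroup.map b).comp ρ

theorem mapRepHom_apply {G : Type*} [Group G] (ρ : G →* GL (Fin 2) T₁) (g : G) (i k : Fin 2) :
    (mapRepHom b ρ g : Matrix (Fin 2) (Fin 2) T₂) i k =
      b ((ρ g : Matrix (Fin 2) (Fin 2) T₁) i k) := rfl

theorem trace_mapRepHom {G : Type*} [Group G] (ρ : G →* GL (Fin 2) T₁) (g : G) :
    Matrix.trace (mapRepHom b ρ g : Matrix (Fin 2) (Fin 2) T₂) =
      b (Matrix.trace (ρ g : Matrix (Fin 2) (Fin 2) T₁)) := by
  simp only [Matrix.trace, Matrix.diag, map_sum, mapRepHom_apply]

theorem det_mapRepHom {G : Type*} [Group G] (ρ : G →* GL (Fin 2) T₁) (g : G) :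
    Matrix.det (mapRepHom b ρ g : Matrix (Fin 2) (Fin 2) T₂) =
      b (Matrix.det (ρ g : Matrix (Fin 2) (Fin 2) T₁)) := by
  rw [Matrix.det_fin_two, Matrix.det_fin_two, map_sub, map_mul, map_mul]
  rfl

end Rep

end Fermat.Agent.S43.Hecke.Bridge
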