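import Mathlib
import Fermat.Agent.S43.Hecke.BaseChange
import Fermat.Agent.S43.Hecke.Loc

/-!
# PROJECT R (S43), block L3: the kernel of the reduction modulo an ideal

`R` noetherian, `CD1 χ`, `f : R →ₗ[R] B` onto (e.g. the augmentation `𝒪[Δ] → 𝒪`).

* `H1.map_eq_zero_mem` : the kernel of `H1 χ R → H1 χ B` is `ker f • H1 χ R` (base change);
* `locMap_eq_zero_mem` : the same after localisation of the Hecke modules.
-/

set_option autoImplicit false

open scoped BigOperators TensorProduct

namespace Fermat.Agent.S43.Hecke.AugKer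

open Fermat.Agent.S43.Hecke.Defs Fermat.Agent.S43.Hecke.Seam Fermat.Agent.S43.Hecke.Loc

universe u v

variable {Γ : Type v} [Group Γ] {R : Type u} [CommRing R] {χ : Γ →* Rˣ}

/-- **the kernel of the reduction along a surjection `R → B`** -/
theorem H1.map_eq_zero_mem (hcd : CD1 χ) [IsNoetherianRing R] {B : Type u} [AddCommGroup B]
    [Module R B] (f : R →ₗ[R] B) (hf : Function.Surjective f) (ξ : H1 χ R)
    (h : H1.map χ f ξ = 0) :
    ξ ∈ ((LinearMap.ker f : Ideal R) • ⊤ : Submodule R (H1 χ R)) := by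
  have : Module.Finite R B := Module.Finite.of_surjective f hf
  have hbc := Fermat.Agent.S43.Hecke.BaseChange.baseChange (χ := χ) hcd B
  -- `f = toSpanSingleton (f 1)`
  have hf1 : LinearMap.toSpanSingleton R B (f 1) = f := by
    ext
    simp
  have h1 : theta χ B (ξ ⊗ₜ[R] f 1) = 0 := by
    show thetaAux χ B (f 1) ξ = 0
    unfold thetaAux
    rw [hf1]
    exact h
  have h2 : ξ ⊗ₜ[R] f 1 = (0 : H1 χ R ⊗[R] B) := hbc.1 (by rw [h1, map_zero])
  -- transport to `R ⧸ ker f`
  let e : (R ⧸ (LinearMap.ker f : Ideal R)) ≃ₗ[R] B := f.quotKerEquivOfSurjective hf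
  have h3 : ξ ⊗ₜ[R] (Submodule.Quotient.mk (1 : R) : R ⧸ (LinearMap.ker f : Ideal R)) =
      (0 : H1 χ R ⊗[R] (R ⧸ (LinearMap.ker f : Ideal R))) := by
    have := congrArg (TensorProduct.congr (LinearEquiv.refl R (H1 χ R)) e.symm) h2
    rw [TensorProduct.congr_tmul, map_zero, LinearEquiv.refl_apply] at this
    rw [← this]
    congr 1
    rw [LinearEquiv.eq_symm_apply]
    rfl
  have h4 : (Submodule.Quotient.mk ξ :
      H1 χ R ⧸ ((LinearMap.ker f : Ideal R) • ⊤ : Submodule R (H1 χ R))) = 0 := by
    apply (TensorProduct.tensorQuotEquivQuotSMul (H1 χ R) (LinearMap.ker f : Ideal R)).symm.injective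
    rw [TensorProduct.tensorQuotEquivQuotSMul_symm_mk, map_zero]
    exact h3
  exact (Submodule.Quotient.mk_eq_zero _).1 h4

/-! ### after localisation -/

section LocKer

variable {P : Type*} [CommRing P] [Algebra R P] (S : Submonoid P)
  {N : Type*} [AddCommGroup N] [Module R N] [Module P N] [IsScalarTower R P N]
  {N' : Type*} [AddCommGroup N'] [Module P N']

/-- `n ↦ n / t` as an `R`-linear map -/
noncomputable def divMap (t : S) : N →ₗ[R] LocalizedModule S N :=
  ((LocalizedModule.divBy t).comp (LocalizedModule.mkLinearMap S N)).restrictScalars R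

theorem divMap_apply (t : S) (n : N) : divMap (R := R) S t n = LocalizedModule.mk n t := by
  show LocalizedModule.divBy t (LocalizedModule.mkLinearMap S N n) = _
  rw [LocalizedModule.mkLinearMap_apply, LocalizedModule.divBy_apply]
  show LocalizedModule.mk n (1 * t) = _
  rw [one_mul]

theorem mk_mem_smul_top (𝔞 : Ideal R) (z : N) (hz : z ∈ (𝔞 • ⊤ : Submodule R N)) (t : S) :
    LocalizedModule.mk z t ∈ (𝔞 • ⊤ : Submodule R (LocalizedModule S N)) := by
  rw [← divMap_apply (R := R)]
  have h1 : divMap (R := R) S t z ∈ Submodule.map (divMap (R := R) S t)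
      (𝔞 • ⊤ : Submodule R N) := Submodule.mem_map_of_mem hz
  rw [Submodule.map_smul''] at h1
  exact Submodule.smul_mono le_rfl le_top h1

/-- the kernel of the localisation of a map with kernel in `𝔞 • N` lies in `𝔞 • S⁻¹N` -/
theorem locMap_eq_zero_mem (π : N →ₗ[P] N') (𝔞 : Ideal R)
    (hker : ∀ x : N, π x = 0 → x ∈ (𝔞 • ⊤ : Submodule R N)) (y : LocalizedModule S N)
    (hy : locMap S π y = 0) : y ∈ (𝔞 • ⊤ : Submodule R (LocalizedModule S N)) := by
  induction y using LocalizedModule.induction_on with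
  | h x s =>
    rw [locMap_mk, ← LocalizedModule.zero_mk 1, LocalizedModule.mk_eq, one_smul, smul_zero] at hy
    obtain ⟨s', hs'⟩ := hy
    have h1 : π ((s' : P) • x) = 0 := by
      rw [map_smul]
      rw [smul_zero] at hs'
      exact hs'
    have h2 := hker _ h1
    have h3 : LocalizedModule.mk x s = LocalizedModule.mk ((s' : P) • x) (s' * s) := by
      rw [LocalizedModule.mk_eq]
      refine ⟨1, ?_⟩
      simp only [one_smul, Submonoid.smul_def, mul_smul]
      rw [smul_comm]
    rw [h3]
    exact mk_mem_smul_top S 𝔞 _ h2 _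

end LocKer

end Fermat.Agent.S43.Hecke.AugKer
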