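import Mathlib
import Fermat.Agent.S43.Hecke.Seam

/-!
# PROJECT R (S43), block L3: congruent characters have the same cohomology modulo the congruence

`χ χ' : Γ →* Rˣ` with `χ' g - χ g ∈ 𝔫` for all `g` (`IsCong χ χ' 𝔫`), `B` an `R`-module killed by
`𝔫`.  Then `χ'`-cocycles with values in `B` are `χ`-cocycles:

* `Z1.mapCong`, `H1.mapCong` : for `f : A →ₗ[R] B` the push-forward
  `H1 χ' A → H1 χ B` (for `χ' = χ`, `𝔫 = ⊥` this is `H1.map`);
* `mapCong_heckeZ`, `mapCong_heckeH` : it intertwines the double-coset operators of two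
  nebentypus data congruent modulo `𝔫`;
* `Z1.mapCong_surjective` : it is onto on cocycles when `f` is, under `CD1 χ'`;
* `H1.mapCong_eq_zero_iff` : if `f` is onto with kernel `ϖ • A`, `ϖ ∈ 𝔫` regular on `A`, the
  kernel of `H1.mapCong f` is `ϖ • H1 χ' A`.

This is `M^χ / ϖ = M^1 / ϖ` before localisation.
-/

set_option autoImplicit false

open scoped BigOperators

namespace Fermat.Agent.S43.Hecke.Cong

open Fermat.Agent.S30.Hecke.DoubleCoset Fermat.Agent.S43.Hecke.Defs Fermat.Agent.S43.Hecke.Seam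

universe u v w w'

variable {Γ : Type v} [Group Γ] {R : Type u} [CommRing R]

/-- two characters congruent modulo an ideal -/
def IsCong (χ χ' : Γ →* Rˣ) (𝔫 : Ideal R) : Prop :=
  ∀ g : Γ, ((χ' g : Rˣ) : R) - ((χ g : Rˣ) : R) ∈ 𝔫

/-- a module killed by an ideal -/
def KilledBy (𝔫 : Ideal R) (B : Type*) [AddCommGroup B] [Module R B] : Prop :=
  ∀ r ∈ 𝔫, ∀ b : B, r • b = 0

variable {χ χ' : Γ →* Rˣ} {𝔫 : Ideal R}
  {A : Type w} [AddCommGroup A] [Module R A] {B : Type w'} [AddCommGroup B] [Module R B]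

theorem smul_eq_of_sub_mem (hB : KilledBy 𝔫 B) {r r' : R} (h : r' - r ∈ 𝔫) (b : B) :
    r' • b = r • b := by
  have h1 := hB _ h b
  rw [sub_smul, sub_eq_zero] at h1
  exact h1

theorem smul_eq_of_cong (h : IsCong χ χ' 𝔫) (hB : KilledBy 𝔫 B) (g : Γ) (b : B) :
    ((χ' g : Rˣ) : R) • b = ((χ g : Rˣ) : R) • b :=
  smul_eq_of_sub_mem hB (h g) b

/-- push-forward of `χ'`-cocycles to `χ`-cocycles of a module killed by the congruence ideal -/
def Z1.mapCong (h : IsCong χ χ' 𝔫) (hB : KilledBy 𝔫 B) (f : A →ₗ[R] B) :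
    Z1 χ' A →ₗ[R] Z1 χ B where
  toFun c := ⟨fun g => f ((c : Γ → A) g), by
    intro g g'
    show f ((c : Γ → A) (g * g')) = f ((c : Γ → A) g) + ((χ g : Rˣ) : R) • f ((c : Γ → A) g')
    rw [c.2 g g', map_add, map_smul, smul_eq_of_cong h hB]⟩
  map_add' c c' := by
    apply Subtype.ext
    funext g
    show f ((c : Γ → A) g + (c' : Γ → A) g) = f ((c : Γ → A) g) + f ((c' : Γ → A) g)
    rw [map_add]
  map_smul' r c := by
    apply Subtype.ext
    funext g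
    show f (r • (c : Γ → A) g) = r • f ((c : Γ → A) g)
    rw [map_smul]

@[simp] theorem Z1.mapCong_apply (h : IsCong χ χ' 𝔫) (hB : KilledBy 𝔫 B) (f : A →ₗ[R] B)
    (c : Z1 χ' A) (g : Γ) : (Z1.mapCong h hB f c : Γ → B) g = f ((c : Γ → A) g) := rfl

theorem Z1.mapCong_dZero (h : IsCong χ χ' 𝔫) (hB : KilledBy 𝔫 B) (f : A →ₗ[R] B) (a : A) :
    Z1.mapCong h hB f (dZero χ' A a) = dZero χ B (f a) := by
  apply Subtype.ext
  funext g
  show f (((χ' g : Rˣ) : R) • a - a) = ((χ g : Rˣ) : R) • f a - f a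
  rw [map_sub, map_smul, smul_eq_of_cong h hB]

theorem B1_le_comap_mapCong (h : IsCong χ χ' 𝔫) (hB : KilledBy 𝔫 B) (f : A →ₗ[R] B) :
    B1 χ' A ≤ (B1 χ B).comap (Z1.mapCong h hB f) := by
  rintro _ ⟨a, rfl⟩
  exact ⟨f a, (Z1.mapCong_dZero h hB f a).symm⟩

/-- push-forward on `H¹` between congruent characters -/
def H1.mapCong (h : IsCong χ χ' 𝔫) (hB : KilledBy 𝔫 B) (f : A →ₗ[R] B) :
    H1 χ' A →ₗ[R] H1 χ B :=
  (B1 χ' A).mapQ (B1 χ B) (Z1.mapCong h hB f) (B1_le_comap_mapCong h hB f)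

@[simp] theorem H1.mapCong_mk (h : IsCong χ χ' 𝔫) (hB : KilledBy 𝔫 B) (f : A →ₗ[R] B)
    (c : Z1 χ' A) : H1.mapCong h hB f (H1.mk χ' A c) = H1.mk χ B (Z1.mapCong h hB f c) := rfl

/-! ### double-coset operators -/

section Hecke

variable {G : Type*} [Group G] {ι : Γ →* G} {X : Type*} [Fintype X] {D : CosetData ι X}

/-- two nebentypus data congruent modulo an ideal -/
def NebCong (ν : Neb D χ) (ν' : Neb D χ') (𝔫 : Ideal R) : Prop :=
  ∀ x : X, (((ν'.ψ x)⁻¹ : Rˣ) : R) - (((ν.ψ x)⁻¹ : Rˣ) : R) ∈ 𝔫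

theorem mapCong_heckeZ (h : IsCong χ χ' 𝔫) (hB : KilledBy 𝔫 B) (f : A →ₗ[R] B)
    {ν : Neb D χ} {ν' : Neb D χ'} (hν : NebCong ν ν' 𝔫) (c : Z1 χ' A) :
    Z1.mapCong h hB f (heckeZ A ν' c) = heckeZ B ν (Z1.mapCong h hB f c) := by
  apply Subtype.ext
  funext g
  show f (∑ x, (((ν'.ψ x)⁻¹ : Rˣ) : R) • (c : Γ → A) (D.coc g x)) =
    ∑ x, (((ν.ψ x)⁻¹ : Rˣ) : R) • f ((c : Γ → A) (D.coc g x))
  rw [map_sum]
  refine Finset.sum_congr rfl fun x _ => ?_
  rw [map_smul, smul_eq_of_sub_mem hB (hν x)]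

theorem mapCong_heckeH (h : IsCong χ χ' 𝔫) (hB : KilledBy 𝔫 B) (f : A →ₗ[R] B)
    {ν : Neb D χ} {ν' : Neb D χ'} (hν : NebCong ν ν' 𝔫) (ξ : H1 χ' A) :
    H1.mapCong h hB f (heckeH A ν' ξ) = heckeH B ν (H1.mapCong h hB f ξ) := by
  obtain ⟨c, rfl⟩ := H1.mk_surjective ξ
  rw [heckeH_mk, H1.mapCong_mk, H1.mapCong_mk, heckeH_mk, mapCong_heckeZ h hB f hν]

end Hecke

/-! ### surjectivity and kernel -/

section Exact

variable {A : Type u} [AddCommGroup A] [Module R A] {B : Type u} [AddCommGroup B] [Module R B]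

theorem Z1.mapCong_surjective (hcd : CD1 χ') (h : IsCong χ χ' 𝔫) (hB : KilledBy 𝔫 B)
    (f : A →ₗ[R] B) (hf : Function.Surjective f) :
    Function.Surjective (Z1.mapCong h hB f) := by
  intro c
  -- `c` is also a `χ'`-cocycle
  have hc' : (c : Γ → B) ∈ Z1 χ' B := by
    intro g g'
    rw [c.2 g g', smul_eq_of_cong h hB]
  obtain ⟨c₁, hc₁⟩ := hcd A B f hf ⟨(c : Γ → B), hc'⟩
  refine ⟨c₁, ?_⟩
  apply Subtype.ext
  funext g
  exact congrArg (fun z : Z1 χ' B => (z : Γ → B) g) hc₁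

theorem H1.mapCong_surjective (hcd : CD1 χ') (h : IsCong χ χ' 𝔫) (hB : KilledBy 𝔫 B)
    (f : A →ₗ[R] B) (hf : Function.Surjective f) :
    Function.Surjective (H1.mapCong h hB f) := by
  intro η
  obtain ⟨c, rfl⟩ := H1.mk_surjective η
  obtain ⟨c₁, rfl⟩ := Z1.mapCong_surjective hcd h hB f hf c
  exact ⟨H1.mk χ' A c₁, rfl⟩

/-- **the kernel of the reduction**: if `f : A → B` is onto with kernel `ϖ • A`, with `ϖ ∈ 𝔫`
regular on `A`, then the kernel of `H1 χ' A → H1 χ B` is `ϖ • H1 χ' A`. -/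
theorem H1.mapCong_eq_zero_iff (h : IsCong χ χ' 𝔫) (hB : KilledBy 𝔫 B) (f : A →ₗ[R] B)
    (hf : Function.Surjective f) (ϖ : R) (hϖ : ϖ ∈ 𝔫)
    (hker : ∀ a : A, f a = 0 → ∃ a' : A, a = ϖ • a')
    (hreg : ∀ a : A, ϖ • a = 0 → a = 0) (ξ : H1 χ' A) :
    H1.mapCong h hB f ξ = 0 ↔ ∃ ξ' : H1 χ' A, ξ = ϖ • ξ' := by
  constructor
  · intro hξ
    obtain ⟨c, rfl⟩ := H1.mk_surjective ξ
    rw [H1.mapCong_mk, H1.mk_eq_zero_iff] at hξ
    obtain ⟨b, hb⟩ := hξ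
    obtain ⟨a, rfl⟩ := hf b
    -- modify by a coboundary
    set c' : Z1 χ' A := c - dZero χ' A a with hc'
    have hfc' : ∀ g, f ((c' : Γ → A) g) = 0 := by
      intro g
      have h1 : Z1.mapCong h hB f c' = 0 := by
        rw [hc', map_sub, Z1.mapCong_dZero, hb, sub_self]
      exact congrArg (fun z : Z1 χ B => (z : Γ → B) g) h1
    choose e he using fun g => hker _ (hfc' g)
    have hcoc : e ∈ Z1 χ' A := by
      intro g g'
      rw [← sub_eq_zero]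
      apply hreg
      rw [smul_sub, smul_add, smul_comm ϖ, ← he, ← he, ← he, c'.2 g g', sub_self]
    refine ⟨H1.mk χ' A ⟨e, hcoc⟩, ?_⟩
    rw [← map_smul]
    have h2 : c = ϖ • (⟨e, hcoc⟩ : Z1 χ' A) + dZero χ' A a := by
      have h3 : c' = ϖ • (⟨e, hcoc⟩ : Z1 χ' A) := by
        apply Subtype.ext
        funext g
        exact he g
      rw [← h3, hc', sub_add_cancel]
    rw [h2, map_add]
    have h4 : H1.mk χ' A (dZero χ' A a) = 0 := (H1.mk_eq_zero_iff _).mpr ⟨a, rfl⟩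
    rw [h4, add_zero]
  · rintro ⟨ξ', rfl⟩
    rw [map_smul]
    obtain ⟨c, hc⟩ := H1.mk_surjective (H1.mapCong h hB f ξ')
    rw [← hc, ← map_smul]
    have : ϖ • c = 0 := by
      apply Subtype.ext
      funext g
      exact hB ϖ hϖ _
    rw [this, map_zero]

end Exact

end Fermat.Agent.S43.Hecke.Cong
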