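import Mathlib
import Fermat.Agent.S43.Hecke.Loc
import Fermat.Agent.S43.Hecke.Cong

/-!
# PROJECT R (S43), block L3, brick H10 (core): the two Hecke modules and their common reduction

`R` a noetherian local ring, `ϖ` a regular element of its maximal ideal, `χ`, `χ'` two characters
of `Γ` congruent modulo `ϖ` (`χ` = the trivial type, `χ'` = the type of the character change),
`ν j`, `ν' j` congruent nebentypus data for a family `J` of double-coset operators, commuting on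
`H1 χ R` and on `H1 χ' R`; `θ : J → k` a non-Eisenstein system of eigenvalues.

* `M1 := (H1 χ R)_θ`, `Mχ := (H1 χ' R)_θ`, `Mb := (H1 χ (R/ϖ))_θ` (localisations at the maximal
  ideal of `θ` in `MvPolynomial J R`);
* `flat_M1`, `flat_Mχ` : both are flat over `R`;
* `q1 : M1 → Mb`, `qχ : Mχ → Mb` : linear over `MvPolynomial J R` (hence Hecke equivariant), onto,
  with kernels `ϖ • M1`, `ϖ • Mχ`.
-/

set_option autoImplicit false

open scoped BigOperators

namespace Fermat.Agent.S43.Hecke.Side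

open Fermat.Agent.S30.Hecke.DoubleCoset Fermat.Agent.S43.Hecke.Defs Fermat.Agent.S43.Hecke.Seam
open Fermat.Agent.S43.Hecke.PolyModule Fermat.Agent.S43.Hecke.Loc Fermat.Agent.S43.Hecke.Cong

universe u v

variable {Γ : Type v} [Group Γ] {R : Type u} [CommRing R]
  {G : Type*} [Group G] {ι : Γ →* G} {J : Type*} {X : J → Type*} [∀ j, Fintype (X j)]
  {D : ∀ j, CosetData ι (X j)} {χ χ' : Γ →* Rˣ}

/-! ### the reduction modulo `ϖ` -/

section Quot

variable (ϖ : R)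

/-- `R / ϖ` as an `R`-module -/
abbrev Rb : Type u := R ⧸ Ideal.span ({ϖ} : Set R)

theorem killedBy_Rb : KilledBy (Ideal.span ({ϖ} : Set R)) (Rb ϖ) := by
  intro r hr b
  obtain ⟨a, rfl⟩ := Ideal.Quotient.mk_surjective b
  show Ideal.Quotient.mk _ (r * a) = 0
  rw [Ideal.Quotient.eq_zero_iff_mem]
  exact Ideal.mul_mem_right _ _ hr

/-- the quotient map `R → R / ϖ` as a linear map -/
def mkb : R →ₗ[R] Rb ϖ := (Ideal.span ({ϖ} : Set R)).mkQ

theorem mkb_surjective : Function.Surjective (mkb ϖ) := Submodule.mkQ_surjective _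

theorem mkb_eq_zero (a : R) (h : mkb ϖ a = 0) : ∃ a' : R, a = ϖ • a' := by
  have h1 : a ∈ Ideal.span ({ϖ} : Set R) := (Submodule.Quotient.mk_eq_zero _).mp h
  obtain ⟨a', ha'⟩ := Ideal.mem_span_singleton'.mp h1
  exact ⟨a', by rw [← ha', smul_eq_mul, mul_comm]⟩

end Quot

/-! ### the data -/

/-- two congruent families of commuting double-coset operators -/
structure Pair (D : ∀ j, CosetData ι (X j)) (χ χ' : Γ →* Rˣ) (ϖ : R) where
  /-- the nebentypus data of the trivial type -/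
  ν : ∀ j, Neb (D j) χ
  /-- the nebentypus data of the changed type -/
  ν' : ∀ j, Neb (D j) χ'
  cong : IsCong χ χ' (Ideal.span ({ϖ} : Set R))
  νcong : ∀ j, NebCong (ν j) (ν' j) (Ideal.span ({ϖ} : Set R))
  comm : ∀ i j, Commute (ops ν R i) (ops ν R j)
  comm' : ∀ i j, Commute (ops ν' R i) (ops ν' R j)
  cd : CD1 χ
  cd' : CD1 χ'
  reg : ∀ a : R, ϖ • a = 0 → a = 0

namespace Pair

variable {ϖ : R} (pr : Pair D χ χ' ϖ)

theorem commb (i j : J) : Commute (ops pr.ν (Rb ϖ) i) (ops pr.ν (Rb ϖ) j) :=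
  ops_comm_of_surjective pr.cd pr.ν pr.comm (mkb ϖ) (mkb_surjective ϖ) i j

/-- `H1 χ R` with its Hecke action -/
abbrev N1 : Type _ := HN pr.ν R pr.comm

/-- `H1 χ' R` with its Hecke action -/
abbrev Nχ : Type _ := HN pr.ν' R pr.comm'

/-- `H1 χ (R / ϖ)` with its Hecke action -/
abbrev Nb : Type _ := HN pr.ν (Rb ϖ) pr.commb

/-- the reduction `H1 χ R → H1 χ (R/ϖ)` -/
def π1 : pr.N1 →ₗ[MvPolynomial J R] pr.Nb :=
  WithOps.map (H1.map χ (mkb ϖ)) (fun j ξ => H1.map_heckeH (pr.ν j) (mkb ϖ) ξ)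

/-- the reduction `H1 χ' R → H1 χ (R/ϖ)` -/
def πχ : pr.Nχ →ₗ[MvPolynomial J R] pr.Nb :=
  WithOps.map (H1.mapCong pr.cong (killedBy_Rb ϖ) (mkb ϖ))
    (fun j ξ => mapCong_heckeH pr.cong (killedBy_Rb ϖ) (mkb ϖ) (pr.νcong j) ξ)

theorem π1_surjective : Function.Surjective pr.π1 := by
  intro η
  obtain ⟨ξ, hξ⟩ := H1.map_surjective pr.cd (mkb ϖ) (mkb_surjective ϖ) (WithOps.equiv _ _ η)
  exact ⟨(WithOps.equiv _ _).symm ξ, (WithOps.equiv _ _).injective hξ⟩

theorem πχ_surjective : Function.Surjective pr.πχ := by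
  intro η
  obtain ⟨ξ, hξ⟩ := H1.mapCong_surjective pr.cd' pr.cong (killedBy_Rb ϖ) (mkb ϖ)
    (mkb_surjective ϖ) (WithOps.equiv _ _ η)
  exact ⟨(WithOps.equiv _ _).symm ξ, (WithOps.equiv _ _).injective hξ⟩

theorem isCong_refl (χ : Γ →* Rˣ) (𝔫 : Ideal R) : IsCong χ χ 𝔫 := by
  intro g
  rw [sub_self]
  exact 𝔫.zero_mem

theorem π1_eq_zero_iff (x : pr.N1) : pr.π1 x = 0 ↔ ∃ x' : pr.N1, x = ϖ • x' := by
  have h := H1.mapCong_eq_zero_iff (isCong_refl χ (Ideal.span ({ϖ} : Set R))) (killedBy_Rb ϖ)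
    (mkb ϖ) (mkb_surjective ϖ) ϖ (Ideal.subset_span rfl) (mkb_eq_zero ϖ) pr.reg
    (WithOps.equiv _ _ x)
  exact h

theorem πχ_eq_zero_iff (x : pr.Nχ) : pr.πχ x = 0 ↔ ∃ x' : pr.Nχ, x = ϖ • x' := by
  have h := H1.mapCong_eq_zero_iff pr.cong (killedBy_Rb ϖ)
    (mkb ϖ) (mkb_surjective ϖ) ϖ (Ideal.subset_span rfl) (mkb_eq_zero ϖ) pr.reg
    (WithOps.equiv _ _ x)
  exact h

/-! ### the localisations -/

section Loc

variable [IsLocalRing R] (θ : J → IsLocalRing.ResidueField R)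

/-- the Hecke module of the trivial type -/
abbrev M1 : Type _ := LocalizedModule (Sθ θ) pr.N1

/-- the Hecke module of the changed type -/
abbrev Mχ : Type _ := LocalizedModule (Sθ θ) pr.Nχ

/-- their common reduction -/
abbrev Mb : Type _ := LocalizedModule (Sθ θ) pr.Nb

/-- the reduction of the trivial type -/
noncomputable def q1 : pr.M1 θ →ₗ[MvPolynomial J R] pr.Mb θ := locMap (Sθ θ) pr.π1

/-- the reduction of the changed type -/
noncomputable def qχ : pr.Mχ θ →ₗ[MvPolynomial J R] pr.Mb θ := locMap (Sθ θ) pr.πχ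

theorem q1_surjective : Function.Surjective (pr.q1 θ) :=
  locMap_surjective (Sθ θ) pr.π1 pr.π1_surjective

theorem qχ_surjective : Function.Surjective (pr.qχ θ) :=
  locMap_surjective (Sθ θ) pr.πχ pr.πχ_surjective

theorem q1_eq_zero_iff (y : pr.M1 θ) : pr.q1 θ y = 0 ↔ ∃ y' : pr.M1 θ, y = ϖ • y' :=
  locMap_eq_zero_iff (Sθ θ) pr.π1 ϖ pr.π1_eq_zero_iff y

theorem qχ_eq_zero_iff (y : pr.Mχ θ) : pr.qχ θ y = 0 ↔ ∃ y' : pr.Mχ θ, y = ϖ • y' :=
  locMap_eq_zero_iff (Sθ θ) pr.πχ ϖ pr.πχ_eq_zero_iff y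

theorem q1_smul (r : R) (y : pr.M1 θ) : pr.q1 θ (r • y) = r • pr.q1 θ y :=
  locMap_smul (Sθ θ) pr.π1 r y

theorem qχ_smul (r : R) (y : pr.Mχ θ) : pr.qχ θ (r • y) = r • pr.qχ θ y :=
  locMap_smul (Sθ θ) pr.πχ r y

variable [IsNoetherianRing R]

/-- **the Hecke module of the trivial type is flat** -/
theorem flat_M1 (j₀ : J) (hne : θ j₀ ≠ IsLocalRing.residue R (pr.ν j₀).deg) :
    Module.Flat R (pr.M1 θ) :=
  flat_loc pr.cd pr.ν pr.comm θ j₀ hne

omit [IsNoetherianRing R] in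
theorem residue_deg_eq (hϖ : ϖ ∈ IsLocalRing.maximalIdeal R) (j : J) :
    IsLocalRing.residue R (pr.ν' j).deg = IsLocalRing.residue R (pr.ν j).deg := by
  rw [← sub_eq_zero, ← map_sub, IsLocalRing.residue_eq_zero_iff]
  have h1 : (pr.ν' j).deg - (pr.ν j).deg ∈ Ideal.span ({ϖ} : Set R) := by
    unfold Neb.deg
    rw [← Finset.sum_sub_distrib]
    exact Ideal.sum_mem _ fun x _ => pr.νcong j x
  exact (Ideal.span_le.mpr (Set.singleton_subset_iff.mpr hϖ)) h1

/-- **the Hecke module of the changed type is flat** -/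
theorem flat_Mχ (hϖ : ϖ ∈ IsLocalRing.maximalIdeal R) (j₀ : J)
    (hne : θ j₀ ≠ IsLocalRing.residue R (pr.ν j₀).deg) :
    Module.Flat R (pr.Mχ θ) :=
  flat_loc pr.cd' pr.ν' pr.comm' θ j₀ (by rw [pr.residue_deg_eq hϖ j₀]; exact hne)

end Loc

end Pair

end Fermat.Agent.S43.Hecke.Side
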