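import Mathlib
import Fermat.Agent.S43.Hecke.Side
import Fermat.Agent.S43.Hecke.FinLoc

/-!
# PROJECT R (S43), block L3, brick H10 (freeness and ranks)

* generic Nakayama statements: `span_lift_eq_top`, `finrank_le_of_lift`, `finrank_eq_of_lifts`
  (two finite free modules over a local ring with a common quotient by an ideal of the maximal
  ideal have the same rank);
* for a `Pair` over a complete noetherian local ring `R` with `H1 χ R`, `H1 χ' R` finite:
  `finite_M1`, `finite_Mχ`, `free_M1`, `free_Mχ`, `finrank_M1_eq_finrank_Mχ`.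
-/

set_option autoImplicit false

open scoped BigOperators

namespace Fermat.Agent.S43.Hecke.Free

/-! ### Nakayama -/

section Nakayama

variable {R : Type*} [CommRing R] [IsLocalRing R]
  {M M' Mb : Type*} [AddCommGroup M] [Module R M] [AddCommGroup M'] [Module R M']
  [AddCommGroup Mb] [Module R Mb]

/-- lifts to `M'` of the images in a common quotient of a spanning family of `M` span `M'` -/
theorem span_lift_eq_top [Module.Finite R M'] (I : Ideal R) (hI : I ≤ IsLocalRing.maximalIdeal R)
    (q : M →ₗ[R] Mb) (hq : Function.Surjective q) (q' : M' →ₗ[R] Mb)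
    (hker : ∀ y, q' y = 0 → y ∈ (I • ⊤ : Submodule R M'))
    {ι : Type*} [Fintype ι] (b : ι → M) (hb : Submodule.span R (Set.range b) = ⊤)
    (b' : ι → M') (hb' : ∀ i, q' (b' i) = q (b i)) :
    Submodule.span R (Set.range b') = ⊤ := by
  rw [eq_top_iff]
  refine Submodule.le_of_le_smul_of_le_jacobson_bot (I := I) Module.Finite.fg_top ?_ ?_
  · rw [IsLocalRing.jacobson_eq_maximalIdeal ⊥ bot_ne_top]
    exact hI
  · intro y _
    obtain ⟨x, hx⟩ := hq (q' y)
    have hxs : x ∈ Submodule.span R (Set.range b) := by rw [hb]; trivial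
    obtain ⟨c, hc⟩ := (Submodule.mem_span_range_iff_exists_fun R).1 hxs
    have h0 : q' (y - ∑ i, c i • b' i) = 0 := by
      rw [map_sub, map_sum, ← hx, ← hc, map_sum, sub_eq_zero]
      refine Finset.sum_congr rfl fun i _ => ?_
      rw [map_smul, map_smul, hb']
    have h1 := hker _ h0
    have h2 : ∑ i, c i • b' i ∈ Submodule.span R (Set.range b') :=
      Submodule.sum_mem _ fun i _ => Submodule.smul_mem _ _ (Submodule.subset_span ⟨i, rfl⟩)
    have : y = ∑ i, c i • b' i + (y - ∑ i, c i • b' i) := by abel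
    rw [this]
    exact Submodule.add_mem_sup h2 h1

/-- a finite free module whose reduction is a quotient of a module spanned by `d` elements has
rank at most `d` -/
theorem finrank_le_of_lift [Module.Finite R M'] [Module.Free R M'] (I : Ideal R)
    (hI : I ≤ IsLocalRing.maximalIdeal R)
    (q : M →ₗ[R] Mb) (hq : Function.Surjective q) (q' : M' →ₗ[R] Mb)
    (hq' : Function.Surjective q')
    (hker : ∀ y, q' y = 0 → y ∈ (I • ⊤ : Submodule R M'))
    {ι : Type*} [Fintype ι] (b : ι → M) (hb : Submodule.span R (Set.range b) = ⊤) :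
    Module.finrank R M' ≤ Fintype.card ι := by
  choose b' hb' using fun i => hq' (q (b i))
  have h := span_lift_eq_top I hI q hq q' hker b hb b' hb'
  have h2 := finrank_range_le_card (R := R) b'
  rw [Set.finrank, h, finrank_top] at h2
  exact h2

/-- **two finite free modules with a common reduction have the same rank** -/
theorem finrank_eq_of_lifts [Module.Finite R M] [Module.Free R M] [Module.Finite R M']
    [Module.Free R M'] (I : Ideal R) (hI : I ≤ IsLocalRing.maximalIdeal R)
    (q : M →ₗ[R] Mb) (hq : Function.Surjective q)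
    (hkerq : ∀ y, q y = 0 → y ∈ (I • ⊤ : Submodule R M))
    (q' : M' →ₗ[R] Mb) (hq' : Function.Surjective q')
    (hkerq' : ∀ y, q' y = 0 → y ∈ (I • ⊤ : Submodule R M')) :
    Module.finrank R M = Module.finrank R M' := by
  apply le_antisymm
  · have h := finrank_le_of_lift I hI q' hq' q hq hkerq (Module.finBasis R M')
      (Module.finBasis R M').span_eq
    simpa using h
  · have h := finrank_le_of_lift I hI q hq q' hq' hkerq' (Module.finBasis R M)
      (Module.finBasis R M).span_eq
    simpa using h

end Nakayama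

/-! ### the two Hecke modules of a pair -/

section PairFree

open Fermat.Agent.S30.Hecke.DoubleCoset Fermat.Agent.S43.Hecke.Defs Fermat.Agent.S43.Hecke.Seam
open Fermat.Agent.S43.Hecke.PolyModule Fermat.Agent.S43.Hecke.Loc Fermat.Agent.S43.Hecke.Cong
open Fermat.Agent.S43.Hecke.Side

universe v

variable {Γ : Type v} [Group Γ] {R : Type} [CommRing R]
  {G : Type*} [Group G] {ι : Γ →* G} {J : Type} {X : J → Type*} [∀ j, Fintype (X j)]
  {D : ∀ j, CosetData ι (X j)} {χ χ' : Γ →* Rˣ} {ϖ : R} (pr : Pair D χ χ' ϖ)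
  [IsLocalRing R] [IsNoetherianRing R] [IsAdicComplete (IsLocalRing.maximalIdeal R) R]
  (θ : J → IsLocalRing.ResidueField R)

/-- the localisation map `H1 χ R → M1` is onto -/
theorem mk_M1_surjective (hfin : Module.Finite R (H1 χ R)) :
    Function.Surjective (LocalizedModule.mkLinearMap (Sθ θ) pr.N1) := by
  have : Module.Finite R pr.N1 := Module.Finite.equiv (WithOps.equiv (ops pr.ν R) pr.comm).symm
  exact FinLoc.mkLinearMap_surjective (𝒪 := R) (P := MvPolynomial J R) (N := pr.N1) (maxId θ)

/-- the localisation map `H1 χ' R → Mχ` is onto -/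
theorem mk_Mχ_surjective (hfin' : Module.Finite R (H1 χ' R)) :
    Function.Surjective (LocalizedModule.mkLinearMap (Sθ θ) pr.Nχ) := by
  have : Module.Finite R pr.Nχ := Module.Finite.equiv (WithOps.equiv (ops pr.ν' R) pr.comm').symm
  exact FinLoc.mkLinearMap_surjective (𝒪 := R) (P := MvPolynomial J R) (N := pr.Nχ) (maxId θ)

theorem finite_M1 (hfin : Module.Finite R (H1 χ R)) : Module.Finite R (pr.M1 θ) := by
  have : Module.Finite R pr.N1 := Module.Finite.equiv (WithOps.equiv (ops pr.ν R) pr.comm).symm
  exact Module.Finite.of_surjective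
    ((LocalizedModule.mkLinearMap (Sθ θ) pr.N1).restrictScalars R) (mk_M1_surjective pr θ hfin)

theorem finite_Mχ (hfin' : Module.Finite R (H1 χ' R)) : Module.Finite R (pr.Mχ θ) := by
  have : Module.Finite R pr.Nχ := Module.Finite.equiv (WithOps.equiv (ops pr.ν' R) pr.comm').symm
  exact Module.Finite.of_surjective
    ((LocalizedModule.mkLinearMap (Sθ θ) pr.Nχ).restrictScalars R) (mk_Mχ_surjective pr θ hfin')

/-- **the Hecke module of the trivial type is free** -/
theorem free_M1 (hfin : Module.Finite R (H1 χ R)) (j₀ : J)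
    (hne : θ j₀ ≠ IsLocalRing.residue R (pr.ν j₀).deg) : Module.Free R (pr.M1 θ) := by
  have := finite_M1 pr θ hfin
  have := pr.flat_M1 θ j₀ hne
  exact Module.free_of_flat_of_isLocalRing

/-- **the Hecke module of the changed type is free** -/
theorem free_Mχ (hfin' : Module.Finite R (H1 χ' R)) (hϖ : ϖ ∈ IsLocalRing.maximalIdeal R)
    (j₀ : J) (hne : θ j₀ ≠ IsLocalRing.residue R (pr.ν j₀).deg) : Module.Free R (pr.Mχ θ) := by
  have := finite_Mχ pr θ hfin'
  have := pr.flat_Mχ θ hϖ j₀ hne
  exact Module.free_of_flat_of_isLocalRing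

omit [IsLocalRing R] [IsNoetherianRing R] [IsAdicComplete (IsLocalRing.maximalIdeal R) R] in
theorem mem_span_smul_top_of_eq_smul {M : Type*} [AddCommGroup M] [Module R M] (y y' : M)
    (h : y = ϖ • y') : y ∈ (Ideal.span ({ϖ} : Set R) • ⊤ : Submodule R M) := by
  rw [h]
  exact Submodule.smul_mem_smul (Ideal.subset_span rfl) Submodule.mem_top

/-- **the two Hecke modules have the same rank** -/
theorem finrank_M1_eq_finrank_Mχ (hfin : Module.Finite R (H1 χ R))
    (hfin' : Module.Finite R (H1 χ' R)) (hϖ : ϖ ∈ IsLocalRing.maximalIdeal R)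
    (j₀ : J) (hne : θ j₀ ≠ IsLocalRing.residue R (pr.ν j₀).deg) :
    Module.finrank R (pr.M1 θ) = Module.finrank R (pr.Mχ θ) := by
  have := finite_M1 pr θ hfin
  have := finite_Mχ pr θ hfin'
  have := free_M1 pr θ hfin j₀ hne
  have := free_Mχ pr θ hfin' hϖ j₀ hne
  refine finrank_eq_of_lifts (Ideal.span ({ϖ} : Set R))
    (Ideal.span_le.mpr (Set.singleton_subset_iff.mpr hϖ))
    ((pr.q1 θ).restrictScalars R) (pr.q1_surjective θ) ?_
    ((pr.qχ θ).restrictScalars R) (pr.qχ_surjective θ) ?_
  · intro y hy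
    obtain ⟨y', hy'⟩ := (pr.q1_eq_zero_iff θ y).1 hy
    exact mem_span_smul_top_of_eq_smul y y' hy'
  · intro y hy
    obtain ⟨y', hy'⟩ := (pr.qχ_eq_zero_iff θ y).1 hy
    exact mem_span_smul_top_of_eq_smul y y' hy'

end PairFree

end Fermat.Agent.S43.Hecke.Free
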