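import Mathlib
import Fermat.Agent.S43.Hecke.Free
import Fermat.Agent.S43.Hecke.AugKer

/-!
# PROJECT R (S43), block L3, brick H10 (final): the seam `HeckeSide` from a `Pair` over `𝒪[Δ]`
and a descent datum

`R = 𝒪[Δ]` complete noetherian local, `pr : Pair D χ χ' ϖ` over `R`, `θ` a non-Eisenstein system
of eigenvalues, `f : R →ₗ[R] B` the augmentation (`B = 𝒪` as an `R`-module), and a descent datum
`Desc`: an identification of the localisation of `H1 χ B` with a fixed finite free `𝒪`-module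
`M0`, compatible with the operators `t0 i`, `i : I ↪ J`.  Then `heckeSide : HeckeSide …`.
-/

set_option autoImplicit false

open scoped BigOperators

namespace Fermat.Agent.S43.Hecke.Assemble

open Fermat.Agent.S30.Hecke.DoubleCoset Fermat.Agent.S43.Hecke.Defs Fermat.Agent.S43.Hecke.Seam
open Fermat.Agent.S43.Hecke.PolyModule Fermat.Agent.S43.Hecke.Loc Fermat.Agent.S43.Hecke.Cong
open Fermat.Agent.S43.Hecke.Side Fermat.Agent.S43.Hecke.Free Fermat.Agent.S43.Hecke.AugKer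

/-! ### the augmentation -/

section Aug

variable (𝒪 : Type*) [CommRing 𝒪] (Δ : Type*) [CommGroup Δ]

/-- the augmentation `𝒪[Δ] → 𝒪` -/
noncomputable def augm : MonoidAlgebra 𝒪 Δ →ₐ[𝒪] 𝒪 := MonoidAlgebra.lift 𝒪 𝒪 Δ 1

variable {𝒪 Δ}

theorem augm_single (δ : Δ) (a : 𝒪) : augm 𝒪 Δ (MonoidAlgebra.single δ a) = a := by
  rw [augm, MonoidAlgebra.lift_single]
  simp

theorem augm_surjective : Function.Surjective (augm 𝒪 Δ) := fun a =>
  ⟨MonoidAlgebra.single 1 a, augm_single 1 a⟩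

/-- `x - ε(x)` is a combination of the `δ - 1` -/
theorem sub_augm_mem (x : MonoidAlgebra 𝒪 Δ) :
    x - MonoidAlgebra.single (1 : Δ) (augm 𝒪 Δ x) ∈
      Ideal.span (Set.range fun δ : Δ =>
        (MonoidAlgebra.single δ (1 : 𝒪) - 1 : MonoidAlgebra 𝒪 Δ)) := by
  induction x using MonoidAlgebra.induction_on with
  | of g =>
    rw [MonoidAlgebra.of_apply, augm_single]
    exact Ideal.subset_span ⟨g, by rw [MonoidAlgebra.one_def]⟩
  | add x y hx hy =>
    have : x + y - MonoidAlgebra.single (1 : Δ) (augm 𝒪 Δ (x + y))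
        = (x - MonoidAlgebra.single (1 : Δ) (augm 𝒪 Δ x))
          + (y - MonoidAlgebra.single (1 : Δ) (augm 𝒪 Δ y)) := by
      rw [map_add, MonoidAlgebra.single_add]; abel
    rw [this]; exact Ideal.add_mem _ hx hy
  | smul r x hx =>
    have : r • x - MonoidAlgebra.single (1 : Δ) (augm 𝒪 Δ (r • x))
        = r • (x - MonoidAlgebra.single (1 : Δ) (augm 𝒪 Δ x)) := by
      rw [map_smul, smul_sub, MonoidAlgebra.smul_single]
    rw [this]
    rw [Algebra.smul_def]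
    exact Ideal.mul_mem_left _ _ hx

theorem mem_span_of_augm_eq_zero (x : MonoidAlgebra 𝒪 Δ) (hx : augm 𝒪 Δ x = 0) :
    x ∈ Ideal.span (Set.range fun δ : Δ =>
        (MonoidAlgebra.single δ (1 : 𝒪) - 1 : MonoidAlgebra 𝒪 Δ)) := by
  have h := sub_augm_mem x
  rwa [hx, MonoidAlgebra.single_zero, sub_zero] at h

/-- the augmentation submodule: `ker ε • M` lies in the span of the `δ z - z` -/
theorem smul_mem_augSpan {M : Type*} [AddCommGroup M] [Module (MonoidAlgebra 𝒪 Δ) M]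
    (x : M) (hx : x ∈ ((RingHom.ker (augm 𝒪 Δ) : Ideal (MonoidAlgebra 𝒪 Δ)) • ⊤ :
      Submodule (MonoidAlgebra 𝒪 Δ) M)) :
    x ∈ Submodule.span (MonoidAlgebra 𝒪 Δ)
      {y : M | ∃ (δ : Δ) (z : M),
        y = (MonoidAlgebra.single δ (1 : 𝒪) : MonoidAlgebra 𝒪 Δ) • z - z} := by
  refine Submodule.smul_induction_on hx ?_ ?_
  · intro a ha z _
    have ha' := mem_span_of_augm_eq_zero a ((RingHom.mem_ker).1 ha)
    refine Submodule.span_induction (p := fun a _ => a • z ∈ Submodule.span (MonoidAlgebra 𝒪 Δ)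
      {y : M | ∃ (δ : Δ) (z : M),
        y = (MonoidAlgebra.single δ (1 : 𝒪) : MonoidAlgebra 𝒪 Δ) • z - z}) ?_ ?_ ?_ ?_ ha'
    · rintro _ ⟨δ, rfl⟩
      refine Submodule.subset_span ⟨δ, z, ?_⟩
      rw [sub_smul, one_smul]
    · rw [zero_smul]; exact Submodule.zero_mem _
    · intro a b _ _ h1 h2
      rw [add_smul]; exact Submodule.add_mem _ h1 h2
    · intro r a _ h1
      rw [smul_eq_mul, mul_smul]; exact Submodule.smul_mem _ _ h1
  · intro x y h1 h2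
    exact Submodule.add_mem _ h1 h2

end Aug

/-! ### the descent datum -/

section Main

variable {𝒪 : Type} [CommRing 𝒪] {Δ : Type} [CommGroup Δ]
  {Γ : Type} [Group Γ] {G : Type*} [Group G] {ι : Γ →* G} {J : Type} {X : J → Type*}
  [∀ j, Fintype (X j)] {D : ∀ j, CosetData ι (X j)}
  {χ χ' : Γ →* (MonoidAlgebra 𝒪 Δ)ˣ} {ϖ : 𝒪}
  (pr : Pair D χ χ' (MonoidAlgebra.single (1 : Δ) ϖ : MonoidAlgebra 𝒪 Δ))
  {B : Type} [AddCommGroup B] [Module (MonoidAlgebra 𝒪 Δ) B]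

/-- the operators commute on `H1 χ B` -/
theorem commB (f : MonoidAlgebra 𝒪 Δ →ₗ[MonoidAlgebra 𝒪 Δ] B) (hf : Function.Surjective f)
    (i j : J) : Commute (ops pr.ν B i) (ops pr.ν B j) :=
  ops_comm_of_surjective pr.cd pr.ν pr.comm f hf i j

variable (f : MonoidAlgebra 𝒪 Δ →ₗ[MonoidAlgebra 𝒪 Δ] B) (hf : Function.Surjective f)

/-- `H1 χ B` with its Hecke action -/
abbrev NB : Type := HN pr.ν B (commB pr f hf)

/-- the reduction `H1 χ R → H1 χ B` -/
noncomputable def πB : pr.N1 →ₗ[MvPolynomial J (MonoidAlgebra 𝒪 Δ)] NB pr f hf :=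
  WithOps.map (H1.map χ f) (fun j ξ => H1.map_heckeH (pr.ν j) f ξ)

theorem πB_surjective : Function.Surjective (πB pr f hf) := by
  intro η
  obtain ⟨ξ, hξ⟩ := H1.map_surjective pr.cd f hf (WithOps.equiv _ _ η)
  exact ⟨(WithOps.equiv _ _).symm ξ, (WithOps.equiv _ _).injective hξ⟩

theorem πB_eq_zero_mem [IsNoetherianRing (MonoidAlgebra 𝒪 Δ)] (x : pr.N1)
    (hx : πB pr f hf x = 0) :
    x ∈ ((LinearMap.ker f : Ideal (MonoidAlgebra 𝒪 Δ)) • ⊤ :
      Submodule (MonoidAlgebra 𝒪 Δ) pr.N1) :=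
  H1.map_eq_zero_mem pr.cd f hf (WithOps.equiv _ _ x) hx

variable [IsLocalRing (MonoidAlgebra 𝒪 Δ)]
  (θ : J → IsLocalRing.ResidueField (MonoidAlgebra 𝒪 Δ))

/-- **the descent datum**: the localisation of `H1 χ B` (`B = 𝒪` through the augmentation) is a
fixed `𝒪`-module `M0`, compatibly with the operators indexed by `I`. -/
structure Desc {I : Type} (incl : I → J) (M0 : Type) [AddCommGroup M0] [Module 𝒪 M0]
    (t0 : I → Module.End 𝒪 M0) where
  /-- the identification -/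
  e : LocalizedModule (Sθ θ) (NB pr f hf) ≃+ M0
  e_smul : ∀ (r : MonoidAlgebra 𝒪 Δ) z, e (r • z) = augm 𝒪 Δ r • e z
  e_t : ∀ i z, e ((MvPolynomial.X (incl i) : MvPolynomial J (MonoidAlgebra 𝒪 Δ)) • z) =
    t0 i (e z)

variable {pr f hf θ}
variable {I : Type} {incl : I → J} {M0 : Type} [AddCommGroup M0] [Module 𝒪 M0]
  {t0 : I → Module.End 𝒪 M0} (ds : Desc pr f hf θ incl M0 t0)

/-- **the map to the base level** -/
noncomputable def p0 : pr.M1 θ →+ M0 :=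
  ds.e.toAddMonoidHom.comp (locMap (Sθ θ) (πB pr f hf)).toAddMonoidHom

theorem p0_apply (x : pr.M1 θ) : p0 ds x = ds.e (locMap (Sθ θ) (πB pr f hf) x) := rfl

theorem p0_surjective : Function.Surjective (p0 ds) := by
  intro y
  obtain ⟨z, hz⟩ := ds.e.surjective y
  obtain ⟨x, hx⟩ := locMap_surjective (Sθ θ) (πB pr f hf) (πB_surjective pr f hf) z
  exact ⟨x, by rw [p0_apply, hx, hz]⟩

theorem p0_smul (r : MonoidAlgebra 𝒪 Δ) (x : pr.M1 θ) :
    p0 ds (r • x) = augm 𝒪 Δ r • p0 ds x := by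
  rw [p0_apply, locMap_smul, ds.e_smul, p0_apply]

theorem p0_X (i : I) (x : pr.M1 θ) :
    p0 ds ((MvPolynomial.X (incl i) : MvPolynomial J (MonoidAlgebra 𝒪 Δ)) • x) =
      t0 i (p0 ds x) := by
  rw [p0_apply, map_smul, ds.e_t, p0_apply]

theorem p0_eq_zero_mem [IsNoetherianRing (MonoidAlgebra 𝒪 Δ)] (x : pr.M1 θ)
    (hx : p0 ds x = 0) :
    x ∈ ((LinearMap.ker f : Ideal (MonoidAlgebra 𝒪 Δ)) • ⊤ :
      Submodule (MonoidAlgebra 𝒪 Δ) (pr.M1 θ)) := by
  rw [p0_apply] at hx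
  have h1 : locMap (Sθ θ) (πB pr f hf) x = 0 := ds.e.injective (by rw [hx, map_zero])
  exact locMap_eq_zero_mem (Sθ θ) (πB pr f hf) _ (πB_eq_zero_mem pr f hf) x h1

/-! ### the rank -/

theorem ker_le_maximalIdeal [Nontrivial 𝒪]
    (hker : (LinearMap.ker f : Ideal (MonoidAlgebra 𝒪 Δ)) = RingHom.ker (augm 𝒪 Δ)) :
    (LinearMap.ker f : Ideal (MonoidAlgebra 𝒪 Δ)) ≤
      IsLocalRing.maximalIdeal (MonoidAlgebra 𝒪 Δ) := by
  intro x hx
  rw [hker, RingHom.mem_ker] at hx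
  rw [IsLocalRing.mem_maximalIdeal, mem_nonunits_iff]
  intro hu
  have := hu.map (augm 𝒪 Δ)
  rw [hx] at this
  exact not_isUnit_zero this

include ds in
/-- **the rank of `M1` over `𝒪[Δ]` is the rank of `M0` over `𝒪`** -/
theorem finrank_M1_eq [Nontrivial 𝒪] [IsNoetherianRing (MonoidAlgebra 𝒪 Δ)]
    [IsAdicComplete (IsLocalRing.maximalIdeal (MonoidAlgebra 𝒪 Δ)) (MonoidAlgebra 𝒪 Δ)]
    [Module.Free 𝒪 M0] [Module.Finite 𝒪 M0]
    (hker : (LinearMap.ker f : Ideal (MonoidAlgebra 𝒪 Δ)) = RingHom.ker (augm 𝒪 Δ))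
    (hfin : Module.Finite (MonoidAlgebra 𝒪 Δ) (H1 χ (MonoidAlgebra 𝒪 Δ))) (j₀ : J)
    (hne : θ j₀ ≠ IsLocalRing.residue (MonoidAlgebra 𝒪 Δ) (pr.ν j₀).deg) :
    Module.finrank (MonoidAlgebra 𝒪 Δ) (pr.M1 θ) = Module.finrank 𝒪 M0 := by
  have hfinM := finite_M1 pr θ hfin
  have hfreeM := free_M1 pr θ hfin j₀ hne
  let _ : Module (MonoidAlgebra 𝒪 Δ) M0 := Module.compHom M0 (augm 𝒪 Δ).toRingHom
  have hsm : ∀ (r : MonoidAlgebra 𝒪 Δ) (x : M0), r • x = augm 𝒪 Δ r • x := fun _ _ => rfl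
  let p0lin : pr.M1 θ →ₗ[MonoidAlgebra 𝒪 Δ] M0 :=
    { toFun := p0 ds
      map_add' := map_add _
      map_smul' := fun r x => by rw [p0_smul, RingHom.id_apply, hsm] }
  apply le_antisymm
  · -- a basis of `M0` lifts to a spanning family of `M1`
    let b := Module.finBasis 𝒪 M0
    have hb : Submodule.span (MonoidAlgebra 𝒪 Δ) (Set.range b) = ⊤ := by
      rw [eq_top_iff]
      intro x _
      rw [← b.sum_repr x]
      refine Submodule.sum_mem _ fun i _ => ?_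
      have : b.repr x i • b i = (MonoidAlgebra.single (1 : Δ) (b.repr x i) : MonoidAlgebra 𝒪 Δ) • b i := by
        rw [hsm, augm_single]
      rw [this]
      exact Submodule.smul_mem _ _ (Submodule.subset_span ⟨i, rfl⟩)
    have h := finrank_le_of_lift (LinearMap.ker f : Ideal (MonoidAlgebra 𝒪 Δ))
      (ker_le_maximalIdeal hker) (LinearMap.id : M0 →ₗ[MonoidAlgebra 𝒪 Δ] M0)
      Function.surjective_id p0lin (p0_surjective ds) (p0_eq_zero_mem ds) b hb
    simpa using h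
  · -- the image of a basis of `M1` spans `M0`
    let b1 := Module.finBasis (MonoidAlgebra 𝒪 Δ) (pr.M1 θ)
    let v : Fin (Module.finrank (MonoidAlgebra 𝒪 Δ) (pr.M1 θ)) → M0 := fun i => p0 ds (b1 i)
    have hv : Submodule.span 𝒪 (Set.range v) = ⊤ := by
      rw [eq_top_iff]
      intro y _
      obtain ⟨x, rfl⟩ := p0_surjective ds y
      rw [← b1.sum_repr x, map_sum]
      refine Submodule.sum_mem _ fun i _ => ?_
      rw [p0_smul]
      exact Submodule.smul_mem _ _ (Submodule.subset_span ⟨i, rfl⟩)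
    have h := finrank_range_le_card (R := 𝒪) v
    rw [Set.finrank, hv, finrank_top] at h
    simpa using h

/-! ### `ϖ` kills the common reduction -/

omit [IsLocalRing (MonoidAlgebra 𝒪 Δ)] in
theorem smul_Nb_eq_zero (x : pr.Nb) :
    (MonoidAlgebra.single (1 : Δ) ϖ : MonoidAlgebra 𝒪 Δ) • x = 0 := by
  apply (WithOps.equiv _ _).injective
  rw [map_smul, map_zero]
  obtain ⟨c, hc⟩ := H1.mk_surjective (WithOps.equiv _ _ x)
  rw [← hc, ← map_smul]
  have : (MonoidAlgebra.single (1 : Δ) ϖ : MonoidAlgebra 𝒪 Δ) • c = 0 := by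
    apply Subtype.ext
    funext g
    exact killedBy_Rb _ _ (Ideal.subset_span rfl) _
  rw [this, map_zero]

/-- **`ϖ` kills `Mb`** -/
theorem smul_Mb_eq_zero (y : pr.Mb θ) :
    (MonoidAlgebra.single (1 : Δ) ϖ : MonoidAlgebra 𝒪 Δ) • y = 0 := by
  induction y using LocalizedModule.induction_on with
  | h x s =>
    rw [loc_smul_mk, smul_Nb_eq_zero, LocalizedModule.zero_mk]

/-! ### the seam -/

/-- the operator `X j` of a module over the polynomial Hecke algebra, as an `R`-linear map -/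
noncomputable def xEnd {R : Type*} [CommRing R] {J : Type*} (M : Type*) [AddCommGroup M]
    [Module R M] [Module (MvPolynomial J R) M] [IsScalarTower R (MvPolynomial J R) M] (j : J) :
    Module.End R M :=
  (LinearMap.lsmul (MvPolynomial J R) M (MvPolynomial.X j)).restrictScalars R

theorem xEnd_apply {R : Type*} [CommRing R] {J : Type*} (M : Type*) [AddCommGroup M]
    [Module R M] [Module (MvPolynomial J R) M] [IsScalarTower R (MvPolynomial J R) M] (j : J)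
    (x : M) : xEnd (R := R) M j x = (MvPolynomial.X j : MvPolynomial J R) • x := rfl

theorem xEnd_comm {R : Type*} [CommRing R] {J : Type*} (M : Type*) [AddCommGroup M]
    [Module R M] [Module (MvPolynomial J R) M] [IsScalarTower R (MvPolynomial J R) M] (i j : J) :
    Commute (xEnd (R := R) M i) (xEnd (R := R) M j) := by
  refine LinearMap.ext fun x => ?_
  rw [Module.End.mul_apply, Module.End.mul_apply, xEnd_apply, xEnd_apply, xEnd_apply, xEnd_apply,
    smul_comm]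

/-- **the seam `HeckeSide` from a pair over `𝒪[Δ]` and a descent datum** -/
noncomputable def heckeSide [Nontrivial 𝒪] [IsNoetherianRing (MonoidAlgebra 𝒪 Δ)]
    [IsAdicComplete (IsLocalRing.maximalIdeal (MonoidAlgebra 𝒪 Δ)) (MonoidAlgebra 𝒪 Δ)]
    [Module.Free 𝒪 M0] [Module.Finite 𝒪 M0]
    (hker : (LinearMap.ker f : Ideal (MonoidAlgebra 𝒪 Δ)) = RingHom.ker (augm 𝒪 Δ))
    (hfin : Module.Finite (MonoidAlgebra 𝒪 Δ) (H1 χ (MonoidAlgebra 𝒪 Δ)))
    (hfin' : Module.Finite (MonoidAlgebra 𝒪 Δ) (H1 χ' (MonoidAlgebra 𝒪 Δ)))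
    (hϖ : (MonoidAlgebra.single (1 : Δ) ϖ : MonoidAlgebra 𝒪 Δ) ∈
      IsLocalRing.maximalIdeal (MonoidAlgebra 𝒪 Δ))
    (j₀ : J) (hne : θ j₀ ≠ IsLocalRing.residue (MonoidAlgebra 𝒪 Δ) (pr.ν j₀).deg)
    (d : ℕ) (hd : Module.finrank 𝒪 M0 = d) :
    HeckeSide 𝒪 ϖ Δ I M0 t0 d where
  M1 := pr.M1 θ
  Mχ := pr.Mχ θ
  Mb := pr.Mb θ
  t1 i := xEnd (pr.M1 θ) (incl i)
  tχ i := xEnd (pr.Mχ θ) (incl i)
  tb i := xEnd (pr.Mb θ) (incl i)
  comm1 i j := xEnd_comm _ _ _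
  commχ i j := xEnd_comm _ _ _
  basis1 := by
    have := finite_M1 pr θ hfin
    have := free_M1 pr θ hfin j₀ hne
    exact ⟨Module.finBasisOfFinrankEq _ _ ((finrank_M1_eq ds hker hfin j₀ hne).trans hd)⟩
  basisχ := by
    have := finite_Mχ pr θ hfin'
    have := free_Mχ pr θ hfin' hϖ j₀ hne
    exact ⟨Module.finBasisOfFinrankEq _ _
      ((finrank_M1_eq_finrank_Mχ pr θ hfin hfin' hϖ j₀ hne).symm.trans
        ((finrank_M1_eq ds hker hfin j₀ hne).trans hd))⟩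
  q1 := (pr.q1 θ).restrictScalars (MonoidAlgebra 𝒪 Δ)
  qχ := (pr.qχ θ).restrictScalars (MonoidAlgebra 𝒪 Δ)
  q1_surj := pr.q1_surjective θ
  qχ_surj := pr.qχ_surjective θ
  q1_ker x hx := (pr.q1_eq_zero_iff θ x).1 hx
  qχ_ker x hx := (pr.qχ_eq_zero_iff θ x).1 hx
  q1_t i x := (pr.q1 θ).map_smul _ x
  qχ_t i x := (pr.qχ θ).map_smul _ x
  p0 := p0 ds
  p0_surj := p0_surjective ds
  p0_smul δ a x := by rw [p0_smul, augm_single]
  p0_ker x hx := by
    have h := p0_eq_zero_mem ds x hx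
    rw [hker] at h
    exact smul_mem_augSpan x h
  p0_t i x := p0_X ds i x

attribute [local instance] HeckeSide.acg1 HeckeSide.acgχ HeckeSide.acgb HeckeSide.mod1
  HeckeSide.modχ HeckeSide.modb

/-- **`ϖ` kills the common reduction of the seam** (the converse of `q1_ker`, `qχ_ker`) -/
theorem heckeSide_smul_Mb [Nontrivial 𝒪] [IsNoetherianRing (MonoidAlgebra 𝒪 Δ)]
    [IsAdicComplete (IsLocalRing.maximalIdeal (MonoidAlgebra 𝒪 Δ)) (MonoidAlgebra 𝒪 Δ)]
    [Module.Free 𝒪 M0] [Module.Finite 𝒪 M0]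
    (hker : (LinearMap.ker f : Ideal (MonoidAlgebra 𝒪 Δ)) = RingHom.ker (augm 𝒪 Δ))
    (hfin : Module.Finite (MonoidAlgebra 𝒪 Δ) (H1 χ (MonoidAlgebra 𝒪 Δ)))
    (hfin' : Module.Finite (MonoidAlgebra 𝒪 Δ) (H1 χ' (MonoidAlgebra 𝒪 Δ)))
    (hϖ : (MonoidAlgebra.single (1 : Δ) ϖ : MonoidAlgebra 𝒪 Δ) ∈
      IsLocalRing.maximalIdeal (MonoidAlgebra 𝒪 Δ))
    (j₀ : J) (hne : θ j₀ ≠ IsLocalRing.residue (MonoidAlgebra 𝒪 Δ) (pr.ν j₀).deg)
    (d : ℕ) (hd : Module.finrank 𝒪 M0 = d)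
    (y : (heckeSide ds hker hfin hfin' hϖ j₀ hne d hd).Mb) :
    (MonoidAlgebra.single (1 : Δ) ϖ : MonoidAlgebra 𝒪 Δ) • y = 0 :=
  smul_Mb_eq_zero (pr := pr) (θ := θ) y

end Main

end Fermat.Agent.S43.Hecke.Assemble
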