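import Mathlib
import Fermat.Agent.S43.Hecke.Loc

/-!
# PROJECT R (S43), block L3: localisation of a Hecke module and change of the coefficient ring

* `exists_addEquiv` (generic): `Φ : P →+* P'` onto, `g : N ≃+ N'` semilinear over `Φ`, `S`, `S'`
  submonoids with `p ∈ S ↔ Φ p ∈ S'`: the localisations `S⁻¹N` and `S'⁻¹N'` are identified,
  semilinearly.
* `exists_addEquiv_withOps` : `φ : R →+* 𝒪` a surjective local homomorphism of local rings, `N` an
  `𝒪`-module (an `R`-module through `φ`) with a commuting family of operators, `θR`, `θ` systems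
  of eigenvalues corresponding under `ResidueField.map φ`: the localisation of `N` at `θR` over
  `MvPolynomial J R` is the localisation of `N` at `θ` over `MvPolynomial J 𝒪`.
-/

set_option autoImplicit false

namespace Fermat.Agent.S43.Hecke.ChangeRing

open Fermat.Agent.S43.Hecke.PolyModule Fermat.Agent.S43.Hecke.Loc

section Generic

variable {P P' : Type*} [CommRing P] [CommRing P'] (Φ : P →+* P')
  {N N' : Type*} [AddCommGroup N] [Module P N] [AddCommGroup N'] [Module P' N']
  (S : Submonoid P) (S' : Submonoid P')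

/-- **localisation commutes with a surjective change of rings** -/
theorem exists_addEquiv (hΦ : Function.Surjective Φ) (hS : ∀ p, p ∈ S ↔ Φ p ∈ S')
    (g : N ≃+ N') (hg : ∀ (p : P) (x : N), g (p • x) = Φ p • g x) :
    ∃ e : LocalizedModule S N ≃+ LocalizedModule S' N',
      (∀ (p : P) (z : LocalizedModule S N), e (p • z) = Φ p • e z) ∧
        ∀ x : N, e (LocalizedModule.mk x 1) = LocalizedModule.mk (g x) 1 := by
  let _ : Module P (LocalizedModule S' N') := Module.compHom (LocalizedModule S' N') Φ
  have hsmul : ∀ (p : P) (z : LocalizedModule S' N'), p • z = Φ p • z := fun _ _ => rfl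
  let f : N →ₗ[P] LocalizedModule S' N' :=
    { toFun := fun x => LocalizedModule.mk (g x) 1
      map_add' := fun x y => by
        rw [map_add]
        exact ((LocalizedModule.mkLinearMap S' N').map_add (g x) (g y))
      map_smul' := fun p x => by
        rw [hg, RingHom.id_apply, hsmul, LocalizedModule.smul'_mk] }
  have hf : ∀ x, f x = LocalizedModule.mk (g x) 1 := fun _ => rfl
  have : IsLocalizedModule S f := by
    refine IsLocalizedModule.mk ?_ ?_ ?_
    · intro s
      have hu := IsLocalizedModule.map_units (LocalizedModule.mkLinearMap S' N')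
        (⟨Φ s, (hS s).1 s.2⟩ : S')
      rw [Module.End.isUnit_iff] at hu ⊢
      exact hu
    · intro y
      induction y using LocalizedModule.induction_on with
      | h x' s' =>
        obtain ⟨s, hs⟩ := hΦ s'
        have hsS : s ∈ S := (hS s).2 (by rw [hs]; exact s'.2)
        refine ⟨(g.symm x', ⟨s, hsS⟩), ?_⟩
        show s • LocalizedModule.mk x' s' = f (g.symm x')
        rw [hf, hsmul, hs, AddEquiv.apply_symm_apply, LocalizedModule.smul'_mk,
          LocalizedModule.mk_eq]
        exact ⟨1, by simp only [one_smul, Submonoid.smul_def]⟩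
    · intro x₁ x₂ h
      rw [hf, hf, LocalizedModule.mk_eq] at h
      obtain ⟨u', hu'⟩ := h
      obtain ⟨u, hu⟩ := hΦ u'
      have huS : u ∈ S := (hS u).2 (by rw [hu]; exact u'.2)
      refine ⟨⟨u, huS⟩, ?_⟩
      apply g.injective
      show g (u • x₁) = g (u • x₂)
      rw [hg, hg, hu]
      simpa only [one_smul, Submonoid.smul_def] using hu'
  refine ⟨(IsLocalizedModule.iso S f).toAddEquiv, ?_, ?_⟩
  · intro p z
    exact (IsLocalizedModule.iso S f).map_smul p z
  · intro x
    have := IsLocalizedModule.iso_symm_apply S f x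
    rw [← hf, ← this]
    exact (IsLocalizedModule.iso S f).apply_symm_apply _

end Generic

/-! ### the Hecke modules -/

section WithOps

variable {R 𝒪 : Type*} [CommRing R] [CommRing 𝒪] [IsLocalRing R] [IsLocalRing 𝒪]
  (φ : R →+* 𝒪) [IsLocalHom φ]
  {J : Type*} {N : Type*} [AddCommGroup N] [Module R N] [Module 𝒪 N]
  (tR : J → Module.End R N) (hcommR : ∀ i j, Commute (tR i) (tR j))
  (t : J → Module.End 𝒪 N) (hcomm : ∀ i j, Commute (t i) (t j))

/-- the identity of `N`, between the two module structures -/
def idOps : WithOps tR hcommR ≃+ WithOps t hcomm :=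
  (WithOps.equiv tR hcommR).toAddEquiv.trans (WithOps.equiv t hcomm).symm.toAddEquiv

omit [IsLocalRing R] [IsLocalRing 𝒪] in
theorem equiv_idOps (x : WithOps tR hcommR) :
    WithOps.equiv t hcomm (idOps tR hcommR t hcomm x) = WithOps.equiv tR hcommR x := rfl

omit [IsLocalRing R] [IsLocalRing 𝒪] [IsLocalHom φ] in
theorem idOps_smul (hsm : ∀ (r : R) (x : N), r • x = φ r • x) (ht : ∀ j x, tR j x = t j x)
    (p : MvPolynomial J R) (x : WithOps tR hcommR) :
    idOps tR hcommR t hcomm (p • x) = MvPolynomial.map φ p • idOps tR hcommR t hcomm x := by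
  induction p using MvPolynomial.induction_on generalizing x with
  | C r =>
    rw [MvPolynomial.map_C, WithOps.C_smul, WithOps.C_smul]
    apply (WithOps.equiv t hcomm).injective
    rw [equiv_idOps, map_smul, map_smul, equiv_idOps]
    exact hsm r _
  | add p₁ p₂ h₁ h₂ =>
    rw [add_smul, map_add, h₁, h₂, map_add, add_smul]
  | mul_X p j hp =>
    rw [mul_smul, hp, map_mul, MvPolynomial.map_X, mul_smul]
    congr 1
    apply (WithOps.equiv t hcomm).injective
    rw [equiv_idOps, WithOps.X_smul, WithOps.X_smul, equiv_idOps]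
    exact ht j _

theorem evalHom_map (θR : J → IsLocalRing.ResidueField R) (θ : J → IsLocalRing.ResidueField 𝒪)
    (hθ : ∀ j, IsLocalRing.ResidueField.map φ (θR j) = θ j) (p : MvPolynomial J R) :
    evalHom θ (MvPolynomial.map φ p) = IsLocalRing.ResidueField.map φ (evalHom θR p) := by
  induction p using MvPolynomial.induction_on with
  | C r =>
    rw [MvPolynomial.map_C, evalHom_C, evalHom_C, IsLocalRing.ResidueField.map_residue]
  | add p₁ p₂ h₁ h₂ => rw [map_add, map_add, h₁, h₂, map_add, map_add]
  | mul_X p j hp =>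
    rw [map_mul, map_mul, hp, MvPolynomial.map_X, evalHom_X, map_mul, map_mul, evalHom_X, hθ]

/-- **the localisation of a Hecke module does not depend on the ring of coefficients through
which it is computed** -/
theorem exists_addEquiv_withOps (hφ : Function.Surjective φ)
    (hsm : ∀ (r : R) (x : N), r • x = φ r • x) (ht : ∀ j x, tR j x = t j x)
    (θR : J → IsLocalRing.ResidueField R) (θ : J → IsLocalRing.ResidueField 𝒪)
    (hθ : ∀ j, IsLocalRing.ResidueField.map φ (θR j) = θ j) :
    ∃ e : LocalizedModule (Sθ θR) (WithOps tR hcommR) ≃+ LocalizedModule (Sθ θ) (WithOps t hcomm),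
      (∀ (r : R) z, e (r • z) = φ r • e z) ∧
      (∀ (j : J) z, e ((MvPolynomial.X j : MvPolynomial J R) • z) =
        (MvPolynomial.X j : MvPolynomial J 𝒪) • e z) ∧
      ∀ x, e (LocalizedModule.mk x 1) = LocalizedModule.mk (idOps tR hcommR t hcomm x) 1 := by
  obtain ⟨e, he1, he2⟩ := exists_addEquiv (MvPolynomial.map φ) (Sθ θR) (Sθ θ)
    (MvPolynomial.map_surjective φ hφ)
    (fun p => by
      rw [mem_Sθ_iff, mem_Sθ_iff, evalHom_map φ θR θ hθ, Ne, Ne,
        map_eq_zero_iff _ (IsLocalRing.ResidueField.map φ).injective])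
    (idOps tR hcommR t hcomm) (idOps_smul φ tR hcommR t hcomm hsm ht)
  refine ⟨e, ?_, ?_, he2⟩
  · intro r z
    rw [← algebraMap_smul (MvPolynomial J R) r z, he1, MvPolynomial.algebraMap_eq,
      MvPolynomial.map_C, ← MvPolynomial.algebraMap_eq, algebraMap_smul]
  · intro j z
    rw [he1, MvPolynomial.map_X]

end WithOps

end Fermat.Agent.S43.Hecke.ChangeRing
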