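import Mathlib
import Fermat.Agent.S43.Hecke.Assemble
import Fermat.Agent.S43.Hecke.ChangeRing
import Fermat.Agent.S43.Hecke.Inst.TrivHecke
import Fermat.Agent.S43.Hecke.Descent.InstPoly

/-!
# PROJECT R (S43), block L3: the descent datum of `Γ₀(M)`

`R = 𝒪[Δ]`, `π : (ZMod M)ˣ →* Δ`, `χ = chiOf 𝒪 (kap π)`, `pr` a `Side.Pair` whose first family is
`HνK 𝒪 π ∘ f`.  The reduction of `H1 χ R` modulo the augmentation ideal, localised at `θR`, is
`Hom(Γ₀(M), 𝒪)` localised at the corresponding `θ` over `MvPolynomial J 𝒪`: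

* `augModule`, `augLin`, `augLin_surjective`, `ker_augLin`;
* `exists_addEquiv_HP` : `LocalizedModule (Sθ θR) (NB pr augLin _) ≃+ LocalizedModule (Sθ θ) (HP 𝒪 𝒪 p hp M)`,
  semilinear over `augm`, `X j ↦ X j`;
* `descOf` : the `Assemble.Desc` obtained by composing with an identification of the latter with
  a fixed `M0` (the Taylor-Wiles descent `Descent/Main`).
-/

set_option autoImplicit false

open CongruenceSubgroup
open scoped MatrixGroups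

noncomputable section

namespace Fermat.Agent.S43.Hecke.DescMain

open Fermat.Agent.S30.Hecke.DoubleCoset Fermat.Agent.S30.Hecke.Gamma0Cosets
  Fermat.Agent.S30.Hecke.Parabolic
open Fermat.Agent.S43.Hecke.Defs Fermat.Agent.S43.Hecke.Seam Fermat.Agent.S43.Hecke.Shapiro
  Fermat.Agent.S43.Hecke.Inst Fermat.Agent.S43.Hecke.Inst.Comm
  Fermat.Agent.S43.Hecke.Inst.TrivHecke
open Fermat.Agent.S43.Hecke.PolyModule Fermat.Agent.S43.Hecke.Loc Fermat.Agent.S43.Hecke.Side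
  Fermat.Agent.S43.Hecke.Assemble Fermat.Agent.S43.Hecke.ChangeRing
  Fermat.Agent.S43.Hecke.Descent.Inst Fermat.Agent.S43.Hecke.Descent.InstPoly

variable (𝒪 : Type) [CommRing 𝒪] (Δ : Type) [CommGroup Δ]

/-- `𝒪` as an `𝒪[Δ]`-module through the augmentation -/
@[reducible] def augModule : Module (MonoidAlgebra 𝒪 Δ) 𝒪 :=
  Module.compHom 𝒪 (augm 𝒪 Δ).toRingHom

attribute [local instance] augModule

theorem aug_smul_def (r : MonoidAlgebra 𝒪 Δ) (x : 𝒪) : r • x = augm 𝒪 Δ r * x := rfl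

theorem single_smul_aug (δ : Δ) (x : 𝒪) :
    (MonoidAlgebra.single δ (1 : 𝒪) : MonoidAlgebra 𝒪 Δ) • x = x := by
  rw [aug_smul_def, augm_single, one_mul]

/-- the augmentation as a linear map `𝒪[Δ] → 𝒪` -/
def augLin : MonoidAlgebra 𝒪 Δ →ₗ[MonoidAlgebra 𝒪 Δ] 𝒪 where
  toFun := augm 𝒪 Δ
  map_add' := map_add _
  map_smul' r x := by
    rw [smul_eq_mul, map_mul, RingHom.id_apply, aug_smul_def]

theorem augLin_apply (x : MonoidAlgebra 𝒪 Δ) : augLin 𝒪 Δ x = augm 𝒪 Δ x := rfl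

theorem augLin_surjective : Function.Surjective (augLin 𝒪 Δ) := augm_surjective

theorem ker_augLin :
    (LinearMap.ker (augLin 𝒪 Δ) : Ideal (MonoidAlgebra 𝒪 Δ)) = RingHom.ker (augm 𝒪 Δ) := by
  ext x
  rfl

/-! ### the comparison with `Hom(Γ₀(M), 𝒪)` -/

section Compare

variable {𝒪 Δ}
variable {M : ℕ} (π : (ZMod M)ˣ →* Δ) {J : Type} (f : J → HIdx M)
  {χ' : ↥(Gamma0 M) →* (MonoidAlgebra 𝒪 Δ)ˣ} {ϖ : 𝒪}
  (pr : Pair (fun j => HD (f j)) (chiOf 𝒪 (kap π)) χ'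
    (MonoidAlgebra.single (1 : Δ) ϖ : MonoidAlgebra 𝒪 Δ))
  (hν : ∀ j, pr.ν j = HνK 𝒪 π (f j))

/-- the primes of the family -/
def pOf : J → ℕ := fun j => idxPrime (f j)

theorem pOf_prime (j : J) : (pOf f j).Prime := idxPrime_prime (f j)

include hν in
/-- `H1 χ 𝒪 → Hom(Γ₀(M), 𝒪)` is linear over the polynomial Hecke algebra -/
theorem homOfH1_ops (j : J) (ξ : H1 (chiOf 𝒪 (kap π)) 𝒪) :
    homOfH1 (single_smul_aug 𝒪 Δ) (ops pr.ν 𝒪 j ξ) =
      opsAt (MonoidAlgebra 𝒪 Δ) 𝒪 (pOf f) (pOf_prime f) M j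
        (homOfH1 (single_smul_aug 𝒪 Δ) ξ) := by
  show homOfH1 (single_smul_aug 𝒪 Δ) (heckeH 𝒪 (pr.ν j) ξ) =
    tauAllLin (MonoidAlgebra 𝒪 Δ) 𝒪 M (pOf f j) (pOf_prime f j) _
  rw [hν, homOfH1_HνK, tauAllLin_apply]
  rfl

/-- the comparison map, over the polynomial Hecke algebra of `𝒪[Δ]` -/
def cmpR : NB pr (augLin 𝒪 Δ) (augLin_surjective 𝒪 Δ) →ₗ[MvPolynomial J (MonoidAlgebra 𝒪 Δ)]
    HP (MonoidAlgebra 𝒪 Δ) 𝒪 (pOf f) (pOf_prime f) M :=
  WithOps.map (homOfH1 (single_smul_aug 𝒪 Δ)) (homOfH1_ops π f pr hν)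

theorem cmpR_bijective : Function.Bijective (cmpR π f pr hν) :=
  homOfH1_bijective (single_smul_aug 𝒪 Δ)

include hν in
/-- **the reduction of the Hecke module modulo the augmentation ideal is `Hom(Γ₀(M), 𝒪)`**, after
localisation, over the polynomial Hecke algebra of `𝒪` -/
theorem exists_addEquiv_HP [IsLocalRing 𝒪] [IsLocalRing (MonoidAlgebra 𝒪 Δ)]
    [IsLocalHom (augm 𝒪 Δ).toRingHom]
    (θR : J → IsLocalRing.ResidueField (MonoidAlgebra 𝒪 Δ)) (θ : J → IsLocalRing.ResidueField 𝒪)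
    (hθ : ∀ j, IsLocalRing.ResidueField.map (augm 𝒪 Δ).toRingHom (θR j) = θ j) :
    ∃ e : LocalizedModule (Sθ θR) (NB pr (augLin 𝒪 Δ) (augLin_surjective 𝒪 Δ)) ≃+
          LocalizedModule (Sθ θ) (HP 𝒪 𝒪 (pOf f) (pOf_prime f) M),
      (∀ (r : MonoidAlgebra 𝒪 Δ) z, e (r • z) = augm 𝒪 Δ r • e z) ∧
      ∀ (j : J) z, e ((MvPolynomial.X j : MvPolynomial J (MonoidAlgebra 𝒪 Δ)) • z) =
        (MvPolynomial.X j : MvPolynomial J 𝒪) • e z := by
  -- step 1: `homOfH1`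
  obtain ⟨e1, he1, -⟩ := exists_addEquiv (RingHom.id (MvPolynomial J (MonoidAlgebra 𝒪 Δ)))
    (Sθ θR) (Sθ θR) Function.surjective_id (fun p => Iff.rfl)
    (AddEquiv.ofBijective (cmpR π f pr hν).toAddMonoidHom (cmpR_bijective π f pr hν))
    (fun p x => (cmpR π f pr hν).map_smul p x)
  -- step 2: change of rings
  obtain ⟨e2, he2r, he2X, -⟩ := exists_addEquiv_withOps (augm 𝒪 Δ).toRingHom
    (opsAt (MonoidAlgebra 𝒪 Δ) 𝒪 (pOf f) (pOf_prime f) M)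
    (opsAt_comm (MonoidAlgebra 𝒪 Δ) 𝒪 (pOf f) (pOf_prime f) M)
    (opsAt 𝒪 𝒪 (pOf f) (pOf_prime f) M) (opsAt_comm 𝒪 𝒪 (pOf f) (pOf_prime f) M)
    augm_surjective (fun r x => rfl)
    (fun j x => by
      show tauAllLin (MonoidAlgebra 𝒪 Δ) 𝒪 M _ _ x = tauAllLin 𝒪 𝒪 M _ _ x
      rw [tauAllLin_apply, tauAllLin_apply])
    θR θ hθ
  refine ⟨e1.trans e2, ?_, ?_⟩
  · intro r z
    have h1 : e1 (r • z) = r • e1 z := by
      rw [← algebraMap_smul (MvPolynomial J (MonoidAlgebra 𝒪 Δ)) r z, he1, RingHom.id_apply,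
        algebraMap_smul]
    rw [AddEquiv.trans_apply, AddEquiv.trans_apply, h1, he2r]
    rfl
  · intro j z
    rw [AddEquiv.trans_apply, AddEquiv.trans_apply, he1, RingHom.id_apply, he2X]

include hν in
/-- **the descent datum** from an identification of `Hom(Γ₀(M), 𝒪)_θ` with a fixed `M0` -/
theorem nonempty_desc [IsLocalRing 𝒪] [IsLocalRing (MonoidAlgebra 𝒪 Δ)]
    [IsLocalHom (augm 𝒪 Δ).toRingHom]
    (θR : J → IsLocalRing.ResidueField (MonoidAlgebra 𝒪 Δ)) (θ : J → IsLocalRing.ResidueField 𝒪)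
    (hθ : ∀ j, IsLocalRing.ResidueField.map (augm 𝒪 Δ).toRingHom (θR j) = θ j)
    {I : Type} (incl : I → J) {M0 : Type} [AddCommGroup M0] [Module 𝒪 M0]
    (t0 : I → Module.End 𝒪 M0)
    (e4 : LocalizedModule (Sθ θ) (HP 𝒪 𝒪 (pOf f) (pOf_prime f) M) ≃+ M0)
    (he4 : ∀ (c : 𝒪) z, e4 (c • z) = c • e4 z)
    (he4t : ∀ i z, e4 ((MvPolynomial.X (incl i) : MvPolynomial J 𝒪) • z) = t0 i (e4 z)) :
    Nonempty (Desc pr (augLin 𝒪 Δ) (augLin_surjective 𝒪 Δ) θR incl M0 t0) := by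
  obtain ⟨e, her, heX⟩ := exists_addEquiv_HP π f pr hν θR θ hθ
  exact ⟨{ e := e.trans e4
           e_smul := fun r z => by
             rw [AddEquiv.trans_apply, AddEquiv.trans_apply, her, he4]
           e_t := fun i z => by
             rw [AddEquiv.trans_apply, AddEquiv.trans_apply, heX, he4t] }⟩

end Compare

end Fermat.Agent.S43.Hecke.DescMain
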