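import Mathlib
import Fermat.Agent.S43.Hecke.DescMain
import Fermat.Agent.S43.Hecke.Inst.Pair
import Fermat.Agent.S43.Hecke.Descent.Main

/-!
# PROJECT R (S43), block L3: THE EXPORT.  The seam `HeckeSide` at a Taylor-Wiles level

`𝒪` complete noetherian local, `Δ` a finite abelian group with `𝒪[Δ]` complete noetherian local,
`p : J → ℕ` an injective family of primes (all the good primes), `N` the base level, `Q` a list of
indices (the Taylor-Wiles primes), `M = N ∏_{j ∈ Q} p j`, `π : (ZMod M)ˣ →* Δ`.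

* the Taylor-Wiles descent `Hom(Γ₀(M), 𝒪)_{θ_Q} ≃ Hom(Γ₀(N), 𝒪)_θ` is `Descent/Main.descent'`;
* `M0 𝒪 p hp N θ` : the level-zero module, `finite_M0`, `free_M0` (over a principal ideal domain);
* `heckeSideOf … : HeckeSide 𝒪 ϖ Δ I (M0 𝒪 p hp N θ) (t0 …) d` and `heckeSideOf_smul_Mb`.
-/

set_option autoImplicit false

open CongruenceSubgroup
open scoped MatrixGroups

noncomputable section

namespace Fermat.Agent.S43.Hecke.Main

open Fermat.Agent.S30.Hecke.DoubleCoset Fermat.Agent.S30.Hecke.Gamma0Cosets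
  Fermat.Agent.S30.Hecke.Parabolic
open Fermat.Agent.S43.Hecke.Defs Fermat.Agent.S43.Hecke.Seam Fermat.Agent.S43.Hecke.Shapiro
  Fermat.Agent.S43.Hecke.Inst Fermat.Agent.S43.Hecke.Inst.Comm
  Fermat.Agent.S43.Hecke.Inst.TrivHecke Fermat.Agent.S43.Hecke.Inst.Pair
open Fermat.Agent.S43.Hecke.PolyModule Fermat.Agent.S43.Hecke.Loc Fermat.Agent.S43.Hecke.Side
  Fermat.Agent.S43.Hecke.Assemble Fermat.Agent.S43.Hecke.ChangeRing
  Fermat.Agent.S43.Hecke.DescMain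
  Fermat.Agent.S43.Hecke.Descent.Inst Fermat.Agent.S43.Hecke.Descent.InstPoly
  Fermat.Agent.S43.Hecke.Descent.Main

/-! ### the level-zero module -/

section LevelZero

variable (𝒪 : Type) [CommRing 𝒪] [IsLocalRing 𝒪] {J : Type} (p : J → ℕ) (hp : ∀ j, (p j).Prime)

/-- **the level-zero module** `Hom(Γ₀(N), 𝒪)_θ` -/
abbrev M0 (N : ℕ) (θ : J → IsLocalRing.ResidueField 𝒪) : Type :=
  LocalizedModule (Sθ θ) (HL 𝒪 p hp N)

/-- its Hecke operators -/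
def t0 (N : ℕ) (θ : J → IsLocalRing.ResidueField 𝒪) {I : Type} (incl : I → J) :
    I → Module.End 𝒪 (M0 𝒪 p hp N θ) := fun i => xEnd (R := 𝒪) (M0 𝒪 p hp N θ) (incl i)

theorem t0_apply (N : ℕ) (θ : J → IsLocalRing.ResidueField 𝒪) {I : Type} (incl : I → J) (i : I)
    (z : M0 𝒪 p hp N θ) :
    t0 𝒪 p hp N θ incl i z = (MvPolynomial.X (incl i) : MvPolynomial J 𝒪) • z := rfl

theorem finite_M0 [IsNoetherianRing 𝒪] [IsAdicComplete (IsLocalRing.maximalIdeal 𝒪) 𝒪]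
    (N : ℕ) [NeZero N] (θ : J → IsLocalRing.ResidueField 𝒪) :
    Module.Finite 𝒪 (M0 𝒪 p hp N θ) := by
  have : Module.Finite 𝒪 (Additive (Gamma0 N) →+ 𝒪) := finite_hom 𝒪 𝒪 N
  have : Module.Finite 𝒪 (HL 𝒪 p hp N) := Module.Finite.equiv (WithOps.equiv _ _).symm
  exact Fermat.Agent.S43.Hecke.FinLoc.finite_localizedModule (𝒪 := 𝒪) (maxId θ)

omit [IsLocalRing 𝒪] in
theorem mk_eq_zero_iff' {P : Type*} [CommRing P] {S : Submonoid P} {K : Type*} [AddCommGroup K]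
    [Module P K] (x : K) (s : S) :
    (LocalizedModule.mk x s : LocalizedModule S K) = 0 ↔ ∃ u : S, u • x = 0 := by
  rw [← LocalizedModule.zero_mk s, LocalizedModule.mk_eq]
  constructor
  · rintro ⟨u, hu⟩
    refine ⟨u * s, ?_⟩
    rw [smul_zero, smul_zero] at hu
    rw [mul_smul]
    exact hu
  · rintro ⟨u, hu⟩
    refine ⟨u, ?_⟩
    rw [smul_zero, smul_zero, smul_comm, hu, smul_zero]

/-- the level-zero module has no `𝒪`-torsion -/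
theorem smul_eq_zero_M0 [IsDomain 𝒪] (N : ℕ) (θ : J → IsLocalRing.ResidueField 𝒪) (c : 𝒪)
    (hc : c ≠ 0) (z : M0 𝒪 p hp N θ) (hz : c • z = 0) : z = 0 := by
  -- torsion-freeness of `Hom(Γ₀(N), 𝒪)`
  have h4 : ∀ y : HL 𝒪 p hp N, c • y = 0 → y = 0 := by
    intro y hy
    apply (WithOps.equiv _ _).injective
    rw [map_zero]
    have hy' : c • (WithOps.equiv _ _ y) = 0 := by rw [← map_smul, hy, map_zero]
    refine AddMonoidHom.ext fun g => ?_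
    have := congrArg (fun φ : Additive (Gamma0 N) →+ 𝒪 => φ g) hy'
    simp only [AddMonoidHom.smul_apply, smul_eq_mul, AddMonoidHom.zero_apply] at this
    exact (mul_eq_zero.mp this).resolve_left hc
  induction z using LocalizedModule.induction_on with
  | h x s =>
    rw [loc_smul_mk, mk_eq_zero_iff'] at hz
    obtain ⟨u, hu⟩ := hz
    rw [mk_eq_zero_iff']
    refine ⟨u, h4 _ ?_⟩
    rw [Submonoid.smul_def, smul_comm]
    exact hu

/-- **the level-zero module is free** over a principal ideal domain -/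
theorem free_M0 [IsNoetherianRing 𝒪] [IsAdicComplete (IsLocalRing.maximalIdeal 𝒪) 𝒪]
    [IsDomain 𝒪] [IsPrincipalIdealRing 𝒪] (N : ℕ) [NeZero N]
    (θ : J → IsLocalRing.ResidueField 𝒪) : Module.Free 𝒪 (M0 𝒪 p hp N θ) := by
  have := finite_M0 𝒪 p hp N θ
  have : NoZeroSMulDivisors 𝒪 (M0 𝒪 p hp N θ) :=
    ⟨fun {c z} h => by
      by_cases hc : c = 0
      · exact Or.inl hc
      · exact Or.inr (smul_eq_zero_M0 𝒪 p hp N θ c hc z h)⟩
  exact Module.free_of_finite_type_torsion_free'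

end LevelZero

/-! ### the family of Hecke indices of a family of primes -/

section Family

variable {J : Type} (p : J → ℕ) (hp : ∀ j, (p j).Prime) (M : ℕ)

/-- the Hecke index of level `M` of the prime `p j` : `T_{p j}` if `p j ∤ M`, `U_{p j}` if not -/
def fOf : J → HIdx M := fun j =>
  if h : p j ∣ M then Sum.inr ⟨p j, hp j, h⟩ else Sum.inl ⟨p j, hp j, h⟩

theorem idxPrime_fOf (j : J) : idxPrime (fOf p hp M j) = p j := by
  unfold fOf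
  split_ifs with h
  · rfl
  · rfl

theorem fOf_of_not_dvd (j : J) (h : ¬ p j ∣ M) : fOf p hp M j = Sum.inl ⟨p j, hp j, h⟩ := by
  unfold fOf
  rw [dif_neg h]

theorem fOf_of_dvd (j : J) (h : p j ∣ M) : fOf p hp M j = Sum.inr ⟨p j, hp j, h⟩ := by
  unfold fOf
  rw [dif_pos h]

end Family

/-! ### the descent datum -/

section Datum

variable (𝒪 : Type) [CommRing 𝒪] [IsLocalRing 𝒪]

/-- transport along an equality of families of primes -/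
theorem exists_e4 {J : Type} {p p' : J → ℕ} (hp : ∀ j, (p j).Prime) (hp' : ∀ j, (p' j).Prime)
    (h : p' = p) (M : ℕ) (θ : J → IsLocalRing.ResidueField 𝒪) {Y : Type} [AddCommGroup Y]
    [Module 𝒪 Y] (e : LocalizedModule (Sθ θ) (HL 𝒪 p hp M) ≃ₗ[𝒪] Y) :
    ∃ e4 : LocalizedModule (Sθ θ) (HP 𝒪 𝒪 p' hp' M) ≃+ Y,
      (∀ (c : 𝒪) z, e4 (c • z) = c • e4 z) ∧
      ∀ (j : J) (T : Y → Y),
        (∀ z, e ((MvPolynomial.X j : MvPolynomial J 𝒪) • z) = T (e z)) →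
        ∀ z, e4 ((MvPolynomial.X j : MvPolynomial J 𝒪) • z) = T (e4 z) := by
  subst h
  exact ⟨e.toAddEquiv, fun c z => e.map_smul c z, fun j T hT z => hT z⟩

variable [IsNoetherianRing 𝒪] [IsAdicComplete (IsLocalRing.maximalIdeal 𝒪) 𝒪]
  (Δ : Type) [CommGroup Δ] [IsLocalRing (MonoidAlgebra 𝒪 Δ)]
  [IsLocalHom (augm 𝒪 Δ).toRingHom]
  {J : Type} [DecidableEq J] (p : J → ℕ) (hp : ∀ j, (p j).Prime) (hinj : Function.Injective p)
  {N : ℕ} (hN : N ≠ 0) (θ α : J → IsLocalRing.ResidueField 𝒪) (Q : List J) (hQ : Q.Nodup)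
  (hQN : ∀ j ∈ Q, ¬ p j ∣ N) (hgood : ∀ j ∈ Q, Good 𝒪 p θ α j)
  {M : ℕ} (hM : M = N * (Q.map p).prod) (π : (ZMod M)ˣ →* Δ)
  (f : J → HIdx M) (hpf : ∀ j, idxPrime (f j) = p j)
  {χ' : ↥(Gamma0 M) →* (MonoidAlgebra 𝒪 Δ)ˣ} {ϖ : 𝒪}
  (pr : Pair (fun j => HD (f j)) (chiOf 𝒪 (kap π)) χ'
    (MonoidAlgebra.single (1 : Δ) ϖ : MonoidAlgebra 𝒪 Δ))
  (hν : ∀ j, pr.ν j = HνK 𝒪 π (f j))
  (θR : J → IsLocalRing.ResidueField (MonoidAlgebra 𝒪 Δ))
  (hθR : ∀ j, IsLocalRing.ResidueField.map (augm 𝒪 Δ).toRingHom (θR j) =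
    if j ∈ Q then α j else θ j)
  {I : Type} (incl : I → J) (hincl : ∀ i, incl i ∉ Q)

attribute [local instance] augModule

include hinj hN hQ hQN hgood hM hpf hν hθR hincl in
/-- **the descent datum at a Taylor-Wiles level** : the reduction of the Hecke module of level
`M = N ∏_{j ∈ Q} p j` modulo the augmentation ideal, localised at `θR`, is the level-zero module
`M0 𝒪 p hp N θ`, compatibly with the operators away from `Q`. -/
theorem nonempty_descOf :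
    Nonempty (Desc pr (augLin 𝒪 Δ) (augLin_surjective 𝒪 Δ) θR incl (M0 𝒪 p hp N θ)
      (t0 𝒪 p hp N θ incl)) := by
  obtain ⟨e, he⟩ := descent' 𝒪 p hp hinj hN θ α Q hQ hQN hgood M hM
    (fun j => if j ∈ Q then α j else θ j) (fun j => rfl)
  obtain ⟨e4, he4, he4t⟩ := exists_e4 𝒪 hp (pOf_prime f) (funext hpf : pOf f = p) M
    (fun j => if j ∈ Q then α j else θ j) e
  exact nonempty_desc π f pr hν θR (fun j => if j ∈ Q then α j else θ j) hθR incl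
    (t0 𝒪 p hp N θ incl) e4 he4
    (fun i z => he4t (incl i) (fun w => t0 𝒪 p hp N θ incl i w)
      (fun z' => he (incl i) (hincl i) z') z)

/-- a choice of the descent datum -/
def descOf : Desc pr (augLin 𝒪 Δ) (augLin_surjective 𝒪 Δ) θR incl (M0 𝒪 p hp N θ)
    (t0 𝒪 p hp N θ incl) :=
  Classical.choice (nonempty_descOf 𝒪 Δ p hp hinj hN θ α Q hQ hQN hgood hM π f hpf pr hν θR hθR
    incl hincl)

end Datum

/-! ### the export -/

section Export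

variable (𝒪 : Type) [CommRing 𝒪] [IsLocalRing 𝒪] [IsNoetherianRing 𝒪]
  [IsAdicComplete (IsLocalRing.maximalIdeal 𝒪) 𝒪]
  (Δ : Type) [CommGroup Δ] [IsLocalRing (MonoidAlgebra 𝒪 Δ)]
  [IsLocalHom (augm 𝒪 Δ).toRingHom] [IsNoetherianRing (MonoidAlgebra 𝒪 Δ)]
  [IsAdicComplete (IsLocalRing.maximalIdeal (MonoidAlgebra 𝒪 Δ)) (MonoidAlgebra 𝒪 Δ)]
  {J : Type} [DecidableEq J] (p : J → ℕ) (hp : ∀ j, (p j).Prime) (hinj : Function.Injective p)
  {N : ℕ} [NeZero N] (θ α : J → IsLocalRing.ResidueField 𝒪) (Q : List J) (hQ : Q.Nodup)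
  (hQN : ∀ j ∈ Q, ¬ p j ∣ N) (hgood : ∀ j ∈ Q, Good 𝒪 p θ α j)
  {M : ℕ} (hM : M = N * (Q.map p).prod) (π : (ZMod M)ˣ →* Δ)
  (f : J → HIdx M) (hpf : ∀ j, idxPrime (f j) = p j)

include hp hM in
omit [DecidableEq J] in
theorem neZero_M : NeZero M := by
  refine ⟨?_⟩
  rw [hM]
  refine mul_ne_zero (NeZero.ne N) (List.prod_ne_zero ?_)
  intro h
  obtain ⟨j, -, hj⟩ := List.mem_map.mp h
  exact (hp j).ne_zero hj

section General

variable {χ' : ↥(Gamma0 M) →* (MonoidAlgebra 𝒪 Δ)ˣ} {ϖ : 𝒪}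
  (pr : Pair (fun j => HD (f j)) (chiOf 𝒪 (kap π)) χ'
    (MonoidAlgebra.single (1 : Δ) ϖ : MonoidAlgebra 𝒪 Δ))
  (hν : ∀ j, pr.ν j = HνK 𝒪 π (f j))
  (θR : J → IsLocalRing.ResidueField (MonoidAlgebra 𝒪 Δ))
  (hθR : ∀ j, IsLocalRing.ResidueField.map (augm 𝒪 Δ).toRingHom (θR j) =
    if j ∈ Q then α j else θ j)
  {I : Type} (incl : I → J) (hincl : ∀ i, incl i ∉ Q)
  [Module.Free 𝒪 (M0 𝒪 p hp N θ)]
  (hfin : Module.Finite (MonoidAlgebra 𝒪 Δ) (H1 (chiOf 𝒪 (kap π)) (MonoidAlgebra 𝒪 Δ)))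
  (hfin' : Module.Finite (MonoidAlgebra 𝒪 Δ) (H1 χ' (MonoidAlgebra 𝒪 Δ)))
  (hϖ : (MonoidAlgebra.single (1 : Δ) ϖ : MonoidAlgebra 𝒪 Δ) ∈
    IsLocalRing.maximalIdeal (MonoidAlgebra 𝒪 Δ))
  (j₀ : J) (hne : θR j₀ ≠ IsLocalRing.residue (MonoidAlgebra 𝒪 Δ) (pr.ν j₀).deg)

attribute [local instance] augModule

/-- **the seam at a Taylor-Wiles level, for any pair** whose first family is `HνK 𝒪 π ∘ f` -/
def heckeSideOfPair :
    HeckeSide 𝒪 ϖ Δ I (M0 𝒪 p hp N θ) (t0 𝒪 p hp N θ incl)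
      (Module.finrank 𝒪 (M0 𝒪 p hp N θ)) :=
  have : Module.Finite 𝒪 (M0 𝒪 p hp N θ) := finite_M0 𝒪 p hp N θ
  heckeSide
    (descOf 𝒪 Δ p hp hinj (NeZero.ne N) θ α Q hQ hQN hgood hM π f hpf pr hν θR hθR incl hincl)
    (ker_augLin 𝒪 Δ) hfin hfin' hϖ j₀ hne _ rfl

attribute [local instance] HeckeSide.acg1 HeckeSide.acgχ HeckeSide.acgb HeckeSide.mod1
  HeckeSide.modχ HeckeSide.modb

/-- the three modules of the seam, by `rfl` -/
theorem heckeSideOfPair_M1 :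
    (heckeSideOfPair 𝒪 Δ p hp hinj θ α Q hQ hQN hgood hM π f hpf pr hν θR hθR incl hincl hfin
      hfin' hϖ j₀ hne).M1 = pr.M1 θR := rfl

theorem heckeSideOfPair_Mχ :
    (heckeSideOfPair 𝒪 Δ p hp hinj θ α Q hQ hQN hgood hM π f hpf pr hν θR hθR incl hincl hfin
      hfin' hϖ j₀ hne).Mχ = pr.Mχ θR := rfl

theorem heckeSideOfPair_Mb :
    (heckeSideOfPair 𝒪 Δ p hp hinj θ α Q hQ hQN hgood hM π f hpf pr hν θR hθR incl hincl hfin
      hfin' hϖ j₀ hne).Mb = pr.Mb θR := rfl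

/-- the operators of the seam are the `X (incl i)` -/
theorem heckeSideOfPair_t1 (i : I) (x : pr.M1 θR) :
    (heckeSideOfPair 𝒪 Δ p hp hinj θ α Q hQ hQN hgood hM π f hpf pr hν θR hθR incl hincl hfin
      hfin' hϖ j₀ hne).t1 i x =
      (MvPolynomial.X (incl i) : MvPolynomial J (MonoidAlgebra 𝒪 Δ)) • x := rfl

theorem heckeSideOfPair_tχ (i : I) (x : pr.Mχ θR) :
    (heckeSideOfPair 𝒪 Δ p hp hinj θ α Q hQ hQN hgood hM π f hpf pr hν θR hθR incl hincl hfin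
      hfin' hϖ j₀ hne).tχ i x =
      (MvPolynomial.X (incl i) : MvPolynomial J (MonoidAlgebra 𝒪 Δ)) • x := rfl

theorem heckeSideOfPair_tb (i : I) (x : pr.Mb θR) :
    (heckeSideOfPair 𝒪 Δ p hp hinj θ α Q hQ hQN hgood hM π f hpf pr hν θR hθR incl hincl hfin
      hfin' hϖ j₀ hne).tb i x =
      (MvPolynomial.X (incl i) : MvPolynomial J (MonoidAlgebra 𝒪 Δ)) • x := rfl

/-- **`ϖ` kills the common reduction of the seam** -/
theorem heckeSideOfPair_smul_Mb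
    (y : (heckeSideOfPair 𝒪 Δ p hp hinj θ α Q hQ hQN hgood hM π f hpf pr hν θR hθR incl hincl
      hfin hfin' hϖ j₀ hne).Mb) :
    (MonoidAlgebra.single (1 : Δ) ϖ : MonoidAlgebra 𝒪 Δ) • y = 0 :=
  smul_Mb_eq_zero (pr := pr) (θ := θR) y

end General

/-! ### the export for two congruent characters -/

section Xi

variable {ϖ : 𝒪} (Ξ' : (ZMod M)ˣ →* (MonoidAlgebra 𝒪 Δ)ˣ)
  (hΞ : ∀ d, ((Ξ' d : (MonoidAlgebra 𝒪 Δ)ˣ) : MonoidAlgebra 𝒪 Δ) -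
    ((xiOf 𝒪 π d : (MonoidAlgebra 𝒪 Δ)ˣ) : MonoidAlgebra 𝒪 Δ) ∈
      Ideal.span ({(MonoidAlgebra.single (1 : Δ) ϖ : MonoidAlgebra 𝒪 Δ)} :
        Set (MonoidAlgebra 𝒪 Δ)))
  (h1 : xiOf 𝒪 π (-1) = 1) (h1' : Ξ' (-1) = 1)
  (h2 : IsUnit (2 : MonoidAlgebra 𝒪 Δ)) (h3 : IsUnit (3 : MonoidAlgebra 𝒪 Δ))
  (reg : ∀ a : MonoidAlgebra 𝒪 Δ,
    (MonoidAlgebra.single (1 : Δ) ϖ : MonoidAlgebra 𝒪 Δ) • a = 0 → a = 0)
  (θR : J → IsLocalRing.ResidueField (MonoidAlgebra 𝒪 Δ))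
  (hθR : ∀ j, IsLocalRing.ResidueField.map (augm 𝒪 Δ).toRingHom (θR j) =
    if j ∈ Q then α j else θ j)
  {I : Type} (incl : I → J) (hincl : ∀ i, incl i ∉ Q)
  [IsDomain 𝒪] [IsPrincipalIdealRing 𝒪]
  (hϖ : (MonoidAlgebra.single (1 : Δ) ϖ : MonoidAlgebra 𝒪 Δ) ∈
    IsLocalRing.maximalIdeal (MonoidAlgebra 𝒪 Δ))
  (j₀ : J)
  (hne : θR j₀ ≠ IsLocalRing.residue (MonoidAlgebra 𝒪 Δ) (Hν (xiOf 𝒪 π) (f j₀)).deg)

/-- **THE EXPORT OF L3** : the seam `HeckeSide` at the Taylor-Wiles level `M = N ∏_{j ∈ Q} p j`,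
for the diamond character `xiOf 𝒪 π` of `π : (ZMod M)ˣ →* Δ` and a second character `Ξ'` congruent
to it modulo `ϖ`, at a non-Eisenstein `θR` lifting `θ_Q`; base module `M0 𝒪 p hp N θ`
`= Hom(Γ₀(N), 𝒪)_θ`, common rank its `𝒪`-rank. -/
def heckeSideOf :
    HeckeSide 𝒪 ϖ Δ I (M0 𝒪 p hp N θ) (t0 𝒪 p hp N θ incl)
      (Module.finrank 𝒪 (M0 𝒪 p hp N θ)) :=
  have : NeZero M := neZero_M p hp Q hM
  have : Module.Free 𝒪 (M0 𝒪 p hp N θ) := free_M0 𝒪 p hp N θ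
  heckeSideOfPair 𝒪 Δ p hp hinj θ α Q hQ hQN hgood hM π f hpf
    (pairXi f hΞ h1 h1' h2 h3 reg) (fun _ => rfl) θR hθR incl hincl
    (finite_H1_chiXi (MonoidAlgebra 𝒪 Δ) (xiOf 𝒪 π))
    (finite_H1_chiXi (MonoidAlgebra 𝒪 Δ) Ξ') hϖ j₀ hne

attribute [local instance] HeckeSide.acg1 HeckeSide.acgχ HeckeSide.acgb HeckeSide.mod1
  HeckeSide.modχ HeckeSide.modb

theorem heckeSideOf_M1 :
    (heckeSideOf 𝒪 Δ p hp hinj θ α Q hQ hQN hgood hM π f hpf Ξ' hΞ h1 h1' h2 h3 reg θR hθR incl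
      hincl hϖ j₀ hne).M1 = (pairXi f hΞ h1 h1' h2 h3 reg).M1 θR := rfl

theorem heckeSideOf_Mχ :
    (heckeSideOf 𝒪 Δ p hp hinj θ α Q hQ hQN hgood hM π f hpf Ξ' hΞ h1 h1' h2 h3 reg θR hθR incl
      hincl hϖ j₀ hne).Mχ = (pairXi f hΞ h1 h1' h2 h3 reg).Mχ θR := rfl

theorem heckeSideOf_Mb :
    (heckeSideOf 𝒪 Δ p hp hinj θ α Q hQ hQN hgood hM π f hpf Ξ' hΞ h1 h1' h2 h3 reg θR hθR incl
      hincl hϖ j₀ hne).Mb = (pairXi f hΞ h1 h1' h2 h3 reg).Mb θR := rfl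

/-- **`ϖ` kills the common reduction of the seam** -/
theorem heckeSideOf_smul_Mb
    (y : (heckeSideOf 𝒪 Δ p hp hinj θ α Q hQ hQN hgood hM π f hpf Ξ' hΞ h1 h1' h2 h3 reg θR hθR
      incl hincl hϖ j₀ hne).Mb) :
    (MonoidAlgebra.single (1 : Δ) ϖ : MonoidAlgebra 𝒪 Δ) • y = 0 :=
  smul_Mb_eq_zero (pr := pairXi f hΞ h1 h1' h2 h3 reg) (θ := θR) y

end Xi

end Export

end Fermat.Agent.S43.Hecke.Main
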