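/-
PROJECT R (row 37 by S43), block L3, brick H7 = (B-a) of the bridge (helper2): THE BOUNDARY IS
EISENSTEIN.

For a prime `ℓ ≡ 1 mod M` the Hecke operator `T_ℓ` of `Γ₁(M)` (and of `Γ₀(M)`) acts on the values of
a homomorphism `φ : Γ → A` (`A` torsion free) at the parabolic elements as the scalar `1 + ℓ`:

* **`heckeHom_apply_of_parabolic_gen`** : GENERAL FORM, `Γ ≤ SL(2, ℤ)` any subgroup which contains
  every `γ` congruent modulo `M` to a standard representative of `T_ℓ`;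
* **`heckeHom_apply_of_parabolic`** : `D.heckeHom φ g = (1 + ℓ) • φ g` for `g ∈ Γ₁(M)` with
  `trace² = 4`, `D` any coset datum of `T_ℓ` with the STANDARD representatives (main's
  `IsHeckeData1 M ℓ D`); `tau1All_apply_of_parabolic`, **`tau1All_sub_isParabolicHom`** :
  `T_ℓ - (1 + ℓ)` maps `Hom(Γ₁(M), A)` into the parabolic homomorphisms;
* `tauT_apply_of_parabolic`, `tauAll_apply_of_parabolic`, **`tauAll_sub_isParabolicHom`** : the same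
  for `Γ₀(N)`, `ℓ ≡ 1 mod N`;
* `parCut1`, `parCut0` : the linear maps `T_ℓ - (1 + ℓ) : Hom → Hom_par`, with
  `coe_parCut1 : incl ∘ parCut1 = T_ℓ - (1 + ℓ)` on `Hom` and
  `parCut1_coe : parCut1 ∘ incl = T_ℓ - (1 + ℓ)` on `Hom_par`;
* **`map_bijective_of_smul_mem`** : an injective linear map whose image contains `s • N`, `s ∈ S`,
  is bijective after localisation at `S`: the inclusion `Hom_par ⊆ Hom` becomes bijective in every
  localisation in which `T_ℓ - (1 + ℓ)` is invertible.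

PROOF, no orbit analysis and no classification of cusps: `E := g ^ (2 n)`, `n` the order of the
permutation of `g ^ 2` on the `ℓ + 1` cosets, is `δ T ^ K δ⁻¹` and fixes every coset; for each
representative `β_x` the Hermite form `β_x δ = ε_x [a, b; 0, d]` with `M ∣ b`, `{a, d} = {1, ℓ}`
(`≡ 1 mod M` because `ℓ ≡ 1`) gives `ε_x δ⁻¹ ≡ β_x mod M`, so `ε_x δ⁻¹ ∈ Γ`, and
`coc E x = (ε_x δ⁻¹) (δ T ^ q δ⁻¹) (ε_x δ⁻¹)⁻¹`, `q d = a K`; exactly one `x` has `a = ℓ`.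
-/
import Mathlib
import Fermat.Agent.S21.Parabolic
import Fermat.Agent.S30.Hecke.Gamma0Cosets
import Fermat.Agent.S30.Hecke.Parabolic
import Fermat.Agent.S48.B.Defs.Spec
import Fermat.Agent.S48.B.Hecke.Parabolic1
import Fermat.Agent.S48.B.Hecke.SpecExport

set_option autoImplicit false

noncomputable section

namespace Fermat.Agent.S43.Hecke.Par

open Matrix ModularGroup CongruenceSubgroup Matrix.SpecialLinearGroup
open Fermat.Agent.S30.Hecke.DoubleCoset Fermat.Agent.S30.Hecke.CharProduct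
open Fermat.Agent.S30.Hecke.Gamma0Cosets
open Fermat.Agent.S48.B.Defs.Spec
open Fermat.Agent.S48.B.Hecke.Gamma1Cosets Fermat.Agent.S48.B.Hecke.Parabolic1
open Fermat.Agent.S48.B.Hecke.SpecExport
open scoped MatrixGroups

/-! ### integer matrices -/

/-- an element of `SL(2, ℤ)` which intertwines an upper triangular matrix with a translation is a
translation -/
theorem eq_T_zpow_of_intertwine {c : SL(2, ℤ)} {a b d k : ℤ} (ha : a ≠ 0) (hd : d ≠ 0)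
    (h : (c : Matrix (Fin 2) (Fin 2) ℤ) * !![a, b; 0, d] = !![a, b; 0, d] * !![1, k; 0, 1]) :
    ∃ q : ℤ, c = T ^ q ∧ q * d = a * k := by
  have h00 := congrFun (congrFun h 0) 0
  have h01 := congrFun (congrFun h 0) 1
  have h10 := congrFun (congrFun h 1) 0
  have h11 := congrFun (congrFun h 1) 1
  simp only [Matrix.mul_apply, Fin.sum_univ_two, Matrix.of_apply, Matrix.cons_val', Matrix.cons_val_zero,
    Matrix.cons_val_one, Matrix.empty_val', Matrix.cons_val_fin_one, mul_zero, add_zero,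
    mul_one] at h00 h01 h10 h11
  have hr : c 1 0 = 0 := by
    rcases mul_eq_zero.mp h10 with h | h
    · exact h
    · exact absurd h ha
  have hp : c 0 0 = 1 := by
    have : (c 0 0 - 1) * a = 0 := by linear_combination h00
    rcases mul_eq_zero.mp this with h | h
    · linarith
    · exact absurd h ha
  have hs : c 1 1 = 1 := by
    rw [hr, zero_mul, zero_add] at h11
    have : (c 1 1 - 1) * d = 0 := by linear_combination h11
    rcases mul_eq_zero.mp this with h | h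
    · linarith
    · exact absurd h hd
  refine ⟨c 0 1, ?_, ?_⟩
  · ext i j
    fin_cases i <;> fin_cases j <;>
      simp [hr, hp, hs, coe_T_zpow, show (1 : Fin (0 + 2)) = (1 : Fin 2) from rfl]
  · rw [hp] at h01
    linear_combination h01

theorem dvd_one_sub_of_cast_eq_one {ℓ M : ℕ} (h1 : ((ℓ : ℕ) : ZMod M) = 1) :
    (M : ℤ) ∣ 1 - (ℓ : ℤ) := by
  rw [← ZMod.intCast_zmod_eq_zero_iff_dvd]
  push_cast
  rw [h1, sub_self]

/-- **Hermite normal form** of an integral matrix of prime determinant `ℓ ≡ 1 mod M`, with the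
off-diagonal entry divisible by `M` -/
theorem exists_hermite {ℓ : ℕ} (hℓ : ℓ.Prime) {M : ℕ} (h1 : ((ℓ : ℕ) : ZMod M) = 1)
    (B : Matrix (Fin 2) (Fin 2) ℤ) (hdet : B.det = ℓ) :
    ∃ (ε : SL(2, ℤ)) (a b d : ℤ), B = (ε : Matrix (Fin 2) (Fin 2) ℤ) * !![a, b; 0, d] ∧
      ((((ℓ : ℤ) ∣ B 0 0 ∧ (ℓ : ℤ) ∣ B 1 0) ∧ a = ℓ ∧ d = 1) ∨
        (¬ ((ℓ : ℤ) ∣ B 0 0 ∧ (ℓ : ℤ) ∣ B 1 0) ∧ a = 1 ∧ d = ℓ)) ∧ (M : ℤ) ∣ b := by
  have hℓ0 : (ℓ : ℤ) ≠ 0 := by exact_mod_cast hℓ.ne_zero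
  rw [Matrix.det_fin_two] at hdet
  by_cases hA : (ℓ : ℤ) ∣ B 0 0 ∧ (ℓ : ℤ) ∣ B 1 0
  · obtain ⟨⟨u, hu⟩, ⟨v, hv⟩⟩ := hA
    have h2 : u * B 1 1 - B 0 1 * v = 1 := by
      have : (ℓ : ℤ) * (u * B 1 1 - B 0 1 * v) = (ℓ : ℤ) * 1 := by
        rw [hu, hv] at hdet
        linear_combination hdet
      exact mul_left_cancel₀ hℓ0 this
    refine ⟨⟨!![u, B 0 1; v, B 1 1], by rw [Matrix.det_fin_two_of]; linear_combination h2⟩,
      ℓ, 0, 1, ?_, Or.inl ⟨⟨⟨u, hu⟩, ⟨v, hv⟩⟩, rfl, rfl⟩, dvd_zero _⟩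
    ext i j
    fin_cases i <;> fin_cases j <;> simp [Matrix.mul_apply, Fin.sum_univ_two, hu, hv, mul_comm]
  · have hcop : IsCoprime (B 0 0) (B 1 0) := by
      rw [Int.isCoprime_iff_gcd_eq_one]
      have hg : (Int.gcd (B 0 0) (B 1 0) : ℤ) ∣ (ℓ : ℤ) := by
        rw [← hdet]
        exact dvd_sub (Dvd.dvd.mul_right (Int.gcd_dvd_left _ _) _)
          (Dvd.dvd.mul_left (Int.gcd_dvd_right _ _) _)
      have hg' : Int.gcd (B 0 0) (B 1 0) ∣ ℓ := by exact_mod_cast hg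
      rcases (Nat.dvd_prime hℓ).mp hg' with h | h
      · exact h
      · exfalso
        apply hA
        rw [← h]
        exact ⟨Int.gcd_dvd_left _ _, Int.gcd_dvd_right _ _⟩
    obtain ⟨s, t, hst⟩ := hcop
    set b₀ : ℤ := s * B 0 1 + t * B 1 1 with hb₀
    refine ⟨⟨!![B 0 0, B 0 0 * b₀ - t; B 1 0, B 1 0 * b₀ + s],
        by rw [Matrix.det_fin_two_of]; linear_combination hst⟩,
      1, b₀ * (1 - ℓ), ℓ, ?_, Or.inr ⟨hA, rfl, rfl⟩,
      Dvd.dvd.mul_left (dvd_one_sub_of_cast_eq_one h1) _⟩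
    ext i j
    fin_cases i <;> fin_cases j
    · simp [Matrix.mul_apply, Fin.sum_univ_two]
    · simp only [Matrix.mul_apply, Fin.sum_univ_two]
      simp
      linear_combination (-(B 0 1)) * hst - t * hdet
    · simp [Matrix.mul_apply, Fin.sum_univ_two]
    · simp only [Matrix.mul_apply, Fin.sum_univ_two]
      simp
      linear_combination (-(B 1 1)) * hst + s * hdet

/-- `B ≡ [1, *; 0, 1]` modulo `M` -/
def IsUni (M : ℕ) (B : Matrix (Fin 2) (Fin 2) ℤ) : Prop :=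
  ((B 0 0 : ℤ) : ZMod M) = 1 ∧ ((B 1 0 : ℤ) : ZMod M) = 0 ∧ ((B 1 1 : ℤ) : ZMod M) = 1

/-- the first column of `B'` is divisible by `ℓ` -/
def IsBig (ℓ : ℕ) (B' : Matrix (Fin 2) (Fin 2) ℤ) : Prop := (ℓ : ℤ) ∣ B' 0 0 ∧ (ℓ : ℤ) ∣ B' 1 0

theorem coe_inv_mul_coe (ε : SL(2, ℤ)) :
    ((ε⁻¹ : SL(2, ℤ)) : Matrix (Fin 2) (Fin 2) ℤ) * (ε : Matrix (Fin 2) (Fin 2) ℤ) = 1 := by
  rw [← Matrix.SpecialLinearGroup.coe_mul, inv_mul_cancel, Matrix.SpecialLinearGroup.coe_one]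

theorem coe_mul_coe_inv (ε : SL(2, ℤ)) :
    (ε : Matrix (Fin 2) (Fin 2) ℤ) * ((ε⁻¹ : SL(2, ℤ)) : Matrix (Fin 2) (Fin 2) ℤ) = 1 := by
  rw [← Matrix.SpecialLinearGroup.coe_mul, mul_inv_cancel, Matrix.SpecialLinearGroup.coe_one]

/-- **the core**: if `c ∈ SL(2, ℤ)` is the conjugate of `δ T ^ k δ⁻¹` by an integral matrix `B` of
determinant `ℓ`, `ℓ ≡ 1 mod M`, then `c` is conjugate to `δ T ^ q δ⁻¹`, `q = ℓ k` or `q ℓ = k`, under
an element `γ ∈ SL(2, ℤ)` CONGRUENT TO `B` MODULO `M` (so `γ ∈ Γ₁(M)` when `B ≡ [1, *; 0, 1]` and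
`γ ∈ Γ₀(M)` when `B ≡ [*, *; 0, *]`) -/
theorem exists_conj_of_intertwine {ℓ : ℕ} (hℓ : ℓ.Prime) {M : ℕ} (h1 : ((ℓ : ℕ) : ZMod M) = 1)
    (B : Matrix (Fin 2) (Fin 2) ℤ) (hdet : B.det = ℓ) (δ c : SL(2, ℤ)) (k : ℤ)
    (h : (c : Matrix (Fin 2) (Fin 2) ℤ) * B =
      B * ((δ * T ^ k * δ⁻¹ : SL(2, ℤ)) : Matrix (Fin 2) (Fin 2) ℤ)) :
    ∃ γ : SL(2, ℤ), (∀ i j, ((γ i j : ℤ) : ZMod M) = ((B i j : ℤ) : ZMod M)) ∧
      ∃ q : ℤ, c = γ * (δ * T ^ q * δ⁻¹) * γ⁻¹ ∧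
      ((IsBig ℓ (B * (δ : Matrix (Fin 2) (Fin 2) ℤ)) ∧ q = ℓ * k) ∨
        (¬ IsBig ℓ (B * (δ : Matrix (Fin 2) (Fin 2) ℤ)) ∧ q * ℓ = k)) := by
  have hℓ0 : (ℓ : ℤ) ≠ 0 := by exact_mod_cast hℓ.ne_zero
  have hdet' : (B * (δ : Matrix (Fin 2) (Fin 2) ℤ)).det = ℓ := by
    rw [Matrix.det_mul, hdet, δ.det_coe, mul_one]
  obtain ⟨ε, a, b, d, hε, hcase, hb⟩ := exists_hermite hℓ h1 _ hdet'
  have ha : a ≠ 0 := by
    rcases hcase with ⟨-, rfl, -⟩ | ⟨-, rfl, -⟩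
    · exact hℓ0
    · exact one_ne_zero
  have hd : d ≠ 0 := by
    rcases hcase with ⟨-, -, rfl⟩ | ⟨-, -, rfl⟩
    · exact one_ne_zero
    · exact hℓ0
  -- the intertwining relation for `c' = ε⁻¹ c ε`
  have hc' : ((ε⁻¹ * c * ε : SL(2, ℤ)) : Matrix (Fin 2) (Fin 2) ℤ) * !![a, b; 0, d] =
      !![a, b; 0, d] * !![1, k; 0, 1] := by
    rw [Matrix.SpecialLinearGroup.coe_mul, Matrix.SpecialLinearGroup.coe_mul, Matrix.mul_assoc,
      ← hε, Matrix.mul_assoc, ← Matrix.mul_assoc (c : Matrix (Fin 2) (Fin 2) ℤ), h,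
      Matrix.SpecialLinearGroup.coe_mul, Matrix.SpecialLinearGroup.coe_mul, coe_T_zpow]
    calc ((ε⁻¹ : SL(2, ℤ)) : Matrix (Fin 2) (Fin 2) ℤ) *
          (B * ((δ : Matrix (Fin 2) (Fin 2) ℤ) * !![1, k; 0, 1] *
            ((δ⁻¹ : SL(2, ℤ)) : Matrix (Fin 2) (Fin 2) ℤ)) * (δ : Matrix (Fin 2) (Fin 2) ℤ))
        = ((ε⁻¹ : SL(2, ℤ)) : Matrix (Fin 2) (Fin 2) ℤ) *
          ((B * (δ : Matrix (Fin 2) (Fin 2) ℤ)) * !![1, k; 0, 1] *
            (((δ⁻¹ : SL(2, ℤ)) : Matrix (Fin 2) (Fin 2) ℤ) * (δ : Matrix (Fin 2) (Fin 2) ℤ))) := by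
          simp only [Matrix.mul_assoc]
      _ = !![a, b; 0, d] * !![1, k; 0, 1] := by
          rw [coe_inv_mul_coe, Matrix.mul_one, hε, Matrix.mul_assoc, ← Matrix.mul_assoc,
            coe_inv_mul_coe, Matrix.one_mul]
  obtain ⟨q, hq, hqd⟩ := eq_T_zpow_of_intertwine ha hd hc'
  refine ⟨ε * δ⁻¹, ?_, q, ?_, ?_⟩
  · -- `ε δ⁻¹ ≡ B` modulo `M`
    set f := (Int.castRingHom (ZMod M)).mapMatrix (m := Fin 2) with hf
    have hη : f !![a, b; 0, d] = 1 := by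
      have ha1 : ((a : ℤ) : ZMod M) = 1 := by
        rcases hcase with ⟨-, rfl, -⟩ | ⟨-, rfl, -⟩
        · exact_mod_cast h1
        · exact Int.cast_one
      have hd1 : ((d : ℤ) : ZMod M) = 1 := by
        rcases hcase with ⟨-, -, rfl⟩ | ⟨-, -, rfl⟩
        · exact Int.cast_one
        · exact_mod_cast h1
      have hb0 : ((b : ℤ) : ZMod M) = 0 := (ZMod.intCast_zmod_eq_zero_iff_dvd b M).mpr hb
      ext i j
      fin_cases i <;> fin_cases j <;> simp [hf, ha1, hd1, hb0]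
    have h2 : f B * f (δ : Matrix (Fin 2) (Fin 2) ℤ) = f (ε : Matrix (Fin 2) (Fin 2) ℤ) := by
      rw [← map_mul, hε, map_mul, hη, mul_one]
    have h3 : f ((ε * δ⁻¹ : SL(2, ℤ)) : Matrix (Fin 2) (Fin 2) ℤ) = f B := by
      rw [Matrix.SpecialLinearGroup.coe_mul, map_mul, ← h2, mul_assoc, ← map_mul,
        coe_mul_coe_inv, map_one, mul_one]
    have h4 : ∀ i j, (((ε * δ⁻¹ : SL(2, ℤ)) i j : ℤ) : ZMod M) = ((B i j : ℤ) : ZMod M) := by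
      intro i j
      have := congrFun (congrFun h3 i) j
      simpa [hf] using this
    exact h4
  · have : c = ε * (ε⁻¹ * c * ε) * ε⁻¹ := by group
    rw [this, hq]
    group
  · rcases hcase with ⟨hbig, rfl, rfl⟩ | ⟨hbig, rfl, rfl⟩
    · exact Or.inl ⟨hbig, by linarith⟩
    · exact Or.inr ⟨hbig, by linarith⟩

/-! ### conjugates of translations -/

/-- `δ T ^ k δ⁻¹` -/
def cj (δ : SL(2, ℤ)) (k : ℤ) : SL(2, ℤ) := δ * T ^ k * δ⁻¹

theorem cj_pow (δ : SL(2, ℤ)) (k : ℤ) (n : ℕ) : cj δ k ^ n = cj δ (k * n) := by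
  unfold cj
  rw [conj_pow, ← zpow_natCast, ← _root_.zpow_mul]

theorem neg_cj_sq (δ : SL(2, ℤ)) (k : ℤ) : (-cj δ k) ^ 2 = cj δ (k * 2) := by
  rw [neg_sq, cj_pow]
  rfl

/-! ### the integral representatives of `T_ℓ` -/

/-- the cast of integral matrices to real matrices -/
def cst : Matrix (Fin 2) (Fin 2) ℤ →+* Matrix (Fin 2) (Fin 2) ℝ := (Int.castRingHom ℝ).mapMatrix

theorem cst_injective : Function.Injective cst := by
  intro A B h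
  ext i j
  have := congrFun (congrFun h i) j
  simpa [cst] using this

theorem coe_mapGL_eq (γ : SL(2, ℤ)) :
    ((mapGL ℝ γ : GL (Fin 2) ℝ) : Matrix (Fin 2) (Fin 2) ℝ) =
      cst (γ : Matrix (Fin 2) (Fin 2) ℤ) := by
  rw [mapGL_coe_matrix]
  ext i j
  simp [cst]

theorem coe_incl {Γ : Subgroup SL(2, ℤ)} (g : Γ) :
    ((incl Γ g : GL (Fin 2) ℝ) : Matrix (Fin 2) (Fin 2) ℝ) =
      cst ((g : SL(2, ℤ)) : Matrix (Fin 2) (Fin 2) ℤ) :=
  coe_mapGL_eq _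

/-- the integral representatives `[1, j; 0, ℓ]` and `σ [ℓ, 0; 0, 1]` -/
def intRep (ℓ : ℕ) (σ : SL(2, ℤ)) : Option (Fin ℓ) → Matrix (Fin 2) (Fin 2) ℤ
  | some j => !![1, ((j : ℕ) : ℤ); 0, (ℓ : ℤ)]
  | none => (σ : Matrix (Fin 2) (Fin 2) ℤ) * !![(ℓ : ℤ), 0; 0, 1]

theorem det_intRep (ℓ : ℕ) (σ : SL(2, ℤ)) (x : Option (Fin ℓ)) : (intRep ℓ σ x).det = ℓ := by
  rcases x with _ | j
  · show ((σ : Matrix (Fin 2) (Fin 2) ℤ) * !![(ℓ : ℤ), 0; 0, 1]).det = ℓ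
    rw [Matrix.det_mul, σ.det_coe, Matrix.det_fin_two_of]
    ring
  · show (!![1, ((j : ℕ) : ℤ); 0, (ℓ : ℤ)] : Matrix (Fin 2) (Fin 2) ℤ).det = ℓ
    rw [Matrix.det_fin_two_of]
    ring

theorem isUni_intRep {M ℓ : ℕ} (h1 : ((ℓ : ℕ) : ZMod M) = 1) {σ : SL(2, ℤ)}
    (hσ : IsSigma M σ ((ℓ : ℕ) : ZMod M)) (x : Option (Fin ℓ)) : IsUni M (intRep ℓ σ x) := by
  rcases x with _ | j
  · obtain ⟨h10, h11⟩ := hσ
    rw [h1] at h11
    have hdet := σ.det_coe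
    rw [Matrix.det_fin_two] at hdet
    have h00 : ((σ 0 0 : ℤ) : ZMod M) = 1 := by
      have := congrArg (fun z : ℤ => (z : ZMod M)) hdet
      simp only [Int.cast_sub, Int.cast_mul, Int.cast_one] at this
      rw [h11, h10, mul_one, mul_zero, sub_zero] at this
      exact this
    refine ⟨?_, ?_, ?_⟩
    · show (((σ : Matrix (Fin 2) (Fin 2) ℤ) * !![(ℓ : ℤ), 0; 0, 1]) 0 0 : ZMod M) = 1
      simp [Matrix.mul_apply, Fin.sum_univ_two, h00, h1]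
    · show (((σ : Matrix (Fin 2) (Fin 2) ℤ) * !![(ℓ : ℤ), 0; 0, 1]) 1 0 : ZMod M) = 0
      simp [Matrix.mul_apply, Fin.sum_univ_two, h10]
    · show (((σ : Matrix (Fin 2) (Fin 2) ℤ) * !![(ℓ : ℤ), 0; 0, 1]) 1 1 : ZMod M) = 1
      simp [Matrix.mul_apply, Fin.sum_univ_two, h11]
  · refine ⟨?_, ?_, ?_⟩
    · show (((!![1, ((j : ℕ) : ℤ); 0, (ℓ : ℤ)] : Matrix (Fin 2) (Fin 2) ℤ) 0 0 : ℤ) : ZMod M) = 1
      simp
    · show (((!![1, ((j : ℕ) : ℤ); 0, (ℓ : ℤ)] : Matrix (Fin 2) (Fin 2) ℤ) 1 0 : ℤ) : ZMod M) = 0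
      simp
    · show (((!![1, ((j : ℕ) : ℤ); 0, (ℓ : ℤ)] : Matrix (Fin 2) (Fin 2) ℤ) 1 1 : ℤ) : ZMod M) = 1
      simp [h1]

section Coset

variable {Γ : Subgroup SL(2, ℤ)} {ℓ : ℕ} (D : CosetData (incl Γ) (Option (Fin ℓ))) {σ : SL(2, ℤ)}
  (hsome : ∀ j : Fin ℓ, D.rep (some j) = ModularForm.heckeMatrix ℓ j)
  (hnone : D.rep none = mapGL ℝ σ * ModularForm.heckeDiagMatrix ℓ)

include hsome hnone in
theorem coe_rep (hℓ0 : ℓ ≠ 0) (x : Option (Fin ℓ)) :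
    ((D.rep x : GL (Fin 2) ℝ) : Matrix (Fin 2) (Fin 2) ℝ) = cst (intRep ℓ σ x) := by
  rcases x with _ | j
  · rw [hnone, Units.val_mul, coe_mapGL_eq, ModularForm.val_heckeDiagMatrix hℓ0]
    show _ = cst ((σ : Matrix (Fin 2) (Fin 2) ℤ) * !![(ℓ : ℤ), 0; 0, 1])
    rw [map_mul]
    congr 1
    ext i j
    fin_cases i <;> fin_cases j <;> simp [cst]
  · rw [hsome, ModularForm.val_heckeMatrix hℓ0]
    show _ = cst !![1, ((j : ℕ) : ℤ); 0, (ℓ : ℤ)]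
    ext i j
    fin_cases i <;> fin_cases j <;> simp [cst]

include hsome hnone in
/-- the relation of the coset datum at a fixed point, over `ℤ` -/
theorem rel_int (hℓ0 : ℓ ≠ 0) (E : Γ) (x : Option (Fin ℓ)) (hx : D.perm E x = x) :
    ((D.coc E x : SL(2, ℤ)) : Matrix (Fin 2) (Fin 2) ℤ) * intRep ℓ σ x =
      intRep ℓ σ x * ((E : SL(2, ℤ)) : Matrix (Fin 2) (Fin 2) ℤ) := by
  apply cst_injective
  have h := congrArg (fun u : GL (Fin 2) ℝ => (u : Matrix (Fin 2) (Fin 2) ℝ)) (D.rel E x)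
  simp only [Units.val_mul] at h
  rw [hx, coe_rep D hsome hnone hℓ0, coe_incl, coe_incl] at h
  rw [map_mul, map_mul]
  exact h.symm

end Coset

/-! ### exactly one representative is big -/

section Count

variable {ℓ : ℕ}

theorem isBig_some_iff (σ δ : SL(2, ℤ)) (j : Fin ℓ) :
    IsBig ℓ (intRep ℓ σ (some j) * (δ : Matrix (Fin 2) (Fin 2) ℤ)) ↔
      (ℓ : ℤ) ∣ δ 0 0 + ((j : ℕ) : ℤ) * δ 1 0 := by
  have h00 : (intRep ℓ σ (some j) * (δ : Matrix (Fin 2) (Fin 2) ℤ)) 0 0 =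
      δ 0 0 + ((j : ℕ) : ℤ) * δ 1 0 := by
    show ((!![1, ((j : ℕ) : ℤ); 0, (ℓ : ℤ)] : Matrix (Fin 2) (Fin 2) ℤ) *
      (δ : Matrix (Fin 2) (Fin 2) ℤ)) 0 0 = _
    simp [Matrix.mul_apply, Fin.sum_univ_two]
  have h10 : (intRep ℓ σ (some j) * (δ : Matrix (Fin 2) (Fin 2) ℤ)) 1 0 = (ℓ : ℤ) * δ 1 0 := by
    show ((!![1, ((j : ℕ) : ℤ); 0, (ℓ : ℤ)] : Matrix (Fin 2) (Fin 2) ℤ) *
      (δ : Matrix (Fin 2) (Fin 2) ℤ)) 1 0 = _
    simp [Matrix.mul_apply, Fin.sum_univ_two]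
  unfold IsBig
  rw [h00, h10]
  exact ⟨fun h => h.1, fun h => ⟨h, Dvd.intro _ rfl⟩⟩

theorem isBig_none_iff (σ δ : SL(2, ℤ)) :
    IsBig ℓ (intRep ℓ σ none * (δ : Matrix (Fin 2) (Fin 2) ℤ)) ↔ (ℓ : ℤ) ∣ δ 1 0 := by
  have h00 : (intRep ℓ σ none * (δ : Matrix (Fin 2) (Fin 2) ℤ)) 0 0 =
      (ℓ : ℤ) * (σ 0 0 * δ 0 0) + σ 0 1 * δ 1 0 := by
    show ((σ : Matrix (Fin 2) (Fin 2) ℤ) * !![(ℓ : ℤ), 0; 0, 1] *
      (δ : Matrix (Fin 2) (Fin 2) ℤ)) 0 0 = _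
    simp [Matrix.mul_apply, Fin.sum_univ_two]
    ring
  have h10 : (intRep ℓ σ none * (δ : Matrix (Fin 2) (Fin 2) ℤ)) 1 0 =
      (ℓ : ℤ) * (σ 1 0 * δ 0 0) + σ 1 1 * δ 1 0 := by
    show ((σ : Matrix (Fin 2) (Fin 2) ℤ) * !![(ℓ : ℤ), 0; 0, 1] *
      (δ : Matrix (Fin 2) (Fin 2) ℤ)) 1 0 = _
    simp [Matrix.mul_apply, Fin.sum_univ_two]
    ring
  have hdet := σ.det_coe
  rw [Matrix.det_fin_two] at hdet
  unfold IsBig
  rw [h00, h10]
  constructor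
  · rintro ⟨h1, h2⟩
    have h3 : (ℓ : ℤ) ∣ σ 0 1 * δ 1 0 := (Int.dvd_add_right (Dvd.intro _ rfl)).mp h1
    have h4 : (ℓ : ℤ) ∣ σ 1 1 * δ 1 0 := (Int.dvd_add_right (Dvd.intro _ rfl)).mp h2
    have h5 : δ 1 0 = σ 0 0 * (σ 1 1 * δ 1 0) - σ 1 0 * (σ 0 1 * δ 1 0) := by
      linear_combination (-(δ 1 0)) * hdet
    rw [h5]
    exact dvd_sub (Dvd.dvd.mul_left h4 _) (Dvd.dvd.mul_left h3 _)
  · intro h
    exact ⟨dvd_add (Dvd.intro _ rfl) (Dvd.dvd.mul_left h _),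
      dvd_add (Dvd.intro _ rfl) (Dvd.dvd.mul_left h _)⟩

/-- **exactly one of the `ℓ + 1` representatives is big** -/
theorem existsUnique_isBig (hℓ : ℓ.Prime) (σ δ : SL(2, ℤ)) :
    ∃! x : Option (Fin ℓ), IsBig ℓ (intRep ℓ σ x * (δ : Matrix (Fin 2) (Fin 2) ℤ)) := by
  have : Fact ℓ.Prime := ⟨hℓ⟩
  have hdet := δ.det_coe
  rw [Matrix.det_fin_two] at hdet
  by_cases hq : (ℓ : ℤ) ∣ δ 1 0
  · refine ⟨none, (isBig_none_iff σ δ).mpr hq, ?_⟩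
    rintro (_ | j) hj
    · rfl
    · exfalso
      rw [isBig_some_iff] at hj
      have hp : (ℓ : ℤ) ∣ δ 0 0 := (Int.dvd_add_left (Dvd.dvd.mul_left hq _)).mp hj
      have h1 : (ℓ : ℤ) ∣ 1 := by
        rw [← hdet]
        exact dvd_sub (Dvd.dvd.mul_right hp _) (Dvd.dvd.mul_left hq _)
      have h2 := Int.natAbs_dvd_natAbs.mpr h1
      rw [Int.natAbs_natCast, Int.natAbs_one, Nat.dvd_one] at h2
      exact hℓ.one_lt.ne' h2
  · have hq' : ((δ 1 0 : ℤ) : ZMod ℓ) ≠ 0 := fun h =>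
      hq ((ZMod.intCast_zmod_eq_zero_iff_dvd _ _).mp h)
    -- the solution of `p + j q = 0` modulo `ℓ`
    set z : ZMod ℓ := -((δ 0 0 : ℤ) : ZMod ℓ) * ((δ 1 0 : ℤ) : ZMod ℓ)⁻¹ with hz
    have hkey : ∀ j : Fin ℓ, IsBig ℓ (intRep ℓ σ (some j) * (δ : Matrix (Fin 2) (Fin 2) ℤ)) ↔
        (((j : ℕ) : ZMod ℓ)) = z := by
      intro j
      rw [isBig_some_iff, ← ZMod.intCast_zmod_eq_zero_iff_dvd]
      push_cast
      constructor
      · intro h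
        rw [hz, eq_mul_inv_iff_mul_eq₀ hq']
        linear_combination h
      · intro h
        rw [h, hz, mul_assoc, inv_mul_cancel₀ hq']
        ring
    refine ⟨some ⟨z.val, ZMod.val_lt z⟩, (hkey _).mpr (ZMod.natCast_zmod_val z), ?_⟩
    rintro (_ | j) hj
    · exact absurd ((isBig_none_iff σ δ).mp hj) hq
    · rw [hkey] at hj
      congr 1
      apply Fin.ext
      show (j : ℕ) = z.val
      rw [← hj, ZMod.val_natCast, Nat.mod_eq_of_lt j.2]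

end Count

/-! ### the theorem -/

section Main

variable {Γ : Subgroup SL(2, ℤ)} {M ℓ : ℕ} {A : Type*} [AddCommGroup A]

/-- a homomorphism to an abelian group is invariant under conjugation -/
theorem map_conj (φ : Additive Γ →+ A) (γ c : Γ) :
    φ (Additive.ofMul (γ⁻¹ * c * γ)) = φ (Additive.ofMul c) := by
  rw [ofMul_mul, ofMul_mul, map_add, map_add, ofMul_inv, map_neg]
  abel

/-- the value of `φ` at a cocycle `coc E x` at a fixed point, in terms of `φ E` -/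
theorem smul_map_coc (hℓ : ℓ.Prime) (h1 : ((ℓ : ℕ) : ZMod M) = 1)
    (D : CosetData (incl Γ) (Option (Fin ℓ))) {σ : SL(2, ℤ)}
    (hsome : ∀ j : Fin ℓ, D.rep (some j) = ModularForm.heckeMatrix ℓ j)
    (hnone : D.rep none = mapGL ℝ σ * ModularForm.heckeDiagMatrix ℓ)
    (hΓ : ∀ (γ : SL(2, ℤ)) (x : Option (Fin ℓ)),
      (∀ i j, ((γ i j : ℤ) : ZMod M) = ((intRep ℓ σ x i j : ℤ) : ZMod M)) → γ ∈ Γ)
    (φ : Additive Γ →+ A)
    (E : Γ) (δ : SL(2, ℤ)) (K : ℤ) (hE : (E : SL(2, ℤ)) = cj δ K)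
    (x : Option (Fin ℓ)) (hx : D.perm E x = x) :
    (IsBig ℓ (intRep ℓ σ x * (δ : Matrix (Fin 2) (Fin 2) ℤ)) ∧
      φ (Additive.ofMul (D.coc E x)) = ℓ • φ (Additive.ofMul E)) ∨
    (¬ IsBig ℓ (intRep ℓ σ x * (δ : Matrix (Fin 2) (Fin 2) ℤ)) ∧
      ℓ • φ (Additive.ofMul (D.coc E x)) = φ (Additive.ofMul E)) := by
  have hrel := rel_int D hsome hnone hℓ.ne_zero E x hx
  rw [hE] at hrel
  obtain ⟨γ, hγ, q, hc, hcase⟩ := exists_conj_of_intertwine hℓ h1 (intRep ℓ σ x)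
    (det_intRep ℓ σ x) δ (D.coc E x : SL(2, ℤ)) K hrel
  -- the element `g' = γ⁻¹ c γ = δ T ^ q δ⁻¹` of `Γ`
  set γ' : Γ := ⟨γ, hΓ γ x hγ⟩ with hγ'
  set g' : Γ := γ'⁻¹ * D.coc E x * γ' with hg'
  have hg'coe : (g' : SL(2, ℤ)) = cj δ q := by
    show γ⁻¹ * (D.coc E x : SL(2, ℤ)) * γ = cj δ q
    rw [hc]
    unfold cj
    group
  have hφ : φ (Additive.ofMul g') = φ (Additive.ofMul (D.coc E x)) := map_conj φ γ' _
  rcases hcase with ⟨hbig, hq⟩ | ⟨hbig, hq⟩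
  · refine Or.inl ⟨hbig, ?_⟩
    have h2 : g' = E ^ ℓ := by
      apply Subtype.ext
      rw [hg'coe, SubgroupClass.coe_pow, hE, cj_pow, hq, mul_comm]
    rw [← hφ, h2, ofMul_pow, map_nsmul]
  · refine Or.inr ⟨hbig, ?_⟩
    have h2 : g' ^ ℓ = E := by
      apply Subtype.ext
      rw [SubgroupClass.coe_pow, hg'coe, hE, cj_pow, hq]
    rw [← hφ, ← map_nsmul, ← ofMul_pow, h2]

variable [Module.IsTorsionFree ℤ A]

/-- **The boundary is Eisenstein, general form**: `Γ ≤ SL(2, ℤ)` any subgroup containing every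
`γ` congruent modulo `M` to one of the standard representatives `[1, j; 0, ℓ]`, `σ [ℓ, 0; 0, 1]` of
`T_ℓ`, `ℓ ≡ 1 mod M` prime: the operator `T_ℓ` multiplies the value of a homomorphism `Γ → A`
(`A` torsion free) at a parabolic element by `1 + ℓ`. -/
theorem heckeHom_apply_of_parabolic_gen (hℓ : ℓ.Prime) (h1 : ((ℓ : ℕ) : ZMod M) = 1)
    (D : CosetData (incl Γ) (Option (Fin ℓ))) {σ : SL(2, ℤ)}
    (hsome : ∀ j : Fin ℓ, D.rep (some j) = ModularForm.heckeMatrix ℓ j)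
    (hnone : D.rep none = mapGL ℝ σ * ModularForm.heckeDiagMatrix ℓ)
    (hΓ : ∀ (γ : SL(2, ℤ)) (x : Option (Fin ℓ)),
      (∀ i j, ((γ i j : ℤ) : ZMod M) = ((intRep ℓ σ x i j : ℤ) : ZMod M)) → γ ∈ Γ)
    (φ : Additive Γ →+ A) (g : Γ)
    (hg : ((g : SL(2, ℤ)) : Matrix (Fin 2) (Fin 2) ℤ).trace ^ 2 = 4) :
    D.heckeHom φ (Additive.ofMul g) = (1 + ℓ) • φ (Additive.ofMul g) := by
  classical
  -- `g ^ 2 = δ T ^ (2 h) δ⁻¹`
  obtain ⟨δ, h, hh⟩ := Fermat.Agent.S21.Parabolic.exists_conj_T_zpow (g : SL(2, ℤ)) hg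
  have hg2 : ((g ^ 2 : Γ) : SL(2, ℤ)) = cj δ (h * 2) := by
    rw [SubgroupClass.coe_pow]
    rcases hh with hh | hh
    · rw [hh]
      exact cj_pow δ h 2
    · rw [hh]
      exact neg_cj_sq δ h
  -- `E = g ^ (2 n)` fixes every coset
  set n : ℕ := orderOf (D.perm (g ^ 2)) with hn
  have hnpos : 0 < n := orderOf_pos _
  set E : Γ := (g ^ 2) ^ n with hEdef
  have hE : (E : SL(2, ℤ)) = cj δ (h * 2 * n) := by
    rw [hEdef, SubgroupClass.coe_pow, hg2, cj_pow]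
  have hperm : ∀ x, D.perm E x = x := by
    intro x
    rw [hEdef, D.perm_pow, hn, pow_orderOf_eq_one, Equiv.Perm.one_apply]
  -- the values at the cocycles
  have hval : ∀ x, ℓ • φ (Additive.ofMul (D.coc E x)) =
      (if IsBig ℓ (intRep ℓ σ x * (δ : Matrix (Fin 2) (Fin 2) ℤ)) then ℓ ^ 2 else 1) •
        φ (Additive.ofMul E) := by
    intro x
    rcases smul_map_coc hℓ h1 D hsome hnone hΓ φ E δ _ hE x (hperm x) with ⟨hb, hv⟩ | ⟨hb, hv⟩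
    · rw [if_pos hb, hv, ← mul_smul, sq]
    · rw [if_neg hb, hv, one_smul]
  -- the sum
  obtain ⟨x₀, hx₀, huniq⟩ := existsUnique_isBig hℓ σ δ
  have hsum : ℓ • D.heckeHom φ (Additive.ofMul E) = (ℓ ^ 2 + ℓ) • φ (Additive.ofMul E) := by
    rw [CosetData.heckeHom_apply, Finset.smul_sum, Finset.sum_congr rfl fun x _ => hval x,
      ← Finset.add_sum_erase Finset.univ _ (Finset.mem_univ x₀), if_pos hx₀]
    have h2 : ∀ x ∈ Finset.univ.erase x₀,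
        (if IsBig ℓ (intRep ℓ σ x * (δ : Matrix (Fin 2) (Fin 2) ℤ)) then ℓ ^ 2 else 1) •
          φ (Additive.ofMul E) = φ (Additive.ofMul E) := by
      intro x hx
      rw [if_neg fun hb => (Finset.mem_erase.mp hx).1 (huniq x hb), one_smul]
    rw [Finset.sum_congr rfl h2, Finset.sum_const, Finset.card_erase_of_mem (Finset.mem_univ x₀),
      Finset.card_univ, Fintype.card_option, Fintype.card_fin, Nat.add_sub_cancel, add_smul]
  -- back to `g`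
  have hEg : Additive.ofMul E = (2 * n) • Additive.ofMul g := by
    rw [hEdef, ← pow_mul, ofMul_pow]
  rw [hEg, map_nsmul, map_nsmul] at hsum
  have hfin : ((ℓ * (2 * n) : ℕ) : ℤ) •
      (D.heckeHom φ (Additive.ofMul g) - (1 + ℓ) • φ (Additive.ofMul g)) = 0 := by
    rw [natCast_zsmul, smul_sub, mul_smul, hsum, ← mul_smul, ← mul_smul, sub_eq_zero]
    congr 1
    ring
  rcases smul_eq_zero.mp hfin with h0 | h0
  · exfalso
    have : ℓ * (2 * n) ≠ 0 := by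
      have := hℓ.pos
      positivity
    exact this (by exact_mod_cast h0)
  · exact sub_eq_zero.mp h0

end Main

/-! ### the two instances: `Γ₁(M)` and `Γ₀(N)` -/

section Inst

variable {M ℓ : ℕ} {A : Type*} [AddCommGroup A] [Module.IsTorsionFree ℤ A]

theorem not_dvd_of_cast_eq_one (hℓ : ℓ.Prime) (h1 : ((ℓ : ℕ) : ZMod M) = 1) : ¬ ℓ ∣ M := by
  intro h
  have h2 : (M : ℤ) ∣ 1 - (ℓ : ℤ) := dvd_one_sub_of_cast_eq_one h1
  have h3 : (ℓ : ℤ) ∣ 1 - (ℓ : ℤ) := (Int.natCast_dvd_natCast.mpr h).trans h2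
  have h4 : (ℓ : ℤ) ∣ 1 := by
    have := dvd_add h3 (dvd_refl (ℓ : ℤ))
    simpa using this
  have h5 := Int.natAbs_dvd_natAbs.mpr h4
  rw [Int.natAbs_natCast, Int.natAbs_one, Nat.dvd_one] at h5
  exact hℓ.one_lt.ne' h5

/-- **The boundary of `Γ₁(M)` is Eisenstein**: for `ℓ ≡ 1 mod M` the Hecke operator `T_ℓ` multiplies
the value of a homomorphism `Γ₁(M) → A` (`A` torsion free) at a parabolic element by `1 + ℓ`. -/
theorem heckeHom_apply_of_parabolic (hℓ : ℓ.Prime) (h1 : ((ℓ : ℕ) : ZMod M) = 1)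
    (D : CosetData (iota1 M) (Option (Fin ℓ))) (hD : IsHeckeData1 M ℓ D)
    (φ : Additive (Gamma1 M) →+ A) (g : Gamma1 M)
    (hg : ((g : SL(2, ℤ)) : Matrix (Fin 2) (Fin 2) ℤ).trace ^ 2 = 4) :
    D.heckeHom φ (Additive.ofMul g) = (1 + ℓ) • φ (Additive.ofMul g) := by
  obtain ⟨σ, hσ, hnone⟩ := hD.rep_none
  refine heckeHom_apply_of_parabolic_gen (Γ := Gamma1 M) hℓ h1 D hD.rep_some hnone ?_ φ g hg
  intro γ x hγ
  have hB := isUni_intRep h1 hσ x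
  rw [Gamma1_mem]
  exact ⟨(hγ 0 0).trans hB.1, (hγ 1 1).trans hB.2.2, (hγ 1 0).trans hB.2.1⟩

/-- `tau1All` form -/
theorem tau1All_apply_of_parabolic (hℓ : ℓ.Prime) (h1 : ((ℓ : ℕ) : ZMod M) = 1)
    (φ : Additive (Gamma1 M) →+ A) (g : Gamma1 M)
    (hg : ((g : SL(2, ℤ)) : Matrix (Fin 2) (Fin 2) ℤ).trace ^ 2 = 4) :
    tau1All M ℓ hℓ φ (Additive.ofMul g) = (1 + ℓ) • φ (Additive.ofMul g) := by
  have hℓM := not_dvd_of_cast_eq_one hℓ h1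
  rw [tau1All_neg hℓ hℓM]
  exact heckeHom_apply_of_parabolic hℓ h1 _ (isHeckeData1_cosetT1 hℓ hℓM) φ g hg

/-- **`T_ℓ - (1 + ℓ)` maps `Hom(Γ₁(M), A)` into the parabolic homomorphisms** (`ℓ ≡ 1 mod M`) -/
theorem tau1All_sub_isParabolicHom (hℓ : ℓ.Prime) (h1 : ((ℓ : ℕ) : ZMod M) = 1)
    (φ : Additive (Gamma1 M) →+ A) :
    ModularCurve.Period.IsParabolicHom (Gamma1 M) (tau1All M ℓ hℓ φ - (1 + ℓ) • φ) := by
  intro g hg
  rw [AddMonoidHom.sub_apply, AddMonoidHom.smul_apply, tau1All_apply_of_parabolic hℓ h1 φ g hg,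
    sub_self]

/-- **The boundary of `Γ₀(N)` is Eisenstein** at the primes `ℓ ≡ 1 mod N` -/
theorem tauT_apply_of_parabolic {N : ℕ} (hℓ : ℓ.Prime) (hℓN : ¬ ℓ ∣ N)
    (h1 : ((ℓ : ℕ) : ZMod N) = 1) (φ : Additive (Gamma0 N) →+ A) (g : Gamma0 N)
    (hg : ((g : SL(2, ℤ)) : Matrix (Fin 2) (Fin 2) ℤ).trace ^ 2 = 4) :
    tauT hℓ hℓN φ (Additive.ofMul g) = (1 + ℓ) • φ (Additive.ofMul g) := by
  refine heckeHom_apply_of_parabolic_gen (Γ := Gamma0 N) (σ := 1) hℓ h1 (cosetT hℓ hℓN)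
    (cosetT_rep_some hℓ hℓN) ?_ ?_ φ g hg
  · rw [cosetT_rep_none, map_one, one_mul]
  · intro γ x hγ
    rw [Gamma0_mem, hγ 1 0]
    rcases x with _ | j
    · show ((((1 : SL(2, ℤ)) : Matrix (Fin 2) (Fin 2) ℤ) * !![(ℓ : ℤ), 0; 0, 1]) 1 0 : ZMod N) = 0
      simp [Matrix.mul_apply, Fin.sum_univ_two]
    · show (((!![1, ((j : ℕ) : ℤ); 0, (ℓ : ℤ)] : Matrix (Fin 2) (Fin 2) ℤ) 1 0 : ℤ) : ZMod N) = 0
      simp

/-- `tauAll` form -/
theorem tauAll_apply_of_parabolic {N : ℕ} (hℓ : ℓ.Prime) (h1 : ((ℓ : ℕ) : ZMod N) = 1)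
    (φ : Additive (Gamma0 N) →+ A) (g : Gamma0 N)
    (hg : ((g : SL(2, ℤ)) : Matrix (Fin 2) (Fin 2) ℤ).trace ^ 2 = 4) :
    tauAll N ℓ hℓ φ (Additive.ofMul g) = (1 + ℓ) • φ (Additive.ofMul g) := by
  have hℓN := not_dvd_of_cast_eq_one hℓ h1
  unfold tauAll
  rw [dif_neg hℓN]
  exact tauT_apply_of_parabolic hℓ hℓN h1 φ g hg

/-- **`T_ℓ - (1 + ℓ)` maps `Hom(Γ₀(N), A)` into the parabolic homomorphisms** (`ℓ ≡ 1 mod N`) -/
theorem tauAll_sub_isParabolicHom {N : ℕ} (hℓ : ℓ.Prime) (h1 : ((ℓ : ℕ) : ZMod N) = 1)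
    (φ : Additive (Gamma0 N) →+ A) :
    ModularCurve.Period.IsParabolicHom (Gamma0 N) (tauAll N ℓ hℓ φ - (1 + ℓ) • φ) := by
  intro g hg
  rw [AddMonoidHom.sub_apply, AddMonoidHom.smul_apply, tauAll_apply_of_parabolic hℓ h1 φ g hg,
    sub_self]

end Inst

/-! ### the linear forms -/

section Lin

open ModularCurve.Period Fermat.Agent.S30.Hecke.Parabolic

variable (R : Type*) [CommRing R] (A : Type*) [AddCommGroup A] [Module R A]
  [Module.IsTorsionFree ℤ A] {M ℓ : ℕ}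

theorem tau1AllLin_sub_mem (hℓ : ℓ.Prime) (h1 : ((ℓ : ℕ) : ZMod M) = 1)
    (φ : Additive (Gamma1 M) →+ A) :
    tau1AllLin R A M ℓ hℓ φ - ((1 + ℓ : ℕ) : R) • φ ∈ parabolicHoms R (Gamma1 M) A := by
  rw [tau1AllLin_apply, Nat.cast_smul_eq_nsmul]
  exact tau1All_sub_isParabolicHom hℓ h1 φ

theorem tauAllLin_sub_mem (hℓ : ℓ.Prime) (h1 : ((ℓ : ℕ) : ZMod M) = 1)
    (φ : Additive (Gamma0 M) →+ A) :
    tauAllLin R A M ℓ hℓ φ - ((1 + ℓ : ℕ) : R) • φ ∈ parabolicHoms R (Gamma0 M) A := by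
  rw [tauAllLin_apply, Nat.cast_smul_eq_nsmul]
  exact tauAll_sub_isParabolicHom hℓ h1 φ

/-- **`T_ℓ - (1 + ℓ) : Hom(Γ₁(M), A) → Hom_par(Γ₁(M), A)`**, `ℓ ≡ 1 mod M` -/
def parCut1 (hℓ : ℓ.Prime) (h1 : ((ℓ : ℕ) : ZMod M) = 1) :
    (Additive (Gamma1 M) →+ A) →ₗ[R] parabolicHoms R (Gamma1 M) A :=
  (tau1AllLin R A M ℓ hℓ - ((1 + ℓ : ℕ) : R) • LinearMap.id).codRestrict _
    fun φ => tau1AllLin_sub_mem R A hℓ h1 φ

theorem coe_parCut1 (hℓ : ℓ.Prime) (h1 : ((ℓ : ℕ) : ZMod M) = 1)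
    (φ : Additive (Gamma1 M) →+ A) :
    ((parCut1 R A hℓ h1 φ : parabolicHoms R (Gamma1 M) A) : Additive (Gamma1 M) →+ A) =
      tau1AllLin R A M ℓ hℓ φ - ((1 + ℓ : ℕ) : R) • φ := rfl

theorem parCut1_coe (hℓ : ℓ.Prime) (h1 : ((ℓ : ℕ) : ZMod M) = 1)
    (φ : parabolicHoms R (Gamma1 M) A) :
    parCut1 R A hℓ h1 (φ : Additive (Gamma1 M) →+ A) =
      tau1Par R A M ℓ hℓ φ - ((1 + ℓ : ℕ) : R) • φ :=
  Subtype.ext rfl

/-- **`T_ℓ - (1 + ℓ) : Hom(Γ₀(N), A) → Hom_par(Γ₀(N), A)`**, `ℓ ≡ 1 mod N` -/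
def parCut0 (hℓ : ℓ.Prime) (h1 : ((ℓ : ℕ) : ZMod M) = 1) :
    (Additive (Gamma0 M) →+ A) →ₗ[R] parabolicHoms R (Gamma0 M) A :=
  (tauAllLin R A M ℓ hℓ - ((1 + ℓ : ℕ) : R) • LinearMap.id).codRestrict _
    fun φ => tauAllLin_sub_mem R A hℓ h1 φ

theorem coe_parCut0 (hℓ : ℓ.Prime) (h1 : ((ℓ : ℕ) : ZMod M) = 1)
    (φ : Additive (Gamma0 M) →+ A) :
    ((parCut0 R A hℓ h1 φ : parabolicHoms R (Gamma0 M) A) : Additive (Gamma0 M) →+ A) =
      tauAllLin R A M ℓ hℓ φ - ((1 + ℓ : ℕ) : R) • φ := rfl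

theorem parCut0_coe (hℓ : ℓ.Prime) (h1 : ((ℓ : ℕ) : ZMod M) = 1)
    (φ : parabolicHoms R (Gamma0 M) A) :
    parCut0 R A hℓ h1 (φ : Additive (Gamma0 M) →+ A) =
      tauPar R A M ℓ hℓ φ - ((1 + ℓ : ℕ) : R) • φ :=
  Subtype.ext rfl

end Lin

/-! ### the localisation principle -/

section Loc

variable {P : Type*} [CommRing P] (S : Submonoid P)
  {N' : Type*} [AddCommGroup N'] [Module P N'] {N : Type*} [AddCommGroup N] [Module P N]

/-- **an injective linear map whose image contains `s • N`, `s ∈ S`, becomes bijective after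
localisation at `S`** (applied to `Hom_par ⊆ Hom` and `s = X_ℓ - (1 + ℓ)`: the inclusion of the
parabolic homomorphisms is bijective after localisation at every non-Eisenstein maximal ideal) -/
theorem map_bijective_of_smul_mem (f : N' →ₗ[P] N) (hf : Function.Injective f) (s : P)
    (hs : s ∈ S) (h : ∀ x : N, ∃ y : N', f y = s • x) :
    Function.Bijective (IsLocalizedModule.map S (LocalizedModule.mkLinearMap S N')
      (LocalizedModule.mkLinearMap S N) f) := by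
  refine ⟨IsLocalizedModule.map_injective S _ _ f hf, ?_⟩
  intro y
  induction y using LocalizedModule.induction_on with
  | h x t =>
    obtain ⟨y, hy⟩ := h x
    refine ⟨LocalizedModule.mk y (⟨s, hs⟩ * t), ?_⟩
    rw [IsLocalizedModule.map_LocalizedModules, hy, LocalizedModule.mk_eq]
    refine ⟨1, ?_⟩
    simp only [one_smul, Submonoid.smul_def, mul_smul]
    rw [smul_comm]

end Loc

end Fermat.Agent.S43.Hecke.Par
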