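/-
PROJECT R (row 37 by S43), block L3, the bridge `T(Lam) ↠ T(M_Q)`, step (B-a) IN THE VOCABULARY OF THE
BLOCK (helper2): for ANY commuting family of operators on `Hom(Γ₁(M), O)` which preserves the
parabolic homomorphisms and contains a Hecke operator `T_ℓ₀`, `ℓ₀ ≡ 1 mod M`:

  the inclusion `Hom_par(Γ₁(M), O) ⊆ Hom(Γ₁(M), O)` is linear over the polynomial ring of the family
  (`inclP`), injective, and BIJECTIVE AFTER LOCALISATION at every system of eigenvalues `θ` with
  `θ (T_ℓ₀) ≠ 1 + ℓ₀` (`locMap_inclP_bijective`; `locEquiv` is the resulting equivalence).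

The same for `Γ₀(N)` (`inclP0`, `locMap_inclP0_bijective`, `locEquiv0`).

Inputs: `Hecke/Par` (the boundary is Eisenstein), helper24's `Hecke/PolyModule` (`WithOps`) and
`Hecke/Loc` (`Sθ`, `locMap`).
-/
import Mathlib
import Fermat.Agent.S43.Hecke.Par
import Fermat.Agent.S43.Hecke.PolyModule
import Fermat.Agent.S43.Hecke.Loc

set_option autoImplicit false

noncomputable section

namespace Fermat.Agent.S43.Hecke.ParLoc

open CongruenceSubgroup ModularCurve.Period
open Fermat.Agent.S43.Hecke.PolyModule Fermat.Agent.S43.Hecke.Loc Fermat.Agent.S43.Hecke.Par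
open Fermat.Agent.S48.B.Hecke.Parabolic1 Fermat.Agent.S30.Hecke.Parabolic
open scoped MatrixGroups

/-! ### a family of operators on a module and on a stable submodule -/

section Generic

variable {O : Type*} [CommRing O] {H : Type*} [AddCommGroup H] [Module O H] {K : Type*}
  (t : K → Module.End O H) (hcomm : ∀ i j, Commute (t i) (t j))
  (p : Submodule O H) (hp : ∀ k, ∀ x ∈ p, t k x ∈ p)

/-- the restricted family -/
def tres (k : K) : Module.End O p := (t k).restrict (hp k)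

theorem coe_tres (k : K) (x : p) : ((tres t p hp k x : p) : H) = t k (x : H) := rfl

include hcomm in
theorem tres_comm (i j : K) : Commute (tres t p hp i) (tres t p hp j) := by
  refine LinearMap.ext fun x => Subtype.ext ?_
  rw [Module.End.mul_apply, Module.End.mul_apply, coe_tres, coe_tres, coe_tres, coe_tres,
    ← Module.End.mul_apply, ← Module.End.mul_apply, (hcomm i j).eq]

/-- **the inclusion of a stable submodule is linear over the polynomial ring of the family** -/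
def inclW : WithOps (tres t p hp) (tres_comm t hcomm p hp) →ₗ[MvPolynomial K O] WithOps t hcomm :=
  WithOps.map p.subtype fun _ _ => rfl

theorem inclW_apply (x : WithOps (tres t p hp) (tres_comm t hcomm p hp)) :
    WithOps.equiv t hcomm (inclW t hcomm p hp x) =
      ((WithOps.equiv (tres t p hp) (tres_comm t hcomm p hp) x : p) : H) := rfl

theorem inclW_injective : Function.Injective (inclW t hcomm p hp) := by
  intro x y h
  apply (WithOps.equiv (tres t p hp) (tres_comm t hcomm p hp)).injective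
  apply Subtype.ext
  have := congrArg (WithOps.equiv t hcomm) h
  rwa [inclW_apply, inclW_apply] at this

variable [IsLocalRing O]

/-- **if `t k₀ - c` maps the module into the stable submodule and `θ k₀ ≠ c`, the inclusion is
bijective after localisation at `θ`** -/
theorem locMap_inclW_bijective (θ : K → IsLocalRing.ResidueField O) (k₀ : K) (c : O)
    (hcut : ∀ x : H, t k₀ x - c • x ∈ p) (hne : θ k₀ ≠ IsLocalRing.residue O c) :
    Function.Bijective (locMap (Sθ θ) (inclW t hcomm p hp)) := by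
  refine map_bijective_of_smul_mem (Sθ θ) (inclW t hcomm p hp) (inclW_injective t hcomm p hp)
    (MvPolynomial.X k₀ - MvPolynomial.C c) (X_sub_C_mem_Sθ θ k₀ c hne) ?_
  intro x
  refine ⟨(WithOps.equiv (tres t p hp) (tres_comm t hcomm p hp)).symm
    ⟨t k₀ (WithOps.equiv t hcomm x) - c • WithOps.equiv t hcomm x, hcut _⟩, ?_⟩
  apply (WithOps.equiv t hcomm).injective
  rw [inclW_apply, LinearEquiv.apply_symm_apply, sub_smul, map_sub, WithOps.X_smul,
    WithOps.C_smul, map_smul]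

/-- the resulting equivalence -/
def locEquivW (θ : K → IsLocalRing.ResidueField O) (k₀ : K) (c : O)
    (hcut : ∀ x : H, t k₀ x - c • x ∈ p) (hne : θ k₀ ≠ IsLocalRing.residue O c) :
    LocalizedModule (Sθ θ) (WithOps (tres t p hp) (tres_comm t hcomm p hp)) ≃ₗ[MvPolynomial K O]
      LocalizedModule (Sθ θ) (WithOps t hcomm) :=
  LinearEquiv.ofBijective (locMap (Sθ θ) (inclW t hcomm p hp))
    (locMap_inclW_bijective t hcomm p hp θ k₀ c hcut hne)

theorem locEquivW_mk (θ : K → IsLocalRing.ResidueField O) (k₀ : K) (c : O)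
    (hcut : ∀ x : H, t k₀ x - c • x ∈ p) (hne : θ k₀ ≠ IsLocalRing.residue O c)
    (x : WithOps (tres t p hp) (tres_comm t hcomm p hp)) (s : Sθ θ) :
    locEquivW t hcomm p hp θ k₀ c hcut hne (LocalizedModule.mk x s) =
      LocalizedModule.mk (inclW t hcomm p hp x) s :=
  locMap_mk (Sθ θ) (inclW t hcomm p hp) x s

end Generic

/-! ### `Γ₁(M)` -/

section Gamma1

variable {O : Type*} [CommRing O] [IsLocalRing O] [Module.IsTorsionFree ℤ O] {M : ℕ} {K : Type*}
  (t : K → Module.End O (Additive (Gamma1 M) →+ O)) (hcomm : ∀ i j, Commute (t i) (t j))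
  (hp : ∀ k, ∀ φ ∈ parabolicHoms O (Gamma1 M) O, t k φ ∈ parabolicHoms O (Gamma1 M) O)

/-- **`(Hom_par(Γ₁(M), O))_θ = (Hom(Γ₁(M), O))_θ` at every non-Eisenstein `θ`**: `t k₀ = T_ℓ₀`,
`ℓ₀ ≡ 1 mod M`, `θ k₀ ≠ 1 + ℓ₀` -/
theorem locMap_inclP_bijective (θ : K → IsLocalRing.ResidueField O) (k₀ : K) {ℓ : ℕ}
    (hℓ : ℓ.Prime) (h1 : ((ℓ : ℕ) : ZMod M) = 1) (hk₀ : t k₀ = tau1AllLin O O M ℓ hℓ)
    (hne : θ k₀ ≠ IsLocalRing.residue O ((1 + ℓ : ℕ) : O)) :
    Function.Bijective
      (locMap (Sθ θ) (inclW t hcomm (parabolicHoms O (Gamma1 M) O) hp)) :=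
  locMap_inclW_bijective t hcomm _ hp θ k₀ _
    (fun φ => by rw [hk₀]; exact tau1AllLin_sub_mem O O hℓ h1 φ) hne

/-- the equivalence -/
def locEquiv (θ : K → IsLocalRing.ResidueField O) (k₀ : K) {ℓ : ℕ}
    (hℓ : ℓ.Prime) (h1 : ((ℓ : ℕ) : ZMod M) = 1) (hk₀ : t k₀ = tau1AllLin O O M ℓ hℓ)
    (hne : θ k₀ ≠ IsLocalRing.residue O ((1 + ℓ : ℕ) : O)) :
    LocalizedModule (Sθ θ) (WithOps (R := O) (N := parabolicHoms O (Gamma1 M) O) (J := K)
      (tres t (parabolicHoms O (Gamma1 M) O) hp)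
      (tres_comm t hcomm (parabolicHoms O (Gamma1 M) O) hp)) ≃ₗ[MvPolynomial K O]
      LocalizedModule (Sθ θ) (WithOps t hcomm) :=
  locEquivW t hcomm _ hp θ k₀ _ (fun φ => by rw [hk₀]; exact tau1AllLin_sub_mem O O hℓ h1 φ) hne

end Gamma1

/-! ### `Γ₀(N)` -/

section Gamma0

variable {O : Type*} [CommRing O] [IsLocalRing O] [Module.IsTorsionFree ℤ O] {N : ℕ} {K : Type*}
  (t : K → Module.End O (Additive (Gamma0 N) →+ O)) (hcomm : ∀ i j, Commute (t i) (t j))
  (hp : ∀ k, ∀ φ ∈ parabolicHoms O (Gamma0 N) O, t k φ ∈ parabolicHoms O (Gamma0 N) O)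

/-- **`(Hom_par(Γ₀(N), O))_θ = (Hom(Γ₀(N), O))_θ` at every non-Eisenstein `θ`** -/
theorem locMap_inclP0_bijective (θ : K → IsLocalRing.ResidueField O) (k₀ : K) {ℓ : ℕ}
    (hℓ : ℓ.Prime) (h1 : ((ℓ : ℕ) : ZMod N) = 1) (hk₀ : t k₀ = tauAllLin O O N ℓ hℓ)
    (hne : θ k₀ ≠ IsLocalRing.residue O ((1 + ℓ : ℕ) : O)) :
    Function.Bijective
      (locMap (Sθ θ) (inclW t hcomm (parabolicHoms O (Gamma0 N) O) hp)) :=
  locMap_inclW_bijective t hcomm _ hp θ k₀ _
    (fun φ => by rw [hk₀]; exact tauAllLin_sub_mem O O hℓ h1 φ) hne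

/-- the equivalence -/
def locEquiv0 (θ : K → IsLocalRing.ResidueField O) (k₀ : K) {ℓ : ℕ}
    (hℓ : ℓ.Prime) (h1 : ((ℓ : ℕ) : ZMod N) = 1) (hk₀ : t k₀ = tauAllLin O O N ℓ hℓ)
    (hne : θ k₀ ≠ IsLocalRing.residue O ((1 + ℓ : ℕ) : O)) :
    LocalizedModule (Sθ θ) (WithOps (R := O) (N := parabolicHoms O (Gamma0 N) O) (J := K)
      (tres t (parabolicHoms O (Gamma0 N) O) hp)
      (tres_comm t hcomm (parabolicHoms O (Gamma0 N) O) hp)) ≃ₗ[MvPolynomial K O]
      LocalizedModule (Sθ θ) (WithOps t hcomm) :=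
  locEquivW t hcomm _ hp θ k₀ _ (fun φ => by rw [hk₀]; exact tauAllLin_sub_mem O O hℓ h1 φ) hne

end Gamma0

end Fermat.Agent.S43.Hecke.ParLoc
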