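/-
PROJECT R (S43, row 37), block L3 (Hecke side, leader helper24), brick B3 of `Hecke/BridgeMain`
(helper12): RESTRICTION OF SCALARS FOR THE TWISTED COHOMOLOGY `H1`.

`φ : R →+* R'` a ring homomorphism, `χ : Γ →* Rˣ` a character, `B` an `R`-module and an
`R'`-module with `r • b = φ r • b`.  Then the twisted cocycles of `χ` and of
`χ' := (Units.map φ).comp χ` with values in `B` are the same functions:

* `zMap φ χ hφ : Z1 χ B →ₛₗ[φ] Z1 χ' B` (the identity on functions), `zMap_dZero`;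
* `scalarMap φ χ hφ : H1 χ B →ₛₗ[φ] H1 χ' B`, bijective;
* `scalarEquiv φ χ hφ : H1 χ B ≃+ H1 χ' B`, `scalarEquiv_mk`, `scalarEquiv_smul`,
  `scalarEquiv_symm_mk`;
* `Neb.mapRing φ ν : Neb D χ'` (`ψ' x = Units.map φ (ψ x)`), `deg_mapRing`;
* `scalarEquiv_heckeH` : `scalarEquiv (heckeH B ν ξ) = heckeH B (ν.mapRing φ) (scalarEquiv ξ)`;
* the instance at `Γ₀(M)`: `mapRing_chiXi` (`rfl`), `Hν_mapRing`.
-/
import Mathlib
import Fermat.Agent.S43.Hecke.Defs
import Fermat.Agent.S43.Hecke.Inst.Comm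

set_option autoImplicit false

open scoped BigOperators

namespace Fermat.Agent.S43.Hecke.Scalar

open Fermat.Agent.S30.Hecke.DoubleCoset Fermat.Agent.S43.Hecke.Defs

universe u u' v w

section General

variable {Γ : Type v} [Group Γ] {R : Type u} {R' : Type u'} [CommRing R] [CommRing R']
  (φ : R →+* R') (χ : Γ →* Rˣ)
  {B : Type w} [AddCommGroup B] [Module R B] [Module R' B]
  (hφ : ∀ (r : R) (b : B), r • b = φ r • b)

omit [Module R B] [Module R' B] in
/-- the value of the pushed-forward character -/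
theorem coe_mapChar (g : Γ) :
    ((((Units.map φ.toMonoidHom).comp χ) g : R'ˣ) : R') = φ ((χ g : Rˣ) : R) := rfl

omit [Module R B] [Module R' B] in
theorem coe_map_inv (a : Rˣ) :
    (((Units.map φ.toMonoidHom a)⁻¹ : R'ˣ) : R') = φ ((a⁻¹ : Rˣ) : R) := by
  rw [← map_inv]
  rfl

/-- the cocycles of `χ` are the cocycles of the pushed-forward character (semilinear in `φ`) -/
def zMap : Z1 χ B →ₛₗ[φ] Z1 ((Units.map φ.toMonoidHom).comp χ) B where
  toFun c := ⟨(c : Γ → B), fun g h => by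
    rw [coe_mapChar, ← hφ]
    exact c.2 g h⟩
  map_add' _ _ := rfl
  map_smul' r c := Subtype.ext (funext fun g => hφ r ((c : Γ → B) g))

@[simp] theorem zMap_apply (c : Z1 χ B) (g : Γ) :
    (zMap φ χ hφ c : Γ → B) g = (c : Γ → B) g := rfl

theorem zMap_injective : Function.Injective (zMap φ χ hφ) := fun _ _ h =>
  Subtype.ext (congrArg (fun d : Z1 ((Units.map φ.toMonoidHom).comp χ) B => (d : Γ → B)) h)

theorem zMap_surjective : Function.Surjective (zMap φ χ hφ) := fun c' =>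
  ⟨⟨(c' : Γ → B), fun g h => by
    have := c'.2 g h
    rw [coe_mapChar, ← hφ] at this
    exact this⟩, rfl⟩

theorem zMap_dZero (a : B) :
    zMap φ χ hφ (dZero χ B a) = dZero ((Units.map φ.toMonoidHom).comp χ) B a := by
  apply Subtype.ext
  funext g
  show ((χ g : Rˣ) : R) • a - a = ((((Units.map φ.toMonoidHom).comp χ) g : R'ˣ) : R') • a - a
  rw [coe_mapChar, hφ]

theorem B1_le_comap_zMap :
    B1 χ B ≤ (B1 ((Units.map φ.toMonoidHom).comp χ) B).comap (zMap φ χ hφ) := by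
  rintro _ ⟨a, rfl⟩
  exact ⟨a, (zMap_dZero φ χ hφ a).symm⟩

/-- restriction of scalars on `H¹`, semilinear in `φ` -/
def scalarMap : H1 χ B →ₛₗ[φ] H1 ((Units.map φ.toMonoidHom).comp χ) B :=
  (B1 χ B).mapQ (B1 ((Units.map φ.toMonoidHom).comp χ) B) (zMap φ χ hφ)
    (B1_le_comap_zMap φ χ hφ)

theorem scalarMap_mk (c : Z1 χ B) :
    scalarMap φ χ hφ (H1.mk χ B c) =
      H1.mk ((Units.map φ.toMonoidHom).comp χ) B (zMap φ χ hφ c) := rfl

theorem scalarMap_injective : Function.Injective (scalarMap φ χ hφ) := by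
  rw [injective_iff_map_eq_zero]
  intro ξ hξ
  obtain ⟨c, rfl⟩ := H1.mk_surjective ξ
  rw [scalarMap_mk, H1.mk_eq_zero_iff] at hξ
  obtain ⟨a, ha⟩ := hξ
  rw [H1.mk_eq_zero_iff]
  refine ⟨a, zMap_injective φ χ hφ ?_⟩
  rw [zMap_dZero, ha]

theorem scalarMap_surjective : Function.Surjective (scalarMap φ χ hφ) := by
  intro ξ'
  obtain ⟨c', rfl⟩ := H1.mk_surjective ξ'
  obtain ⟨c, rfl⟩ := zMap_surjective φ χ hφ c'
  exact ⟨H1.mk χ B c, rfl⟩

/-- **restriction of scalars**: `H¹(Γ, B_χ)` does not depend on the ring through which the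
character acts -/
noncomputable def scalarEquiv : H1 χ B ≃+ H1 ((Units.map φ.toMonoidHom).comp χ) B :=
  AddEquiv.ofBijective (scalarMap φ χ hφ).toAddMonoidHom
    ⟨scalarMap_injective φ χ hφ, scalarMap_surjective φ χ hφ⟩

theorem scalarEquiv_apply (ξ : H1 χ B) : scalarEquiv φ χ hφ ξ = scalarMap φ χ hφ ξ := rfl

/-- the class of a cocycle goes to the class of the same function -/
theorem scalarEquiv_mk (c : Z1 χ B) :
    scalarEquiv φ χ hφ (H1.mk χ B c) =
      H1.mk ((Units.map φ.toMonoidHom).comp χ) B (zMap φ χ hφ c) := rfl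

theorem scalarEquiv_smul (r : R) (ξ : H1 χ B) :
    scalarEquiv φ χ hφ (r • ξ) = φ r • scalarEquiv φ χ hφ ξ :=
  (scalarMap φ χ hφ).map_smulₛₗ r ξ

theorem scalarEquiv_symm_mk (c : Z1 χ B) :
    (scalarEquiv φ χ hφ).symm (H1.mk ((Units.map φ.toMonoidHom).comp χ) B (zMap φ χ hφ c)) =
      H1.mk χ B c := by
  rw [← scalarEquiv_mk, AddEquiv.symm_apply_apply]

/-! ### the double-coset operators -/

section Hecke

variable {G : Type*} [Group G] {ι : Γ →* G} {X : Type*} {D : CosetData ι X}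

omit [Module R B] [Module R' B] in
/-- a nebentypus is determined by its values -/
theorem Neb.ext' {χ₀ : Γ →* Rˣ} {ν ν' : Neb D χ₀} (h : ν.ψ = ν'.ψ) : ν = ν' := by
  cases ν
  cases ν'
  congr

/-- the push-forward of a nebentypus along a ring homomorphism -/
def Neb.mapRing {χ : Γ →* Rˣ} (ν : Neb D χ) : Neb D ((Units.map φ.toMonoidHom).comp χ) where
  ψ x := Units.map φ.toMonoidHom (ν.ψ x)
  rel g x := by
    show Units.map φ.toMonoidHom (ν.ψ x) * Units.map φ.toMonoidHom (χ g) =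
      Units.map φ.toMonoidHom (χ (D.coc g x)) * Units.map φ.toMonoidHom (ν.ψ (D.perm g x))
    rw [← map_mul, ← map_mul, ν.rel]

omit [Module R B] [Module R' B] in
@[simp] theorem Neb.mapRing_psi {χ : Γ →* Rˣ} (ν : Neb D χ) (x : X) :
    (Neb.mapRing φ ν).ψ x = Units.map φ.toMonoidHom (ν.ψ x) := rfl

variable [Fintype X]

omit [Module R B] [Module R' B] in
theorem deg_mapRing {χ : Γ →* Rˣ} (ν : Neb D χ) : (Neb.mapRing φ ν).deg = φ ν.deg := by
  unfold Neb.deg
  rw [map_sum]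
  exact Finset.sum_congr rfl fun x _ => coe_map_inv φ (ν.ψ x)

/-- the double-coset operators on cocycles commute with the restriction of scalars -/
theorem zMap_heckeZ (ν : Neb D χ) (c : Z1 χ B) :
    zMap φ χ hφ (heckeZ B ν c) = heckeZ B (Neb.mapRing φ ν) (zMap φ χ hφ c) := by
  apply Subtype.ext
  funext g
  show ∑ x, (((ν.ψ x)⁻¹ : Rˣ) : R) • (c : Γ → B) (D.coc g x) =
    ∑ x, ((((Neb.mapRing φ ν).ψ x)⁻¹ : R'ˣ) : R') • (c : Γ → B) (D.coc g x)
  refine Finset.sum_congr rfl fun x _ => ?_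
  rw [Neb.mapRing_psi, coe_map_inv, hφ]

/-- **the double-coset operators on `H¹` commute with the restriction of scalars** -/
theorem scalarEquiv_heckeH (ν : Neb D χ) (ξ : H1 χ B) :
    scalarEquiv φ χ hφ (heckeH B ν ξ) =
      heckeH B (Neb.mapRing φ ν) (scalarEquiv φ χ hφ ξ) := by
  obtain ⟨c, rfl⟩ := H1.mk_surjective ξ
  rw [heckeH_mk, scalarEquiv_mk, scalarEquiv_mk, heckeH_mk, zMap_heckeZ]

end Hecke

end General

/-! ### the instance at `Γ₀(M)` -/

section Gamma0

open CongruenceSubgroup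
open Fermat.Agent.S43.Hecke.Inst Fermat.Agent.S43.Hecke.Inst.Comm

variable {M : ℕ} {R : Type u} {R' : Type u'} [CommRing R] [CommRing R'] (φ : R →+* R')
  (Ξ : (ZMod M)ˣ →* Rˣ)

/-- the push-forward of `chiXi Ξ` is `chiXi` of the push-forward of `Ξ` -/
theorem mapRing_chiXi :
    (Units.map φ.toMonoidHom).comp (chiXi Ξ) = chiXi ((Units.map φ.toMonoidHom).comp Ξ) := rfl

/-- the push-forward of the nebentypus of every Hecke operator of level `M` -/
theorem Hν_mapRing (i : HIdx M) :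
    Neb.mapRing φ (Hν Ξ i) = Hν ((Units.map φ.toMonoidHom).comp Ξ) i := by
  rcases i with r | q
  · exact Neb.ext' rfl
  · exact Neb.ext' (funext fun _ => map_one _)

end Gamma0

end Fermat.Agent.S43.Hecke.Scalar
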