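import Mathlib
import Fermat.Agent.S43.Hecke.Scalar
import Fermat.Agent.S43.Hecke.Loc
import Fermat.Agent.S43.Hecke.FinLoc
import Fermat.Agent.S43.Hecke.Inst.BridgeOps

/-!
# PROJECT R (S43), the bridge L1 ↔ L3, the Betti leg: every Hecke module of `Γ₀(M)` over `𝒪[Δ]`
whose character factors through `Δ'` is a quotient of the big module `H¹(Γ₀(M), 𝒪[Δ']_χ)`

`π' : (ZMod M)ˣ →* Δ'` (the big diamond group), `u : Δ' →* 𝒪[Δ]ˣ` a character,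
`phiU : 𝒪[Δ'] →ₐ[𝒪] 𝒪[Δ]` its linear extension, `xiU = u ∘ π'` as a character of `(ZMod M)ˣ`
(written as the push-forward of `xiOf 𝒪 π'` along `phiU`, so that `Hecke/Scalar` applies verbatim).

* `phiU_surjective`;
* `RU 𝒪 u` : `𝒪[Δ]` as a module over `𝒪[Δ']`;
* `push 𝒪 π' u : H1 (chiXi (xiOf 𝒪 π')) 𝒪[Δ'] →+ H1 (chiXi (xiU 𝒪 π' u)) 𝒪[Δ]`, `push_smul`,
  `push_heckeH`, `push_surjective` (under `CD1` and `phiU` onto);
* the family `tY` on a localisation `Y` of `HN (Hν (xiU ..) ∘ fb) 𝒪[Δ] _`, indexed by `K ⊕ (ZMod M)ˣ`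
  (`inl k ↦ phiU (single (π' (e k) * diaOf π' (f k)) 1) • X (g k) •`, `inr d ↦ phiU (single (π' d) 1) •`),
  and **`legP : WithOps (opsB 𝒪 π' f e) _ →ₗ[MvPolynomial (K ⊕ (ZMod M)ˣ) 𝒪] WithOps tY _`**, onto.
-/

set_option autoImplicit false

open CongruenceSubgroup
open scoped MatrixGroups

noncomputable section

namespace Fermat.Agent.S43.Hecke.BridgeLeg

open Fermat.Agent.S30.Hecke.DoubleCoset Fermat.Agent.S30.Hecke.Gamma0Cosets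
open Fermat.Agent.S48.B.Hecke.Gamma1Cosets
open Fermat.Agent.S43.Hecke.Defs Fermat.Agent.S43.Hecke.Seam Fermat.Agent.S43.Hecke.Shapiro
  Fermat.Agent.S43.Hecke.Inst Fermat.Agent.S43.Hecke.Inst.Comm
  Fermat.Agent.S43.Hecke.Inst.Restrict1 Fermat.Agent.S43.Hecke.Inst.BridgeOps
open Fermat.Agent.S43.Hecke.PolyModule Fermat.Agent.S43.Hecke.Loc Fermat.Agent.S43.Hecke.Scalar

variable {M : ℕ} (𝒪 : Type) [CommRing 𝒪] {Δ' : Type} [CommGroup Δ'] (π' : (ZMod M)ˣ →* Δ')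
  {Δ : Type} [CommGroup Δ] (u : Δ' →* (MonoidAlgebra 𝒪 Δ)ˣ)

/-! ### the ring map of a character -/

/-- the ring map `𝒪[Δ'] → 𝒪[Δ]` of a character `u : Δ' → 𝒪[Δ]ˣ` -/
def phiU : MonoidAlgebra 𝒪 Δ' →ₐ[𝒪] MonoidAlgebra 𝒪 Δ :=
  MonoidAlgebra.lift 𝒪 (MonoidAlgebra 𝒪 Δ) Δ' ((Units.coeHom (MonoidAlgebra 𝒪 Δ)).comp u)

theorem phiU_single (δ : Δ') (a : 𝒪) :
    phiU 𝒪 u (MonoidAlgebra.single δ a) = a • ((u δ : (MonoidAlgebra 𝒪 Δ)ˣ) : MonoidAlgebra 𝒪 Δ) := by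
  unfold phiU
  rw [MonoidAlgebra.lift_single]
  rfl

theorem phiU_single_one (δ : Δ') :
    phiU 𝒪 u (MonoidAlgebra.single δ (1 : 𝒪)) =
      ((u δ : (MonoidAlgebra 𝒪 Δ)ˣ) : MonoidAlgebra 𝒪 Δ) := by
  rw [phiU_single, one_smul]

/-- `phiU` is onto as soon as every group element of `Δ` is a value of `u` -/
theorem phiU_surjective
    (h : ∀ δ : Δ, ∃ δ' : Δ', ((u δ' : (MonoidAlgebra 𝒪 Δ)ˣ) : MonoidAlgebra 𝒪 Δ) =
      MonoidAlgebra.single δ (1 : 𝒪)) : Function.Surjective (phiU 𝒪 u) := by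
  intro x
  induction x using MonoidAlgebra.induction_on with
  | of δ =>
    obtain ⟨δ', hδ'⟩ := h δ
    refine ⟨MonoidAlgebra.single δ' (1 : 𝒪), ?_⟩
    rw [phiU_single_one, hδ']
    rfl
  | add x y hx hy =>
    obtain ⟨a, rfl⟩ := hx
    obtain ⟨b, rfl⟩ := hy
    exact ⟨a + b, map_add _ _ _⟩
  | smul r x hx =>
    obtain ⟨a, rfl⟩ := hx
    exact ⟨r • a, map_smul _ _ _⟩

/-- the character `u ∘ π'` of `(ZMod M)ˣ`, as the push-forward of `xiOf 𝒪 π'` -/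
def xiU : (ZMod M)ˣ →* (MonoidAlgebra 𝒪 Δ)ˣ :=
  (Units.map (phiU 𝒪 u).toRingHom.toMonoidHom).comp (xiOf 𝒪 π')

theorem xiU_apply (d : (ZMod M)ˣ) : xiU 𝒪 π' u d = u (π' d) := by
  apply Units.ext
  show phiU 𝒪 u (MonoidAlgebra.single (π' d) (1 : 𝒪)) = _
  rw [phiU_single_one]

theorem xiU_eq : xiU 𝒪 π' u = u.comp π' := MonoidHom.ext (xiU_apply 𝒪 π' u)

/-- `𝒪[Δ]` as a module over `𝒪[Δ']` through `phiU` -/
@[nolint unusedArguments]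
def RU (_u : Δ' →* (MonoidAlgebra 𝒪 Δ)ˣ) : Type := MonoidAlgebra 𝒪 Δ

instance : AddCommGroup (RU 𝒪 u) := inferInstanceAs (AddCommGroup (MonoidAlgebra 𝒪 Δ))

instance instModuleRU : Module (MonoidAlgebra 𝒪 Δ) (RU 𝒪 u) :=
  inferInstanceAs (Module (MonoidAlgebra 𝒪 Δ) (MonoidAlgebra 𝒪 Δ))

instance instModuleRU' : Module (MonoidAlgebra 𝒪 Δ') (RU 𝒪 u) :=
  Module.compHom (MonoidAlgebra 𝒪 Δ) (phiU 𝒪 u).toRingHom

theorem smul_RU (r : MonoidAlgebra 𝒪 Δ') (b : RU 𝒪 u) :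
    r • b = (phiU 𝒪 u).toRingHom r • b := rfl

/-- `phiU` as a linear map `𝒪[Δ'] → RU` -/
def linU : MonoidAlgebra 𝒪 Δ' →ₗ[MonoidAlgebra 𝒪 Δ'] RU 𝒪 u where
  toFun x := phiU 𝒪 u x
  map_add' := map_add _
  map_smul' r x := by
    rw [smul_eq_mul, map_mul, RingHom.id_apply]
    rfl

theorem linU_apply (x : MonoidAlgebra 𝒪 Δ') : linU 𝒪 u x = phiU 𝒪 u x := rfl

/-! ### the push-forward on `H¹` -/

section Push

/-- **the push-forward** `H¹(Γ₀(M), 𝒪[Δ']_χ) → H¹(Γ₀(M), 𝒪[Δ]_{u ∘ χ})` -/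
def push : H1 (chiXi (xiOf 𝒪 π')) (MonoidAlgebra 𝒪 Δ') →+
    H1 (chiXi (xiU 𝒪 π' u)) (MonoidAlgebra 𝒪 Δ) :=
  (scalarEquiv (phiU 𝒪 u).toRingHom (chiXi (xiOf 𝒪 π')) (B := RU 𝒪 u)
    (smul_RU 𝒪 u)).toAddMonoidHom.comp
    (H1.map (chiXi (xiOf 𝒪 π')) (linU 𝒪 u)).toAddMonoidHom

theorem push_apply (ξ : H1 (chiXi (xiOf 𝒪 π')) (MonoidAlgebra 𝒪 Δ')) :
    push 𝒪 π' u ξ = scalarEquiv (phiU 𝒪 u).toRingHom (chiXi (xiOf 𝒪 π')) (B := RU 𝒪 u)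
      (smul_RU 𝒪 u) (H1.map (chiXi (xiOf 𝒪 π')) (linU 𝒪 u) ξ) := rfl

theorem push_smul (r : MonoidAlgebra 𝒪 Δ') (ξ : H1 (chiXi (xiOf 𝒪 π')) (MonoidAlgebra 𝒪 Δ')) :
    push 𝒪 π' u (r • ξ) = phiU 𝒪 u r • push 𝒪 π' u ξ := by
  rw [push_apply, map_smul, scalarEquiv_smul]
  rfl

theorem push_smul_𝒪 (a : 𝒪) (ξ : H1 (chiXi (xiOf 𝒪 π')) (MonoidAlgebra 𝒪 Δ')) :
    push 𝒪 π' u (algebraMap 𝒪 (MonoidAlgebra 𝒪 Δ') a • ξ) =
      algebraMap 𝒪 (MonoidAlgebra 𝒪 Δ) a • push 𝒪 π' u ξ := by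
  rw [push_smul, AlgHom.commutes]

theorem push_heckeH (i : HIdx M) (ξ : H1 (chiXi (xiOf 𝒪 π')) (MonoidAlgebra 𝒪 Δ')) :
    push 𝒪 π' u (heckeH (MonoidAlgebra 𝒪 Δ') (Hν (xiOf 𝒪 π') i) ξ) =
      heckeH (MonoidAlgebra 𝒪 Δ) (Hν (xiU 𝒪 π' u) i) (push 𝒪 π' u ξ) := by
  rw [push_apply, H1.map_heckeH, scalarEquiv_heckeH, Hν_mapRing]
  rfl

theorem push_surjective (hcd : CD1 (chiXi (xiOf 𝒪 π')))
    (hu : Function.Surjective (phiU 𝒪 u)) : Function.Surjective (push 𝒪 π' u) := by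
  intro η
  obtain ⟨ζ, hζ⟩ := (scalarEquiv (phiU 𝒪 u).toRingHom (chiXi (xiOf 𝒪 π')) (B := RU 𝒪 u)
    (smul_RU 𝒪 u)).surjective η
  obtain ⟨ξ, hξ⟩ := H1.map_surjective hcd (linU 𝒪 u) hu ζ
  exact ⟨ξ, by rw [push_apply, hξ, hζ]⟩

end Push

/-! ### a linear map out of `WithOps` into a module over the polynomial ring -/

section ToModule

variable {R : Type*} [CommRing R] {N : Type*} [AddCommGroup N] [Module R N] {J : Type*}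
  {t : J → Module.End R N} {hcomm : ∀ i j, Commute (t i) (t j)}
  {Y : Type*} [AddCommGroup Y] [Module R Y] [Module (MvPolynomial J R) Y]
  [IsScalarTower R (MvPolynomial J R) Y]

theorem map_polyAct_smul (F : N →ₗ[R] Y)
    (hF : ∀ j x, F (t j x) = (MvPolynomial.X j : MvPolynomial J R) • F x)
    (P : MvPolynomial J R) (x : N) : F (polyAct t hcomm P x) = P • F x := by
  induction P using MvPolynomial.induction_on generalizing x with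
  | C r =>
    rw [polyAct_C, ← MvPolynomial.algebraMap_eq, algebraMap_smul]
    exact map_smul F r x
  | add p q hp hq =>
    rw [map_add, LinearMap.add_apply, map_add, hp, hq, add_smul]
  | mul_X p j hp =>
    rw [map_mul, polyAct_X, Module.End.mul_apply, hp, hF, mul_smul]

/-- **an `R`-linear map intertwining the operators with the `X j` is linear over the polynomial
ring** -/
def toModule (F : N →ₗ[R] Y)
    (hF : ∀ j x, F (t j x) = (MvPolynomial.X j : MvPolynomial J R) • F x) :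
    WithOps t hcomm →ₗ[MvPolynomial J R] Y where
  toFun x := F (WithOps.equiv t hcomm x)
  map_add' x y := by rw [map_add, map_add]
  map_smul' P x := by
    rw [RingHom.id_apply, WithOps.smul_def]
    exact map_polyAct_smul F hF P _

theorem toModule_apply (F : N →ₗ[R] Y)
    (hF : ∀ j x, F (t j x) = (MvPolynomial.X j : MvPolynomial J R) • F x)
    (x : WithOps t hcomm) :
    toModule (hcomm := hcomm) F hF x = F (WithOps.equiv t hcomm x) := rfl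

end ToModule

/-! ### the leg -/

section Leg

variable [IsLocalRing (MonoidAlgebra 𝒪 Δ)]
  {K : Type} (f : K → HIdx M) (e : K → (ZMod M)ˣ)
  {Jb : Type} (fb : Jb → HIdx M) (g : K → Jb)
  (hcomm : ∀ i j, Commute (ops (fun j => Hν (xiU 𝒪 π' u) (fb j)) (MonoidAlgebra 𝒪 Δ) i)
    (ops (fun j => Hν (xiU 𝒪 π' u) (fb j)) (MonoidAlgebra 𝒪 Δ) j))
  (θR : Jb → IsLocalRing.ResidueField (MonoidAlgebra 𝒪 Δ))

/-- the unit by which `X (inl k)` is twisted: the image of `⟨e k⟩ ⟨r_k⟩` -/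
def cU (k : K) : MonoidAlgebra 𝒪 Δ :=
  phiU 𝒪 u (MonoidAlgebra.single (π' (e k) * diaOf π' (f k)) (1 : 𝒪))

/-- the diamond by which the standard operator of an index differs from the nebentypus one:
the class of `r` for `T_r`, `1` for `U_q` -/
def diaIdx : HIdx M → (ZMod M)ˣ
  | Sum.inl r => pUnit r.2.1 r.2.2
  | Sum.inr _ => 1

omit [IsLocalRing (MonoidAlgebra 𝒪 Δ)] in
theorem diaOf_eq (i : HIdx M) : diaOf π' i = π' (diaIdx i) := by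
  rcases i with r | q
  · rfl
  · exact (map_one π').symm

omit [IsLocalRing (MonoidAlgebra 𝒪 Δ)] in
theorem cU_eq (k : K) :
    cU 𝒪 π' u f e k =
      ((xiU 𝒪 π' u (e k * diaIdx (f k)) : (MonoidAlgebra 𝒪 Δ)ˣ) : MonoidAlgebra 𝒪 Δ) := by
  rw [xiU_apply, map_mul, ← diaOf_eq]
  exact phiU_single_one 𝒪 u _

/-- the image of the diamond `⟨d⟩` -/
def dU (d : (ZMod M)ˣ) : MonoidAlgebra 𝒪 Δ := phiU 𝒪 u (MonoidAlgebra.single (π' d) (1 : 𝒪))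

omit [IsLocalRing (MonoidAlgebra 𝒪 Δ)] in
theorem dU_eq (d : (ZMod M)ˣ) :
    dU 𝒪 π' u d = ((xiU 𝒪 π' u d : (MonoidAlgebra 𝒪 Δ)ˣ) : MonoidAlgebra 𝒪 Δ) := by
  rw [xiU_apply, dU, phiU_single_one]

/-- the change of polynomial rings `MvPolynomial (K ⊕ (ZMod M)ˣ) 𝒪 → MvPolynomial Jb 𝒪[Δ]` -/
def PsiU : MvPolynomial (K ⊕ (ZMod M)ˣ) 𝒪 →ₐ[𝒪] MvPolynomial Jb (MonoidAlgebra 𝒪 Δ) :=
  MvPolynomial.aeval (Sum.elim
    (fun k => MvPolynomial.C (cU 𝒪 π' u f e k) * MvPolynomial.X (g k))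
    (fun d => MvPolynomial.C (dU 𝒪 π' u d)))

omit [IsLocalRing (MonoidAlgebra 𝒪 Δ)] in
theorem PsiU_inl (k : K) :
    PsiU 𝒪 π' u f e g (MvPolynomial.X (Sum.inl k)) =
      (MvPolynomial.C (cU 𝒪 π' u f e k) * MvPolynomial.X (g k) :
        MvPolynomial Jb (MonoidAlgebra 𝒪 Δ)) := by
  unfold PsiU
  rw [MvPolynomial.aeval_X]
  rfl

omit [IsLocalRing (MonoidAlgebra 𝒪 Δ)] in
theorem PsiU_inr (d : (ZMod M)ˣ) :
    PsiU 𝒪 π' u f e (Jb := Jb) g (MvPolynomial.X (Sum.inr d)) =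
      (MvPolynomial.C (dU 𝒪 π' u d) : MvPolynomial Jb (MonoidAlgebra 𝒪 Δ)) := by
  unfold PsiU
  rw [MvPolynomial.aeval_X]
  rfl

/-- **the target of the leg**: the localisation of `HN (Hν (xiU ..) ∘ fb) 𝒪[Δ] _` at `θR`, as a module
over `MvPolynomial (K ⊕ (ZMod M)ˣ) 𝒪` through `PsiU` -/
@[nolint unusedArguments]
def YU (_f : K → HIdx M) (_e : K → (ZMod M)ˣ) (_g : K → Jb) : Type :=
  LocalizedModule (Sθ θR) (HN (fun j => Hν (xiU 𝒪 π' u) (fb j)) (MonoidAlgebra 𝒪 Δ) hcomm)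

instance : AddCommGroup (YU 𝒪 π' u fb hcomm θR f e g) :=
  inferInstanceAs (AddCommGroup (LocalizedModule (Sθ θR)
    (HN (fun j => Hν (xiU 𝒪 π' u) (fb j)) (MonoidAlgebra 𝒪 Δ) hcomm)))

instance instModuleYUR : Module (MonoidAlgebra 𝒪 Δ) (YU 𝒪 π' u fb hcomm θR f e g) :=
  inferInstanceAs (Module (MonoidAlgebra 𝒪 Δ) (LocalizedModule (Sθ θR)
    (HN (fun j => Hν (xiU 𝒪 π' u) (fb j)) (MonoidAlgebra 𝒪 Δ) hcomm)))

instance instModuleYUP :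
    Module (MvPolynomial Jb (MonoidAlgebra 𝒪 Δ)) (YU 𝒪 π' u fb hcomm θR f e g) :=
  inferInstanceAs (Module (MvPolynomial Jb (MonoidAlgebra 𝒪 Δ)) (LocalizedModule (Sθ θR)
    (HN (fun j => Hν (xiU 𝒪 π' u) (fb j)) (MonoidAlgebra 𝒪 Δ) hcomm)))

instance : IsScalarTower (MonoidAlgebra 𝒪 Δ) (MvPolynomial Jb (MonoidAlgebra 𝒪 Δ))
    (YU 𝒪 π' u fb hcomm θR f e g) :=
  inferInstanceAs (IsScalarTower (MonoidAlgebra 𝒪 Δ) (MvPolynomial Jb (MonoidAlgebra 𝒪 Δ))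
    (LocalizedModule (Sθ θR)
      (HN (fun j => Hν (xiU 𝒪 π' u) (fb j)) (MonoidAlgebra 𝒪 Δ) hcomm)))

instance instModuleYU𝒪 : Module 𝒪 (YU 𝒪 π' u fb hcomm θR f e g) :=
  Module.compHom _ (algebraMap 𝒪 (MonoidAlgebra 𝒪 Δ))

instance instModuleYUK :
    Module (MvPolynomial (K ⊕ (ZMod M)ˣ) 𝒪) (YU 𝒪 π' u fb hcomm θR f e g) :=
  Module.compHom _ (PsiU 𝒪 π' u f e g).toRingHom

theorem smul_YU_𝒪 (a : 𝒪) (y : YU 𝒪 π' u fb hcomm θR f e g) :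
    a • y = algebraMap 𝒪 (MonoidAlgebra 𝒪 Δ) a • y := rfl

theorem smul_YU_K (Q : MvPolynomial (K ⊕ (ZMod M)ˣ) 𝒪) (y : YU 𝒪 π' u fb hcomm θR f e g) :
    Q • y = PsiU 𝒪 π' u f e g Q • y := rfl

instance : IsScalarTower 𝒪 (MvPolynomial (K ⊕ (ZMod M)ˣ) 𝒪) (YU 𝒪 π' u fb hcomm θR f e g) where
  smul_assoc a Q y := by
    show PsiU 𝒪 π' u f e g (a • Q) • y =
      algebraMap 𝒪 (MonoidAlgebra 𝒪 Δ) a • (PsiU 𝒪 π' u f e g Q • y)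
    rw [map_smul, ← algebraMap_smul (MonoidAlgebra 𝒪 Δ) a (PsiU 𝒪 π' u f e g Q), smul_assoc]

omit [IsLocalRing (MonoidAlgebra 𝒪 Δ)] in
/-- the operators in terms of the polynomial ring -/
theorem symm_smul_heckeH (c : MonoidAlgebra 𝒪 Δ) (j : Jb)
    (x : H1 (chiXi (xiU 𝒪 π' u)) (MonoidAlgebra 𝒪 Δ)) :
    (WithOps.equiv (ops (fun j => Hν (xiU 𝒪 π' u) (fb j)) (MonoidAlgebra 𝒪 Δ)) hcomm).symm
        (c • heckeH (MonoidAlgebra 𝒪 Δ) (Hν (xiU 𝒪 π' u) (fb j)) x) =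
      (MvPolynomial.C c * MvPolynomial.X j : MvPolynomial Jb (MonoidAlgebra 𝒪 Δ)) •
        (WithOps.equiv (ops (fun j => Hν (xiU 𝒪 π' u) (fb j)) (MonoidAlgebra 𝒪 Δ)) hcomm).symm
          x := by
  apply (WithOps.equiv (ops (fun j => Hν (xiU 𝒪 π' u) (fb j)) (MonoidAlgebra 𝒪 Δ)) hcomm).injective
  rw [LinearEquiv.apply_symm_apply, mul_smul, WithOps.C_smul, map_smul, WithOps.X_smul,
    LinearEquiv.apply_symm_apply]
  rfl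

omit [IsLocalRing (MonoidAlgebra 𝒪 Δ)] in
theorem symm_smul (c : MonoidAlgebra 𝒪 Δ) (x : H1 (chiXi (xiU 𝒪 π' u)) (MonoidAlgebra 𝒪 Δ)) :
    (WithOps.equiv (ops (fun j => Hν (xiU 𝒪 π' u) (fb j)) (MonoidAlgebra 𝒪 Δ)) hcomm).symm
        (c • x) =
      (MvPolynomial.C c : MvPolynomial Jb (MonoidAlgebra 𝒪 Δ)) •
        (WithOps.equiv (ops (fun j => Hν (xiU 𝒪 π' u) (fb j)) (MonoidAlgebra 𝒪 Δ)) hcomm).symm
          x := by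
  rw [WithOps.C_smul, map_smul]

/-- the leg on `H¹`, with values in the localisation -/
def legF₀ : H1 (chiXi (xiOf 𝒪 π')) (MonoidAlgebra 𝒪 Δ') →+ LocalizedModule (Sθ θR)
    (HN (fun j => Hν (xiU 𝒪 π' u) (fb j)) (MonoidAlgebra 𝒪 Δ) hcomm) :=
  (LocalizedModule.mkLinearMap (Sθ θR)
    (HN (fun j => Hν (xiU 𝒪 π' u) (fb j)) (MonoidAlgebra 𝒪 Δ) hcomm)).toAddMonoidHom.comp
    ((WithOps.equiv (ops (fun j => Hν (xiU 𝒪 π' u) (fb j)) (MonoidAlgebra 𝒪 Δ))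
      hcomm).symm.toLinearMap.toAddMonoidHom.comp (push 𝒪 π' u))

theorem legF₀_apply (ξ : H1 (chiXi (xiOf 𝒪 π')) (MonoidAlgebra 𝒪 Δ')) :
    legF₀ 𝒪 π' u fb hcomm θR ξ = LocalizedModule.mk
      ((WithOps.equiv (ops (fun j => Hν (xiU 𝒪 π' u) (fb j)) (MonoidAlgebra 𝒪 Δ)) hcomm).symm
        (push 𝒪 π' u ξ)) 1 := rfl

theorem legF₀_smul (r : MonoidAlgebra 𝒪 Δ') (ξ : H1 (chiXi (xiOf 𝒪 π')) (MonoidAlgebra 𝒪 Δ')) :
    legF₀ 𝒪 π' u fb hcomm θR (r • ξ) = phiU 𝒪 u r • legF₀ 𝒪 π' u fb hcomm θR ξ := by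
  rw [legF₀_apply, legF₀_apply, push_smul, map_smul]
  exact (loc_smul_mk (Sθ θR) _ _ 1).symm

theorem legF₀_smul_heckeH (r : MonoidAlgebra 𝒪 Δ') (j : Jb)
    (ξ : H1 (chiXi (xiOf 𝒪 π')) (MonoidAlgebra 𝒪 Δ')) :
    legF₀ 𝒪 π' u fb hcomm θR (r • heckeH (MonoidAlgebra 𝒪 Δ') (Hν (xiOf 𝒪 π') (fb j)) ξ) =
      (MvPolynomial.C (phiU 𝒪 u r) * MvPolynomial.X j : MvPolynomial Jb (MonoidAlgebra 𝒪 Δ)) •
        legF₀ 𝒪 π' u fb hcomm θR ξ := by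
  rw [legF₀_apply, legF₀_apply, push_smul, push_heckeH, symm_smul_heckeH,
    LocalizedModule.smul'_mk]

/-- the leg on `H¹`, as an `𝒪`-linear map -/
def legF : H1 (chiXi (xiOf 𝒪 π')) (MonoidAlgebra 𝒪 Δ') →ₗ[𝒪] YU 𝒪 π' u fb hcomm θR f e g where
  toFun ξ := legF₀ 𝒪 π' u fb hcomm θR ξ
  map_add' ξ ξ' := map_add (legF₀ 𝒪 π' u fb hcomm θR) ξ ξ'
  map_smul' a ξ := by
    have h1 : legF₀ 𝒪 π' u fb hcomm θR (a • ξ) =
        algebraMap 𝒪 (MonoidAlgebra 𝒪 Δ) a • legF₀ 𝒪 π' u fb hcomm θR ξ := by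
      rw [← algebraMap_smul (MonoidAlgebra 𝒪 Δ') a ξ, legF₀_smul, AlgHom.commutes]
    exact h1

theorem legF_apply (ξ : H1 (chiXi (xiOf 𝒪 π')) (MonoidAlgebra 𝒪 Δ')) :
    legF 𝒪 π' u f e fb g hcomm θR ξ = legF₀ 𝒪 π' u fb hcomm θR ξ := rfl

omit [IsLocalRing (MonoidAlgebra 𝒪 Δ)] in
theorem heckeH_congr_idx {R : Type} [CommRing R] (Ξ : (ZMod M)ˣ →* Rˣ) {A : Type} [AddCommGroup A]
    [Module R A] {i i' : HIdx M} (h : i = i') (ξ : H1 (chiXi Ξ) A) :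
    heckeH A (Hν Ξ i) ξ = heckeH A (Hν Ξ i') ξ := by
  subst h
  rfl

variable (hg : ∀ k, fb (g k) = f k)

include hg in
/-- **the leg intertwines the operators** -/
theorem legF_opsB (κ : K ⊕ (ZMod M)ˣ) (ξ : H1 (chiXi (xiOf 𝒪 π')) (MonoidAlgebra 𝒪 Δ')) :
    legF 𝒪 π' u f e fb g hcomm θR (opsB 𝒪 π' f e κ ξ) =
      (MvPolynomial.X κ : MvPolynomial (K ⊕ (ZMod M)ˣ) 𝒪) • legF 𝒪 π' u f e fb g hcomm θR ξ := by
  rcases κ with k | d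
  · have h1 : legF₀ 𝒪 π' u fb hcomm θR (opsB 𝒪 π' f e (Sum.inl k) ξ) =
        (MvPolynomial.C (cU 𝒪 π' u f e k) * MvPolynomial.X (g k) :
          MvPolynomial Jb (MonoidAlgebra 𝒪 Δ)) • legF₀ 𝒪 π' u fb hcomm θR ξ := by
      rw [opsB_inl_apply, heckeH_congr_idx (xiOf 𝒪 π') (hg k).symm ξ, legF₀_smul_heckeH]
      rfl
    rw [smul_YU_K, PsiU_inl]
    exact h1
  · have h1 : legF₀ 𝒪 π' u fb hcomm θR (opsB 𝒪 π' f e (Sum.inr d) ξ) =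
        (MvPolynomial.C (dU 𝒪 π' u d) : MvPolynomial Jb (MonoidAlgebra 𝒪 Δ)) •
          legF₀ 𝒪 π' u fb hcomm θR ξ := by
      rw [opsB_inr_apply, legF₀_smul, ← MvPolynomial.algebraMap_eq, algebraMap_smul]
      rfl
    rw [smul_YU_K, PsiU_inr]
    exact h1

/-- **the leg**, linear over `MvPolynomial (K ⊕ (ZMod M)ˣ) 𝒪` -/
def legP : WithOps (opsB 𝒪 π' f e) (opsB_comm 𝒪 π' f e) →ₗ[MvPolynomial (K ⊕ (ZMod M)ˣ) 𝒪]
    YU 𝒪 π' u fb hcomm θR f e g :=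
  toModule (legF 𝒪 π' u f e fb g hcomm θR) (legF_opsB 𝒪 π' u f e fb g hcomm θR hg)

theorem legP_apply (x : WithOps (opsB 𝒪 π' f e) (opsB_comm 𝒪 π' f e)) :
    legP 𝒪 π' u f e fb g hcomm θR hg x =
      legF₀ 𝒪 π' u fb hcomm θR (WithOps.equiv (opsB 𝒪 π' f e) (opsB_comm 𝒪 π' f e) x) := rfl

/-- **the leg is onto** -/
theorem legP_surjective (hcd : CD1 (chiXi (xiOf 𝒪 π')))
    (hu : Function.Surjective (phiU 𝒪 u))
    (hmk : Function.Surjective (LocalizedModule.mkLinearMap (Sθ θR)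
      (HN (fun j => Hν (xiU 𝒪 π' u) (fb j)) (MonoidAlgebra 𝒪 Δ) hcomm))) :
    Function.Surjective (legP 𝒪 π' u f e fb g hcomm θR hg) := by
  intro y
  obtain ⟨x, hx⟩ := hmk y
  obtain ⟨ξ, hξ⟩ := push_surjective 𝒪 π' u hcd hu
    (WithOps.equiv (ops (fun j => Hν (xiU 𝒪 π' u) (fb j)) (MonoidAlgebra 𝒪 Δ)) hcomm x)
  refine ⟨(WithOps.equiv (opsB 𝒪 π' f e) (opsB_comm 𝒪 π' f e)).symm ξ, ?_⟩
  rw [legP_apply, LinearEquiv.apply_symm_apply, legF₀_apply, hξ, LinearEquiv.symm_apply_apply]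
  exact hx

/-- the elements of the small polynomial ring whose image lies outside the maximal ideal of `θR`
act bijectively -/
theorem bijective_smul_YU (s : MvPolynomial (K ⊕ (ZMod M)ˣ) 𝒪)
    (hs : PsiU 𝒪 π' u f e g s ∈ Sθ θR) :
    Function.Bijective (fun y : YU 𝒪 π' u fb hcomm θR f e g => s • y) := by
  have h := IsLocalizedModule.map_units (LocalizedModule.mkLinearMap (Sθ θR)
    (HN (fun j => Hν (xiU 𝒪 π' u) (fb j)) (MonoidAlgebra 𝒪 Δ) hcomm))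
    (⟨PsiU 𝒪 π' u f e g s, hs⟩ : Sθ θR)
  exact (Module.End.isUnit_iff _).mp h

end Leg

end Fermat.Agent.S43.Hecke.BridgeLeg
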