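import Mathlib
import Fermat.Agent.S43.Rho.Lam
import Fermat.Agent.S43.Hecke.Bridge

/-!
# PROJECT R (S43), the bridge L1 ↔ L3 (abstract half, second leg): the Hecke algebra of a module
acts on every quotient on which the complement of `m` is invertible

`O`, `P`, `m` as in `Rho/Lam`.  `N` a `P`-module.

* `quotL` : from a SURJECTIVE `P`-linear map `gL : Loc m N → Loc m Y`, the algebra map
  `T O m N →ₐ[O] T O m Y`, onto, `toT ↦ toT`, `ofP ↦ ofP`, `gL (x • v) = quotL x • gL v`;
* for a `P`-module `Y` on which every `s ∉ m` acts bijectively: `mk_bijective`,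
  `eY : Y ≃ₗ[P] Loc m Y`; for `g : N →ₗ[P] Y` onto, `gY : Loc m N →ₗ[P] Y` (onto,
  `gY (mk x s) = ` the `y` with `s • y = g x`) and
  **`quotY : T O m N →ₐ[O] Module.End O Y`** with `quotY (ofP Q) y = Q • y` and
  `quotY x (gY v) = gY (x • v)`; `exists_smul_quotY_eq` (every element acts as a fraction),
  `quotY_commute` (the action commutes with everything commuting with `P`).
-/

set_option autoImplicit false

namespace Fermat.Agent.S43.Hecke.BridgeQuot

open Fermat.Agent.S43.Rho.Lam Fermat.Agent.S43.Hecke.Bridge

variable (O : Type) [CommRing O] {P : Type} [CommRing P] [Algebra O P] (m : Ideal P) [m.IsMaximal]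
  {N : Type} [AddCommGroup N] [Module O N] [Module P N] [IsScalarTower O P N]
  {Y : Type} [AddCommGroup Y] [Module O Y] [Module P Y] [IsScalarTower O P Y]

/-! ### from a surjection of the localisations -/

section Loc

variable {m}
variable (gL : Loc m N →ₗ[P] Loc m Y)

/-- what kills the module kills its quotients -/
theorem ker_toT_le_of_surjective (hgL : Function.Surjective gL) :
    RingHom.ker (toT O m N).toRingHom ≤ RingHom.ker (toT O m Y).toRingHom := by
  intro a ha
  rw [RingHom.mem_ker] at ha ⊢
  apply T_faithful
  intro w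
  obtain ⟨v, rfl⟩ := hgL w
  have h0 : toT O m N a = 0 := ha
  show toT O m Y a • gL v = 0
  rw [toT_smul, ← extL_apply, ← map_smul, extL_apply, ← toT_smul O m N a, h0, zero_smul, map_zero]

/-- **the second leg** `T(N) → T(Y)` from a surjection `Loc m N → Loc m Y` -/
noncomputable def quotL (hgL : Function.Surjective gL) : T O m N →ₐ[O] T O m Y :=
  AlgHom.liftOfSurjective (toT O m N) (toT_surjective O m N) (toT O m Y)
    (ker_toT_le_of_surjective O gL hgL)

theorem quotL_toT (hgL : Function.Surjective gL) (a : Localization.AtPrime m) :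
    quotL O gL hgL (toT O m N a) = toT O m Y a :=
  AlgHom.liftOfSurjective_apply _ _ _ _ a

theorem quotL_ofP (hgL : Function.Surjective gL) (Q : P) :
    quotL O gL hgL (ofP O m N Q) = ofP O m Y Q :=
  quotL_toT O gL hgL _

theorem quotL_surjective (hgL : Function.Surjective gL) :
    Function.Surjective (quotL O gL hgL) := by
  intro y
  obtain ⟨a, rfl⟩ := toT_surjective O m Y y
  exact ⟨toT O m N a, quotL_toT O gL hgL a⟩

/-- the surjection is equivariant -/
theorem quotL_smul (hgL : Function.Surjective gL) (x : T O m N) (v : Loc m N) :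
    gL (x • v) = quotL O gL hgL x • gL v := by
  obtain ⟨a, rfl⟩ := toT_surjective O m N x
  rw [quotL_toT, toT_smul, toT_smul, ← extL_apply, map_smul, extL_apply]

end Loc

/-! ### a module on which the complement of `m` is invertible -/

section Direct

variable (hbij : ∀ s ∈ m.primeCompl, Function.Bijective (fun y : Y => s • y))

include hbij in
/-- such a module is its own localisation -/
theorem mk_bijective :
    Function.Bijective (LocalizedModule.mkLinearMap m.primeCompl Y) := by
  constructor
  · rw [← LinearMap.ker_eq_bot, LinearMap.ker_eq_bot']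
    intro y hy
    rw [LocalizedModule.mkLinearMap_apply, ← LocalizedModule.zero_mk 1, LocalizedModule.mk_eq] at hy
    obtain ⟨u, hu⟩ := hy
    rw [one_smul, smul_zero, smul_zero] at hu
    apply (hbij u u.2).1
    show (u : P) • y = (u : P) • 0
    rw [smul_zero]
    exact hu
  · intro w
    induction w using LocalizedModule.induction_on with
    | h y s =>
      obtain ⟨y', hy'⟩ := (hbij s s.2).2 y
      refine ⟨y', ?_⟩
      rw [LocalizedModule.mkLinearMap_apply, LocalizedModule.mk_eq]
      refine ⟨1, ?_⟩
      rw [one_smul, one_smul, one_smul]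
      exact hy'

/-- the identification of `Y` with its localisation -/
noncomputable def eY : Y ≃ₗ[P] Loc m Y :=
  LinearEquiv.ofBijective (LocalizedModule.mkLinearMap m.primeCompl Y) (mk_bijective m hbij)

theorem eY_apply (y : Y) : eY m hbij y = LocalizedModule.mk y 1 := rfl

variable (g : N →ₗ[P] Y)

/-- the map induced on the localisation -/
noncomputable def gY : Loc m N →ₗ[P] Y :=
  (eY m hbij).symm.toLinearMap ∘ₗ jLocP m g

theorem gY_mk_one (x : N) : gY m hbij g (LocalizedModule.mk x 1) = g x := by
  show (eY m hbij).symm (jLocP m g (LocalizedModule.mk x 1)) = g x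
  rw [LinearEquiv.symm_apply_eq, eY_apply]
  exact IsLocalizedModule.map_LocalizedModules m.primeCompl g x 1

theorem smul_gY_mk (x : N) (s : m.primeCompl) :
    (s : P) • gY m hbij g (LocalizedModule.mk x s) = g x := by
  rw [← map_smul, ← gY_mk_one m hbij g x]
  congr 1
  rw [LocalizedModule.smul'_mk, LocalizedModule.mk_eq]
  refine ⟨1, ?_⟩
  rw [one_smul, one_smul, one_smul]
  rfl

theorem gY_surjective (hg : Function.Surjective g) : Function.Surjective (gY m hbij g) := by
  intro y
  obtain ⟨x, rfl⟩ := hg y
  exact ⟨LocalizedModule.mk x 1, gY_mk_one m hbij g x⟩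

theorem jLocP_surjective (hg : Function.Surjective g) : Function.Surjective (jLocP m g) :=
  IsLocalizedModule.map_surjective m.primeCompl (LocalizedModule.mkLinearMap m.primeCompl N)
    (LocalizedModule.mkLinearMap m.primeCompl Y) g hg

/-- **the Hecke algebra of `N` acts on `Y`** -/
noncomputable def quotY (hg : Function.Surjective g) : T O m N →ₐ[O] Module.End O Y :=
  ((((eY m hbij).restrictScalars O).symm.conjAlgEquiv O : _ ≃ₐ[O] Module.End O Y) :
      Module.End O (Loc m Y) →ₐ[O] Module.End O Y).comp
    ((T O m Y).val.comp (quotL O (jLocP m g) (jLocP_surjective m g hg)))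

theorem quotY_apply (hg : Function.Surjective g) (x : T O m N) (y : Y) :
    quotY O m hbij g hg x y =
      (eY m hbij).symm (quotL O (jLocP m g) (jLocP_surjective m g hg) x • eY m hbij y) := rfl

theorem quotY_ofP (hg : Function.Surjective g) (Q : P) (y : Y) :
    quotY O m hbij g hg (ofP O m N Q) y = Q • y := by
  rw [quotY_apply, quotL_ofP, ofP_smul, ← map_smul, LinearEquiv.symm_apply_apply]

/-- the surjection `gY` is equivariant -/
theorem quotY_gY (hg : Function.Surjective g) (x : T O m N) (v : Loc m N) :
    quotY O m hbij g hg x (gY m hbij g v) = gY m hbij g (x • v) := by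
  rw [quotY_apply]
  show (eY m hbij).symm (_ • eY m hbij ((eY m hbij).symm (jLocP m g v))) =
    (eY m hbij).symm (jLocP m g (x • v))
  rw [LinearEquiv.apply_symm_apply, quotL_smul]

/-- the image commutes with the action of `P` -/
theorem quotY_smul_comm (hg : Function.Surjective g) (x : T O m N) (Q : P) (y : Y) :
    quotY O m hbij g hg x (Q • y) = Q • quotY O m hbij g hg x y := by
  obtain ⟨v, rfl⟩ := gY_surjective m hbij g hg y
  rw [← map_smul, quotY_gY, quotY_gY, ← map_smul]
  congr 1
  rw [← ofP_smul O m N Q v, ← ofP_smul O m N Q (x • v), ← mul_smul, ← mul_smul, mul_comm]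

/-- every element of the Hecke algebra acts on `Y` as a fraction `Q / s` -/
theorem exists_smul_quotY_eq (hg : Function.Surjective g) (x : T O m N) :
    ∃ Q : P, ∃ s : P, s ∈ m.primeCompl ∧ ∀ y : Y, s • quotY O m hbij g hg x y = Q • y := by
  obtain ⟨a, rfl⟩ := toT_surjective O m N x
  obtain ⟨⟨Q, s⟩, hQs⟩ := IsLocalization.surj m.primeCompl a
  refine ⟨Q, s, s.2, fun y => ?_⟩
  have h1 : ofP O m N (s : P) * toT O m N a = ofP O m N Q := by
    show toT O m N (algebraMap P (Localization.AtPrime m) s) * toT O m N a =
      toT O m N (algebraMap P (Localization.AtPrime m) Q)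
    rw [← map_mul, mul_comm]
    exact congrArg _ hQs
  rw [← quotY_ofP O m hbij g hg (s : P) (quotY O m hbij g hg (toT O m N a) y),
    ← Module.End.mul_apply, ← map_mul, h1, quotY_ofP]

/-- the action of the Hecke algebra commutes with every additive endomorphism of `Y` commuting
with the action of `P` -/
theorem quotY_commute (hg : Function.Surjective g) (x : T O m N) (h : Y →+ Y)
    (hh : ∀ (Q : P) (y : Y), h (Q • y) = Q • h y) (y : Y) :
    quotY O m hbij g hg x (h y) = h (quotY O m hbij g hg x y) := by
  obtain ⟨Q, s, hs, hQs⟩ := exists_smul_quotY_eq O m hbij g hg x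
  apply (hbij s hs).1
  show s • quotY O m hbij g hg x (h y) = s • h (quotY O m hbij g hg x y)
  rw [hQs, ← hh s, hQs, hh]

end Direct

end Fermat.Agent.S43.Hecke.BridgeQuot
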