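import Mathlib
import Fermat.Agent.S43.Hecke.BridgeLeg
import Fermat.Agent.S43.Hecke.BridgeQuot
import Fermat.Agent.S43.Rho.LamBridge

/-!
# PROJECT R (S43), the bridge L1 ↔ L3: the Hecke algebra of the Tate side acts on every Hecke
module of `Γ₀(M)` over `𝒪[Δ]` whose character factors through the big diamond group

`P := MvPolynomial (K ⊕ (ZMod M)ˣ) 𝒪`, `𝔪` a maximal ideal of `P`.  `L` the Tate side (a
`P`-module), `X` the ambient `P`-module (`Hom(Γ₁(M), 𝒪)`), `ι : L → X`, and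
`β : WithOps (opsB 𝒪 π' f e) _ → X` the restriction of the big Betti module (`Inst/BridgeOps.betaP`),
with the roof hypothesis of `Rho/LamBridge`.  For a character `u : Δ' →* 𝒪[Δ]ˣ` with `phiU` onto,
a family `fb : Jb → HIdx M` containing `f` (`fb (g k) = f k`) and `θR` whose contraction to `P` is
`𝔪`:

**`exists_bridge`** : a ring homomorphism
`Φ : T 𝒪 𝔪 L →+* Module.End (MvPolynomial Jb 𝒪[Δ]) (LocalizedModule (Sθ θR) (HN (Hν (xiU ..) ∘ fb) 𝒪[Δ] _))`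
with `Φ (algebraMap a) = a •`, `Φ (ofP (X (inl k))) = (C (cU k) * X (g k)) •`,
`Φ (ofP (X (inr d))) = xiU d •`.
-/

set_option autoImplicit false

open CongruenceSubgroup
open scoped MatrixGroups

noncomputable section

namespace Fermat.Agent.S43.Hecke.BridgeMain

open Fermat.Agent.S30.Hecke.DoubleCoset Fermat.Agent.S30.Hecke.Gamma0Cosets
open Fermat.Agent.S43.Hecke.Defs Fermat.Agent.S43.Hecke.Seam Fermat.Agent.S43.Hecke.Shapiro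
  Fermat.Agent.S43.Hecke.Inst Fermat.Agent.S43.Hecke.Inst.Comm
  Fermat.Agent.S43.Hecke.Inst.Restrict1 Fermat.Agent.S43.Hecke.Inst.BridgeOps
open Fermat.Agent.S43.Hecke.PolyModule Fermat.Agent.S43.Hecke.Loc Fermat.Agent.S43.Hecke.Scalar
  Fermat.Agent.S43.Hecke.BridgeLeg Fermat.Agent.S43.Hecke.BridgeQuot
open Fermat.Agent.S43.Rho.Lam Fermat.Agent.S43.Rho.LamBridge

variable {M : ℕ} (𝒪 : Type) [CommRing 𝒪] {Δ' : Type} [CommGroup Δ'] (π' : (ZMod M)ˣ →* Δ')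
  {Δ : Type} [CommGroup Δ] (u : Δ' →* (MonoidAlgebra 𝒪 Δ)ˣ)
  [IsLocalRing (MonoidAlgebra 𝒪 Δ)]
  {K : Type} (f : K → HIdx M) (e : K → (ZMod M)ˣ)
  {Jb : Type} (fb : Jb → HIdx M) (g : K → Jb) (hg : ∀ k, fb (g k) = f k)
  (hcomm : ∀ i j, Commute (ops (fun j => Hν (xiU 𝒪 π' u) (fb j)) (MonoidAlgebra 𝒪 Δ) i)
    (ops (fun j => Hν (xiU 𝒪 π' u) (fb j)) (MonoidAlgebra 𝒪 Δ) j))
  (θR : Jb → IsLocalRing.ResidueField (MonoidAlgebra 𝒪 Δ))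
  (𝔪 : Ideal (MvPolynomial (K ⊕ (ZMod M)ˣ) 𝒪)) [𝔪.IsMaximal]
  (h𝔪 : ∀ s : MvPolynomial (K ⊕ (ZMod M)ˣ) 𝒪, s ∉ 𝔪 → PsiU 𝒪 π' u f e g s ∈ Sθ θR)
  {L : Type} [AddCommGroup L] [Module 𝒪 L] [Module (MvPolynomial (K ⊕ (ZMod M)ˣ) 𝒪) L]
  [IsScalarTower 𝒪 (MvPolynomial (K ⊕ (ZMod M)ˣ) 𝒪) L]
  {X : Type} [AddCommGroup X] [Module 𝒪 X] [Module (MvPolynomial (K ⊕ (ZMod M)ˣ) 𝒪) X]
  [IsScalarTower 𝒪 (MvPolynomial (K ⊕ (ZMod M)ˣ) 𝒪) X]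
  (β : WithOps (opsB 𝒪 π' f e) (opsB_comm 𝒪 π' f e) →ₗ[MvPolynomial (K ⊕ (ZMod M)ˣ) 𝒪] X)
  (ι : L →ₗ[MvPolynomial (K ⊕ (ZMod M)ˣ) 𝒪] X)
  (hβ : Function.Injective (locMap 𝔪 β))
  (hroof : ∀ x, ∃ s : 𝔪.primeCompl,
    (s : MvPolynomial (K ⊕ (ZMod M)ˣ) 𝒪) • β x ∈ LinearMap.range ι)
  (hcd : CD1 (chiXi (xiOf 𝒪 π'))) (hu : Function.Surjective (phiU 𝒪 u))
  (hmk : Function.Surjective (LocalizedModule.mkLinearMap (Sθ θR)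
    (HN (fun j => Hν (xiU 𝒪 π' u) (fb j)) (MonoidAlgebra 𝒪 Δ) hcomm)))

include h𝔪 in
theorem hbij_YU : ∀ s ∈ 𝔪.primeCompl,
    Function.Bijective (fun y : YU 𝒪 π' u fb hcomm θR f e g => s • y) :=
  fun s hs => bijective_smul_YU 𝒪 π' u f e fb g hcomm θR s (h𝔪 s hs)

/-- **the bridge, on the synonym `YU`** -/
def bridgeY : T 𝒪 𝔪 L →ₐ[𝒪] Module.End 𝒪 (YU 𝒪 π' u fb hcomm θR f e g) :=
  (quotY 𝒪 𝔪 (hbij_YU 𝒪 π' u f e fb g hcomm θR 𝔪 h𝔪) (legP 𝒪 π' u f e fb g hcomm θR hg)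
    (legP_surjective 𝒪 π' u f e fb g hcomm θR hg hcd hu hmk)).comp
    (roof 𝒪 𝔪 β ι hβ hroof)

theorem bridgeY_ofP (Q : MvPolynomial (K ⊕ (ZMod M)ˣ) 𝒪) (y : YU 𝒪 π' u fb hcomm θR f e g) :
    bridgeY 𝒪 π' u f e fb g hg hcomm θR 𝔪 h𝔪 β ι hβ hroof hcd hu hmk (ofP 𝒪 𝔪 L Q) y =
      PsiU 𝒪 π' u f e g Q • y := by
  unfold bridgeY
  rw [AlgHom.comp_apply, roof_ofP, quotY_ofP]
  rfl

/-- the bridge commutes with the big polynomial ring -/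
theorem bridgeY_smul (x : T 𝒪 𝔪 L) (Q : MvPolynomial Jb (MonoidAlgebra 𝒪 Δ))
    (y : YU 𝒪 π' u fb hcomm θR f e g) :
    bridgeY 𝒪 π' u f e fb g hg hcomm θR 𝔪 h𝔪 β ι hβ hroof hcd hu hmk x (Q • y) =
      Q • bridgeY 𝒪 π' u f e fb g hg hcomm θR 𝔪 h𝔪 β ι hβ hroof hcd hu hmk x y := by
  unfold bridgeY
  rw [AlgHom.comp_apply]
  exact quotY_commute 𝒪 𝔪 _ _ _ _
    (DistribSMul.toAddMonoidHom (YU 𝒪 π' u fb hcomm θR f e g) Q)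
    (fun s y' => by
      show Q • (PsiU 𝒪 π' u f e g s • y') = PsiU 𝒪 π' u f e g s • (Q • y')
      rw [smul_comm]) y

/-- the bridge, with values in the endomorphisms over the big polynomial ring -/
def bridgeEnd : T 𝒪 𝔪 L →+* Module.End (MvPolynomial Jb (MonoidAlgebra 𝒪 Δ))
    (LocalizedModule (Sθ θR) (HN (fun j => Hν (xiU 𝒪 π' u) (fb j)) (MonoidAlgebra 𝒪 Δ) hcomm)) where
  toFun x :=
    { toFun := fun y => bridgeY 𝒪 π' u f e fb g hg hcomm θR 𝔪 h𝔪 β ι hβ hroof hcd hu hmk x y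
      map_add' := fun y y' =>
        map_add (bridgeY 𝒪 π' u f e fb g hg hcomm θR 𝔪 h𝔪 β ι hβ hroof hcd hu hmk x) y y'
      map_smul' := fun Q y =>
        bridgeY_smul 𝒪 π' u f e fb g hg hcomm θR 𝔪 h𝔪 β ι hβ hroof hcd hu hmk x Q y }
  map_one' := by
    refine LinearMap.ext fun y => ?_
    show bridgeY 𝒪 π' u f e fb g hg hcomm θR 𝔪 h𝔪 β ι hβ hroof hcd hu hmk 1 y = y
    rw [map_one]
    rfl
  map_mul' x x' := by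
    refine LinearMap.ext fun y => ?_
    show bridgeY 𝒪 π' u f e fb g hg hcomm θR 𝔪 h𝔪 β ι hβ hroof hcd hu hmk (x * x') y =
      bridgeY 𝒪 π' u f e fb g hg hcomm θR 𝔪 h𝔪 β ι hβ hroof hcd hu hmk x
        (bridgeY 𝒪 π' u f e fb g hg hcomm θR 𝔪 h𝔪 β ι hβ hroof hcd hu hmk x' y)
    rw [map_mul]
    rfl
  map_zero' := by
    refine LinearMap.ext fun y => ?_
    show bridgeY 𝒪 π' u f e fb g hg hcomm θR 𝔪 h𝔪 β ι hβ hroof hcd hu hmk 0 y = 0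
    rw [map_zero]
    rfl
  map_add' x x' := by
    refine LinearMap.ext fun y => ?_
    show bridgeY 𝒪 π' u f e fb g hg hcomm θR 𝔪 h𝔪 β ι hβ hroof hcd hu hmk (x + x') y =
      bridgeY 𝒪 π' u f e fb g hg hcomm θR 𝔪 h𝔪 β ι hβ hroof hcd hu hmk x y +
        bridgeY 𝒪 π' u f e fb g hg hcomm θR 𝔪 h𝔪 β ι hβ hroof hcd hu hmk x' y
    rw [map_add]
    rfl

theorem bridgeEnd_apply (x : T 𝒪 𝔪 L) (y : LocalizedModule (Sθ θR)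
    (HN (fun j => Hν (xiU 𝒪 π' u) (fb j)) (MonoidAlgebra 𝒪 Δ) hcomm)) :
    bridgeEnd 𝒪 π' u f e fb g hg hcomm θR 𝔪 h𝔪 β ι hβ hroof hcd hu hmk x y =
      bridgeY 𝒪 π' u f e fb g hg hcomm θR 𝔪 h𝔪 β ι hβ hroof hcd hu hmk x y := rfl

/-- the bridge on the polynomial ring -/
theorem bridgeEnd_ofP (Q : MvPolynomial (K ⊕ (ZMod M)ˣ) 𝒪) (y : LocalizedModule (Sθ θR)
    (HN (fun j => Hν (xiU 𝒪 π' u) (fb j)) (MonoidAlgebra 𝒪 Δ) hcomm)) :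
    bridgeEnd 𝒪 π' u f e fb g hg hcomm θR 𝔪 h𝔪 β ι hβ hroof hcd hu hmk (ofP 𝒪 𝔪 L Q) y =
      PsiU 𝒪 π' u f e g Q • y :=
  bridgeY_ofP 𝒪 π' u f e fb g hg hcomm θR 𝔪 h𝔪 β ι hβ hroof hcd hu hmk Q y

/-- **the Hecke operators**: `T'_k ↦ ⟨e k⟩⟨r_k⟩ • X (g k)` -/
theorem bridgeEnd_inl (k : K) (y : LocalizedModule (Sθ θR)
    (HN (fun j => Hν (xiU 𝒪 π' u) (fb j)) (MonoidAlgebra 𝒪 Δ) hcomm)) :
    bridgeEnd 𝒪 π' u f e fb g hg hcomm θR 𝔪 h𝔪 β ι hβ hroof hcd hu hmk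
        (ofP 𝒪 𝔪 L (MvPolynomial.X (Sum.inl k))) y =
      (MvPolynomial.C (cU 𝒪 π' u f e k) * MvPolynomial.X (g k) :
        MvPolynomial Jb (MonoidAlgebra 𝒪 Δ)) • y := by
  rw [bridgeEnd_ofP, PsiU_inl]

/-- **the diamonds**: `⟨d⟩ ↦ xiU d` -/
theorem bridgeEnd_inr (d : (ZMod M)ˣ) (y : LocalizedModule (Sθ θR)
    (HN (fun j => Hν (xiU 𝒪 π' u) (fb j)) (MonoidAlgebra 𝒪 Δ) hcomm)) :
    bridgeEnd 𝒪 π' u f e fb g hg hcomm θR 𝔪 h𝔪 β ι hβ hroof hcd hu hmk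
        (ofP 𝒪 𝔪 L (MvPolynomial.X (Sum.inr d))) y =
      ((xiU 𝒪 π' u d : (MonoidAlgebra 𝒪 Δ)ˣ) : MonoidAlgebra 𝒪 Δ) • y := by
  rw [bridgeEnd_ofP, PsiU_inr, dU_eq, ← MvPolynomial.algebraMap_eq, algebraMap_smul]

/-- the scalars of `𝒪` -/
theorem bridgeEnd_algebraMap (a : 𝒪) (y : LocalizedModule (Sθ θR)
    (HN (fun j => Hν (xiU 𝒪 π' u) (fb j)) (MonoidAlgebra 𝒪 Δ) hcomm)) :
    bridgeEnd 𝒪 π' u f e fb g hg hcomm θR 𝔪 h𝔪 β ι hβ hroof hcd hu hmk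
        (algebraMap 𝒪 (T 𝒪 𝔪 L) a) y = algebraMap 𝒪 (MonoidAlgebra 𝒪 Δ) a • y := by
  rw [bridgeEnd_apply, AlgHom.commutes]
  rfl

end Fermat.Agent.S43.Hecke.BridgeMain
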