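import Mathlib
import Fermat.Agent.S43.Hecke.BridgeMain
import Fermat.Agent.S43.Hecke.Inst.BettiLeg

/-!
# PROJECT R (S43), the bridge L1 ↔ L3, the instance: the roof is `Inst/BridgeOps.betaP`

`P := MvPolynomial (K ⊕ (ZMod M)ˣ) 𝒪`.  The Tate side enters ONLY through a `P`-linear map
`ι : L → WithOps (ops1 𝒪 f e) _` whose range contains every parabolic homomorphism fixed by the
diamonds of `H` (`Rho/LamTate.iotaP`, `mem_range_iotaP`); the Betti side is `betaP 𝒪 π' f e hκ`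
with `H ≤ ker π'`, cut by `X (inl j₀) - C (1 + ℓ₀)`, `ℓ₀ ≡ 1 mod M` a non-Eisenstein prime
(`Inst/BettiLeg`).

* `hroof` : the roof hypothesis of `Rho/LamBridge`;
* **`exists_bridge`** : for every character `Ξ = u ∘ π'` of `(ZMod M)ˣ` with values in `𝒪[Δ]ˣ`
  (`phiU u` onto), a ring homomorphism
  `Φ : T 𝒪 𝔪 L →+* End_{MvPolynomial Jb 𝒪[Δ]} (LocalizedModule (Sθ θR) (HN (Hν Ξ ∘ fb) 𝒪[Δ] _))`,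
  `Φ (algebraMap a) = a •`, `Φ (ofP (X (inl k))) = (C ↑(Ξ (e k * diaIdx (f k))) * X (g k)) •`,
  `Φ (ofP (X (inr d))) = ↑(Ξ d) •`.
-/

set_option autoImplicit false

open CongruenceSubgroup Matrix.SpecialLinearGroup ModularCurve.Period
open scoped MatrixGroups BigOperators

noncomputable section

namespace Fermat.Agent.S43.Hecke.BridgeInst

open Fermat.Agent.S30.Hecke.DoubleCoset Fermat.Agent.S30.Hecke.Gamma0Cosets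
open Fermat.Agent.S48.B.Hecke.Gamma1Cosets Fermat.Agent.S48.B.Hecke.Diamond1
open Fermat.Agent.S48.B.Hecke.Parabolic1
open Fermat.Agent.S43.Hecke.Defs Fermat.Agent.S43.Hecke.Seam Fermat.Agent.S43.Hecke.Shapiro
  Fermat.Agent.S43.Hecke.Inst Fermat.Agent.S43.Hecke.Inst.Comm
  Fermat.Agent.S43.Hecke.Inst.Restrict1 Fermat.Agent.S43.Hecke.Inst.BridgeOps
  Fermat.Agent.S43.Hecke.Inst.BettiLeg
open Fermat.Agent.S43.Hecke.PolyModule Fermat.Agent.S43.Hecke.Loc Fermat.Agent.S43.Hecke.Scalar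
  Fermat.Agent.S43.Hecke.BridgeLeg Fermat.Agent.S43.Hecke.BridgeQuot
  Fermat.Agent.S43.Hecke.BridgeMain
open Fermat.Agent.S43.Rho.Lam Fermat.Agent.S43.Rho.LamBridge

section Roof

variable {M : ℕ} [NeZero M] (𝒪 : Type) [CommRing 𝒪] [IsDomain 𝒪] [CharZero 𝒪]
  {Δ' : Type} [CommGroup Δ'] [Finite Δ'] (π' : (ZMod M)ˣ →* Δ')
  (hκ : Function.Surjective (kap π'))
  {K : Type} (f : K → HIdx M) (e : K → (ZMod M)ˣ)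
  (𝔪 : Ideal (MvPolynomial (K ⊕ (ZMod M)ˣ) 𝒪)) [𝔪.IsMaximal]
  {L : Type} [AddCommGroup L] [Module 𝒪 L] [Module (MvPolynomial (K ⊕ (ZMod M)ˣ) 𝒪) L]
  [IsScalarTower 𝒪 (MvPolynomial (K ⊕ (ZMod M)ˣ) 𝒪) L]
  (ι : L →ₗ[MvPolynomial (K ⊕ (ZMod M)ˣ) 𝒪] WithOps (ops1 𝒪 f e) (ops1_comm 𝒪 f e))
  (H : Subgroup (ZMod M)ˣ) (hH : ∀ d ∈ H, π' d = 1)
  (hrange : ∀ z : WithOps (ops1 𝒪 f e) (ops1_comm 𝒪 f e),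
    WithOps.equiv (ops1 𝒪 f e) (ops1_comm 𝒪 f e) z ∈ parabolicHoms 𝒪 (Gamma1 M) 𝒪 →
    (∀ d ∈ H, diamondOp d (WithOps.equiv (ops1 𝒪 f e) (ops1_comm 𝒪 f e) z) =
      WithOps.equiv (ops1 𝒪 f e) (ops1_comm 𝒪 f e) z) → z ∈ LinearMap.range ι)
  (j₀ : K) {ℓ₀ : ℕ} (hℓ₀ : ℓ₀.Prime) (hℓ₀M : ¬ ℓ₀ ∣ M)
  (hf : f j₀ = Sum.inl ⟨ℓ₀, hℓ₀, hℓ₀M⟩) (h1 : ((ℓ₀ : ℕ) : ZMod M) = 1) (he : e j₀ = 1)
  (hs : (MvPolynomial.X (Sum.inl j₀) - MvPolynomial.C (((1 + ℓ₀ : ℕ) : 𝒪)) :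
    MvPolynomial (K ⊕ (ZMod M)ˣ) 𝒪) ∉ 𝔪)

omit [Module 𝒪 L] [IsScalarTower 𝒪 (MvPolynomial (K ⊕ (ZMod M)ˣ) 𝒪) L] in
include hH hrange hf h1 he hs in
/-- **the roof hypothesis** : after the non-Eisenstein cut the Betti side lies in the Tate side -/
theorem hroof (x : WithOps (opsB 𝒪 π' f e) (opsB_comm 𝒪 π' f e)) :
    ∃ s : 𝔪.primeCompl, (s : MvPolynomial (K ⊕ (ZMod M)ˣ) 𝒪) • betaP 𝒪 π' f e hκ x ∈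
      LinearMap.range ι :=
  ⟨⟨_, hs⟩, hrange _ (betaLeg_mem_parabolicHoms 𝒪 π' f e hκ j₀ hℓ₀ hℓ₀M hf h1 he x)
    (fun d hd => betaLeg_diamondOp 𝒪 π' f e hκ j₀ x (hH d hd))⟩

/-- the Betti leg is injective after localisation -/
theorem hβ : Function.Injective (locMap 𝔪 (betaP 𝒪 π' f e hκ)) :=
  locMap_injective 𝔪 _ (betaP_injective 𝒪 π' f e hκ)

end Roof

/-! ### the change of polynomial rings, in terms of the character -/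

section Psi

variable {M : ℕ} (𝒪 : Type) [CommRing 𝒪] {Δ : Type} [CommGroup Δ]
  (Ξ : (ZMod M)ˣ →* (MonoidAlgebra 𝒪 Δ)ˣ)
  {K : Type} (f : K → HIdx M) (e : K → (ZMod M)ˣ) {Jb : Type} (g : K → Jb)

/-- `X (inl k) ↦ ⟨e k⟩⟨r_k⟩ X (g k)`, `X (inr d) ↦ ⟨d⟩` -/
def PsiXi : MvPolynomial (K ⊕ (ZMod M)ˣ) 𝒪 →ₐ[𝒪] MvPolynomial Jb (MonoidAlgebra 𝒪 Δ) :=
  MvPolynomial.aeval (Sum.elim
    (fun k => MvPolynomial.C ((Ξ (e k * diaIdx (f k)) : (MonoidAlgebra 𝒪 Δ)ˣ) : MonoidAlgebra 𝒪 Δ) *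
      MvPolynomial.X (g k))
    (fun d => MvPolynomial.C ((Ξ d : (MonoidAlgebra 𝒪 Δ)ˣ) : MonoidAlgebra 𝒪 Δ)))

theorem PsiXi_inl (k : K) :
    PsiXi 𝒪 Ξ f e g (MvPolynomial.X (Sum.inl k)) =
      (MvPolynomial.C ((Ξ (e k * diaIdx (f k)) : (MonoidAlgebra 𝒪 Δ)ˣ) : MonoidAlgebra 𝒪 Δ) *
        MvPolynomial.X (g k) : MvPolynomial Jb (MonoidAlgebra 𝒪 Δ)) := by
  unfold PsiXi
  rw [MvPolynomial.aeval_X]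
  rfl

theorem PsiXi_inr (d : (ZMod M)ˣ) :
    PsiXi 𝒪 Ξ f e (Jb := Jb) g (MvPolynomial.X (Sum.inr d)) =
      (MvPolynomial.C ((Ξ d : (MonoidAlgebra 𝒪 Δ)ˣ) : MonoidAlgebra 𝒪 Δ) :
        MvPolynomial Jb (MonoidAlgebra 𝒪 Δ)) := by
  unfold PsiXi
  rw [MvPolynomial.aeval_X]
  rfl

theorem PsiXi_xiU {Δ' : Type} [CommGroup Δ'] (π' : (ZMod M)ˣ →* Δ')
    (u : Δ' →* (MonoidAlgebra 𝒪 Δ)ˣ) :
    PsiXi 𝒪 (xiU 𝒪 π' u) f e g = PsiU 𝒪 π' u f e (Jb := Jb) g := by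
  refine MvPolynomial.algHom_ext fun κ => ?_
  rcases κ with k | d
  · rw [PsiXi_inl, PsiU_inl, cU_eq]
  · rw [PsiXi_inr, PsiU_inr, dU_eq]

end Psi

/-! ### the bridge -/

section Main

variable {M : ℕ} [NeZero M] (𝒪 : Type) [CommRing 𝒪] [IsDomain 𝒪] [CharZero 𝒪]
  {Δ' : Type} [CommGroup Δ'] [Finite Δ'] (π' : (ZMod M)ˣ →* Δ')
  (hκ : Function.Surjective (kap π'))
  {Δ : Type} [CommGroup Δ] [IsLocalRing (MonoidAlgebra 𝒪 Δ)]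
  (u : Δ' →* (MonoidAlgebra 𝒪 Δ)ˣ)
  {K : Type} (f : K → HIdx M) (e : K → (ZMod M)ˣ)
  {Jb : Type} (fb : Jb → HIdx M) (g : K → Jb) (hg : ∀ k, fb (g k) = f k)
  (𝔪 : Ideal (MvPolynomial (K ⊕ (ZMod M)ˣ) 𝒪)) [𝔪.IsMaximal]
  {L : Type} [AddCommGroup L] [Module 𝒪 L] [Module (MvPolynomial (K ⊕ (ZMod M)ˣ) 𝒪) L]
  [IsScalarTower 𝒪 (MvPolynomial (K ⊕ (ZMod M)ˣ) 𝒪) L]
  (ι : L →ₗ[MvPolynomial (K ⊕ (ZMod M)ˣ) 𝒪] WithOps (ops1 𝒪 f e) (ops1_comm 𝒪 f e))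
  (H : Subgroup (ZMod M)ˣ) (hH : ∀ d ∈ H, π' d = 1)
  (hrange : ∀ z : WithOps (ops1 𝒪 f e) (ops1_comm 𝒪 f e),
    WithOps.equiv (ops1 𝒪 f e) (ops1_comm 𝒪 f e) z ∈ parabolicHoms 𝒪 (Gamma1 M) 𝒪 →
    (∀ d ∈ H, diamondOp d (WithOps.equiv (ops1 𝒪 f e) (ops1_comm 𝒪 f e) z) =
      WithOps.equiv (ops1 𝒪 f e) (ops1_comm 𝒪 f e) z) → z ∈ LinearMap.range ι)
  (j₀ : K) {ℓ₀ : ℕ} (hℓ₀ : ℓ₀.Prime) (hℓ₀M : ¬ ℓ₀ ∣ M)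
  (hf : f j₀ = Sum.inl ⟨ℓ₀, hℓ₀, hℓ₀M⟩) (h1 : ((ℓ₀ : ℕ) : ZMod M) = 1) (he : e j₀ = 1)
  (hs : (MvPolynomial.X (Sum.inl j₀) - MvPolynomial.C (((1 + ℓ₀ : ℕ) : 𝒪)) :
    MvPolynomial (K ⊕ (ZMod M)ˣ) 𝒪) ∉ 𝔪)
  (hcd : CD1 (chiXi (xiOf 𝒪 π'))) (hu : Function.Surjective (phiU 𝒪 u))

include hκ hg hH hrange hf h1 he hs hcd hu in
/-- **THE BRIDGE** : the Hecke algebra of the Tate side acts on the localisation at `θR` of the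
Hecke module of `Γ₀(M)` of character `Ξ = u ∘ π'` over `𝒪[Δ]`. -/
theorem exists_bridge (Ξ : (ZMod M)ˣ →* (MonoidAlgebra 𝒪 Δ)ˣ) (hΞ : ∀ d, Ξ d = u (π' d))
    (hcomm : ∀ i j, Commute (ops (fun j => Hν Ξ (fb j)) (MonoidAlgebra 𝒪 Δ) i)
      (ops (fun j => Hν Ξ (fb j)) (MonoidAlgebra 𝒪 Δ) j))
    (θR : Jb → IsLocalRing.ResidueField (MonoidAlgebra 𝒪 Δ))
    (h𝔪 : ∀ s : MvPolynomial (K ⊕ (ZMod M)ˣ) 𝒪, s ∉ 𝔪 → PsiXi 𝒪 Ξ f e g s ∈ Sθ θR)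
    (hmk : Function.Surjective (LocalizedModule.mkLinearMap (Sθ θR)
      (HN (fun j => Hν Ξ (fb j)) (MonoidAlgebra 𝒪 Δ) hcomm))) :
    ∃ Φ : T 𝒪 𝔪 L →+* Module.End (MvPolynomial Jb (MonoidAlgebra 𝒪 Δ))
        (LocalizedModule (Sθ θR) (HN (fun j => Hν Ξ (fb j)) (MonoidAlgebra 𝒪 Δ) hcomm)),
      (∀ (a : 𝒪) y, Φ (algebraMap 𝒪 (T 𝒪 𝔪 L) a) y = algebraMap 𝒪 (MonoidAlgebra 𝒪 Δ) a • y) ∧
      ∀ (Q : MvPolynomial (K ⊕ (ZMod M)ˣ) 𝒪) y, Φ (ofP 𝒪 𝔪 L Q) y = PsiXi 𝒪 Ξ f e g Q • y := by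
  have hΞ' : Ξ = xiU 𝒪 π' u := MonoidHom.ext fun d => (hΞ d).trans (xiU_apply 𝒪 π' u d).symm
  subst hΞ'
  rw [PsiXi_xiU]
  have h𝔪' : ∀ s : MvPolynomial (K ⊕ (ZMod M)ˣ) 𝒪, s ∉ 𝔪 → PsiU 𝒪 π' u f e g s ∈ Sθ θR := by
    intro s hs'
    rw [← PsiXi_xiU]
    exact h𝔪 s hs'
  exact ⟨bridgeEnd 𝒪 π' u f e fb g hg hcomm θR 𝔪 h𝔪' (betaP 𝒪 π' f e hκ) ι (hβ 𝒪 π' hκ f e 𝔪)
      (hroof 𝒪 π' hκ f e 𝔪 ι H hH hrange j₀ hℓ₀ hℓ₀M hf h1 he hs) hcd hu hmk,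
    fun a y => bridgeEnd_algebraMap 𝒪 π' u f e fb g hg hcomm θR 𝔪 h𝔪' _ ι _ _ hcd hu hmk a y,
    fun Q y => bridgeEnd_ofP 𝒪 π' u f e fb g hg hcomm θR 𝔪 h𝔪' _ ι _ _ hcd hu hmk Q y⟩

end Main

end Fermat.Agent.S43.Hecke.BridgeInst
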