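import Mathlib
import Fermat.Agent.S43.Hecke.BridgeInst

/-!
# PROJECT R (S43), the bridge L1 ↔ L3, the consumer's form

* the contraction: `mOf 𝒪 Ξ f e g θR := comap (PsiXi ..) (maxId θR)`, maximal as soon as
  `𝒪 → 𝒪[Δ] → k` is onto (`isMaximal_mOf`), `h𝔪_mOf`, `hs_mOf` (the non-Eisenstein cut),
  `mOf_congr` (two characters with the same residues have the same contraction), and
  `h𝔪_of_ev` (for a maximal ideal given as the kernel of an evaluation);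
* **`exists_bridge_quot`** : `BridgeInst.exists_bridge` at `Δ' := (ZMod M)ˣ ⧸ H`,
  `π' := QuotientGroup.mk' H`, `u := QuotientGroup.lift H Ξ _`, for every character `Ξ` of
  `(ZMod M)ˣ` with values in `𝒪[Δ]ˣ`, trivial on `H`, whose values contain the group elements of
  `Δ`.
-/

set_option autoImplicit false

open CongruenceSubgroup Matrix.SpecialLinearGroup ModularCurve.Period
open scoped MatrixGroups BigOperators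

noncomputable section

namespace Fermat.Agent.S43.Hecke.BridgeExport

open Fermat.Agent.S30.Hecke.DoubleCoset Fermat.Agent.S30.Hecke.Gamma0Cosets
open Fermat.Agent.S48.B.Hecke.Gamma1Cosets Fermat.Agent.S48.B.Hecke.Diamond1
open Fermat.Agent.S48.B.Hecke.Parabolic1
open Fermat.Agent.S43.Hecke.Defs Fermat.Agent.S43.Hecke.Seam Fermat.Agent.S43.Hecke.Shapiro
  Fermat.Agent.S43.Hecke.Inst Fermat.Agent.S43.Hecke.Inst.Comm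
  Fermat.Agent.S43.Hecke.Inst.Restrict1 Fermat.Agent.S43.Hecke.Inst.BridgeOps
open Fermat.Agent.S43.Hecke.PolyModule Fermat.Agent.S43.Hecke.Loc
  Fermat.Agent.S43.Hecke.BridgeLeg Fermat.Agent.S43.Hecke.BridgeInst
open Fermat.Agent.S43.Rho.Lam

/-! ### the contraction of the maximal ideal -/

section Contraction

variable {M : ℕ} (𝒪 : Type) [CommRing 𝒪] {Δ : Type} [CommGroup Δ]
  [IsLocalRing (MonoidAlgebra 𝒪 Δ)]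
  (Ξ : (ZMod M)ˣ →* (MonoidAlgebra 𝒪 Δ)ˣ)
  {K : Type} (f : K → HIdx M) (e : K → (ZMod M)ˣ) {Jb : Type} (g : K → Jb)
  (θR : Jb → IsLocalRing.ResidueField (MonoidAlgebra 𝒪 Δ))

/-- the evaluation of the small polynomial ring at the system of eigenvalues `θR` -/
def evOf : MvPolynomial (K ⊕ (ZMod M)ˣ) 𝒪 →+* IsLocalRing.ResidueField (MonoidAlgebra 𝒪 Δ) :=
  (evalHom θR).comp (PsiXi 𝒪 Ξ f e g).toRingHom

theorem evOf_apply (s : MvPolynomial (K ⊕ (ZMod M)ˣ) 𝒪) :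
    evOf 𝒪 Ξ f e g θR s = evalHom θR (PsiXi 𝒪 Ξ f e g s) := rfl

theorem evOf_inl (k : K) :
    evOf 𝒪 Ξ f e g θR (MvPolynomial.X (Sum.inl k)) =
      IsLocalRing.residue (MonoidAlgebra 𝒪 Δ)
        ((Ξ (e k * diaIdx (f k)) : (MonoidAlgebra 𝒪 Δ)ˣ) : MonoidAlgebra 𝒪 Δ) * θR (g k) := by
  rw [evOf_apply, PsiXi_inl, map_mul, evalHom_C, evalHom_X]

theorem evOf_inr (d : (ZMod M)ˣ) :
    evOf 𝒪 Ξ f e g θR (MvPolynomial.X (Sum.inr d)) =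
      IsLocalRing.residue (MonoidAlgebra 𝒪 Δ)
        ((Ξ d : (MonoidAlgebra 𝒪 Δ)ˣ) : MonoidAlgebra 𝒪 Δ) := by
  rw [evOf_apply, PsiXi_inr, evalHom_C]

theorem evOf_C (a : 𝒪) :
    evOf 𝒪 Ξ f e g θR (MvPolynomial.C a) =
      IsLocalRing.residue (MonoidAlgebra 𝒪 Δ) (algebraMap 𝒪 (MonoidAlgebra 𝒪 Δ) a) := by
  rw [evOf_apply, ← MvPolynomial.algebraMap_eq, AlgHom.commutes,
    IsScalarTower.algebraMap_apply 𝒪 (MonoidAlgebra 𝒪 Δ) (MvPolynomial Jb (MonoidAlgebra 𝒪 Δ)),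
    MvPolynomial.algebraMap_eq, evalHom_C]

/-- **the contraction** of the maximal ideal of `θR` to the small polynomial ring -/
def mOf : Ideal (MvPolynomial (K ⊕ (ZMod M)ˣ) 𝒪) := RingHom.ker (evOf 𝒪 Ξ f e g θR)

theorem mem_mOf (s : MvPolynomial (K ⊕ (ZMod M)ˣ) 𝒪) :
    s ∈ mOf 𝒪 Ξ f e g θR ↔ evalHom θR (PsiXi 𝒪 Ξ f e g s) = 0 := by
  rw [mOf, RingHom.mem_ker, evOf_apply]

theorem evOf_surjective
    (hres : Function.Surjective ((IsLocalRing.residue (MonoidAlgebra 𝒪 Δ)).comp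
      (algebraMap 𝒪 (MonoidAlgebra 𝒪 Δ)))) : Function.Surjective (evOf 𝒪 Ξ f e g θR) := by
  intro y
  obtain ⟨a, ha⟩ := hres y
  exact ⟨MvPolynomial.C a, by rw [evOf_C]; exact ha⟩

theorem isMaximal_mOf
    (hres : Function.Surjective ((IsLocalRing.residue (MonoidAlgebra 𝒪 Δ)).comp
      (algebraMap 𝒪 (MonoidAlgebra 𝒪 Δ)))) : (mOf 𝒪 Ξ f e g θR).IsMaximal :=
  RingHom.ker_isMaximal_of_surjective _ (evOf_surjective 𝒪 Ξ f e g θR hres)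

/-- the hypothesis `h𝔪` of the bridge holds for the contraction -/
theorem h𝔪_mOf (s : MvPolynomial (K ⊕ (ZMod M)ˣ) 𝒪) (hs : s ∉ mOf 𝒪 Ξ f e g θR) :
    PsiXi 𝒪 Ξ f e g s ∈ Sθ θR := by
  rw [mem_Sθ_iff]
  exact fun h => hs ((mem_mOf 𝒪 Ξ f e g θR s).mpr h)

/-- more generally, for the kernel of any evaluation compatible with `θR` -/
theorem h𝔪_of_ev {k' : Type*} [Field k'] (ev : MvPolynomial (K ⊕ (ZMod M)ˣ) 𝒪 →+* k')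
    (c : IsLocalRing.ResidueField (MonoidAlgebra 𝒪 Δ) →+* k')
    (hc : ∀ s, c (evOf 𝒪 Ξ f e g θR s) = ev s)
    (s : MvPolynomial (K ⊕ (ZMod M)ˣ) 𝒪) (hs : s ∉ RingHom.ker ev) :
    PsiXi 𝒪 Ξ f e g s ∈ Sθ θR := by
  rw [mem_Sθ_iff]
  intro h
  apply hs
  rw [RingHom.mem_ker, ← hc, evOf_apply, h, map_zero]

/-- two characters with the same residues have the same contraction -/
theorem mOf_congr (Ξ' : (ZMod M)ˣ →* (MonoidAlgebra 𝒪 Δ)ˣ)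
    (h : ∀ d, IsLocalRing.residue (MonoidAlgebra 𝒪 Δ)
        ((Ξ' d : (MonoidAlgebra 𝒪 Δ)ˣ) : MonoidAlgebra 𝒪 Δ) =
      IsLocalRing.residue (MonoidAlgebra 𝒪 Δ)
        ((Ξ d : (MonoidAlgebra 𝒪 Δ)ˣ) : MonoidAlgebra 𝒪 Δ)) :
    mOf 𝒪 Ξ' f e g θR = mOf 𝒪 Ξ f e g θR := by
  have h0 : evOf 𝒪 Ξ' f e g θR = evOf 𝒪 Ξ f e g θR := by
    refine MvPolynomial.ringHom_ext (fun a => ?_) (fun κ => ?_)
    · rw [evOf_C, evOf_C]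
    · rcases κ with k | d
      · rw [evOf_inl, evOf_inl, h]
      · rw [evOf_inr, evOf_inr, h]
  unfold mOf
  rw [h0]

/-- **the non-Eisenstein cut** lies outside the contraction -/
theorem hs_mOf (j₀ : K) (ℓ₀ : ℕ)
    (hΞ₀ : ((Ξ (e j₀ * diaIdx (f j₀)) : (MonoidAlgebra 𝒪 Δ)ˣ) : MonoidAlgebra 𝒪 Δ) = 1)
    (hne : θR (g j₀) ≠ IsLocalRing.residue (MonoidAlgebra 𝒪 Δ)
      (algebraMap 𝒪 (MonoidAlgebra 𝒪 Δ) (((1 + ℓ₀ : ℕ) : 𝒪)))) :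
    (MvPolynomial.X (Sum.inl j₀) - MvPolynomial.C (((1 + ℓ₀ : ℕ) : 𝒪)) :
      MvPolynomial (K ⊕ (ZMod M)ˣ) 𝒪) ∉ mOf 𝒪 Ξ f e g θR := by
  intro h
  rw [mOf, RingHom.mem_ker, map_sub, evOf_inl, evOf_C, hΞ₀, map_one, one_mul, sub_eq_zero] at h
  exact hne h

end Contraction

/-! ### the bridge at `Δ' = (ZMod M)ˣ ⧸ H` -/

theorem isUnit_ofNat_monoidAlgebra (𝒪 : Type) [CommRing 𝒪] {G : Type} [CommGroup G] (n : ℕ)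
    [n.AtLeastTwo] (h : IsUnit (OfNat.ofNat n : 𝒪)) :
    IsUnit (OfNat.ofNat n : MonoidAlgebra 𝒪 G) := by
  have := h.map (algebraMap 𝒪 (MonoidAlgebra 𝒪 G))
  rwa [map_ofNat] at this

section Quot

variable {M : ℕ} [NeZero M] (𝒪 : Type) [CommRing 𝒪] [IsDomain 𝒪] [CharZero 𝒪]
  {Δ : Type} [CommGroup Δ] [IsLocalRing (MonoidAlgebra 𝒪 Δ)]
  (H : Subgroup (ZMod M)ˣ)

/-- the big diamond character `(ZMod M)ˣ → (ZMod M)ˣ ⧸ H` -/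
abbrev piH : (ZMod M)ˣ →* (ZMod M)ˣ ⧸ H := QuotientGroup.mk' H

omit [NeZero M] in
theorem piH_eq_one {d : (ZMod M)ˣ} (hd : d ∈ H) : piH H d = 1 :=
  (QuotientGroup.eq_one_iff d).mpr hd

omit [NeZero M] in
/-- `-1 ∈ H` as soon as the quotient by `H` is killed by an odd number (`hHm` of `Rho/LamInstD`) -/
theorem neg_one_mem_of_pow (m : ℕ) (hHm : ∀ d : (ZMod M)ˣ, d ^ (2 * m + 1) ∈ H) :
    (-1 : (ZMod M)ˣ) ∈ H := by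
  have h := hHm (-1)
  rwa [Odd.neg_one_pow ⟨m, rfl⟩] at h

theorem kap_piH_surjective : Function.Surjective (kap (Δ := (ZMod M)ˣ ⧸ H) (piH H)) :=
  kap_surjective (Δ := (ZMod M)ˣ ⧸ H) (piH H) (QuotientGroup.mk'_surjective H)

variable (Ξ : (ZMod M)ˣ →* (MonoidAlgebra 𝒪 Δ)ˣ) (hΞH : ∀ d ∈ H, Ξ d = 1)

/-- the character of `(ZMod M)ˣ ⧸ H` induced by `Ξ` -/
def uH : (ZMod M)ˣ ⧸ H →* (MonoidAlgebra 𝒪 Δ)ˣ :=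
  QuotientGroup.lift H Ξ (fun d hd => hΞH d hd)

omit [NeZero M] [IsDomain 𝒪] [CharZero 𝒪] [IsLocalRing (MonoidAlgebra 𝒪 Δ)] in
theorem uH_piH (d : (ZMod M)ˣ) : uH 𝒪 H Ξ hΞH (piH H d) = Ξ d := rfl

omit [NeZero M] [IsDomain 𝒪] [CharZero 𝒪] [IsLocalRing (MonoidAlgebra 𝒪 Δ)] in
theorem phiU_uH_surjective
    (hsurj : ∀ δ : Δ, ∃ d : (ZMod M)ˣ,
      ((Ξ d : (MonoidAlgebra 𝒪 Δ)ˣ) : MonoidAlgebra 𝒪 Δ) = MonoidAlgebra.single δ (1 : 𝒪)) :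
    Function.Surjective (phiU (Δ' := (ZMod M)ˣ ⧸ H) 𝒪 (uH 𝒪 H Ξ hΞH)) :=
  phiU_surjective (Δ' := (ZMod M)ˣ ⧸ H) 𝒪 _ fun δ => by
    obtain ⟨d, hd⟩ := hsurj δ
    exact ⟨piH H d, hd⟩

omit [NeZero M] [IsDomain 𝒪] [CharZero 𝒪] [IsLocalRing (MonoidAlgebra 𝒪 Δ)] in
/-- `CD1` for the big character -/
theorem cd1_piH (hneg : (-1 : (ZMod M)ˣ) ∈ H) (h2 : IsUnit (2 : 𝒪)) (h3 : IsUnit (3 : 𝒪)) :
    CD1 (chiXi (R := MonoidAlgebra 𝒪 ((ZMod M)ˣ ⧸ H)) (xiOf (Δ := (ZMod M)ˣ ⧸ H) 𝒪 (piH H))) := by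
  refine cd1_chiXi (R := MonoidAlgebra 𝒪 ((ZMod M)ˣ ⧸ H))
    (xiOf (Δ := (ZMod M)ˣ ⧸ H) 𝒪 (piH H)) ?_ ?_ ?_
  · rw [xiOf_apply, piH_eq_one H hneg]
    exact map_one _
  · exact isUnit_ofNat_monoidAlgebra 𝒪 2 h2
  · exact isUnit_ofNat_monoidAlgebra 𝒪 3 h3

variable {K : Type} (f : K → HIdx M) (e : K → (ZMod M)ˣ)
  {Jb : Type} (fb : Jb → HIdx M) (g : K → Jb) (hg : ∀ k, fb (g k) = f k)
  (𝔪 : Ideal (MvPolynomial (K ⊕ (ZMod M)ˣ) 𝒪)) [𝔪.IsMaximal]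
  {L : Type} [AddCommGroup L] [Module 𝒪 L] [Module (MvPolynomial (K ⊕ (ZMod M)ˣ) 𝒪) L]
  [IsScalarTower 𝒪 (MvPolynomial (K ⊕ (ZMod M)ˣ) 𝒪) L]
  (ι : L →ₗ[MvPolynomial (K ⊕ (ZMod M)ˣ) 𝒪] WithOps (ops1 𝒪 f e) (ops1_comm 𝒪 f e))
  (hrange : ∀ z : WithOps (ops1 𝒪 f e) (ops1_comm 𝒪 f e),
    WithOps.equiv (ops1 𝒪 f e) (ops1_comm 𝒪 f e) z ∈ parabolicHoms 𝒪 (Gamma1 M) 𝒪 →
    (∀ d ∈ H, diamondOp d (WithOps.equiv (ops1 𝒪 f e) (ops1_comm 𝒪 f e) z) =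
      WithOps.equiv (ops1 𝒪 f e) (ops1_comm 𝒪 f e) z) → z ∈ LinearMap.range ι)
  (j₀ : K) {ℓ₀ : ℕ} (hℓ₀ : ℓ₀.Prime) (hℓ₀M : ¬ ℓ₀ ∣ M)
  (hf : f j₀ = Sum.inl ⟨ℓ₀, hℓ₀, hℓ₀M⟩) (h1 : ((ℓ₀ : ℕ) : ZMod M) = 1) (he : e j₀ = 1)
  (hs : (MvPolynomial.X (Sum.inl j₀) - MvPolynomial.C (((1 + ℓ₀ : ℕ) : 𝒪)) :
    MvPolynomial (K ⊕ (ZMod M)ˣ) 𝒪) ∉ 𝔪)
  (hneg : (-1 : (ZMod M)ˣ) ∈ H) (h2 : IsUnit (2 : 𝒪)) (h3 : IsUnit (3 : 𝒪))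
  (hsurj : ∀ δ : Δ, ∃ d : (ZMod M)ˣ,
    ((Ξ d : (MonoidAlgebra 𝒪 Δ)ˣ) : MonoidAlgebra 𝒪 Δ) = MonoidAlgebra.single δ (1 : 𝒪))

include hΞH hg hrange hf h1 he hs hneg h2 h3 hsurj in
/-- **THE BRIDGE, the consumer's form** : `H` a subgroup of `(ZMod M)ˣ` containing `-1`, `Ξ` a
character of `(ZMod M)ˣ` with values in `𝒪[Δ]ˣ`, trivial on `H`, whose values contain the group
elements of `Δ`. -/
theorem exists_bridge_quot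
    (hcomm : ∀ i j, Commute (ops (fun j => Hν Ξ (fb j)) (MonoidAlgebra 𝒪 Δ) i)
      (ops (fun j => Hν Ξ (fb j)) (MonoidAlgebra 𝒪 Δ) j))
    (θR : Jb → IsLocalRing.ResidueField (MonoidAlgebra 𝒪 Δ))
    (h𝔪 : ∀ s : MvPolynomial (K ⊕ (ZMod M)ˣ) 𝒪, s ∉ 𝔪 → PsiXi 𝒪 Ξ f e g s ∈ Sθ θR)
    (hmk : Function.Surjective (LocalizedModule.mkLinearMap (Sθ θR)
      (HN (fun j => Hν Ξ (fb j)) (MonoidAlgebra 𝒪 Δ) hcomm))) :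
    ∃ Φ : T 𝒪 𝔪 L →+* Module.End (MvPolynomial Jb (MonoidAlgebra 𝒪 Δ))
        (LocalizedModule (Sθ θR) (HN (fun j => Hν Ξ (fb j)) (MonoidAlgebra 𝒪 Δ) hcomm)),
      (∀ (a : 𝒪) y, Φ (algebraMap 𝒪 (T 𝒪 𝔪 L) a) y = algebraMap 𝒪 (MonoidAlgebra 𝒪 Δ) a • y) ∧
      ∀ (Q : MvPolynomial (K ⊕ (ZMod M)ˣ) 𝒪) y, Φ (ofP 𝒪 𝔪 L Q) y = PsiXi 𝒪 Ξ f e g Q • y := by
  refine exists_bridge (Δ' := (ZMod M)ˣ ⧸ H) 𝒪 (piH H) (kap_piH_surjective H) (uH 𝒪 H Ξ hΞH)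
    f e fb g hg 𝔪 ι H ?_ hrange j₀ hℓ₀ hℓ₀M hf h1 he hs ?_ ?_ Ξ ?_ hcomm θR h𝔪 hmk
  · exact fun _ hd => piH_eq_one H hd
  · exact cd1_piH 𝒪 H hneg h2 h3
  · exact phiU_uH_surjective 𝒪 H Ξ hΞH hsurj
  · exact fun d => (uH_piH 𝒪 H Ξ hΞH d).symm

end Quot

end Fermat.Agent.S43.Hecke.BridgeExport
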