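import Mathlib
import Fermat.Agent.S43.Hecke.BridgeExport
import Fermat.Agent.S43.Rho.LamTate

/-!
# PROJECT R (S43), the bridge L1 ↔ L3, ONE CALL: on helper22's `Rho/LamInstD.TQ`

`BridgeExport.exists_bridge_quot` composed with `Rho/LamTate.iotaP` / `mem_range_iotaP`
(the `S₀`-threaded blobs `LamInst 1b21194b`, `LamInstD c43817ab`, `LamTate 49706175`).

* `twJ M m p S₀ j := eJ j * diaIdx (fJ j) = (class of r_j) ^ (m + 1)` : the diamond by which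
  `X (inl j)` is twisted (`twJ_eq`);
* **`exists_bridge_TQ`** : for a subgroup `H` of `(ZMod M)ˣ` (`p ∤ |H|`, `d^(2m+1) ∈ H`), a
  character `Ξ` of `(ZMod M)ˣ` with values in `𝒪[Δ]ˣ`, trivial on `H`, whose values contain the
  group elements of `Δ`, and a prime `ℓ₀ ≡ 1 mod M` of `J M p S₀` with
  `X (inl j₀) - C (1 + ℓ₀) ∉ 𝔪`: a ring homomorphism
  `Φ : TQ M m p H 𝒪 S₀ 𝔪 →+* End_{MvPolynomial Jb 𝒪[Δ]} (LocalizedModule (Sθ θR) (HN (Hν Ξ ∘ fb) ..))`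
  with `Φ (algebraMap a) = a •`, `Φ (tQ j) = (C ↑(Ξ (twJ j)) * X (g j)) •`, `Φ (dQ d) = C ↑(Ξ d) •`
  and `Φ (ofP Q) = PsiXi 𝒪 Ξ fJ eJ g Q •`.
-/

set_option autoImplicit false
set_option linter.unusedSectionVars false

open CongruenceSubgroup Matrix.SpecialLinearGroup ModularCurve.Period
open scoped MatrixGroups BigOperators

noncomputable section

namespace Fermat.Agent.S43.Hecke.BridgeTate

open Fermat.Agent.S30.Hecke.DoubleCoset Fermat.Agent.S30.Hecke.Gamma0Cosets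
open Fermat.Agent.S48.B.Hecke.Gamma1Cosets Fermat.Agent.S48.B.Hecke.Diamond1
open Fermat.Agent.S48.B.Hecke.Parabolic1
open Fermat.Agent.S43.Hecke.Defs Fermat.Agent.S43.Hecke.Seam Fermat.Agent.S43.Hecke.Shapiro
  Fermat.Agent.S43.Hecke.Inst Fermat.Agent.S43.Hecke.Inst.Comm
  Fermat.Agent.S43.Hecke.Inst.Restrict1 Fermat.Agent.S43.Hecke.Inst.BridgeOps
open Fermat.Agent.S43.Hecke.PolyModule Fermat.Agent.S43.Hecke.Loc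
  Fermat.Agent.S43.Hecke.BridgeLeg Fermat.Agent.S43.Hecke.BridgeInst
  Fermat.Agent.S43.Hecke.BridgeExport
open Fermat.Agent.S43.Rho.Lam
open Fermat.Agent.S43.Rho.LamInst (J)
open Fermat.Agent.S43.Rho.LamInstD (K tK hcommK TQ tQ dQ)
open Fermat.Agent.S43.Rho.LamTate (fJ eJ iotaP mem_range_iotaP)

variable (M : ℕ) [NeZero M] (m : ℕ) (p : ℕ) [hp : Fact p.Prime] (S₀ : Finset ℕ)

/-- the class of the prime `r_j` in `(ZMod M)ˣ` -/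
def clJ (j : J M p S₀) : (ZMod M)ˣ := ZMod.unitOfCoprime (j.1 : ℕ) j.2.1

/-- the diamond by which `X (inl j)` is twisted: `⟨r_j⟩ ^ (m + 1)` -/
def twJ (j : J M p S₀) : (ZMod M)ˣ := eJ M m p S₀ j * diaIdx (fJ M p S₀ j)

theorem diaIdx_fJ (j : J M p S₀) : diaIdx (fJ M p S₀ j) = clJ M p S₀ j := rfl

theorem eJ_eq (j : J M p S₀) : eJ M m p S₀ j = clJ M p S₀ j ^ m := rfl

theorem twJ_eq (j : J M p S₀) : twJ M m p S₀ j = clJ M p S₀ j ^ (m + 1) := by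
  rw [twJ, diaIdx_fJ, eJ_eq, pow_succ]

theorem clJ_eq_one (j : J M p S₀) (h1 : (((j.1 : ℕ) : ℕ) : ZMod M) = 1) : clJ M p S₀ j = 1 := by
  apply Units.ext
  rw [clJ, ZMod.coe_unitOfCoprime, h1, Units.val_one]

theorem eJ_eq_one (j : J M p S₀) (h1 : (((j.1 : ℕ) : ℕ) : ZMod M) = 1) : eJ M m p S₀ j = 1 := by
  rw [eJ_eq, clJ_eq_one M p S₀ j h1, one_pow]

theorem twJ_eq_one (j : J M p S₀) (h1 : (((j.1 : ℕ) : ℕ) : ZMod M) = 1) :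
    twJ M m p S₀ j = 1 := by
  rw [twJ_eq, clJ_eq_one M p S₀ j h1, one_pow]

variable (H : Subgroup (ZMod M)ˣ) (𝒪 : Type) [CommRing 𝒪] [Algebra ℤ_[p] 𝒪] [IsDomain 𝒪]
  [CharZero 𝒪] [Module.Flat ℤ 𝒪]
  {Δ : Type} [CommGroup Δ] [IsLocalRing (MonoidAlgebra 𝒪 Δ)]

/-- **THE BRIDGE ON `LamInstD.TQ`, ONE CALL.** -/
theorem exists_bridge_TQ (hM : 5 ≤ M) (hHp : ¬ p ∣ Nat.card H)
    (hHm : ∀ d : (ZMod M)ˣ, d ^ (2 * m + 1) ∈ H)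
    (Ξ : (ZMod M)ˣ →* (MonoidAlgebra 𝒪 Δ)ˣ) (hΞH : ∀ d ∈ H, Ξ d = 1)
    (hsurj : ∀ δ : Δ, ∃ d : (ZMod M)ˣ,
      ((Ξ d : (MonoidAlgebra 𝒪 Δ)ˣ) : MonoidAlgebra 𝒪 Δ) = MonoidAlgebra.single δ (1 : 𝒪))
    (h2 : IsUnit (2 : 𝒪)) (h3 : IsUnit (3 : 𝒪))
    {Jb : Type} (fb : Jb → HIdx M) (g : J M p S₀ → Jb) (hg : ∀ k, fb (g k) = fJ M p S₀ k)
    (𝔪 : Ideal (MvPolynomial (K M p S₀) 𝒪)) [𝔪.IsMaximal]
    (j₀ : J M p S₀) (h1 : (((j₀.1 : ℕ) : ℕ) : ZMod M) = 1)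
    (hs : (MvPolynomial.X (Sum.inl j₀) - MvPolynomial.C (((1 + (j₀.1 : ℕ) : ℕ) : 𝒪)) :
      MvPolynomial (K M p S₀) 𝒪) ∉ 𝔪)
    (hcomm : ∀ i j, Commute (ops (fun j => Hν Ξ (fb j)) (MonoidAlgebra 𝒪 Δ) i)
      (ops (fun j => Hν Ξ (fb j)) (MonoidAlgebra 𝒪 Δ) j))
    (θR : Jb → IsLocalRing.ResidueField (MonoidAlgebra 𝒪 Δ))
    (h𝔪 : ∀ s : MvPolynomial (K M p S₀) 𝒪, s ∉ 𝔪 →
      PsiXi 𝒪 Ξ (fJ M p S₀) (eJ M m p S₀) g s ∈ Sθ θR)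
    (hmk : Function.Surjective (LocalizedModule.mkLinearMap (Sθ θR)
      (HN (fun j => Hν Ξ (fb j)) (MonoidAlgebra 𝒪 Δ) hcomm))) :
    ∃ Φ : TQ M m p H 𝒪 S₀ 𝔪 →+* Module.End (MvPolynomial Jb (MonoidAlgebra 𝒪 Δ))
        (LocalizedModule (Sθ θR) (HN (fun j => Hν Ξ (fb j)) (MonoidAlgebra 𝒪 Δ) hcomm)),
      (∀ (a : 𝒪) y, Φ (algebraMap 𝒪 (TQ M m p H 𝒪 S₀ 𝔪) a) y =
        algebraMap 𝒪 (MonoidAlgebra 𝒪 Δ) a • y) ∧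
      (∀ (j : J M p S₀) y, Φ (tQ M m p H 𝒪 S₀ 𝔪 j) y =
        (MvPolynomial.C ((Ξ (twJ M m p S₀ j) : (MonoidAlgebra 𝒪 Δ)ˣ) : MonoidAlgebra 𝒪 Δ) *
          MvPolynomial.X (g j) : MvPolynomial Jb (MonoidAlgebra 𝒪 Δ)) • y) ∧
      (∀ (d : (ZMod M)ˣ) y, Φ (dQ M m p H 𝒪 S₀ 𝔪 d) y =
        (MvPolynomial.C ((Ξ d : (MonoidAlgebra 𝒪 Δ)ˣ) : MonoidAlgebra 𝒪 Δ) :
          MvPolynomial Jb (MonoidAlgebra 𝒪 Δ)) • y) ∧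
      ∀ (Q : MvPolynomial (K M p S₀) 𝒪) y,
        Φ (ofP 𝒪 𝔪 (WithOps (tK M m p H 𝒪 S₀) (hcommK M m p H 𝒪 S₀)) Q) y =
          PsiXi 𝒪 Ξ (fJ M p S₀) (eJ M m p S₀) g Q • y := by
  obtain ⟨Φ, hΦ1, hΦ2⟩ := exists_bridge_quot 𝒪 H Ξ hΞH (fJ M p S₀) (eJ M m p S₀) fb g hg 𝔪
    (iotaP M m p H 𝒪 S₀ hM)
    (fun z hz hz' => mem_range_iotaP M m p H 𝒪 S₀ hM hHp z hz hz')
    j₀ j₀.1.2 ((Nat.Prime.coprime_iff_not_dvd j₀.1.2).mp j₀.2.1) rfl h1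
    (eJ_eq_one M m p S₀ j₀ h1) hs (neg_one_mem_of_pow H m hHm) h2 h3 hsurj hcomm θR h𝔪 hmk
  refine ⟨Φ, hΦ1, fun j y => ?_, fun d y => ?_, hΦ2⟩
  · show Φ (ofP 𝒪 𝔪 _ (MvPolynomial.X (Sum.inl j))) y = _
    rw [hΦ2, PsiXi_inl]
    rfl
  · show Φ (ofP 𝒪 𝔪 _ (MvPolynomial.X (Sum.inr d))) y = _
    rw [hΦ2, PsiXi_inr]

end Fermat.Agent.S43.Hecke.BridgeTate
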