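import Mathlib
import Fermat.Agent.S43.Hecke.BridgeTate
import Fermat.Agent.S43.Hecke.Main
import Fermat.Agent.S43.Rho.LamGen

/-!
# PROJECT R (S43), the bridge L1 ↔ L3: the `Φ`-package on the seam `Main.heckeSideOf`

* `restrictEnd` : `End_P X →+* End_A X` for a tower `A → P` acting on `X`;
* `PsiXi_sub_mem` : two characters congruent modulo `ϖ'` give changes of polynomial rings
  congruent modulo `C ϖ'`;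
* **`exists_Phi_pair`** : on the pair `pairXi f hΞ ..` (first character `xiOf 𝒪 π`, second `Ξ'`):
  `Φ₁ : TQ →+* End_{𝒪[Δ]} (pr.M1 θR)`, `Φχ : TQ →+* End_{𝒪[Δ]} (pr.Mχ θR)` with the formulas on
  `algebraMap`, `ofP Q`, `tQ k`, `dQ d`, and the compatibility with the two reductions `q1`, `qχ`
  on the FULL Hecke algebra;
* **`exists_Phi`** : the same on `Hs := Main.heckeSideOf ..`, in the literal of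
  `RSide/FeedQ.nonempty_datumJ_Q`, plus the compatibility of `Φ₁` with the descent `Hs.p0`.
-/

set_option autoImplicit false
set_option linter.unusedSectionVars false

open CongruenceSubgroup Matrix.SpecialLinearGroup ModularCurve.Period
open scoped MatrixGroups BigOperators

noncomputable section

namespace Fermat.Agent.S43.Hecke.BridgeSide

open Fermat.Agent.S30.Hecke.DoubleCoset Fermat.Agent.S30.Hecke.Gamma0Cosets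
open Fermat.Agent.S48.B.Hecke.Gamma1Cosets Fermat.Agent.S48.B.Hecke.Diamond1
open Fermat.Agent.S48.B.Hecke.Parabolic1
open Fermat.Agent.S43.Hecke.Defs Fermat.Agent.S43.Hecke.Seam Fermat.Agent.S43.Hecke.Shapiro
  Fermat.Agent.S43.Hecke.Inst Fermat.Agent.S43.Hecke.Inst.Comm
  Fermat.Agent.S43.Hecke.Inst.Restrict1 Fermat.Agent.S43.Hecke.Inst.BridgeOps
  Fermat.Agent.S43.Hecke.Inst.Pair
open Fermat.Agent.S43.Hecke.PolyModule Fermat.Agent.S43.Hecke.Loc Fermat.Agent.S43.Hecke.Side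
  Fermat.Agent.S43.Hecke.Assemble
  Fermat.Agent.S43.Hecke.BridgeLeg Fermat.Agent.S43.Hecke.BridgeInst
  Fermat.Agent.S43.Hecke.BridgeExport Fermat.Agent.S43.Hecke.BridgeTate
open Fermat.Agent.S43.Rho.Lam
open Fermat.Agent.S43.Rho.LamInst (J)
open Fermat.Agent.S43.Rho.LamInstD (K tK hcommK TQ tQ dQ LamQ finite_LamQ)
open Fermat.Agent.S43.Rho.LamTate (fJ eJ)

/-! ### restriction of scalars of endomorphisms -/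

section Restrict

variable (A P X : Type*) [CommRing A] [CommRing P] [Algebra A P] [AddCommGroup X] [Module A X]
  [Module P X] [IsScalarTower A P X]

/-- restriction of scalars of endomorphisms, as a ring homomorphism -/
def restrictEnd : Module.End P X →+* Module.End A X where
  toFun φ := φ.restrictScalars A
  map_one' := rfl
  map_mul' _ _ := rfl
  map_zero' := rfl
  map_add' _ _ := rfl

@[simp] theorem restrictEnd_apply (φ : Module.End P X) (x : X) : restrictEnd A P X φ x = φ x := rfl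

end Restrict

/-! ### congruent characters give congruent changes of polynomial rings -/

section PsiDiff

variable {M : ℕ} (𝒪 : Type) [CommRing 𝒪] {Δ : Type} [CommGroup Δ]
  (Ξ Ξ' : (ZMod M)ˣ →* (MonoidAlgebra 𝒪 Δ)ˣ) (ϖ' : MonoidAlgebra 𝒪 Δ)
  {K : Type} (f : K → HIdx M) (e : K → (ZMod M)ˣ) {Jb : Type} (g : K → Jb)

theorem PsiXi_sub_mem
    (hΞ : ∀ d, ((Ξ' d : (MonoidAlgebra 𝒪 Δ)ˣ) : MonoidAlgebra 𝒪 Δ) -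
      ((Ξ d : (MonoidAlgebra 𝒪 Δ)ˣ) : MonoidAlgebra 𝒪 Δ) ∈
        Ideal.span ({ϖ'} : Set (MonoidAlgebra 𝒪 Δ)))
    (Q : MvPolynomial (K ⊕ (ZMod M)ˣ) 𝒪) :
    PsiXi 𝒪 Ξ' f e g Q - PsiXi 𝒪 Ξ f e g Q ∈
      Ideal.span ({(MvPolynomial.C ϖ' : MvPolynomial Jb (MonoidAlgebra 𝒪 Δ))} :
        Set (MvPolynomial Jb (MonoidAlgebra 𝒪 Δ))) := by
  have hC : ∀ a : MonoidAlgebra 𝒪 Δ, a ∈ Ideal.span ({ϖ'} : Set (MonoidAlgebra 𝒪 Δ)) →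
      (MvPolynomial.C a : MvPolynomial Jb (MonoidAlgebra 𝒪 Δ)) ∈
        Ideal.span ({(MvPolynomial.C ϖ' : MvPolynomial Jb (MonoidAlgebra 𝒪 Δ))} :
          Set (MvPolynomial Jb (MonoidAlgebra 𝒪 Δ))) := by
    intro a ha
    obtain ⟨b, rfl⟩ := Ideal.mem_span_singleton'.mp ha
    rw [map_mul]
    exact Ideal.mul_mem_left _ _ (Ideal.subset_span rfl)
  induction Q using MvPolynomial.induction_on with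
  | C a =>
    have h : ∀ Ξ₀ : (ZMod M)ˣ →* (MonoidAlgebra 𝒪 Δ)ˣ, PsiXi 𝒪 Ξ₀ f e g (MvPolynomial.C a) =
        algebraMap 𝒪 (MvPolynomial Jb (MonoidAlgebra 𝒪 Δ)) a := fun Ξ₀ =>
      (PsiXi 𝒪 Ξ₀ f e g).commutes a
    rw [h, h, sub_self]
    exact Ideal.zero_mem _
  | add p q hp hq =>
    rw [map_add, map_add, add_sub_add_comm]
    exact Ideal.add_mem _ hp hq
  | mul_X p κ hp =>
    have hκ : PsiXi 𝒪 Ξ' f e g (MvPolynomial.X κ) - PsiXi 𝒪 Ξ f e g (MvPolynomial.X κ) ∈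
        Ideal.span ({(MvPolynomial.C ϖ' : MvPolynomial Jb (MonoidAlgebra 𝒪 Δ))} :
          Set (MvPolynomial Jb (MonoidAlgebra 𝒪 Δ))) := by
      rcases κ with k | d
      · rw [PsiXi_inl, PsiXi_inl, ← sub_mul, ← map_sub]
        exact Ideal.mul_mem_right _ _ (hC _ (hΞ _))
      · rw [PsiXi_inr, PsiXi_inr, ← map_sub]
        exact hC _ (hΞ _)
    have h3 : PsiXi 𝒪 Ξ' f e g (p * MvPolynomial.X κ) - PsiXi 𝒪 Ξ f e g (p * MvPolynomial.X κ) =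
        (PsiXi 𝒪 Ξ' f e g p - PsiXi 𝒪 Ξ f e g p) * PsiXi 𝒪 Ξ' f e g (MvPolynomial.X κ) +
          PsiXi 𝒪 Ξ f e g p *
            (PsiXi 𝒪 Ξ' f e g (MvPolynomial.X κ) - PsiXi 𝒪 Ξ f e g (MvPolynomial.X κ)) := by
      rw [map_mul, map_mul]
      ring
    rw [h3]
    exact Ideal.add_mem _ (Ideal.mul_mem_right _ _ hp) (Ideal.mul_mem_left _ _ hκ)

end PsiDiff

/-! ### the package on the pair -/

section PairPackage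

variable (𝒪 : Type) [CommRing 𝒪] [IsLocalRing 𝒪] [IsNoetherianRing 𝒪]
  [IsAdicComplete (IsLocalRing.maximalIdeal 𝒪) 𝒪] [IsDomain 𝒪] [CharZero 𝒪]
  (Δ : Type) [CommGroup Δ] [IsLocalRing (MonoidAlgebra 𝒪 Δ)]
  [IsNoetherianRing (MonoidAlgebra 𝒪 Δ)]
  [IsAdicComplete (IsLocalRing.maximalIdeal (MonoidAlgebra 𝒪 Δ)) (MonoidAlgebra 𝒪 Δ)]
  {M : ℕ} [NeZero M] (π : (ZMod M)ˣ →* Δ) {Jb : Type} (f : Jb → HIdx M)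
  {ϖ : 𝒪} (Ξ' : (ZMod M)ˣ →* (MonoidAlgebra 𝒪 Δ)ˣ)
  (hΞ : ∀ d, ((Ξ' d : (MonoidAlgebra 𝒪 Δ)ˣ) : MonoidAlgebra 𝒪 Δ) -
    ((xiOf 𝒪 π d : (MonoidAlgebra 𝒪 Δ)ˣ) : MonoidAlgebra 𝒪 Δ) ∈
      Ideal.span ({(MonoidAlgebra.single (1 : Δ) ϖ : MonoidAlgebra 𝒪 Δ)} :
        Set (MonoidAlgebra 𝒪 Δ)))
  (h1 : xiOf 𝒪 π (-1) = 1) (h1' : Ξ' (-1) = 1)
  (h2 : IsUnit (2 : MonoidAlgebra 𝒪 Δ)) (h3 : IsUnit (3 : MonoidAlgebra 𝒪 Δ))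
  (reg : ∀ a : MonoidAlgebra 𝒪 Δ,
    (MonoidAlgebra.single (1 : Δ) ϖ : MonoidAlgebra 𝒪 Δ) • a = 0 → a = 0)
  (θR : Jb → IsLocalRing.ResidueField (MonoidAlgebra 𝒪 Δ))
  (hϖ : (MonoidAlgebra.single (1 : Δ) ϖ : MonoidAlgebra 𝒪 Δ) ∈
    IsLocalRing.maximalIdeal (MonoidAlgebra 𝒪 Δ))
  (m pp : ℕ) [Fact pp.Prime] [Algebra ℤ_[pp] 𝒪] [Module.Flat ℤ 𝒪]
  (H : Subgroup (ZMod M)ˣ) (S₀ : Finset ℕ)
  (hM5 : 5 ≤ M) (hHp : ¬ pp ∣ Nat.card H) (hHm : ∀ d : (ZMod M)ˣ, d ^ (2 * m + 1) ∈ H)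
  (hπH : ∀ d ∈ H, π d = 1) (hπ : Function.Surjective π)
  (hΞ'H : ∀ d ∈ H, Ξ' d = 1)
  (hΞ's : ∀ δ : Δ, ∃ d : (ZMod M)ˣ,
    ((Ξ' d : (MonoidAlgebra 𝒪 Δ)ˣ) : MonoidAlgebra 𝒪 Δ) = MonoidAlgebra.single δ (1 : 𝒪))
  (g : J M pp S₀ → Jb) (hg : ∀ k, f (g k) = fJ M pp S₀ k)
  (𝔪 : Ideal (MvPolynomial (K M pp S₀) 𝒪)) [𝔪.IsMaximal]
  (k₀ : J M pp S₀) (hk₀ : (((k₀.1 : ℕ) : ℕ) : ZMod M) = 1)
  (hs : (MvPolynomial.X (Sum.inl k₀) - MvPolynomial.C (((1 + (k₀.1 : ℕ) : ℕ) : 𝒪)) :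
    MvPolynomial (K M pp S₀) 𝒪) ∉ 𝔪)
  (h𝔪 : ∀ s : MvPolynomial (K M pp S₀) 𝒪, s ∉ 𝔪 →
    PsiXi 𝒪 (xiOf 𝒪 π) (fJ M pp S₀) (eJ M m pp S₀) g s ∈ Sθ θR)

omit [IsLocalRing 𝒪] [IsNoetherianRing 𝒪] [IsAdicComplete (IsLocalRing.maximalIdeal 𝒪) 𝒪]
  [IsDomain 𝒪] [CharZero 𝒪] [IsNoetherianRing (MonoidAlgebra 𝒪 Δ)]
  [IsAdicComplete (IsLocalRing.maximalIdeal (MonoidAlgebra 𝒪 Δ)) (MonoidAlgebra 𝒪 Δ)]
  [NeZero M] [IsLocalRing (MonoidAlgebra 𝒪 Δ)] in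
/-- the hypothesis `hΞH` of the bridge for the diamond character -/
theorem xiOf_eq_one_of_mem (d : (ZMod M)ˣ) (hd : π d = 1) : xiOf 𝒪 π d = 1 := by
  have h : xiOf 𝒪 π d = ((Units.map (MonoidAlgebra.of 𝒪 Δ : Δ →* MonoidAlgebra 𝒪 Δ)).comp
      (toUnits (G := Δ)).toMonoidHom) (π d) := rfl
  rw [h, hd, map_one]

omit [IsLocalRing 𝒪] [IsNoetherianRing 𝒪] [IsAdicComplete (IsLocalRing.maximalIdeal 𝒪) 𝒪]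
  [IsDomain 𝒪] [CharZero 𝒪] [IsNoetherianRing (MonoidAlgebra 𝒪 Δ)]
  [IsAdicComplete (IsLocalRing.maximalIdeal (MonoidAlgebra 𝒪 Δ)) (MonoidAlgebra 𝒪 Δ)]
  [NeZero M] [IsLocalRing (MonoidAlgebra 𝒪 Δ)] in
theorem coe_xiOf (d : (ZMod M)ˣ) :
    ((xiOf 𝒪 π d : (MonoidAlgebra 𝒪 Δ)ˣ) : MonoidAlgebra 𝒪 Δ) =
      MonoidAlgebra.single (π d) (1 : 𝒪) := rfl

include hπ in
omit [IsLocalRing 𝒪] [IsNoetherianRing 𝒪] [IsAdicComplete (IsLocalRing.maximalIdeal 𝒪) 𝒪]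
  [IsDomain 𝒪] [CharZero 𝒪] [IsNoetherianRing (MonoidAlgebra 𝒪 Δ)]
  [IsAdicComplete (IsLocalRing.maximalIdeal (MonoidAlgebra 𝒪 Δ)) (MonoidAlgebra 𝒪 Δ)]
  [NeZero M] [IsLocalRing (MonoidAlgebra 𝒪 Δ)] in
/-- the hypothesis `hsurj` of the bridge for the diamond character -/
theorem hsurj_xiOf (δ : Δ) : ∃ d : (ZMod M)ˣ,
    ((xiOf 𝒪 π d : (MonoidAlgebra 𝒪 Δ)ˣ) : MonoidAlgebra 𝒪 Δ) =
      MonoidAlgebra.single δ (1 : 𝒪) := by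
  obtain ⟨d, rfl⟩ := hπ δ
  exact ⟨d, coe_xiOf 𝒪 Δ π d⟩

include hΞ hϖ h𝔪 in
omit [IsLocalRing 𝒪] [IsNoetherianRing 𝒪] [IsAdicComplete (IsLocalRing.maximalIdeal 𝒪) 𝒪]
  [IsDomain 𝒪] [CharZero 𝒪] [IsNoetherianRing (MonoidAlgebra 𝒪 Δ)]
  [IsAdicComplete (IsLocalRing.maximalIdeal (MonoidAlgebra 𝒪 Δ)) (MonoidAlgebra 𝒪 Δ)]
  [NeZero M] [Fact pp.Prime] [Algebra ℤ_[pp] 𝒪] [Module.Flat ℤ 𝒪] [𝔪.IsMaximal] in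
/-- the hypothesis `h𝔪` passes from the diamond character to the congruent character -/
theorem h𝔪_cong (s : MvPolynomial (K M pp S₀) 𝒪) (hs' : s ∉ 𝔪) :
    PsiXi 𝒪 Ξ' (fJ M pp S₀) (eJ M m pp S₀) g s ∈ Sθ θR := by
  have h0 := h𝔪 s hs'
  rw [mem_Sθ_iff] at h0 ⊢
  obtain ⟨W, hW⟩ := Ideal.mem_span_singleton'.mp
    (PsiXi_sub_mem 𝒪 (xiOf 𝒪 π) Ξ' _ (fJ M pp S₀) (eJ M m pp S₀) g hΞ s)
  have h4 : evalHom θR (PsiXi 𝒪 Ξ' (fJ M pp S₀) (eJ M m pp S₀) g s) =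
      evalHom θR (PsiXi 𝒪 (xiOf 𝒪 π) (fJ M pp S₀) (eJ M m pp S₀) g s) := by
    rw [← sub_eq_zero, ← map_sub, ← hW, map_mul, evalHom_C,
      (IsLocalRing.residue_eq_zero_iff _).mpr hϖ, mul_zero]
  rwa [h4]

include hM5 hHp hHm hπH hπ hg hk₀ hs h𝔪 in
/-- the bridge on the Hecke module of the diamond character, in the vocabulary of the pair -/
theorem exists_bridge_M1 :
    ∃ Φ : TQ M m pp H 𝒪 S₀ 𝔪 →+* Module.End (MvPolynomial Jb (MonoidAlgebra 𝒪 Δ))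
        ((pairXi f hΞ h1 h1' h2 h3 reg).M1 θR),
      (∀ (a : 𝒪) y, Φ (algebraMap 𝒪 (TQ M m pp H 𝒪 S₀ 𝔪) a) y =
        algebraMap 𝒪 (MonoidAlgebra 𝒪 Δ) a • y) ∧
      (∀ (j : J M pp S₀) y, Φ (tQ M m pp H 𝒪 S₀ 𝔪 j) y =
        (MvPolynomial.C ((xiOf 𝒪 π (twJ M m pp S₀ j) : (MonoidAlgebra 𝒪 Δ)ˣ) :
            MonoidAlgebra 𝒪 Δ) *
          MvPolynomial.X (g j) : MvPolynomial Jb (MonoidAlgebra 𝒪 Δ)) • y) ∧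
      (∀ (d : (ZMod M)ˣ) y, Φ (dQ M m pp H 𝒪 S₀ 𝔪 d) y =
        (MvPolynomial.C ((xiOf 𝒪 π d : (MonoidAlgebra 𝒪 Δ)ˣ) : MonoidAlgebra 𝒪 Δ) :
          MvPolynomial Jb (MonoidAlgebra 𝒪 Δ)) • y) ∧
      ∀ (Q : MvPolynomial (K M pp S₀) 𝒪) y,
        Φ (ofP 𝒪 𝔪 (WithOps (tK M m pp H 𝒪 S₀) (hcommK M m pp H 𝒪 S₀)) Q) y =
          PsiXi 𝒪 (xiOf 𝒪 π) (fJ M pp S₀) (eJ M m pp S₀) g Q • y := by
  have h2𝒪 : IsUnit (2 : 𝒪) := by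
    have := h2.map (augm 𝒪 Δ)
    rwa [map_ofNat] at this
  have h3𝒪 : IsUnit (3 : 𝒪) := by
    have := h3.map (augm 𝒪 Δ)
    rwa [map_ofNat] at this
  have hfin := finite_H1_chiXi (MonoidAlgebra 𝒪 Δ) (xiOf 𝒪 π)
  exact exists_bridge_TQ M m pp S₀ H 𝒪 hM5 hHp hHm (xiOf 𝒪 π)
    (fun d hd => xiOf_eq_one_of_mem 𝒪 Δ π d (hπH d hd)) (hsurj_xiOf 𝒪 Δ π hπ) h2𝒪 h3𝒪 f g hg 𝔪
    k₀ hk₀ hs (pairXi f hΞ h1 h1' h2 h3 reg).comm θR h𝔪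
    (Free.mk_M1_surjective (pairXi f hΞ h1 h1' h2 h3 reg) θR hfin)

include hϖ hM5 hHp hHm hΞ'H hΞ's hg hk₀ hs h𝔪 in
/-- the bridge on the Hecke module of the congruent character, in the vocabulary of the pair -/
theorem exists_bridge_Mχ :
    ∃ Φ : TQ M m pp H 𝒪 S₀ 𝔪 →+* Module.End (MvPolynomial Jb (MonoidAlgebra 𝒪 Δ))
        ((pairXi f hΞ h1 h1' h2 h3 reg).Mχ θR),
      (∀ (a : 𝒪) y, Φ (algebraMap 𝒪 (TQ M m pp H 𝒪 S₀ 𝔪) a) y =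
        algebraMap 𝒪 (MonoidAlgebra 𝒪 Δ) a • y) ∧
      (∀ (j : J M pp S₀) y, Φ (tQ M m pp H 𝒪 S₀ 𝔪 j) y =
        (MvPolynomial.C ((Ξ' (twJ M m pp S₀ j) : (MonoidAlgebra 𝒪 Δ)ˣ) : MonoidAlgebra 𝒪 Δ) *
          MvPolynomial.X (g j) : MvPolynomial Jb (MonoidAlgebra 𝒪 Δ)) • y) ∧
      (∀ (d : (ZMod M)ˣ) y, Φ (dQ M m pp H 𝒪 S₀ 𝔪 d) y =
        (MvPolynomial.C ((Ξ' d : (MonoidAlgebra 𝒪 Δ)ˣ) : MonoidAlgebra 𝒪 Δ) :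
          MvPolynomial Jb (MonoidAlgebra 𝒪 Δ)) • y) ∧
      ∀ (Q : MvPolynomial (K M pp S₀) 𝒪) y,
        Φ (ofP 𝒪 𝔪 (WithOps (tK M m pp H 𝒪 S₀) (hcommK M m pp H 𝒪 S₀)) Q) y =
          PsiXi 𝒪 Ξ' (fJ M pp S₀) (eJ M m pp S₀) g Q • y := by
  have h2𝒪 : IsUnit (2 : 𝒪) := by
    have := h2.map (augm 𝒪 Δ)
    rwa [map_ofNat] at this
  have h3𝒪 : IsUnit (3 : 𝒪) := by
    have := h3.map (augm 𝒪 Δ)
    rwa [map_ofNat] at this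
  have hfin' := finite_H1_chiXi (MonoidAlgebra 𝒪 Δ) Ξ'
  exact exists_bridge_TQ M m pp S₀ H 𝒪 hM5 hHp hHm Ξ' hΞ'H hΞ's h2𝒪 h3𝒪 f g hg 𝔪
    k₀ hk₀ hs (pairXi f hΞ h1 h1' h2 h3 reg).comm' θR
    (h𝔪_cong 𝒪 Δ π Ξ' hΞ θR hϖ m pp S₀ g 𝔪 h𝔪)
    (Free.mk_Mχ_surjective (pairXi f hΞ h1 h1' h2 h3 reg) θR hfin')

include hΞ h1 h1' h2 h3 reg hϖ hM5 hHp hHm hπH hπ hΞ'H hΞ's hg hk₀ hs h𝔪 in
/-- **THE `Φ`-PACKAGE ON THE PAIR** : the Hecke algebra `TQ` of the Tate side acts on the two Hecke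
modules of the pair `pairXi f hΞ ..`, `𝒪[Δ]`-linearly, by the displayed formulas, compatibly with
the two reductions modulo `ϖ`. -/
theorem exists_Phi_pair :
    ∃ (Φ₁ : TQ M m pp H 𝒪 S₀ 𝔪 →+* Module.End (MonoidAlgebra 𝒪 Δ)
        ((pairXi f hΞ h1 h1' h2 h3 reg).M1 θR))
      (Φχ : TQ M m pp H 𝒪 S₀ 𝔪 →+* Module.End (MonoidAlgebra 𝒪 Δ)
        ((pairXi f hΞ h1 h1' h2 h3 reg).Mχ θR)),
      (∀ (a : 𝒪) x, Φ₁ (algebraMap 𝒪 (TQ M m pp H 𝒪 S₀ 𝔪) a) x =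
        (MonoidAlgebra.single (1 : Δ) a : MonoidAlgebra 𝒪 Δ) • x) ∧
      (∀ (a : 𝒪) z, Φχ (algebraMap 𝒪 (TQ M m pp H 𝒪 S₀ 𝔪) a) z =
        (MonoidAlgebra.single (1 : Δ) a : MonoidAlgebra 𝒪 Δ) • z) ∧
      (∀ (Q : MvPolynomial (K M pp S₀) 𝒪) x,
        Φ₁ (ofP 𝒪 𝔪 (WithOps (tK M m pp H 𝒪 S₀) (hcommK M m pp H 𝒪 S₀)) Q) x =
          PsiXi 𝒪 (xiOf 𝒪 π) (fJ M pp S₀) (eJ M m pp S₀) g Q • x) ∧
      (∀ (Q : MvPolynomial (K M pp S₀) 𝒪) z,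
        Φχ (ofP 𝒪 𝔪 (WithOps (tK M m pp H 𝒪 S₀) (hcommK M m pp H 𝒪 S₀)) Q) z =
          PsiXi 𝒪 Ξ' (fJ M pp S₀) (eJ M m pp S₀) g Q • z) ∧
      (∀ (k : J M pp S₀) x, Φ₁ (tQ M m pp H 𝒪 S₀ 𝔪 k) x =
        (MonoidAlgebra.single (π (twJ M m pp S₀ k)) (1 : 𝒪) : MonoidAlgebra 𝒪 Δ) •
          ((MvPolynomial.X (g k) : MvPolynomial Jb (MonoidAlgebra 𝒪 Δ)) • x)) ∧
      (∀ (k : J M pp S₀) z, Φχ (tQ M m pp H 𝒪 S₀ 𝔪 k) z =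
        ((Ξ' (twJ M m pp S₀ k) : (MonoidAlgebra 𝒪 Δ)ˣ) : MonoidAlgebra 𝒪 Δ) •
          ((MvPolynomial.X (g k) : MvPolynomial Jb (MonoidAlgebra 𝒪 Δ)) • z)) ∧
      (∀ (d : (ZMod M)ˣ) x, Φ₁ (dQ M m pp H 𝒪 S₀ 𝔪 d) x =
        (MonoidAlgebra.single (π d) (1 : 𝒪) : MonoidAlgebra 𝒪 Δ) • x) ∧
      (∀ (d : (ZMod M)ˣ) z, Φχ (dQ M m pp H 𝒪 S₀ 𝔪 d) z =
        ((Ξ' d : (MonoidAlgebra 𝒪 Δ)ˣ) : MonoidAlgebra 𝒪 Δ) • z) ∧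
      ∀ (a : TQ M m pp H 𝒪 S₀ 𝔪) y z,
        (pairXi f hΞ h1 h1' h2 h3 reg).q1 θR y = (pairXi f hΞ h1 h1' h2 h3 reg).qχ θR z →
          (pairXi f hΞ h1 h1' h2 h3 reg).q1 θR (Φ₁ a y) =
            (pairXi f hΞ h1 h1' h2 h3 reg).qχ θR (Φχ a z) := by
  obtain ⟨Φ1, hΦ1a, hΦ1t, hΦ1d, hΦ1Q⟩ := exists_bridge_M1 𝒪 Δ π f Ξ' hΞ h1 h1' h2 h3 reg θR m pp
    H S₀ hM5 hHp hHm hπH hπ g hg 𝔪 k₀ hk₀ hs h𝔪
  obtain ⟨Φx, hΦxa, hΦxt, hΦxd, hΦxQ⟩ := exists_bridge_Mχ 𝒪 Δ π f Ξ' hΞ h1 h1' h2 h3 reg θR hϖ m pp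
    H S₀ hM5 hHp hHm hΞ'H hΞ's g hg 𝔪 k₀ hk₀ hs h𝔪
  refine ⟨(restrictEnd (MonoidAlgebra 𝒪 Δ) (MvPolynomial Jb (MonoidAlgebra 𝒪 Δ)) _).comp Φ1,
    (restrictEnd (MonoidAlgebra 𝒪 Δ) (MvPolynomial Jb (MonoidAlgebra 𝒪 Δ)) _).comp Φx,
    fun a x => hΦ1a a x, fun a z => hΦxa a z, fun Q x => hΦ1Q Q x, fun Q z => hΦxQ Q z,
    fun k x => ?_, fun k z => ?_, fun d x => ?_, fun d z => ?_, fun a y z hyz => ?_⟩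
  · show Φ1 _ x = _
    rw [hΦ1t, mul_smul, ← MvPolynomial.algebraMap_eq, algebraMap_smul]
    rfl
  · show Φx _ z = _
    rw [hΦxt, mul_smul, ← MvPolynomial.algebraMap_eq, algebraMap_smul]
  · show Φ1 _ x = _
    rw [hΦ1d, ← MvPolynomial.algebraMap_eq, algebraMap_smul]
    rfl
  · show Φx _ z = _
    rw [hΦxd, ← MvPolynomial.algebraMap_eq, algebraMap_smul]
  · have : Module.Finite 𝒪 (LamQ M m pp H 𝒪 S₀ 𝔪) := finite_LamQ M m pp H 𝒪 S₀ 𝔪 hM5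
    obtain ⟨Qa, rfl⟩ := Fermat.Agent.S43.Rho.LamGen.ofP_surjective 𝒪 𝔪
      (WithOps (tK M m pp H 𝒪 S₀) (hcommK M m pp H 𝒪 S₀)) a
    show (pairXi f hΞ h1 h1' h2 h3 reg).q1 θR (Φ1 _ y) =
      (pairXi f hΞ h1 h1' h2 h3 reg).qχ θR (Φx _ z)
    rw [hΦ1Q, hΦxQ, LinearMap.map_smul, LinearMap.map_smul, hyz]
    obtain ⟨W, hW⟩ := Ideal.mem_span_singleton'.mp
      (PsiXi_sub_mem 𝒪 (xiOf 𝒪 π) Ξ' _ (fJ M pp S₀) (eJ M m pp S₀) g hΞ Qa)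
    have h5 : PsiXi 𝒪 Ξ' (fJ M pp S₀) (eJ M m pp S₀) g Qa =
        PsiXi 𝒪 (xiOf 𝒪 π) (fJ M pp S₀) (eJ M m pp S₀) g Qa +
          W * MvPolynomial.C (MonoidAlgebra.single (1 : Δ) ϖ : MonoidAlgebra 𝒪 Δ) := by
      rw [hW]
      ring
    rw [h5, add_smul, mul_smul, ← MvPolynomial.algebraMap_eq, algebraMap_smul,
      smul_Mb_eq_zero, smul_zero, add_zero]

end PairPackage

/-! ### the package on the seam -/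

section SidePackage

open Fermat.Agent.S43.Hecke.Main

variable (𝒪 : Type) [CommRing 𝒪] [IsLocalRing 𝒪] [IsNoetherianRing 𝒪]
  [IsAdicComplete (IsLocalRing.maximalIdeal 𝒪) 𝒪]
  (Δ : Type) [CommGroup Δ] [IsLocalRing (MonoidAlgebra 𝒪 Δ)]
  [IsLocalHom (augm 𝒪 Δ).toRingHom] [IsNoetherianRing (MonoidAlgebra 𝒪 Δ)]
  [IsAdicComplete (IsLocalRing.maximalIdeal (MonoidAlgebra 𝒪 Δ)) (MonoidAlgebra 𝒪 Δ)]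
  {Jb : Type} [DecidableEq Jb] (p : Jb → ℕ) (hp : ∀ j, (p j).Prime)
  (hinj : Function.Injective p)
  {N : ℕ} [NeZero N] (θ α : Jb → IsLocalRing.ResidueField 𝒪) (Q : List Jb) (hQ : Q.Nodup)
  (hQN : ∀ j ∈ Q, ¬ p j ∣ N) (hgood : ∀ j ∈ Q, Descent.Main.Good 𝒪 p θ α j)
  {M : ℕ} (hM : M = N * (Q.map p).prod) (π : (ZMod M)ˣ →* Δ)
  (f : Jb → HIdx M) (hpf : ∀ j, TrivHecke.idxPrime (f j) = p j)
  {ϖ : 𝒪} (Ξ' : (ZMod M)ˣ →* (MonoidAlgebra 𝒪 Δ)ˣ)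
  (hΞ : ∀ d, ((Ξ' d : (MonoidAlgebra 𝒪 Δ)ˣ) : MonoidAlgebra 𝒪 Δ) -
    ((xiOf 𝒪 π d : (MonoidAlgebra 𝒪 Δ)ˣ) : MonoidAlgebra 𝒪 Δ) ∈
      Ideal.span ({(MonoidAlgebra.single (1 : Δ) ϖ : MonoidAlgebra 𝒪 Δ)} :
        Set (MonoidAlgebra 𝒪 Δ)))
  (h1 : xiOf 𝒪 π (-1) = 1) (h1' : Ξ' (-1) = 1)
  (h2 : IsUnit (2 : MonoidAlgebra 𝒪 Δ)) (h3 : IsUnit (3 : MonoidAlgebra 𝒪 Δ))
  (reg : ∀ a : MonoidAlgebra 𝒪 Δ,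
    (MonoidAlgebra.single (1 : Δ) ϖ : MonoidAlgebra 𝒪 Δ) • a = 0 → a = 0)
  (θR : Jb → IsLocalRing.ResidueField (MonoidAlgebra 𝒪 Δ))
  (hθR : ∀ j, IsLocalRing.ResidueField.map (augm 𝒪 Δ).toRingHom (θR j) =
    if j ∈ Q then α j else θ j)
  {I : Type} (incl : I → Jb) (hincl : ∀ i, incl i ∉ Q)
  [IsDomain 𝒪] [IsPrincipalIdealRing 𝒪]
  (hϖ : (MonoidAlgebra.single (1 : Δ) ϖ : MonoidAlgebra 𝒪 Δ) ∈
    IsLocalRing.maximalIdeal (MonoidAlgebra 𝒪 Δ))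
  (j₀ : Jb)
  (hne : θR j₀ ≠ IsLocalRing.residue (MonoidAlgebra 𝒪 Δ) (Hν (xiOf 𝒪 π) (f j₀)).deg)
  [NeZero M] [CharZero 𝒪]
  (m pp : ℕ) [Fact pp.Prime] [Algebra ℤ_[pp] 𝒪] [Module.Flat ℤ 𝒪]
  (H : Subgroup (ZMod M)ˣ) (S₀ : Finset ℕ)
  (hM5 : 5 ≤ M) (hHp : ¬ pp ∣ Nat.card H) (hHm : ∀ d : (ZMod M)ˣ, d ^ (2 * m + 1) ∈ H)
  (hπH : ∀ d ∈ H, π d = 1) (hπ : Function.Surjective π)
  (hΞ'H : ∀ d ∈ H, Ξ' d = 1)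
  (hΞ's : ∀ δ : Δ, ∃ d : (ZMod M)ˣ,
    ((Ξ' d : (MonoidAlgebra 𝒪 Δ)ˣ) : MonoidAlgebra 𝒪 Δ) = MonoidAlgebra.single δ (1 : 𝒪))
  (g : J M pp S₀ → Jb) (hg : ∀ k, f (g k) = fJ M pp S₀ k)
  (𝔪 : Ideal (MvPolynomial (K M pp S₀) 𝒪)) [𝔪.IsMaximal]
  (k₀ : J M pp S₀) (hk₀ : (((k₀.1 : ℕ) : ℕ) : ZMod M) = 1)
  (hs : (MvPolynomial.X (Sum.inl k₀) - MvPolynomial.C (((1 + (k₀.1 : ℕ) : ℕ) : 𝒪)) :
    MvPolynomial (K M pp S₀) 𝒪) ∉ 𝔪)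
  (h𝔪 : ∀ s : MvPolynomial (K M pp S₀) 𝒪, s ∉ 𝔪 →
    PsiXi 𝒪 (xiOf 𝒪 π) (fJ M pp S₀) (eJ M m pp S₀) g s ∈ Sθ θR)

attribute [local instance] HeckeSide.acg1 HeckeSide.acgχ HeckeSide.acgb HeckeSide.mod1
  HeckeSide.modχ HeckeSide.modb

include hM5 hHp hHm hπH hπ hΞ'H hΞ's hg hk₀ hs h𝔪 in
/-- **THE `Φ`-PACKAGE ON THE SEAM `Main.heckeSideOf`**, in the literal of
`RSide/FeedQ.nonempty_datumJ_Q` : the two actions of the Hecke algebra `TQ` of the Tate side, their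
values on `algebraMap`, on the `tQ k` and on the diamonds `dQ d`, the compatibility with the two
reductions, and the compatibility of `Φ₁` with the descent `p0` to the level-zero module. -/
theorem exists_Phi :
    ∃ (Φ₁ : TQ M m pp H 𝒪 S₀ 𝔪 →+* Module.End (MonoidAlgebra 𝒪 Δ)
        (heckeSideOf 𝒪 Δ p hp hinj θ α Q hQ hQN hgood hM π f hpf Ξ' hΞ h1 h1' h2 h3 reg θR hθR incl
          hincl hϖ j₀ hne).M1)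
      (Φχ : TQ M m pp H 𝒪 S₀ 𝔪 →+* Module.End (MonoidAlgebra 𝒪 Δ)
        (heckeSideOf 𝒪 Δ p hp hinj θ α Q hQ hQN hgood hM π f hpf Ξ' hΞ h1 h1' h2 h3 reg θR hθR incl
          hincl hϖ j₀ hne).Mχ),
      (∀ (a : 𝒪) x, Φ₁ (algebraMap 𝒪 (TQ M m pp H 𝒪 S₀ 𝔪) a) x =
        (MonoidAlgebra.single (1 : Δ) a : MonoidAlgebra 𝒪 Δ) • x) ∧
      (∀ (a : 𝒪) z, Φχ (algebraMap 𝒪 (TQ M m pp H 𝒪 S₀ 𝔪) a) z =
        (MonoidAlgebra.single (1 : Δ) a : MonoidAlgebra 𝒪 Δ) • z) ∧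
      (∀ (k : J M pp S₀) (i : I), g k = incl i → ∀ x, Φ₁ (tQ M m pp H 𝒪 S₀ 𝔪 k) x =
        (MonoidAlgebra.single (π (twJ M m pp S₀ k)) (1 : 𝒪) : MonoidAlgebra 𝒪 Δ) •
          (heckeSideOf 𝒪 Δ p hp hinj θ α Q hQ hQN hgood hM π f hpf Ξ' hΞ h1 h1' h2 h3 reg θR hθR
            incl hincl hϖ j₀ hne).t1 i x) ∧
      (∀ (k : J M pp S₀) (i : I), g k = incl i → ∀ z, Φχ (tQ M m pp H 𝒪 S₀ 𝔪 k) z =
        ((Ξ' (twJ M m pp S₀ k) : (MonoidAlgebra 𝒪 Δ)ˣ) : MonoidAlgebra 𝒪 Δ) •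
          (heckeSideOf 𝒪 Δ p hp hinj θ α Q hQ hQN hgood hM π f hpf Ξ' hΞ h1 h1' h2 h3 reg θR hθR
            incl hincl hϖ j₀ hne).tχ i z) ∧
      (∀ (d : (ZMod M)ˣ) x, Φ₁ (dQ M m pp H 𝒪 S₀ 𝔪 d) x =
        (MonoidAlgebra.single (π d) (1 : 𝒪) : MonoidAlgebra 𝒪 Δ) • x) ∧
      (∀ (d : (ZMod M)ˣ) z, Φχ (dQ M m pp H 𝒪 S₀ 𝔪 d) z =
        ((Ξ' d : (MonoidAlgebra 𝒪 Δ)ˣ) : MonoidAlgebra 𝒪 Δ) • z) ∧
      (∀ (a : TQ M m pp H 𝒪 S₀ 𝔪) y z,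
        (heckeSideOf 𝒪 Δ p hp hinj θ α Q hQ hQN hgood hM π f hpf Ξ' hΞ h1 h1' h2 h3 reg θR hθR
            incl hincl hϖ j₀ hne).q1 y =
          (heckeSideOf 𝒪 Δ p hp hinj θ α Q hQ hQN hgood hM π f hpf Ξ' hΞ h1 h1' h2 h3 reg θR hθR
            incl hincl hϖ j₀ hne).qχ z →
        (heckeSideOf 𝒪 Δ p hp hinj θ α Q hQ hQN hgood hM π f hpf Ξ' hΞ h1 h1' h2 h3 reg θR hθR
            incl hincl hϖ j₀ hne).q1 (Φ₁ a y) =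
          (heckeSideOf 𝒪 Δ p hp hinj θ α Q hQ hQN hgood hM π f hpf Ξ' hΞ h1 h1' h2 h3 reg θR hθR
            incl hincl hϖ j₀ hne).qχ (Φχ a z)) ∧
      (∀ (k : J M pp S₀) (i : I), g k = incl i → ∀ x,
        (heckeSideOf 𝒪 Δ p hp hinj θ α Q hQ hQN hgood hM π f hpf Ξ' hΞ h1 h1' h2 h3 reg θR hθR
            incl hincl hϖ j₀ hne).p0 (Φ₁ (tQ M m pp H 𝒪 S₀ 𝔪 k) x) =
          t0 𝒪 p hp N θ incl i
            ((heckeSideOf 𝒪 Δ p hp hinj θ α Q hQ hQN hgood hM π f hpf Ξ' hΞ h1 h1' h2 h3 reg θR hθR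
              incl hincl hϖ j₀ hne).p0 x)) ∧
      ∀ (d : (ZMod M)ˣ) x,
        (heckeSideOf 𝒪 Δ p hp hinj θ α Q hQ hQN hgood hM π f hpf Ξ' hΞ h1 h1' h2 h3 reg θR hθR
            incl hincl hϖ j₀ hne).p0 (Φ₁ (dQ M m pp H 𝒪 S₀ 𝔪 d) x) =
          (heckeSideOf 𝒪 Δ p hp hinj θ α Q hQ hQN hgood hM π f hpf Ξ' hΞ h1 h1' h2 h3 reg θR hθR
            incl hincl hϖ j₀ hne).p0 x := by
  obtain ⟨Φ₁, Φχ, h1O, hχO, -, -, h1t, hχt, h1d, hχd, hcompat⟩ :=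
    exists_Phi_pair 𝒪 Δ π f Ξ' hΞ h1 h1' h2 h3 reg θR hϖ m pp H S₀ hM5 hHp hHm hπH hπ hΞ'H hΞ's
      g hg 𝔪 k₀ hk₀ hs h𝔪
  refine ⟨Φ₁, Φχ, h1O, hχO, fun k i hki x => ?_, fun k i hki z => ?_, h1d, hχd, hcompat,
    fun k i hki x => ?_, fun d x => ?_⟩
  · have e1 := h1t k x
    rw [hki] at e1
    exact e1
  · have e1 := hχt k z
    rw [hki] at e1
    exact e1
  · have e1 := h1t k x
    rw [hki] at e1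
    exact (congrArg _ e1).trans ((HeckeSide.p0_smul _ _ _ _).trans ((one_smul _ _).trans
      (HeckeSide.p0_t _ i x)))
  · exact (congrArg _ (h1d d x)).trans ((HeckeSide.p0_smul _ _ _ _).trans (one_smul _ _))

end SidePackage

end Fermat.Agent.S43.Hecke.BridgeSide
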