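import Mathlib
import Fermat.Agent.S43.Hecke.BridgeSide

/-!
# PROJECT R (S43), the bridge L1 ↔ L3 at the index set of record

The index set of record of the Hecke operators (ruling #6475): the primes outside a fixed finite
set, `J N pp S₀ = {r : Nat.Primes // r.Coprime N ∧ r ≠ pp ∧ r ∉ S₀}` (`= Rho/Zero/Inst.JZ N pp S₀`
after unfolding the abbreviations).  At a Taylor-Wiles level `M = N ∏_{j ∈ Q} r_j` this file fixes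

* `pJ`, `pJ_prime`, `pJ_injective` : the family of primes of `J N pp S₀`;
* `fLev := Main.fOf pJ pJ_prime M` : `T_r` for `r ∤ M`, `U_r` for `r ∣ M`;
* `gLev hNM : J M pp S₀ → J N pp S₀` the inclusion, `fLev_gLev` (`= LamTate.fJ`), `gLev_notMem`;

and restates `BridgeSide.exists_Phi` with `f := fLev`, `g := incl := gLev`, `I := J M pp S₀`:
**`exists_Phi_level`**, where the values on `tQ k` and the compatibility with `p0` are unconditional.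
-/

set_option autoImplicit false
set_option linter.unusedSectionVars false

open CongruenceSubgroup Matrix.SpecialLinearGroup ModularCurve.Period
open scoped MatrixGroups BigOperators

noncomputable section

namespace Fermat.Agent.S43.Hecke.BridgeLevel

open Fermat.Agent.S30.Hecke.DoubleCoset Fermat.Agent.S30.Hecke.Gamma0Cosets
open Fermat.Agent.S43.Hecke.Defs Fermat.Agent.S43.Hecke.Seam Fermat.Agent.S43.Hecke.Shapiro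
  Fermat.Agent.S43.Hecke.Inst Fermat.Agent.S43.Hecke.Inst.Comm
  Fermat.Agent.S43.Hecke.Inst.Pair
open Fermat.Agent.S43.Hecke.PolyModule Fermat.Agent.S43.Hecke.Loc Fermat.Agent.S43.Hecke.Side
  Fermat.Agent.S43.Hecke.Assemble Fermat.Agent.S43.Hecke.Main
  Fermat.Agent.S43.Hecke.BridgeInst Fermat.Agent.S43.Hecke.BridgeTate
  Fermat.Agent.S43.Hecke.BridgeSide
open Fermat.Agent.S43.Rho.Lam
open Fermat.Agent.S43.Rho.LamInst (J)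
open Fermat.Agent.S43.Rho.LamInstD (K tK hcommK TQ tQ dQ)
open Fermat.Agent.S43.Rho.LamTate (fJ eJ)

/-! ### the family of primes of record -/

section Family

variable (N pp : ℕ) (S₀ : Finset ℕ)

/-- the prime of an index (an abbreviation: the statements below spell it out, as
`Rho/Zero/Bridge` does) -/
abbrev pJ : J N pp S₀ → ℕ := fun j => (j.1 : ℕ)

theorem pJ_prime (j : J N pp S₀) : (pJ N pp S₀ j).Prime := j.1.2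

theorem pJ_injective : Function.Injective (pJ N pp S₀) := fun _ _ h =>
  Subtype.ext (Subtype.ext h)

variable (M : ℕ)

/-- the Hecke index of level `M` of an index of record -/
def fLev : J N pp S₀ → HIdx M := fOf (pJ N pp S₀) (pJ_prime N pp S₀) M

theorem idxPrime_fLev (j : J N pp S₀) :
    TrivHecke.idxPrime (fLev N pp S₀ M j) = pJ N pp S₀ j :=
  idxPrime_fOf (pJ N pp S₀) (pJ_prime N pp S₀) M j

variable {N M}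

/-- the inclusion of the primes outside `M pp S₀` into the primes outside `N pp S₀` -/
def gLev (hNM : N ∣ M) : J M pp S₀ → J N pp S₀ := fun k =>
  ⟨k.1, Nat.Coprime.coprime_dvd_right hNM k.2.1, k.2.2⟩

theorem pJ_gLev (hNM : N ∣ M) (k : J M pp S₀) : pJ N pp S₀ (gLev pp S₀ hNM k) = (k.1 : ℕ) := rfl

theorem fLev_gLev (hNM : N ∣ M) (k : J M pp S₀) :
    fLev N pp S₀ M (gLev pp S₀ hNM k) = fJ M pp S₀ k :=
  fOf_of_not_dvd (pJ N pp S₀) (pJ_prime N pp S₀) M (gLev pp S₀ hNM k)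
    ((Nat.Prime.coprime_iff_not_dvd k.1.2).mp k.2.1)

theorem gLev_notMem (hNM : N ∣ M) (Q : List (J N pp S₀))
    (hM : M = N * (Q.map (pJ N pp S₀)).prod) (k : J M pp S₀) : gLev pp S₀ hNM k ∉ Q := by
  intro hk
  have h1 : pJ N pp S₀ (gLev pp S₀ hNM k) ∣ (Q.map (pJ N pp S₀)).prod :=
    List.dvd_prod (List.mem_map_of_mem hk)
  have h2 : (k.1 : ℕ) ∣ M := (Dvd.dvd.mul_left h1 N).trans (dvd_of_eq hM.symm)
  exact (Nat.Prime.coprime_iff_not_dvd k.1.2).mp k.2.1 h2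

theorem dvd_level (Q : List (J N pp S₀)) (hM : M = N * (Q.map (pJ N pp S₀)).prod) : N ∣ M :=
  ⟨_, hM⟩

end Family

/-! ### the seam and the `Φ`-package at the index sets of record -/

section Ite

variable {Jb : Type} [inst : DecidableEq Jb] {k : Type*} (Q : List Jb) (a b : Jb → k)

/-- `if j ∈ Q then a j else b j`, elaborated over an ABSTRACT index type (so that the decidability
of `j ∈ Q` is the one of `Main.heckeSideOf`, whatever the index type is instantiated to) -/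
def ite_mem (j : Jb) : k := if j ∈ Q then a j else b j

theorem eq_ite_mem (c : Jb → k) (h1 : ∀ j ∈ Q, c j = a j) (h2 : ∀ j ∉ Q, c j = b j) (j : Jb) :
    c j = ite_mem Q a b j := by
  unfold ite_mem
  by_cases hj : j ∈ Q
  · rw [if_pos hj]
    exact h1 j hj
  · rw [if_neg hj]
    exact h2 j hj

end Ite

section Level

variable (𝒪 : Type) [CommRing 𝒪] [IsLocalRing 𝒪] [IsNoetherianRing 𝒪]
  [IsAdicComplete (IsLocalRing.maximalIdeal 𝒪) 𝒪]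
  (Δ : Type) [CommGroup Δ] [IsLocalRing (MonoidAlgebra 𝒪 Δ)]
  [IsLocalHom (augm 𝒪 Δ).toRingHom] [IsNoetherianRing (MonoidAlgebra 𝒪 Δ)]
  [IsAdicComplete (IsLocalRing.maximalIdeal (MonoidAlgebra 𝒪 Δ)) (MonoidAlgebra 𝒪 Δ)]
  {N : ℕ} [NeZero N] (pp : ℕ) (S₀ : Finset ℕ)
  (θ α : J N pp S₀ → IsLocalRing.ResidueField 𝒪) (Q : List (J N pp S₀)) (hQ : Q.Nodup)
  (hgood : ∀ j ∈ Q, Descent.Main.Good 𝒪 (fun j : J N pp S₀ => (j.1 : ℕ)) θ α j)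
  {M : ℕ} (hM : M = N * (Q.map (fun j : J N pp S₀ => (j.1 : ℕ))).prod) (π : (ZMod M)ˣ →* Δ)
  {ϖ : 𝒪} (Ξ' : (ZMod M)ˣ →* (MonoidAlgebra 𝒪 Δ)ˣ)
  (hΞ : ∀ d, ((Ξ' d : (MonoidAlgebra 𝒪 Δ)ˣ) : MonoidAlgebra 𝒪 Δ) -
    ((xiOf 𝒪 π d : (MonoidAlgebra 𝒪 Δ)ˣ) : MonoidAlgebra 𝒪 Δ) ∈
      Ideal.span ({(MonoidAlgebra.single (1 : Δ) ϖ : MonoidAlgebra 𝒪 Δ)} :
        Set (MonoidAlgebra 𝒪 Δ)))
  (h1 : xiOf 𝒪 π (-1) = 1) (h1' : Ξ' (-1) = 1)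
  (h2 : IsUnit (2 : MonoidAlgebra 𝒪 Δ)) (h3 : IsUnit (3 : MonoidAlgebra 𝒪 Δ))
  (reg : ∀ a : MonoidAlgebra 𝒪 Δ,
    (MonoidAlgebra.single (1 : Δ) ϖ : MonoidAlgebra 𝒪 Δ) • a = 0 → a = 0)
  (θR : J N pp S₀ → IsLocalRing.ResidueField (MonoidAlgebra 𝒪 Δ))
  (hθRQ : ∀ j ∈ Q, IsLocalRing.ResidueField.map (augm 𝒪 Δ).toRingHom (θR j) = α j)
  (hθRn : ∀ j ∉ Q, IsLocalRing.ResidueField.map (augm 𝒪 Δ).toRingHom (θR j) = θ j)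
  [IsDomain 𝒪] [IsPrincipalIdealRing 𝒪]
  (hϖ : (MonoidAlgebra.single (1 : Δ) ϖ : MonoidAlgebra 𝒪 Δ) ∈
    IsLocalRing.maximalIdeal (MonoidAlgebra 𝒪 Δ))
  (j₀ : J N pp S₀)
  (hne : θR j₀ ≠ IsLocalRing.residue (MonoidAlgebra 𝒪 Δ)
    (Hν (xiOf 𝒪 π) (fLev N pp S₀ M j₀)).deg)

theorem hQN_lev (j : J N pp S₀) : ¬ (fun j : J N pp S₀ => (j.1 : ℕ)) j ∣ N :=
  (Nat.Prime.coprime_iff_not_dvd j.1.2).mp j.2.1

include hθRQ hθRn in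
/-- the hypothesis `hθR` of `Main.heckeSideOf`, for ANY decidability instance -/
theorem hθR_lev [inst : DecidableEq (J N pp S₀)] (j : J N pp S₀) :
    IsLocalRing.ResidueField.map (augm 𝒪 Δ).toRingHom (θR j) =
      ite_mem (inst := inst) Q α θ j :=
  eq_ite_mem Q α θ _ hθRQ hθRn j

/-- **the seam at the Taylor-Wiles level `M`, at the index sets of record** : operators indexed by
the primes outside `M pp S₀`, base module `Main.M0 𝒪 (fun j => j.1) _ N θ` (the one of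
`Rho/Zero/Bridge`). -/
def sideLev :
    HeckeSide 𝒪 ϖ Δ (J M pp S₀)
      (M0 𝒪 (fun j : J N pp S₀ => (j.1 : ℕ)) (fun j => j.1.2) N θ)
      (t0 𝒪 (fun j : J N pp S₀ => (j.1 : ℕ)) (fun j => j.1.2) N θ
        (gLev pp S₀ (dvd_level pp S₀ Q hM)))
      (Module.finrank 𝒪 (M0 𝒪 (fun j : J N pp S₀ => (j.1 : ℕ)) (fun j => j.1.2) N θ)) :=
  letI : DecidableEq (J N pp S₀) := Classical.decEq _
  heckeSideOf 𝒪 Δ (fun j : J N pp S₀ => (j.1 : ℕ)) (fun j => j.1.2) (pJ_injective N pp S₀) θ α Q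
    hQ (fun j _ => hQN_lev pp S₀ j) hgood hM π (fLev N pp S₀ M) (idxPrime_fLev N pp S₀ M) Ξ' hΞ
    h1 h1' h2 h3 reg θR (hθR_lev 𝒪 Δ pp S₀ θ α Q θR hθRQ hθRn) (gLev pp S₀ (dvd_level pp S₀ Q hM))
    (gLev_notMem pp S₀ (dvd_level pp S₀ Q hM) Q hM) hϖ j₀ hne

/-- the three modules of `sideLev`, by `rfl` -/
theorem sideLev_M1 :
    (sideLev 𝒪 Δ pp S₀ θ α Q hQ hgood hM π Ξ' hΞ h1 h1' h2 h3 reg θR hθRQ hθRn hϖ j₀ hne).M1 =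
      (pairXi (fLev N pp S₀ M) hΞ h1 h1' h2 h3 reg).M1 θR := rfl

theorem sideLev_Mχ :
    (sideLev 𝒪 Δ pp S₀ θ α Q hQ hgood hM π Ξ' hΞ h1 h1' h2 h3 reg θR hθRQ hθRn hϖ j₀ hne).Mχ =
      (pairXi (fLev N pp S₀ M) hΞ h1 h1' h2 h3 reg).Mχ θR := rfl

theorem sideLev_Mb :
    (sideLev 𝒪 Δ pp S₀ θ α Q hQ hgood hM π Ξ' hΞ h1 h1' h2 h3 reg θR hθRQ hθRn hϖ j₀ hne).Mb =
      (pairXi (fLev N pp S₀ M) hΞ h1 h1' h2 h3 reg).Mb θR := rfl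

section Rfl

attribute [local instance] HeckeSide.acg1 HeckeSide.acgχ HeckeSide.acgb HeckeSide.mod1
  HeckeSide.modχ HeckeSide.modb

/-- **`ϖ` kills the common reduction of `sideLev`** -/
theorem sideLev_smul_Mb
    (y : (sideLev 𝒪 Δ pp S₀ θ α Q hQ hgood hM π Ξ' hΞ h1 h1' h2 h3 reg θR hθRQ hθRn hϖ j₀
      hne).Mb) :
    (MonoidAlgebra.single (1 : Δ) ϖ : MonoidAlgebra 𝒪 Δ) • y = 0 :=
  smul_Mb_eq_zero (pr := pairXi (fLev N pp S₀ M) hΞ h1 h1' h2 h3 reg) (θ := θR) y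

end Rfl

variable [NeZero M] [CharZero 𝒪] [Fact pp.Prime] (m : ℕ) [Algebra ℤ_[pp] 𝒪] [Module.Flat ℤ 𝒪]
  (H : Subgroup (ZMod M)ˣ)
  (hM5 : 5 ≤ M) (hHp : ¬ pp ∣ Nat.card H) (hHm : ∀ d : (ZMod M)ˣ, d ^ (2 * m + 1) ∈ H)
  (hπH : ∀ d ∈ H, π d = 1) (hπ : Function.Surjective π)
  (hΞ'H : ∀ d ∈ H, Ξ' d = 1)
  (hΞ's : ∀ δ : Δ, ∃ d : (ZMod M)ˣ,
    ((Ξ' d : (MonoidAlgebra 𝒪 Δ)ˣ) : MonoidAlgebra 𝒪 Δ) = MonoidAlgebra.single δ (1 : 𝒪))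
  (𝔪 : Ideal (MvPolynomial (K M pp S₀) 𝒪)) [𝔪.IsMaximal]
  (k₀ : J M pp S₀) (hk₀ : (((k₀.1 : ℕ) : ℕ) : ZMod M) = 1)
  (hs : (MvPolynomial.X (Sum.inl k₀) - MvPolynomial.C (((1 + (k₀.1 : ℕ) : ℕ) : 𝒪)) :
    MvPolynomial (K M pp S₀) 𝒪) ∉ 𝔪)
  (h𝔪 : ∀ s : MvPolynomial (K M pp S₀) 𝒪, s ∉ 𝔪 →
    PsiXi 𝒪 (xiOf 𝒪 π) (fJ M pp S₀) (eJ M m pp S₀) (gLev pp S₀ (dvd_level pp S₀ Q hM)) s ∈
      Sθ θR)

attribute [local instance] HeckeSide.acg1 HeckeSide.acgχ HeckeSide.acgb HeckeSide.mod1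
  HeckeSide.modχ HeckeSide.modb

include hM5 hHp hHm hπH hπ hΞ'H hΞ's hk₀ hs h𝔪 in
/-- **THE `Φ`-PACKAGE AT THE INDEX SETS OF RECORD** : `BridgeSide.exists_Phi` on `sideLev`. -/
theorem exists_Phi_level :
    ∃ (Φ₁ : TQ M m pp H 𝒪 S₀ 𝔪 →+* Module.End (MonoidAlgebra 𝒪 Δ)
        (sideLev 𝒪 Δ pp S₀ θ α Q hQ hgood hM π Ξ' hΞ h1 h1' h2 h3 reg θR hθRQ hθRn hϖ j₀ hne).M1)
      (Φχ : TQ M m pp H 𝒪 S₀ 𝔪 →+* Module.End (MonoidAlgebra 𝒪 Δ)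
        (sideLev 𝒪 Δ pp S₀ θ α Q hQ hgood hM π Ξ' hΞ h1 h1' h2 h3 reg θR hθRQ hθRn hϖ j₀ hne).Mχ),
      (∀ (a : 𝒪) x, Φ₁ (algebraMap 𝒪 (TQ M m pp H 𝒪 S₀ 𝔪) a) x =
        (MonoidAlgebra.single (1 : Δ) a : MonoidAlgebra 𝒪 Δ) • x) ∧
      (∀ (a : 𝒪) z, Φχ (algebraMap 𝒪 (TQ M m pp H 𝒪 S₀ 𝔪) a) z =
        (MonoidAlgebra.single (1 : Δ) a : MonoidAlgebra 𝒪 Δ) • z) ∧
      (∀ (k : J M pp S₀) x, Φ₁ (tQ M m pp H 𝒪 S₀ 𝔪 k) x =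
        (MonoidAlgebra.single (π (twJ M m pp S₀ k)) (1 : 𝒪) : MonoidAlgebra 𝒪 Δ) •
          (sideLev 𝒪 Δ pp S₀ θ α Q hQ hgood hM π Ξ' hΞ h1 h1' h2 h3 reg θR hθRQ hθRn hϖ j₀
            hne).t1 k x) ∧
      (∀ (k : J M pp S₀) z, Φχ (tQ M m pp H 𝒪 S₀ 𝔪 k) z =
        ((Ξ' (twJ M m pp S₀ k) : (MonoidAlgebra 𝒪 Δ)ˣ) : MonoidAlgebra 𝒪 Δ) •
          (sideLev 𝒪 Δ pp S₀ θ α Q hQ hgood hM π Ξ' hΞ h1 h1' h2 h3 reg θR hθRQ hθRn hϖ j₀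
            hne).tχ k z) ∧
      (∀ (d : (ZMod M)ˣ) x, Φ₁ (dQ M m pp H 𝒪 S₀ 𝔪 d) x =
        (MonoidAlgebra.single (π d) (1 : 𝒪) : MonoidAlgebra 𝒪 Δ) • x) ∧
      (∀ (d : (ZMod M)ˣ) z, Φχ (dQ M m pp H 𝒪 S₀ 𝔪 d) z =
        ((Ξ' d : (MonoidAlgebra 𝒪 Δ)ˣ) : MonoidAlgebra 𝒪 Δ) • z) ∧
      (∀ (a : TQ M m pp H 𝒪 S₀ 𝔪) y z,
        (sideLev 𝒪 Δ pp S₀ θ α Q hQ hgood hM π Ξ' hΞ h1 h1' h2 h3 reg θR hθRQ hθRn hϖ j₀
            hne).q1 y =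
          (sideLev 𝒪 Δ pp S₀ θ α Q hQ hgood hM π Ξ' hΞ h1 h1' h2 h3 reg θR hθRQ hθRn hϖ j₀
            hne).qχ z →
        (sideLev 𝒪 Δ pp S₀ θ α Q hQ hgood hM π Ξ' hΞ h1 h1' h2 h3 reg θR hθRQ hθRn hϖ j₀
            hne).q1 (Φ₁ a y) =
          (sideLev 𝒪 Δ pp S₀ θ α Q hQ hgood hM π Ξ' hΞ h1 h1' h2 h3 reg θR hθRQ hθRn hϖ j₀
            hne).qχ (Φχ a z)) ∧
      (∀ (k : J M pp S₀) x,
        (sideLev 𝒪 Δ pp S₀ θ α Q hQ hgood hM π Ξ' hΞ h1 h1' h2 h3 reg θR hθRQ hθRn hϖ j₀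
            hne).p0 (Φ₁ (tQ M m pp H 𝒪 S₀ 𝔪 k) x) =
          (MvPolynomial.X (gLev pp S₀ (dvd_level pp S₀ Q hM) k) :
              MvPolynomial (J N pp S₀) 𝒪) •
            (sideLev 𝒪 Δ pp S₀ θ α Q hQ hgood hM π Ξ' hΞ h1 h1' h2 h3 reg θR hθRQ hθRn hϖ j₀
              hne).p0 x) ∧
      ∀ (d : (ZMod M)ˣ) x,
        (sideLev 𝒪 Δ pp S₀ θ α Q hQ hgood hM π Ξ' hΞ h1 h1' h2 h3 reg θR hθRQ hθRn hϖ j₀
            hne).p0 (Φ₁ (dQ M m pp H 𝒪 S₀ 𝔪 d) x) =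
          (sideLev 𝒪 Δ pp S₀ θ α Q hQ hgood hM π Ξ' hΞ h1 h1' h2 h3 reg θR hθRQ hθRn hϖ j₀
            hne).p0 x := by
  let _ : DecidableEq (J N pp S₀) := Classical.decEq _
  obtain ⟨Φ₁, Φχ, c1, c2, c3, c4, c5, c6, c7, c8, c9⟩ :=
    exists_Phi 𝒪 Δ (fun j : J N pp S₀ => (j.1 : ℕ)) (fun j => j.1.2) (pJ_injective N pp S₀) θ α Q
      hQ (fun j _ => hQN_lev pp S₀ j) hgood hM π (fLev N pp S₀ M) (idxPrime_fLev N pp S₀ M) Ξ' hΞ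
      h1 h1' h2 h3 reg θR (hθR_lev 𝒪 Δ pp S₀ θ α Q θR hθRQ hθRn)
      (gLev pp S₀ (dvd_level pp S₀ Q hM)) (gLev_notMem pp S₀ (dvd_level pp S₀ Q hM) Q hM) hϖ j₀
      hne m pp H S₀ hM5 hHp hHm hπH hπ hΞ'H hΞ's (gLev pp S₀ (dvd_level pp S₀ Q hM))
      (fLev_gLev pp S₀ (dvd_level pp S₀ Q hM)) 𝔪 k₀ hk₀ hs h𝔪
  exact ⟨Φ₁, Φχ, c1, c2, fun k x => c3 k k rfl x, fun k z => c4 k k rfl z, c5, c6, c7,
    fun k x => c8 k k rfl x, c9⟩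

end Level

end Fermat.Agent.S43.Hecke.BridgeLevel
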