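import Mathlib
import Fermat.Agent.S43.Hecke.BridgeExport
import Fermat.Agent.S43.Hecke.Assemble

/-!
# PROJECT R (S43), the bridge L1 ↔ L3: the hypothesis `h𝔪` in the literal of `Rho/MainD`

The Tate side describes its maximal ideal `mI` of `MvPolynomial K' 𝒪` by
`hθK : ∀ k, ∃ a : 𝒪, residue 𝒪 a = θK k ∧ X k - C a ∈ mI` (`Rho/MainD.surjective_residue_comp_TQ`).

* `sub_C_eval_mem` : `s - C (s(a)) ∈ mI` as soon as every `X k - C (a k) ∈ mI`;
* `ker_le_of_hθK` : `ker (eval₂Hom (residue 𝒪) θK) ≤ mI` (so `mI` IS that kernel);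
* **`h𝔪_of_hθK`** : the hypothesis `h𝔪` of the bridge for such an `mI`, from the values of the
  residual system on the generators;
* **`h𝔪_xiOf`** : the same for the diamond character `xiOf 𝒪 π` (`Δ` a `p`-group: the diamonds are
  `≡ 1`): `θK (inl k) = map ε (θR (g k))`, `θK (inr d) = 1`.
-/

set_option autoImplicit false

open CongruenceSubgroup Matrix.SpecialLinearGroup ModularCurve.Period
open scoped MatrixGroups BigOperators

noncomputable section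

namespace Fermat.Agent.S43.Hecke.BridgeMax

open Fermat.Agent.S30.Hecke.DoubleCoset Fermat.Agent.S30.Hecke.Gamma0Cosets
open Fermat.Agent.S43.Hecke.Defs Fermat.Agent.S43.Hecke.Seam Fermat.Agent.S43.Hecke.Shapiro
  Fermat.Agent.S43.Hecke.Inst Fermat.Agent.S43.Hecke.Inst.Comm
open Fermat.Agent.S43.Hecke.PolyModule Fermat.Agent.S43.Hecke.Loc
  Fermat.Agent.S43.Hecke.Assemble
  Fermat.Agent.S43.Hecke.BridgeLeg Fermat.Agent.S43.Hecke.BridgeInst
  Fermat.Agent.S43.Hecke.BridgeExport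

/-! ### a maximal ideal containing the `X k - C (a k)` -/

section Eval

variable {𝒪 : Type} [CommRing 𝒪] {K' : Type} (mI : Ideal (MvPolynomial K' 𝒪)) (a : K' → 𝒪)

theorem sub_C_eval_mem (ha : ∀ k, (MvPolynomial.X k - MvPolynomial.C (a k) : MvPolynomial K' 𝒪) ∈ mI)
    (s : MvPolynomial K' 𝒪) : s - MvPolynomial.C (MvPolynomial.eval a s) ∈ mI := by
  induction s using MvPolynomial.induction_on with
  | C b =>
    rw [MvPolynomial.eval_C, sub_self]
    exact mI.zero_mem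
  | add p q hp hq =>
    rw [map_add, map_add, add_sub_add_comm]
    exact mI.add_mem hp hq
  | mul_X p k hp =>
    have h : p * MvPolynomial.X k - MvPolynomial.C (MvPolynomial.eval a (p * MvPolynomial.X k)) =
        (p - MvPolynomial.C (MvPolynomial.eval a p)) * MvPolynomial.X k +
          MvPolynomial.C (MvPolynomial.eval a p) *
            (MvPolynomial.X k - MvPolynomial.C (a k)) := by
      rw [map_mul, MvPolynomial.eval_X, map_mul]
      ring
    rw [h]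
    exact mI.add_mem (mI.mul_mem_right _ hp) (mI.mul_mem_left _ (ha k))

variable [IsLocalRing 𝒪] [hmI : mI.IsMaximal]

include hmI in
/-- the scalars of the maximal ideal of `𝒪` lie in `mI` -/
theorem C_mem_of_mem_maximalIdeal
    (ha : ∀ k, (MvPolynomial.X k - MvPolynomial.C (a k) : MvPolynomial K' 𝒪) ∈ mI)
    (b : 𝒪) (hb : b ∈ IsLocalRing.maximalIdeal 𝒪) : (MvPolynomial.C b : MvPolynomial K' 𝒪) ∈ mI := by
  by_contra hC
  -- `C b` is a unit modulo `mI`: `C b * s - 1 ∈ mI`, and `s ≡ C (s(a))`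
  obtain ⟨s, hs⟩ := (Ideal.Quotient.maximal_ideal_iff_isField_quotient mI).mp hmI |>.mul_inv_cancel
    (a := Ideal.Quotient.mk mI (MvPolynomial.C b))
    (by rwa [Ne, Ideal.Quotient.eq_zero_iff_mem])
  obtain ⟨s, rfl⟩ := Ideal.Quotient.mk_surjective s
  rw [← map_mul, ← map_one (Ideal.Quotient.mk mI), Ideal.Quotient.eq] at hs
  have h1 := sub_C_eval_mem mI a ha s
  have h2 : (MvPolynomial.C (b * MvPolynomial.eval a s - 1) : MvPolynomial K' 𝒪) ∈ mI := by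
    have h3 : (MvPolynomial.C (b * MvPolynomial.eval a s - 1) : MvPolynomial K' 𝒪) =
        (MvPolynomial.C b * s - 1) -
          MvPolynomial.C b * (s - MvPolynomial.C (MvPolynomial.eval a s)) := by
      rw [map_sub, map_mul, map_one]
      ring
    rw [h3]
    exact mI.sub_mem hs (mI.mul_mem_left _ h1)
  have h4 : IsUnit (b * MvPolynomial.eval a s - 1) := by
    have h5 : b * MvPolynomial.eval a s ∈ IsLocalRing.maximalIdeal 𝒪 :=
      Ideal.mul_mem_right _ _ hb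
    have h6 := IsLocalRing.isUnit_one_sub_self_of_mem_nonunits _ h5
    have h7 : b * MvPolynomial.eval a s - 1 = -(1 - b * MvPolynomial.eval a s) := by ring
    rw [h7]
    exact h6.neg
  exact hmI.ne_top (Ideal.eq_top_of_isUnit_mem _ h2 (h4.map MvPolynomial.C))

variable (θK : K' → IsLocalRing.ResidueField 𝒪)

include hmI in
/-- **`mI` is the kernel of the evaluation at the residual system** -/
theorem ker_le_of_hθK
    (hθK : ∀ k, ∃ b : 𝒪, IsLocalRing.residue 𝒪 b = θK k ∧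
      (MvPolynomial.X k - MvPolynomial.C b : MvPolynomial K' 𝒪) ∈ mI) :
    RingHom.ker (MvPolynomial.eval₂Hom (IsLocalRing.residue 𝒪) θK) ≤ mI := by
  choose a ha1 ha2 using hθK
  intro s hs
  rw [RingHom.mem_ker] at hs
  have h1 : MvPolynomial.eval₂Hom (IsLocalRing.residue 𝒪) θK s =
      IsLocalRing.residue 𝒪 (MvPolynomial.eval a s) := by
    have h2 : (MvPolynomial.eval₂Hom (IsLocalRing.residue 𝒪) θK) =
        (IsLocalRing.residue 𝒪).comp (MvPolynomial.eval a) := by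
      refine MvPolynomial.ringHom_ext (fun b => ?_) (fun k => ?_)
      · simp
      · simp [ha1 k]
    rw [h2]
    rfl
  rw [h1, IsLocalRing.residue_eq_zero_iff] at hs
  have h3 := sub_C_eval_mem mI a ha2 s
  have h4 := C_mem_of_mem_maximalIdeal mI a ha2 _ hs
  have h5 : s = (s - MvPolynomial.C (MvPolynomial.eval a s)) +
      MvPolynomial.C (MvPolynomial.eval a s) := by ring
  rw [h5]
  exact mI.add_mem h3 h4

include hmI in
/-- **the non-Eisenstein cut** in the literal of `Rho/MainD` : `X k - C c ∉ mI` as soon as the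
residual value at `k` is not the residue of `c` -/
theorem sub_C_notMem_of_hθK
    (hθK : ∀ k, ∃ b : 𝒪, IsLocalRing.residue 𝒪 b = θK k ∧
      (MvPolynomial.X k - MvPolynomial.C b : MvPolynomial K' 𝒪) ∈ mI)
    (k : K') (c : 𝒪) (hne : θK k ≠ IsLocalRing.residue 𝒪 c) :
    (MvPolynomial.X k - MvPolynomial.C c : MvPolynomial K' 𝒪) ∉ mI := by
  intro h
  obtain ⟨b, hb1, hb2⟩ := hθK k
  have h1 : (MvPolynomial.C (c - b) : MvPolynomial K' 𝒪) ∈ mI := by
    have h2 : (MvPolynomial.C (c - b) : MvPolynomial K' 𝒪) =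
        (MvPolynomial.X k - MvPolynomial.C b) - (MvPolynomial.X k - MvPolynomial.C c) := by
      rw [map_sub]
      ring
    rw [h2]
    exact mI.sub_mem hb2 h
  have h3 : c - b ∈ IsLocalRing.maximalIdeal 𝒪 := by
    rw [IsLocalRing.mem_maximalIdeal, mem_nonunits_iff]
    intro hu
    exact hmI.ne_top (Ideal.eq_top_of_isUnit_mem _ h1 (hu.map MvPolynomial.C))
  apply hne
  rw [← hb1, ← sub_eq_zero, ← map_sub, IsLocalRing.residue_eq_zero_iff]
  have h4 : b - c = -(c - b) := by ring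
  rw [h4]
  exact neg_mem h3

end Eval

/-! ### the hypothesis `h𝔪` of the bridge -/

section Hm

variable {M : ℕ} (𝒪 : Type) [CommRing 𝒪] [IsLocalRing 𝒪] {Δ : Type} [CommGroup Δ]
  [IsLocalRing (MonoidAlgebra 𝒪 Δ)]
  (Ξ : (ZMod M)ˣ →* (MonoidAlgebra 𝒪 Δ)ˣ)
  {K : Type} (f : K → HIdx M) (e : K → (ZMod M)ˣ) {Jb : Type} (g : K → Jb)
  (θR : Jb → IsLocalRing.ResidueField (MonoidAlgebra 𝒪 Δ))
  (mI : Ideal (MvPolynomial (K ⊕ (ZMod M)ˣ) 𝒪)) [mI.IsMaximal]
  (θK : K ⊕ (ZMod M)ˣ → IsLocalRing.ResidueField 𝒪)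
  (hθK : ∀ k, ∃ b : 𝒪, IsLocalRing.residue 𝒪 b = θK k ∧
    (MvPolynomial.X k - MvPolynomial.C b : MvPolynomial (K ⊕ (ZMod M)ˣ) 𝒪) ∈ mI)

include hθK in
/-- **`h𝔪` in the literal of `Rho/MainD`** : `c` any ring map between the residue fields compatible
with `𝒪` (e.g. `ResidueField.map ε`), the residual system `θK` matching `θR` on the generators. -/
theorem h𝔪_of_hθK
    (c : IsLocalRing.ResidueField (MonoidAlgebra 𝒪 Δ) →+* IsLocalRing.ResidueField 𝒪)
    (hc : ∀ x : 𝒪, c (IsLocalRing.residue (MonoidAlgebra 𝒪 Δ)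
      (algebraMap 𝒪 (MonoidAlgebra 𝒪 Δ) x)) = IsLocalRing.residue 𝒪 x)
    (hl : ∀ k, c (IsLocalRing.residue (MonoidAlgebra 𝒪 Δ)
        ((Ξ (e k * diaIdx (f k)) : (MonoidAlgebra 𝒪 Δ)ˣ) : MonoidAlgebra 𝒪 Δ) * θR (g k)) =
      θK (Sum.inl k))
    (hr : ∀ d, c (IsLocalRing.residue (MonoidAlgebra 𝒪 Δ)
        ((Ξ d : (MonoidAlgebra 𝒪 Δ)ˣ) : MonoidAlgebra 𝒪 Δ)) = θK (Sum.inr d))
    (s : MvPolynomial (K ⊕ (ZMod M)ˣ) 𝒪) (hs : s ∉ mI) :
    PsiXi 𝒪 Ξ f e g s ∈ Sθ θR := by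
  refine h𝔪_of_ev 𝒪 Ξ f e g θR (MvPolynomial.eval₂Hom (IsLocalRing.residue 𝒪) θK) c ?_ s
    (fun h => hs (ker_le_of_hθK mI θK hθK h))
  intro t
  have h2 : c.comp (evOf 𝒪 Ξ f e g θR) =
      MvPolynomial.eval₂Hom (IsLocalRing.residue 𝒪) θK := by
    refine MvPolynomial.ringHom_ext (fun b => ?_) (fun κ => ?_)
    · rw [RingHom.comp_apply, evOf_C, hc]
      simp
    · rcases κ with k | d
      · rw [RingHom.comp_apply, evOf_inl, hl]
        simp
      · rw [RingHom.comp_apply, evOf_inr, hr]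
        simp
  rw [← h2]
  rfl

end Hm

/-! ### the diamond character -/

section XiOf

variable {M : ℕ} (𝒪 : Type) [CommRing 𝒪] [IsLocalRing 𝒪] {Δ : Type} [CommGroup Δ]
  [IsLocalRing (MonoidAlgebra 𝒪 Δ)] [IsLocalHom (augm 𝒪 Δ).toRingHom]
  (π : (ZMod M)ˣ →* Δ)
  {K : Type} (f : K → HIdx M) (e : K → (ZMod M)ˣ) {Jb : Type} (g : K → Jb)
  (θR : Jb → IsLocalRing.ResidueField (MonoidAlgebra 𝒪 Δ))
  (mI : Ideal (MvPolynomial (K ⊕ (ZMod M)ˣ) 𝒪)) [mI.IsMaximal]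
  (θK : K ⊕ (ZMod M)ˣ → IsLocalRing.ResidueField 𝒪)
  (hθK : ∀ k, ∃ b : 𝒪, IsLocalRing.residue 𝒪 b = θK k ∧
    (MvPolynomial.X k - MvPolynomial.C b : MvPolynomial (K ⊕ (ZMod M)ˣ) 𝒪) ∈ mI)

omit [IsLocalRing 𝒪] [IsLocalRing (MonoidAlgebra 𝒪 Δ)] [IsLocalHom (augm 𝒪 Δ).toRingHom] in
theorem augm_xiOf (d : (ZMod M)ˣ) :
    augm 𝒪 Δ ((xiOf 𝒪 π d : (MonoidAlgebra 𝒪 Δ)ˣ) : MonoidAlgebra 𝒪 Δ) = 1 :=
  augm_single (π d) (1 : 𝒪)

/-- the diamonds are `≡ 1` modulo the maximal ideal of `𝒪[Δ]` -/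
theorem map_residue_xiOf (d : (ZMod M)ˣ) :
    IsLocalRing.ResidueField.map (augm 𝒪 Δ).toRingHom
      (IsLocalRing.residue (MonoidAlgebra 𝒪 Δ)
        ((xiOf 𝒪 π d : (MonoidAlgebra 𝒪 Δ)ˣ) : MonoidAlgebra 𝒪 Δ)) = 1 := by
  rw [IsLocalRing.ResidueField.map_residue]
  show IsLocalRing.residue 𝒪 (augm 𝒪 Δ _) = 1
  rw [augm_xiOf, map_one]

include hθK in
/-- **`h𝔪` for the diamond character** : `θK (inl k) = map ε (θR (g k))`, `θK (inr d) = 1`. -/
theorem h𝔪_xiOf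
    (hl : ∀ k, θK (Sum.inl k) =
      IsLocalRing.ResidueField.map (augm 𝒪 Δ).toRingHom (θR (g k)))
    (hr : ∀ d, θK (Sum.inr d) = 1)
    (s : MvPolynomial (K ⊕ (ZMod M)ˣ) 𝒪) (hs : s ∉ mI) :
    PsiXi 𝒪 (xiOf 𝒪 π) f e g s ∈ Sθ θR := by
  refine h𝔪_of_hθK 𝒪 (xiOf 𝒪 π) f e g θR mI θK hθK
    (IsLocalRing.ResidueField.map (augm 𝒪 Δ).toRingHom) (fun x => ?_) (fun k => ?_) (fun d => ?_)
    s hs
  · rw [IsLocalRing.ResidueField.map_residue]
    show IsLocalRing.residue 𝒪 (augm 𝒪 Δ (algebraMap 𝒪 (MonoidAlgebra 𝒪 Δ) x)) = _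
    rw [AlgHom.commutes]
    rfl
  · rw [map_mul, map_residue_xiOf, one_mul, hl]
  · rw [map_residue_xiOf, hr]

end XiOf

end Fermat.Agent.S43.Hecke.BridgeMax
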